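import Fermat.Agent.S24.FibreLemma

/-!
# ES (C1): the fibre lemma with exact multiplicities
-/

set_option autoImplicit false

open AlgebraicCurve IntermediateField
open Fermat.Agent.S24Lib

namespace Fermat.Agent.ESLib

/-- (C1) strengthening of `S24Lib.fibre_lemma`: the multiplicities are exact. -/
theorem fibre_lemma_plus {K F : Type*} [Field K] [Field F] [Algebra K F] [IsAlgClosed K]
    [CharZero K] (h : IsFF K F) {y : F} (hy : Transcendental K y)
    {X : Type*} [Finite X] (hX : Nat.card X = Module.finrank K⟮y⟯ F)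
    (σ : X → F →+* LaurentSeries ℂ) (hσinj : Function.Injective σ)
    (hσK : ∀ γ γ' (a : K), σ γ (algebraMap K F a) = σ γ' (algebraMap K F a))
    (hσy : ∀ γ γ', σ γ y = σ γ' y)
    (hwK : ∀ γ (a : K), a ≠ 0 → (σ γ (algebraMap K F a)).order = 0)
    (s : ℕ) (hs : 0 < s) (hwy : ∀ γ, (σ γ y).order = s)
    (r : Setoid X) (hr : ∀ γ γ', r γ γ' → ∀ f, (σ γ f).order = (σ γ' f).order)
    (m : X → ℕ) (hm : ∀ γ f, f ≠ 0 → (m γ : ℤ) ∣ (σ γ f).order)
    (hms : ∀ γ, s ≤ m γ * Nat.card {γ' // r γ γ'}) :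
    (∀ v ∈ zerosOf K y, ∃ γ, ∀ f, f ≠ 0 → (σ γ f).order = m γ * v.ord f) ∧
      (∀ γ, ∃ v ∈ zerosOf K y, ∀ f, f ≠ 0 → (σ γ f).order = m γ * v.ord f) := by
  classical
  have := Fintype.ofFinite X
  have hy0 : y ≠ 0 := fun h0 => hy (h0 ▸ isAlgebraic_zero)
  have hsZ : (0 : ℤ) < s := by exact_mod_cast hs
  have hne : ∀ γ f, f ≠ 0 → σ γ f ≠ 0 := fun γ f hf => (map_ne_zero_iff _ (σ γ).injective).2 hf
  -- Step A: the places
  have hA : ∀ γ, ∃ (v : Place K F) (m' : ℕ), 0 < m' ∧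
      ∀ f, f ≠ 0 → (σ γ f).order = m' * v.ord f := by
    intro γ
    apply exists_place_of_order (fun f => (σ γ f).order)
    · intro f g hf hg
      simp only [map_mul]
      exact HahnSeries.order_mul (hne γ f hf) (hne γ g hg)
    · intro f g _ _ hfg
      simp only [map_add]
      apply HahnSeries.min_order_le_order_add
      rw [← map_add]
      exact hne γ _ hfg
    · exact hwK γ
    · exact ⟨y, hy0, by simp only [hwy γ]; omega⟩
  choose v m' hm'pos hv using hA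
  have hm'Z : ∀ γ, (0 : ℤ) < m' γ := fun γ => by exact_mod_cast hm'pos γ
  -- Step B
  have hsy : ∀ γ, (s : ℤ) = m' γ * (v γ).ord y := fun γ => by rw [← hv γ y hy0, hwy γ]
  have hvz : ∀ γ, v γ ∈ zerosOf K y := by
    intro γ
    rw [mem_zerosOf]
    have h1 := hsy γ
    have h2 := hm'Z γ
    by_contra hcon
    have h3 : (m' γ : ℤ) * (v γ).ord y ≤ 0 :=
      mul_nonpos_of_nonneg_of_nonpos h2.le (not_lt.1 hcon)
    omega
  -- Step C
  have hC : ∀ γ γ', r γ γ' → v γ = v γ' := by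
    intro γ γ' hγ
    apply place_ext_of_ord
    intro f hf
    rcases eq_or_ne f 0 with rfl | hf0
    · simp
    have h1 := hr γ γ' hγ f
    rw [hv γ f hf0, hv γ' f hf0] at h1
    have h2 : (0 : ℤ) ≤ m' γ * (v γ).ord f := mul_nonneg (hm'Z γ).le hf
    rw [h1] at h2
    exact nonneg_of_mul_nonneg_right h2 (hm'Z γ')
  -- Step D
  have hD : ∀ v₀ ∈ zerosOf K y, ∃ γ, v γ = v₀ := fun v₀ hv₀ =>
    AL.exists_eq_place h hy (by rw [← hX, Nat.card_eq_fintype_card]) σ hσinj hσK hσy s hs hwy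
      v m' hv v₀ hv₀
  -- Step E
  have hmm : ∀ γ, (m γ : ℤ) ≤ m' γ := by
    intro γ
    obtain ⟨t, ht⟩ := exists_ord_eq_one (v γ)
    have ht0 : t ≠ 0 := by
      rintro rfl
      simp at ht
    have h1 := hm γ t ht0
    rw [hv γ t ht0, ht, mul_one] at h1
    exact Int.le_of_dvd (hm'Z γ) h1
  have hE : ∀ γ, (v γ).ord y ≤ (Nat.card {γ' // r γ γ'} : ℤ) := by
    intro γ
    have h2 := hmm γ
    have h3 : (s : ℤ) ≤ (m γ : ℤ) * (Nat.card {γ' // r γ γ'} : ℤ) := by exact_mod_cast hms γ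
    have h4 : (m γ : ℤ) * (Nat.card {γ' // r γ γ'} : ℤ) ≤
        (m' γ : ℤ) * (Nat.card {γ' // r γ γ'} : ℤ) :=
      mul_le_mul_of_nonneg_right h2 (Int.natCast_nonneg _)
    have h5 : (m' γ : ℤ) * (v γ).ord y ≤ (m' γ : ℤ) * (Nat.card {γ' // r γ γ'} : ℤ) := by
      rw [← hsy γ]; exact h3.trans h4
    exact le_of_mul_le_mul_left h5 (hm'Z γ)
  -- Step F
  have hfin := finite_zerosOf h hy
  have := hfin.fintype
  let Φ : Quotient r → zerosOf K y :=
    Quotient.lift (fun γ => (⟨v γ, hvz γ⟩ : zerosOf K y)) (fun γ γ' hγ => Subtype.ext (hC γ γ' hγ))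
  have hΦsurj : Function.Surjective Φ := by
    rintro ⟨v₀, hv₀⟩
    obtain ⟨γ, hγ⟩ := hD v₀ hv₀
    exact ⟨Quotient.mk r γ, Subtype.ext hγ⟩
  have hsum1 : ∑ z : zerosOf K y, (z : Place K F).ord y = (Module.finrank K⟮y⟯ F : ℤ) := by
    rw [← sum_ord_zerosOf h hy, ← finsum_set_coe_eq_finsum_mem, finsum_eq_sum_of_fintype]
  have hsum2 : (Nat.card X : ℤ) =
      ∑ q : Quotient r, (Nat.card {γ // Quotient.mk r γ = q} : ℤ) := by
    rw [← Nat.card_congr (Equiv.sigmaFiberEquiv (Quotient.mk r)), Nat.card_sigma]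
    push_cast
    rfl
  have hcardeq : ∀ γ, (Nat.card {γ' // r γ γ'} : ℤ) =
      (Nat.card {γ' // Quotient.mk r γ' = Quotient.mk r γ} : ℤ) := by
    intro γ
    congr 1
    apply Nat.card_congr
    apply Equiv.subtypeEquivRight
    intro γ'
    rw [Quotient.eq]
    exact ⟨fun h => r.symm h, fun h => r.symm h⟩
  have hle : ∀ q : Quotient r, ((Φ q : zerosOf K y) : Place K F).ord y ≤
      (Nat.card {γ // Quotient.mk r γ = q} : ℤ) := by
    intro q
    induction q using Quotient.inductionOn with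
    | _ γ => exact (hE γ).trans (le_of_eq (hcardeq γ))
  have hinj : Function.Injective Φ := by
    apply AL.injective_of_sum_le Φ hΦsurj (fun z => (z : Place K F).ord y) (fun z => z.2)
    rw [hsum1, ← hX, hsum2]
    exact Finset.sum_le_sum (fun q _ => hle q)
  have hsum3 : ∑ q : Quotient r, ((Φ q : zerosOf K y) : Place K F).ord y =
      ∑ q : Quotient r, (Nat.card {γ // Quotient.mk r γ = q} : ℤ) := by
    rw [← hsum2, hX, ← hsum1]
    exact Fintype.sum_bijective Φ ⟨hinj, hΦsurj⟩ _ _ (fun _ => rfl)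
  have heq : ∀ q : Quotient r, ((Φ q : zerosOf K y) : Place K F).ord y =
      (Nat.card {γ // Quotient.mk r γ = q} : ℤ) := by
    intro q
    exact (Finset.sum_eq_sum_iff_of_le (fun q _ => hle q)).1 hsum3 q (Finset.mem_univ q)
  have hmeq : ∀ γ, m γ = m' γ := by
    intro γ
    have h1 : (v γ).ord y = (Nat.card {γ' // r γ γ'} : ℤ) := by
      rw [hcardeq γ]; exact heq (Quotient.mk r γ)
    have h2 := hmm γ
    have h3 : (s : ℤ) ≤ (m γ : ℤ) * (Nat.card {γ' // r γ γ'} : ℤ) := by exact_mod_cast hms γ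
    have h4 := hsy γ
    have h5 : (0 : ℤ) < (v γ).ord y := hvz γ
    rw [← h1, h4] at h3
    have h6 : (m' γ : ℤ) ≤ m γ := le_of_mul_le_mul_right h3 h5
    have : (m γ : ℤ) = m' γ := le_antisymm h2 h6
    exact_mod_cast this
  refine ⟨?_, ?_⟩
  · intro v₀ hv₀
    obtain ⟨γ, rfl⟩ := hD v₀ hv₀
    exact ⟨γ, fun f hf => by rw [hmeq γ]; exact hv γ f hf⟩
  · intro γ
    exact ⟨v γ, hvz γ, fun f hf => by rw [hmeq γ]; exact hv γ f hf⟩

end Fermat.Agent.ESLib
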