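import Fermat.Agent.ES.Defs
import Fermat.Agent.S24.Taylor
import Fermat.Prelude.Thm_UpperHalfPlane_qExpansion_prod

/-!
# ES (D1): local computations with orders of vanishing and multipliers
-/

set_option autoImplicit false

open UpperHalfPlane ModularForm Matrix.SpecialLinearGroup CongruenceSubgroup ModularCurve
open scoped MatrixGroups Manifold Topology
open Fermat.Agent.S20Lib Fermat.Agent.S28Lib Fermat.Agent.S24Lib

namespace Fermat.Agent.ESLib

noncomputable section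

theorem d1_slash_eventuallyEq (k : ℤ) (f : ℍ → ℂ) (ε : SL(2, ℤ)) (τ₀ : ℍ) :
    ((f ∣[k] ε) ∘ ofComplex) =ᶠ[𝓝 (τ₀ : ℂ)]
      fun z => (f ∘ ofComplex) (taylorMob ε z) * ((ε 1 0 : ℤ) * z + (ε 1 1 : ℤ) : ℂ) ^ (-k) := by
  filter_upwards [isOpen_upperHalfPlaneSet.mem_nhds τ₀.2] with z hz
  simp only [Function.comp_apply]
  rw [ofComplex_apply_of_im_pos hz, ModularForm.SL_slash_apply]
  have : taylorMob ε z = ((ε • (⟨z, hz⟩ : ℍ) : ℍ) : ℂ) := (taylor_coe_smul ε ⟨z, hz⟩).symm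
  rw [this, ofComplex_apply, taylor_denom_eq]

theorem d1_order_ne_top {g : ℍ → ℂ} (hg : MDiff g) (hg0 : g ≠ 0) (τ : ℍ) :
    (taylorH g τ).order ≠ ⊤ := by
  rw [Ne, PowerSeries.order_eq_top, taylorH_eq_zero_iff hg]
  exact hg0

/-- weight `k`, multiplier `c` version of `S24Lib.pow_order_taylorH_eq_one`. -/
theorem denom_pow_ordH {k : ℤ} {g : ℍ → ℂ} (hg : MDiff g) (hg0 : g ≠ 0) (ε : SL(2, ℤ)) (τ : ℍ)
    (hε : ε • τ = τ) (c : ℂ) (hinv : g ∣[k] ε = c • g) :
    c * (denom ε τ ^ 2) ^ (ordH g τ) * denom ε τ ^ k = 1 := by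
  have hF := analyticAt_comp_ofComplex hg τ
  set m := (taylorH g τ).order.toNat with hm
  have hne : (taylorH g τ).order ≠ ⊤ := d1_order_ne_top hg hg0 τ
  have hord : analyticOrderAt (g ∘ ofComplex) (τ : ℂ) = m := by
    rw [← order_taylorPS hF, hm]
    exact (ENat.natCast_toNat hne).symm
  obtain ⟨H, hHa, hH0, hHeq⟩ := (hF.analyticOrderAt_eq_natCast).mp hord
  have hfix : taylorMob ε τ = τ := by rw [← taylor_coe_smul, hε]
  have hmobc : ContinuousAt (taylorMob ε) τ := (taylor_analyticAt_mob ε τ).continuousAt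
  have h1 := d1_slash_eventuallyEq k g ε τ
  rw [hinv] at h1
  have h2 : ∀ᶠ z in 𝓝 (τ : ℂ), (g ∘ ofComplex) (taylorMob ε z) =
      (taylorMob ε z - τ) ^ m • H (taylorMob ε z) := by
    have : Filter.Tendsto (taylorMob ε) (𝓝 (τ : ℂ)) (𝓝 (τ : ℂ)) := by
      have := hmobc.tendsto
      rwa [hfix] at this
    exact this.eventually hHeq
  have h3 : ∀ᶠ z in 𝓝 (τ : ℂ), ((ε 1 0 : ℤ) * z + (ε 1 1 : ℤ) : ℂ) ≠ 0 := by
    have hc : ContinuousAt (fun z : ℂ => ((ε 1 0 : ℤ) * z + (ε 1 1 : ℤ) : ℂ)) τ := by fun_prop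
    exact hc.eventually_ne (taylor_denom_ne ε τ)
  set K : ℂ → ℂ := fun z => (((ε 1 0 : ℤ) * z + (ε 1 1 : ℤ)) * denom ε τ)⁻¹ with hK
  set J : ℂ → ℂ := fun z => ((ε 1 0 : ℤ) * z + (ε 1 1 : ℤ) : ℂ) ^ (-k) with hJ
  have h4 : ∀ᶠ z in 𝓝[≠] (τ : ℂ), K z ^ m * H (taylorMob ε z) * J z = c * H z := by
    have := (h1.and (h2.and (h3.and hHeq)))
    filter_upwards [this.filter_mono nhdsWithin_le_nhds, self_mem_nhdsWithin] with z hz hzne
    obtain ⟨e1, e2, e3, e4⟩ := hz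
    have e5 := taylor_mob_sub ε τ e3
    rw [hfix] at e5
    simp only [Function.comp_apply, Pi.smul_apply] at e1 e2 e4
    rw [e4, e2, e5, smul_eq_mul, smul_eq_mul, smul_eq_mul, mul_pow] at e1
    have hz0 : (z - (τ : ℂ)) ^ m ≠ 0 := pow_ne_zero _ (sub_ne_zero.mpr hzne)
    apply mul_left_cancel₀ hz0
    simp only [hK, hJ]
    linear_combination -e1
  have hKc : ContinuousAt K τ := by
    apply ContinuousAt.inv₀ (by fun_prop)
    exact mul_ne_zero (taylor_denom_ne ε τ) (denom_ne_zero _ _)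
  have hJc : ContinuousAt J τ := by
    apply ContinuousAt.zpow₀ (by fun_prop)
    exact Or.inl (taylor_denom_ne ε τ)
  have hL : Filter.Tendsto (fun z => K z ^ m * H (taylorMob ε z) * J z) (𝓝[≠] (τ : ℂ))
      (𝓝 (K τ ^ m * H τ * J τ)) := by
    have hc : ContinuousAt (fun z => K z ^ m * H (taylorMob ε z) * J z) τ := by
      apply ((hKc.pow m).mul _).mul hJc
      have : ContinuousAt H (taylorMob ε τ) := by rw [hfix]; exact hHa.continuousAt
      exact ContinuousAt.comp this hmobc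
    have := hc.tendsto
    simp only [hfix] at this
    exact this.mono_left nhdsWithin_le_nhds
  have hR : Filter.Tendsto (fun z => c * H z) (𝓝[≠] (τ : ℂ)) (𝓝 (c * H τ)) :=
    (hHa.continuousAt.tendsto.const_mul c).mono_left nhdsWithin_le_nhds
  have heq : K τ ^ m * H τ * J τ = c * H τ := tendsto_nhds_unique (hL.congr' h4) hR
  have hK1 : K τ ^ m * J τ = c := by
    apply mul_right_cancel₀ hH0
    linear_combination heq
  have hd0 : denom ε τ ≠ 0 := denom_ne_zero _ _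
  have hKval : K τ = (denom ε τ ^ 2)⁻¹ := by
    simp only [hK]
    rw [← taylor_denom_eq, sq]
  have hJval : J τ = (denom ε τ ^ k)⁻¹ := by
    simp only [hJ]
    rw [← taylor_denom_eq, zpow_neg]
  rw [← hK1, hKval, hJval, ordH, ← hm, zpow_natCast, inv_pow]
  have h5 : (denom ε τ ^ 2) ^ m ≠ 0 := pow_ne_zero _ (pow_ne_zero _ hd0)
  have h6 : denom ε τ ^ k ≠ 0 := zpow_ne_zero _ hd0
  field_simp

theorem ordH_mul {g h : ℍ → ℂ} (hg : MDiff g) (hg0 : g ≠ 0) (hh : MDiff h) (hh0 : h ≠ 0) (τ : ℍ) :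
    ordH (g * h) τ = ordH g τ + ordH h τ := by
  unfold ordH
  rw [taylorH_mul hg hh, PowerSeries.order_mul,
    ENat.toNat_add (d1_order_ne_top hg hg0 τ) (d1_order_ne_top hh hh0 τ)]
  push_cast
  rfl

theorem d1_pow_ne_zero {g : ℍ → ℂ} (hg : MDiff g) (hg0 : g ≠ 0) (n : ℕ) : g ^ n ≠ 0 := by
  intro h
  have τ : ℍ := UpperHalfPlane.I
  induction n with
  | zero =>
    rw [pow_zero] at h
    have := congrFun h τ
    simp at this
  | succ n ih =>
    apply ih
    have h1 : taylorH (g ^ n * g) τ = 0 := by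
      rw [← pow_succ, h]
      exact (taylorH_eq_zero_iff (f := 0) mdifferentiable_const τ).2 rfl
    rw [taylorH_mul (hg.pow n) hg] at h1
    rcases mul_eq_zero.1 h1 with h2 | h2
    · exact (taylorH_eq_zero_iff (hg.pow n) τ).1 h2
    · exact absurd ((taylorH_eq_zero_iff hg τ).1 h2) hg0

theorem ordH_pow {g : ℍ → ℂ} (hg : MDiff g) (hg0 : g ≠ 0) (n : ℕ) (τ : ℍ) :
    ordH (g ^ n) τ = n * ordH g τ := by
  induction n with
  | zero =>
    have : (g ^ 0 : ℍ → ℂ) = Function.const ℍ 1 := by rw [pow_zero]; rfl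
    rw [this, ordH, taylorH_const]
    simp
  | succ n ih =>
    rw [pow_succ, ordH_mul (hg.pow n) (d1_pow_ne_zero hg hg0 n) hg hg0, ih]
    push_cast
    ring

theorem ordI_pow {w : ℕ} (hw : 0 < w) {g : ℍ → ℂ} (hg : MDiff g)
    (hper : Function.Periodic (g ∘ ofComplex) w) (hb : IsBoundedAtImInfty g) (hg0 : g ≠ 0) (n : ℕ) :
    ordI w (g ^ n) = n * ordI w g := by
  have hw' : (0 : ℝ) < (w : ℝ) := by exact_mod_cast hw
  have han : AnalyticAt ℂ (cuspFunction (w : ℝ) g) 0 :=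
    analyticAt_cuspFunction_zero hw' hper hg hb
  have hq0 : qExpansion (w : ℝ) g ≠ 0 := by
    rw [Ne, qExpansion_eq_zero_iff hw' hper hg hb]
    exact hg0
  have hpow : qExpansion (w : ℝ) (g ^ n) = qExpansion (w : ℝ) g ^ n := by
    have := UpperHalfPlane.qExpansion_prod (h := (w : ℝ)) (Finset.range n) (F := fun _ => g)
      (fun _ _ => han)
    simpa using this
  unfold ordI
  rw [hpow, PowerSeries.order_pow]
  have hne : (qExpansion (w : ℝ) g).order ≠ ⊤ := by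
    rw [Ne, PowerSeries.order_eq_top]; exact hq0
  obtain ⟨a, ha⟩ := ENat.ne_top_iff_exists.1 hne
  rw [← ha]
  simp

theorem d1_pow_slash (k : ℤ) (g : ℍ → ℂ) (γ : SL(2, ℤ)) (n : ℕ) :
    (g ^ n) ∣[(n : ℤ) * k] γ = (g ∣[k] γ) ^ n := by
  induction n with
  | zero =>
    simp only [pow_zero, Nat.cast_zero, zero_mul]
    exact is_invariant_one γ
  | succ n ih =>
    have : ((n + 1 : ℕ) : ℤ) * k = (n : ℤ) * k + k := by push_cast; ring
    rw [this, pow_succ, mul_slash_SL2, ih, pow_succ]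

theorem d1_bdd_pow {g : ℍ → ℂ} (hb : IsBoundedAtImInfty g) (n : ℕ) :
    IsBoundedAtImInfty (g ^ n) := by
  induction n with
  | zero => rw [pow_zero]; exact Filter.const_boundedAtFilter _ (1 : ℂ)
  | succ n ih => rw [pow_succ]; exact ih.mul hb

theorem IsMFChar.pow {N : ℕ} {k : ℤ} {χ : Gamma0 N →* ℂˣ} {g : ℍ → ℂ} (hg : IsMFChar N k χ g)
    {n : ℕ} (hn : ∀ γ, χ γ ^ n = 1) : IsMF (Gamma0 N) (n * k) (g ^ n) where
  holo := hg.holo.pow n
  inv γ hγ := by
    rw [d1_pow_slash, hg.slash ⟨γ, hγ⟩, smul_pow]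
    have : (((χ ⟨γ, hγ⟩ : ℂˣ) : ℂ)) ^ n = 1 := by
      have := congrArg (fun u : ℂˣ => (u : ℂ)) (hn ⟨γ, hγ⟩)
      simpa using this
    rw [this, one_smul]
  bdd γ := by
    rw [d1_pow_slash]
    exact d1_bdd_pow (hg.bdd γ) n

theorem IsMFChar.mul {N : ℕ} {k l : ℤ} {χ ψ : Gamma0 N →* ℂˣ} {g h : ℍ → ℂ}
    (hg : IsMFChar N k χ g) (hh : IsMFChar N l ψ h) : IsMFChar N (k + l) (χ * ψ) (g * h) where
  holo := hg.holo.mul hh.holo
  slash γ := by
    rw [mul_slash_SL2, hg.slash γ, hh.slash γ]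
    ext z
    simp only [Pi.mul_apply, Pi.smul_apply, smul_eq_mul, MonoidHom.mul_apply, Units.val_mul]
    ring
  bdd γ := by
    rw [mul_slash_SL2]
    exact (hg.bdd γ).mul (hh.bdd γ)

theorem isMFChar_one_iff {N : ℕ} {k : ℤ} {g : ℍ → ℂ} :
    IsMFChar N k 1 g ↔ IsMF (Gamma0 N) k g := by
  constructor
  · intro h
    exact ⟨h.holo, fun γ hγ => by simpa using h.slash ⟨γ, hγ⟩, h.bdd⟩
  · intro h
    exact ⟨h.holo, fun γ => by simpa using h.inv γ γ.2, h.bdd⟩

/-- `X^n = Y^n` for holomorphic functions on `ℍ`. -/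
theorem eq_smul_of_pow_eq {n : ℕ} (hn : 0 < n) {g h : ℍ → ℂ} (hg : MDiff g) (hh : MDiff h)
    (e : g ^ n = h ^ n) : ∃ c : ℂ, c ^ n = 1 ∧ g = c • h := by
  have : NeZero n := ⟨hn.ne'⟩
  let τ : ℍ := UpperHalfPlane.I
  have hpowT : ∀ (f : ℍ → ℂ), MDiff f → ∀ m : ℕ, taylorH (f ^ m) τ = taylorH f τ ^ m := by
    intro f hf m
    induction m with
    | zero =>
      have : (f ^ 0 : ℍ → ℂ) = Function.const ℍ 1 := by rw [pow_zero]; rfl
      rw [this, taylorH_const, pow_zero, map_one]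
    | succ m ih => rw [pow_succ, taylorH_mul (hf.pow m) hf, ih, pow_succ]
  have e1 : taylorH g τ ^ n = taylorH h τ ^ n := by rw [← hpowT g hg, ← hpowT h hh, e]
  have hζ : IsPrimitiveRoot (Complex.exp (2 * Real.pi * Complex.I / n)) n :=
    Complex.isPrimitiveRoot_exp n hn.ne'
  have hζ' : IsPrimitiveRoot (PowerSeries.C (R := ℂ) (Complex.exp (2 * Real.pi * Complex.I / n))) n :=
    hζ.map_of_injective (f := PowerSeries.C (R := ℂ)) PowerSeries.C_injective
  have e2 := hζ'.pow_sub_pow_eq_prod_sub_mul (taylorH g τ) (taylorH h τ) hn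
  rw [e1, sub_self] at e2
  obtain ⟨ξ, hξ, e3⟩ := Finset.prod_eq_zero_iff.1 e2.symm
  rw [Polynomial.mem_nthRootsFinset hn] at hξ
  obtain ⟨i, -, rfl⟩ := hζ'.eq_pow_of_pow_eq_one hξ
  refine ⟨Complex.exp (2 * Real.pi * Complex.I / n) ^ i, ?_, ?_⟩
  · rw [← pow_mul, mul_comm i n, pow_mul, hζ.pow_eq_one, one_pow]
  · generalize hc : Complex.exp (2 * Real.pi * Complex.I / n) ^ i = c at *
    have hcd : MDiff (Function.const ℍ (-c)) := mdifferentiable_const
    have h1 : taylorH (g + Function.const ℍ (-c) * h) τ = 0 := by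
      rw [taylorH_add hg (hcd.mul hh), taylorH_mul hcd hh,
        taylorH_const, map_neg, ← hc, map_pow]
      linear_combination e3
    have h2 := (taylorH_eq_zero_iff (hg.add (hcd.mul hh)) τ).1 h1
    ext z
    have h3 := congrFun h2 z
    simp only [Pi.add_apply, Pi.mul_apply, Function.const_apply, Pi.zero_apply] at h3
    simp only [Pi.smul_apply, smul_eq_mul]
    linear_combination h3

end

end Fermat.Agent.ESLib
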