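import Fermat.Agent.ES.Ratio
import Fermat.Agent.ES.FibrePlus
import Fermat.Agent.ES.Local
import Fermat.Agent.S24.Fibres
import Fermat.Agent.S20.Gamma0Basis

/-!
# ES (C2): the places of `FC N` over finite values of `j` are points of `ℍ`
-/

set_option autoImplicit false

open UpperHalfPlane ModularForm Matrix.SpecialLinearGroup CongruenceSubgroup ModularCurve
open AlgebraicCurve IntermediateField
open scoped MatrixGroups Manifold
open Fermat.Agent.S20Lib Fermat.Agent.S28Lib Fermat.Agent.S24Lib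

namespace Fermat.Agent.ESLib

noncomputable section

namespace C2

theorem mul_ne_zero' {g h : ℍ → ℂ} (hg : MDiff g) (hg0 : g ≠ 0) (hh : MDiff h) (hh0 : h ≠ 0) :
    g * h ≠ 0 := by
  intro e
  have h1 : taylorH (g * h) I = 0 := by
    rw [e]; exact (taylorH_eq_zero_iff (f := 0) mdifferentiable_const I).2 rfl
  rw [taylorH_mul hg hh] at h1
  rcases mul_eq_zero.1 h1 with h2 | h2
  · exact hg0 ((taylorH_eq_zero_iff hg I).1 h2)
  · exact hh0 ((taylorH_eq_zero_iff hh I).1 h2)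

theorem isWH_div {Γ : Subgroup SL(2, ℤ)} {K : ℕ} {F : ℍ → ℂ} (hF : IsMF Γ (12 * K) F) :
    IsWH Γ (F / Dl ^ K) := by
  have hD : IsMF ⊤ (12 * K) (Dl ^ K) := by
    have := SeparatingAux.isMF_pow isMF_Dl K
    rwa [mul_comm] at this
  have hsl : ∀ γ : SL(2, ℤ), (F / Dl ^ K) ∣[(0 : ℤ)] γ = (F ∣[(12 * K : ℤ)] γ) / Dl ^ K := by
    intro γ
    have := div_slash_SL2 (12 * K) (12 * K) γ F (Dl ^ K)
    rw [sub_self, hD.top_slash] at this
    exact this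
  refine ⟨hF.holo.div hD.holo (fun τ => pow_ne_zero K (Dl_ne_zero τ)), fun γ hγ => ?_,
    ⟨K, fun γ => ?_⟩⟩
  · rw [hsl, hF.inv γ hγ]
  · rw [hsl]
    have : (F ∣[(12 * K : ℤ)] γ) / Dl ^ K * Dl ^ K = F ∣[(12 * K : ℤ)] γ := by
      ext τ
      simp only [Pi.mul_apply, Pi.div_apply, Pi.pow_apply]
      exact div_mul_cancel₀ _ (pow_ne_zero K (Dl_ne_zero τ))
    rw [this]
    exact hF.bdd γ

/-- a quotient of modular forms is a quotient of weakly holomorphic functions -/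
theorem exists_WH (N : ℕ) [NeZero N] {k : ℤ} {a b : ℍ → ℂ} (ha : IsMF (Gamma0 N) k a)
    (hb : IsMF (Gamma0 N) k b) (ha0 : a ≠ 0) (hb0 : b ≠ 0) :
    ∃ A B : WH (Gamma0 N), (A : ℍ → ℂ) * b = (B : ℍ → ℂ) * a ∧ A ≠ 0 ∧ B ≠ 0 := by
  have hk : 0 ≤ k := by
    by_contra hneg
    exact hb0 (isMF_eq_zero_of_neg (not_le.1 hneg) hb)
  obtain ⟨K, rfl⟩ := Int.eq_ofNat_of_zero_le hk
  have hb11 : IsMF (Gamma0 N) (11 * (K : ℤ)) (b ^ 11) := by
    simpa using SeparatingAux.isMF_pow hb 11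
  have hA : IsMF (Gamma0 N) (12 * (K : ℤ)) (a * b ^ 11) := ha.mul' hb11 (by ring)
  have hB : IsMF (Gamma0 N) (12 * (K : ℤ)) (b * b ^ 11) := hb.mul' hb11 (by ring)
  have hb110 : b ^ 11 ≠ 0 := d1_pow_ne_zero hb.holo hb0 11
  have hne : ∀ F : ℍ → ℂ, F ≠ 0 → F / Dl ^ K ≠ 0 := by
    intro F hF e
    apply hF
    ext τ
    have := congrFun e τ
    simp only [Pi.div_apply, Pi.pow_apply, Pi.zero_apply, div_eq_zero_iff] at this
    rcases this with h | h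
    · exact h
    · exact absurd h (pow_ne_zero K (Dl_ne_zero τ))
  refine ⟨⟨_, isWH_div hA⟩, ⟨_, isWH_div hB⟩, ?_, ?_, ?_⟩
  · ext τ
    simp only [Pi.mul_apply, Pi.div_apply, Pi.pow_apply]
    ring
  · intro e
    exact hne _ (mul_ne_zero' ha.holo ha0 hb11.holo hb110) (congrArg Subtype.val e)
  · intro e
    exact hne _ (mul_ne_zero' hb.holo hb0 hb11.holo hb110) (congrArg Subtype.val e)

/-- the embedding given by Taylor expansion at `x.out⁻¹ • τ₀`. -/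
def sig (N : ℕ) [NeZero N] (Θ : FC N ≃+* FractionRing (WH (Gamma0 N))) (τ₀ : ℍ)
    (x : SL(2, ℤ) ⧸ Gamma0 N) : FC N →+* LaurentSeries ℂ :=
  (Emb.lift (W8.EAt (Gamma0 N) τ₀ x) (W8.EAt_injective τ₀ x)).comp (Θ : FC N →+* _)

theorem order_EAt' (N : ℕ) (τ₀ : ℍ) (x : SL(2, ℤ) ⧸ Gamma0 N) {g : WH (Gamma0 N)} (hg : g ≠ 0) :
    (W8.EAt (Gamma0 N) τ₀ x g).order = ordH (g : ℍ → ℂ) ((x.out)⁻¹ • τ₀) := by
  rw [W8.order_EAt τ₀ x hg, ordH]
  unfold conj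
  rw [order_taylorH_slash g.2.holo]

theorem order_sig (N : ℕ) [NeZero N] (Θ : FC N ≃+* FractionRing (WH (Gamma0 N)))
    (hΘ : ∀ g : WH (Gamma0 N), ((Θ.symm (algebraMap _ _ g) : FC N) : LaurentSeries ℂ) =
        laurentFun 1 (g : ℍ → ℂ)) (τ₀ : ℍ) (x : SL(2, ℤ) ⧸ Gamma0 N)
    {k : ℤ} {a b : ℍ → ℂ} (ha : IsMF (Gamma0 N) k a) (hb : IsMF (Gamma0 N) k b)
    (ha0 : a ≠ 0) (hb0 : b ≠ 0) :
    (sig N Θ τ₀ x (ratio N a b)).order =
      ordH a ((x.out)⁻¹ • τ₀) - ordH b ((x.out)⁻¹ • τ₀) := by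
  obtain ⟨A, B, hAB, hA0, hB0⟩ := exists_WH N ha hb ha0 hb0
  have h1 := thetaC_ratio N Θ hΘ ha hb hb0 A B hAB hB0
  have h2 : sig N Θ τ₀ x (ratio N a b) =
      Emb.lift (W8.EAt (Gamma0 N) τ₀ x) (W8.EAt_injective τ₀ x) (Θ (ratio N a b)) := rfl
  rw [h2, h1, Emb.order_lift_div _ _ hA0 hB0, order_EAt' N τ₀ x hA0, order_EAt' N τ₀ x hB0]
  set τ := (x.out)⁻¹ • τ₀
  have hA0' : (A : ℍ → ℂ) ≠ 0 := fun e => hA0 (Subtype.ext e)
  have hB0' : (B : ℍ → ℂ) ≠ 0 := fun e => hB0 (Subtype.ext e)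
  have h3 := ordH_mul A.2.holo hA0' hb.holo hb0 τ
  have h4 := ordH_mul B.2.holo hB0' ha.holo ha0 τ
  rw [hAB] at h3
  omega

theorem ratio_ne_zero (N : ℕ) [NeZero N] {k : ℤ} {a b : ℍ → ℂ} (ha : IsMF (Gamma0 N) k a)
    (hb : IsMF (Gamma0 N) k b) (ha0 : a ≠ 0) (hb0 : b ≠ 0) : ratio N a b ≠ 0 := by
  intro e
  have h1 := coe_ratio N ha hb
  rw [e] at h1
  have h2 : qL a ≠ 0 := fun h => ha0 ((qL_eq_zero_iff ha).1 h)
  have h3 : qL b ≠ 0 := fun h => hb0 ((qL_eq_zero_iff hb).1 h)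
  exact div_ne_zero h2 h3 h1.symm

theorem sig_props (N : ℕ) [NeZero N] (Θ : FC N ≃+* FractionRing (WH (Gamma0 N)))
    (hΘc : ∀ c : ℂ, Θ (algebraMap ℂ (FC N) c) = algebraMap (WH (Gamma0 N)) _ (whConst _ c))
    (hΘj : Θ (jC N) = algebraMap (WH (Gamma0 N)) _ ⟨jan, isWH_jan.mono le_top⟩) (τ₀ : ℍ) :
    Function.Injective (sig N Θ τ₀) ∧
      (∀ x (c : ℂ), sig N Θ τ₀ x (algebraMap ℂ (FC N) c) = HahnSeries.C c) ∧
      (∀ x, sig N Θ τ₀ x (jC N) = HahnSeries.ofPowerSeries ℤ ℂ (taylorH jan τ₀)) ∧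
      (∀ ε : SL(2, ℤ), ε • τ₀ = τ₀ → ∀ x f,
        (sig N Θ τ₀ (ε • x) f).order = (sig N Θ τ₀ x f).order) ∧
      (∀ ε : SL(2, ℤ), ε • τ₀ = τ₀ → ∀ x, ε • x = x → ∀ f, f ≠ 0 →
        (denom ε τ₀ ^ 2) ^ (sig N Θ τ₀ x f).order = 1) := by
  have hsig : ∀ x f, sig N Θ τ₀ x f =
      Emb.lift (W8.EAt (Gamma0 N) τ₀ x) (W8.EAt_injective τ₀ x) (Θ f) := fun _ _ => rfl
  refine ⟨?_, ?_, ?_, ?_, ?_⟩
  · intro x y hxy
    have h1 := DFunLike.congr_fun hxy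
      (Θ.symm (algebraMap (WH (Gamma0 N)) _ ⟨janD N, isWH_janD dvd_rfl⟩))
    simp only [hsig, RingEquiv.apply_symm_apply, Emb.lift_algebraMap, W8.EAt_apply] at h1
    have h2 := HahnSeries.ofPowerSeries_injective h1
    apply conj_janD_injective N
    have hol := fun z => (isWH_janD (N := N) (d := N) dvd_rfl).conj_holo z
    have hc : MDiff (Function.const ℍ (-1 : ℂ)) := mdifferentiable_const
    have h3 : taylorH (conj (Gamma0 N) 0 (janD N) x +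
        Function.const ℍ (-1 : ℂ) * conj (Gamma0 N) 0 (janD N) y) τ₀ = 0 := by
      rw [taylorH_add (hol x) (hc.mul (hol y)),
        taylorH_mul hc (hol y), taylorH_const, h2]
      simp
    rw [taylorH_eq_zero_iff ((hol x).add (hc.mul (hol y)))] at h3
    funext τ
    have h4 := congrFun h3 τ
    simp only [Pi.add_apply, Pi.mul_apply, Function.const_apply, Pi.zero_apply] at h4
    linear_combination h4
  · intro x c
    simp only [hsig, hΘc, Emb.lift_algebraMap, W8.EAt_apply]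
    have : ((whConst (Gamma0 N) c : WH (Gamma0 N)) : ℍ → ℂ) = Function.const ℍ c := rfl
    rw [this, W8.conj_const, taylorH_const, HahnSeries.ofPowerSeries_C]
  · intro x
    simp only [hsig, hΘj, Emb.lift_algebraMap, W8.EAt_apply]
    congr 2
    exact isWH_jan.inv _ trivial
  · intro ε hε x f
    simp only [hsig]
    exact Emb.order_lift_eq _ _ _ _ (W8.order_EAt_smul τ₀ ε hε x) _
  · intro ε hε x hx f hf
    simp only [hsig]
    have hden : denom ε τ₀ ^ 2 ≠ 0 := pow_ne_zero _ (denom_ne_zero _ _)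
    refine Emb.order_lift_prop _ _ (fun m => (denom ε τ₀ ^ 2) ^ m = 1) ?_
      (fun g hg => W8.pow_order_EAt τ₀ ε hε x hx hg) _ ?_
    · intro m n hm hn
      rw [zpow_sub₀ hden, hm, hn, div_one]
    · intro h
      exact hf (Θ.injective (by rw [h, map_zero]))

theorem isFF_FC (N : ℕ) [NeZero N] : IsFF ℂ (FC N) :=
  ⟨jC N, transcendental_jC N, (finrank_FC N).1⟩

theorem card_eq_finrank_sub (N : ℕ) [NeZero N] (c : ℂ) :
    Nat.card (SL(2, ℤ) ⧸ Gamma0 N) =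
      Module.finrank ℂ⟮jC N - algebraMap ℂ (FC N) c⟯ (FC N) := by
  rw [Fib.adjoin_sub_algebraMap, (finrank_FC N).2]; rfl

theorem denom_mul_SL (g h : SL(2, ℤ)) (z : ℍ) :
    denom (g * h : SL(2, ℤ)) z = denom g ((h • z : ℍ) : ℂ) * denom h z := by
  have := denom_cocycle_σ (g : GL (Fin 2) ℝ) (h : GL (Fin 2) ℝ) z
  have hσ : ∀ w : ℂ, σ (h : GL (Fin 2) ℝ) w = w := by
    intro w
    simp [σ]
  rw [hσ] at this
  simpa using this

theorem isStabOrder_one (N : ℕ) (τ : ℍ) : IsStabOrder N τ 1 :=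
  ⟨one_pos, 1, one_mem _, one_smul _ _, fun m _ => by simp⟩

theorem isStabOrder_of_fix (N : ℕ) (τ₀ : ℍ) (ε : SL(2, ℤ)) (hε : ε • τ₀ = τ₀)
    (x : SL(2, ℤ) ⧸ Gamma0 N) (hx : ε • x = x) (p : ℕ) (hp : 0 < p)
    (hdvd : ∀ k : ℤ, (denom ε τ₀ ^ 2) ^ k = 1 → (p : ℤ) ∣ k) :
    IsStabOrder N ((x.out)⁻¹ • τ₀) p := by
  set g := x.out with hg
  have hxg : ((g : SL(2, ℤ)) : SL(2, ℤ) ⧸ Gamma0 N) = x := QuotientGroup.out_eq' x
  have hx' : ((g : SL(2, ℤ)) : SL(2, ℤ) ⧸ Gamma0 N) = ((ε * g : SL(2, ℤ)) : SL(2, ℤ) ⧸ Gamma0 N) := by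
    have h1 : ((ε * g : SL(2, ℤ)) : SL(2, ℤ) ⧸ Gamma0 N) =
        ε • ((g : SL(2, ℤ)) : SL(2, ℤ) ⧸ Gamma0 N) := rfl
    rw [h1, hxg, hx]
  have hmem : g⁻¹ * (ε * g) ∈ Gamma0 N := QuotientGroup.eq.1 hx'
  have hfix : (g⁻¹ * (ε * g)) • (g⁻¹ • τ₀) = g⁻¹ • τ₀ := by
    rw [mul_smul, mul_smul, smul_inv_smul, hε]
  refine ⟨hp, g⁻¹ * (ε * g), hmem, hfix, ?_⟩
  have hden : denom (g⁻¹ * (ε * g) : SL(2, ℤ)) ((g⁻¹ • τ₀ : ℍ) : ℂ) = denom ε τ₀ := by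
    have h1 : denom (g⁻¹ * g : SL(2, ℤ)) ((g⁻¹ • τ₀ : ℍ) : ℂ) = 1 := by
      rw [inv_mul_cancel]; simp [denom]
    rw [denom_mul_SL, smul_inv_smul] at h1
    rw [denom_mul_SL, denom_mul_SL, mul_smul, smul_inv_smul, hε]
    linear_combination (denom ε τ₀) * h1
  intro m hm
  rw [hden] at hm
  exact hdvd m hm

theorem placeAt_of_order (N : ℕ) [NeZero N] (Θ : FC N ≃+* FractionRing (WH (Gamma0 N)))
    (hΘ : ∀ g : WH (Gamma0 N), ((Θ.symm (algebraMap _ _ g) : FC N) : LaurentSeries ℂ) =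
        laurentFun 1 (g : ℍ → ℂ)) (τ₀ : ℍ) (x : SL(2, ℤ) ⧸ Gamma0 N) (v : Place ℂ (FC N)) (e : ℕ)
    (h : ∀ f, f ≠ 0 → (sig N Θ τ₀ x f).order = e * v.ord f) :
    PlaceAt N v ((x.out)⁻¹ • τ₀) e := by
  intro k a b ha hb ha0 hb0
  rw [← h _ (ratio_ne_zero N ha hb ha0 hb0), order_sig N Θ hΘ τ₀ x ha hb ha0 hb0]

theorem placeAt_generic (N : ℕ) [NeZero N] (τ₀ : ℍ) (h0 : jan τ₀ ≠ 0) (h1 : jan τ₀ ≠ 1728)
    (v : Place ℂ (FC N)) (hv : v ∈ zerosOf ℂ (jC N - algebraMap ℂ (FC N) (jan τ₀))) :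
    ∃ (τ : ℍ) (e : ℕ), IsStabOrder N τ e ∧ PlaceAt N v τ e := by
  obtain ⟨Θ, hΘ, hΘc, hΘj⟩ := exists_thetaC N
  obtain ⟨hinj, hK, hj, -, -⟩ := sig_props N Θ hΘc hΘj τ₀
  have hs : (taylorH jan τ₀ - PowerSeries.C (jan τ₀)).order = ((1 : ℕ) : ℕ∞) := by
    rw [order_taylorH_jan_sub, if_neg h0, if_neg h1]; rfl
  have hy : ∀ x, sig N Θ τ₀ x (jC N - algebraMap ℂ (FC N) (jan τ₀)) =
      HahnSeries.ofPowerSeries ℤ ℂ (taylorH jan τ₀ - PowerSeries.C (jan τ₀)) := by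
    intro x
    rw [map_sub, hj, hK, map_sub, HahnSeries.ofPowerSeries_C]
  have key := fibre_lemma_plus (isFF_FC N) (Fib.transcendental_sub (transcendental_jC N) (jan τ₀))
    (card_eq_finrank_sub N (jan τ₀)) (sig N Θ τ₀) hinj (fun γ γ' a => by rw [hK, hK])
    (fun γ γ' => by rw [hy, hy]) (fun γ a _ => by rw [hK]; exact HahnSeries.order_C)
    1 one_pos (fun γ => by rw [hy]; exact Fib.order_ofPowerSeries hs)
    ⊥ (fun γ γ' h f => by
      have : γ = γ' := h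
      rw [this])
    (fun _ => 1) (fun γ f _ => by simp)
    (fun γ => by
      rw [one_mul]
      have : Nonempty {γ' // (⊥ : Setoid (SL(2, ℤ) ⧸ Gamma0 N)) γ γ'} := ⟨⟨γ, rfl⟩⟩
      exact Nat.card_pos)
  obtain ⟨x, hx⟩ := key.1 v hv
  exact ⟨_, 1, isStabOrder_one N _, placeAt_of_order N Θ hΘ τ₀ x v 1 hx⟩

theorem placeAt_special (N : ℕ) [NeZero N] (τ₀ : ℍ) (ε : SL(2, ℤ))
    (hε : ε • τ₀ = τ₀) (p : ℕ) (hp : p.Prime) (hεp : ∀ x : SL(2, ℤ) ⧸ Gamma0 N, ε ^ p • x = x)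
    (hs : (taylorH jan τ₀ - PowerSeries.C (jan τ₀)).order = (p : ℕ∞))
    (hdvd : ∀ k : ℤ, (denom ε τ₀ ^ 2) ^ k = 1 → (p : ℤ) ∣ k)
    (v : Place ℂ (FC N)) (hv : v ∈ zerosOf ℂ (jC N - algebraMap ℂ (FC N) (jan τ₀))) :
    ∃ (τ : ℍ) (e : ℕ), IsStabOrder N τ e ∧ PlaceAt N v τ e := by
  classical
  obtain ⟨Θ, hΘ, hΘc, hΘj⟩ := exists_thetaC N
  obtain ⟨hinj, hK, hj, hord, hpow⟩ := sig_props N Θ hΘc hΘj τ₀
  have hy : ∀ x, sig N Θ τ₀ x (jC N - algebraMap ℂ (FC N) (jan τ₀)) =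
      HahnSeries.ofPowerSeries ℤ ℂ (taylorH jan τ₀ - PowerSeries.C (jan τ₀)) := by
    intro x
    rw [map_sub, hj, hK, map_sub, HahnSeries.ofPowerSeries_C]
  have key := fibre_lemma_plus (isFF_FC N) (Fib.transcendental_sub (transcendental_jC N) (jan τ₀))
    (card_eq_finrank_sub N (jan τ₀)) (sig N Θ τ₀) hinj (fun γ γ' a => by rw [hK, hK])
    (fun γ γ' => by rw [hy, hy]) (fun γ a _ => by rw [hK]; exact HahnSeries.order_C)
    p hp.pos (fun γ => by rw [hy]; exact Fib.order_ofPowerSeries hs)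
    (MulAction.orbitRel (Subgroup.zpowers ε) (SL(2, ℤ) ⧸ Gamma0 N))
    (fun γ γ' h f => by
      obtain ⟨⟨g, hg⟩, rfl⟩ := h
      have hg' : g • τ₀ = τ₀ := by
        have : Subgroup.zpowers ε ≤ MulAction.stabilizer SL(2, ℤ) τ₀ := by
          rw [Subgroup.zpowers_le]; exact hε
        exact this hg
      exact hord g hg' γ' f)
    (fun γ => if ε • γ = γ then p else 1)
    (fun γ f hf => by
      by_cases h : ε • γ = γ
      · rw [if_pos h]; exact hdvd _ (hpow ε hε γ h f hf)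
      · rw [if_neg h]; simp)
    (fun γ => by
      by_cases h : ε • γ = γ
      · rw [if_pos h]
        have : Nonempty {γ' // MulAction.orbitRel (Subgroup.zpowers ε)
            (SL(2, ℤ) ⧸ Gamma0 N) γ γ'} := ⟨⟨γ, Setoid.refl' _ γ⟩⟩
        exact Nat.le_mul_of_pos_right _ Nat.card_pos
      · rw [if_neg h, one_mul]
        exact le_card_orbit_of_prime ε p hp hεp γ h)
  obtain ⟨x, hx⟩ := key.1 v hv
  refine ⟨_, _, ?_, placeAt_of_order N Θ hΘ τ₀ x v _ hx⟩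
  by_cases h : ε • x = x
  · rw [if_pos h]
    exact isStabOrder_of_fix N τ₀ ε hε x h p hp.pos hdvd
  · rw [if_neg h]
    exact isStabOrder_one N _

end C2

theorem exists_placeAt_of_place (N : ℕ) [NeZero N] (v : Place ℂ (FC N)) (hv : 0 ≤ v.ord (jC N)) :
    ∃ (τ : ℍ) (e : ℕ), IsStabOrder N τ e ∧ PlaceAt N v τ e := by
  obtain ⟨c, hc | hc⟩ := exists_residue (C2.isFF_FC N) v hv
  · exact absurd (hc ▸ isAlgebraic_algebraMap c) (transcendental_jC N)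
  by_cases h0 : c = 0
  · have hj : jan rhoH = c := by rw [jan_rhoH, h0]
    rw [← hj] at hc
    refine C2.placeAt_special N rhoH (ModularGroup.S * ModularGroup.T) ST_smul_rhoH 3
      Nat.prime_three (Fib.ST_pow_three_smul N) ?_
      (fun k hk => three_dvd_of_zpow_eq_one k (by simpa only [map_mul] using hk)) v hc
    rw [order_taylorH_jan_sub, if_pos jan_rhoH]; rfl
  by_cases h1 : c = 1728
  · have hj : jan I = c := by rw [jan_I, h1]
    rw [← hj] at hc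
    refine C2.placeAt_special N I ModularGroup.S S_smul_I 2
      Nat.prime_two (Fib.S_pow_two_smul N) ?_ two_dvd_of_zpow_eq_one v hc
    rw [order_taylorH_jan_sub, if_neg (by rw [jan_I]; norm_num), if_pos jan_I]; rfl
  obtain ⟨τ₀, hτ₀⟩ := jan_surjective c
  rw [← hτ₀] at hc h0 h1
  exact C2.placeAt_generic N τ₀ h0 h1 v hc

theorem exists_placeAt_of_point (N : ℕ) [NeZero N] (τ : ℍ) :
    ∃ (v : Place ℂ (FC N)) (e : ℕ), 0 < e ∧ PlaceAt N v τ e := by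
  obtain ⟨Θ, hΘ, hΘc, hΘj⟩ := exists_thetaC N
  set x : SL(2, ℤ) ⧸ Gamma0 N := ((1 : SL(2, ℤ)) : SL(2, ℤ) ⧸ Gamma0 N) with hx
  set τ₀ : ℍ := x.out • τ with hτ₀
  have hτ : (x.out)⁻¹ • τ₀ = τ := by rw [hτ₀, inv_smul_smul]
  obtain ⟨-, hK, hj, -, -⟩ := C2.sig_props N Θ hΘc hΘj τ₀
  have hne : ∀ f, f ≠ 0 → C2.sig N Θ τ₀ x f ≠ 0 :=
    fun f hf => (map_ne_zero_iff _ (C2.sig N Θ τ₀ x).injective).2 hf
  have hy : C2.sig N Θ τ₀ x (jC N - algebraMap ℂ (FC N) (jan τ₀)) =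
      HahnSeries.ofPowerSeries ℤ ℂ (taylorH jan τ₀ - PowerSeries.C (jan τ₀)) := by
    rw [map_sub, hj, hK, map_sub, HahnSeries.ofPowerSeries_C]
  obtain ⟨s, hs0, hs⟩ : ∃ s : ℕ, 0 < s ∧
      (taylorH jan τ₀ - PowerSeries.C (jan τ₀)).order = (s : ℕ∞) := by
    rw [order_taylorH_jan_sub]
    split_ifs
    · exact ⟨3, by norm_num, rfl⟩
    · exact ⟨2, by norm_num, rfl⟩
    · exact ⟨1, by norm_num, rfl⟩
  have hy0 : jC N - algebraMap ℂ (FC N) (jan τ₀) ≠ 0 := by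
    intro e
    exact (Fib.transcendental_sub (transcendental_jC N) (jan τ₀)) (e ▸ isAlgebraic_zero)
  obtain ⟨v, m, hm, hv⟩ := exists_place_of_order (K := ℂ) (fun f => (C2.sig N Θ τ₀ x f).order)
    (by
      intro f g hf hg
      simp only [map_mul]
      exact HahnSeries.order_mul (hne f hf) (hne g hg))
    (by
      intro f g _ _ hfg
      simp only [map_add]
      apply HahnSeries.min_order_le_order_add
      rw [← map_add]
      exact hne _ hfg)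
    (by
      intro a _
      simp only [hK]
      exact HahnSeries.order_C)
    ⟨_, hy0, by
      simp only [hy]
      rw [Fib.order_ofPowerSeries hs]
      exact_mod_cast hs0.ne'⟩
  refine ⟨v, m, hm, ?_⟩
  have := C2.placeAt_of_order N Θ hΘ τ₀ x v m hv
  rwa [hτ] at this

end

end Fermat.Agent.ESLib
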