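import Mathlib
import Fermat.Prelude.Def_ModularCurve_ArithmeticGalois
import Fermat.Agent.S24.AnDefs
import Fermat.Agent.S24.AlgDefs

/-!
# Eichler–Shimura cluster, block (4): shared analytic definitions

* `FC N` : the function field of `X₀(N)` over `ℂ`, inside `ℂ((q))`
* `qL g` : the `q`-expansion of `g : ℍ → ℂ` as a Laurent series
* `IsMFChar N k χ g` : `g` is a modular form of weight `k` on `Γ₀(N)` with multiplier `χ`
* `IsEllPar χ` : `χ` is trivial on elliptic and parabolic elements (and on `±1`)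
-/

set_option autoImplicit false

open UpperHalfPlane ModularForm Matrix.SpecialLinearGroup CongruenceSubgroup ModularCurve
open scoped MatrixGroups Manifold

namespace Fermat.Agent.ESLib

noncomputable section

/-- the function field of `X₀(N)` over `ℂ`, as a subfield of `ℂ((q))`. -/
abbrev FC (N : ℕ) : IntermediateField ℂ (LaurentSeries ℂ) :=
  laurentBaseChange ℂ (modularFunctionFieldFull N)

/-- the `q`-expansion (in `q = exp(2πiτ)`) as a Laurent series. -/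
def qL (g : ℍ → ℂ) : LaurentSeries ℂ := HahnSeries.ofPowerSeries ℤ ℂ (qExpansion 1 g)

/-- modular forms of weight `k` on `Γ₀(N)` with multiplier `χ` (function-level predicate). -/
structure IsMFChar (N : ℕ) (k : ℤ) (χ : Gamma0 N →* ℂˣ) (g : ℍ → ℂ) : Prop where
  holo : MDiff g
  slash : ∀ γ : Gamma0 N, g ∣[k] (γ : SL(2, ℤ)) = ((χ γ : ℂˣ) : ℂ) • g
  bdd : ∀ γ : SL(2, ℤ), IsBoundedAtImInfty (g ∣[k] γ)

/-- `χ` kills every element of trace `0, ±1, ±2`. -/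
def IsEllPar {N : ℕ} (χ : Gamma0 N →* ℂˣ) : Prop :=
  ∀ γ : Gamma0 N, ((γ : SL(2, ℤ)) : Matrix (Fin 2) (Fin 2) ℤ).trace ^ 2 ≤ 4 → χ γ = 1

/-- Eisenstein-type series with coefficients `c`. -/
def eisC (k : ℤ) (c : (Fin 2 → ℤ) → ℂ) (z : ℍ) : ℂ :=
  ∑' v : Fin 2 → ℤ, c v * EisensteinSeries.eisSummand k v z

/-- `j` as an element of `FC N`. -/
def jC (N : ℕ) : FC N :=
  ⟨coeffEmb ℂ (qExpand ℚ 1 jq), coeffEmb_mem_laurentBaseChange ℂ (jqd_mem_full N (one_dvd N))⟩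

open Classical in
/-- the element `a/b` of `FC N` (junk `0` if the quotient of `q`-expansions is not in `FC N`;
it is in `FC N` for modular forms of equal weight, see `coe_ratio`). -/
def ratio (N : ℕ) (a b : ℍ → ℂ) : FC N :=
  if h : qL a / qL b ∈ FC N then ⟨qL a / qL b, h⟩ else 0

/-- order of vanishing at a point of `ℍ` -/
def ordH (g : ℍ → ℂ) (τ : ℍ) : ℤ := ((Fermat.Agent.S24Lib.taylorH g τ).order.toNat : ℤ)

/-- order of vanishing at `i∞` in the variable `exp(2πiτ/w)` -/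
def ordI (w : ℕ) (g : ℍ → ℂ) : ℤ := ((qExpansion w g).order.toNat : ℤ)

open Fermat.Agent.S20Lib AlgebraicCurve in
/-- `(τ, e)` computes the place `v`. -/
def PlaceAt (N : ℕ) (v : Place ℂ (FC N)) (τ : ℍ) (e : ℕ) : Prop :=
  ∀ (k : ℤ) (a b : ℍ → ℂ), IsMF (Gamma0 N) k a → IsMF (Gamma0 N) k b → a ≠ 0 → b ≠ 0 →
    (e : ℤ) * v.ord (ratio N a b) = ordH a τ - ordH b τ

/-- `e` is (a multiple of) the order of the stabiliser of `τ` in `Γ₀(N)/±1`. -/
def IsStabOrder (N : ℕ) (τ : ℍ) (e : ℕ) : Prop :=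
  0 < e ∧ ∃ ε ∈ Gamma0 N, ε • τ = τ ∧ ∀ m : ℤ, (denom ε τ ^ 2) ^ m = 1 → (e : ℤ) ∣ m

open Fermat.Agent.S20Lib AlgebraicCurve in
/-- `(δ, w)` computes the place `v` (the cusp `δ∞`, of width `w`). -/
def PlaceCusp (N : ℕ) (v : Place ℂ (FC N)) (δ : SL(2, ℤ)) (w : ℕ) : Prop :=
  ∀ (k : ℤ) (a b : ℍ → ℂ), IsMF (Gamma0 N) k a → IsMF (Gamma0 N) k b → a ≠ 0 → b ≠ 0 →
    v.ord (ratio N a b) = ordI w (a ∣[k] δ) - ordI w (b ∣[k] δ)

/-- `w` is the width of the cusp `δ∞` of `Γ₀(N)`. -/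
def IsWidth (N : ℕ) (δ : SL(2, ℤ)) (w : ℕ) : Prop :=
  0 < w ∧ ∀ m : ℤ, δ * ModularGroup.T ^ m * δ⁻¹ ∈ Gamma0 N ↔ (w : ℤ) ∣ m

end

end Fermat.Agent.ESLib
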