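import Mathlib
import Fermat.Agent.S18.Defs
import Fermat.Agent.S24.AnDefs
import Fermat.Agent.S20.Defs
import Fermat.Agent.ES.Defs
import Fermat.Prelude.Sol.S_ModularForm_heckeT_slash_eq_self_of_mem_Gamma0
import Fermat.Prelude.Def_CuspForm_HeckeAlgebra
import Fermat.Prelude.Def_GaloisRep_Residual

/-!
# ES library (Eichler-Shimura cluster S29/S30/S42/S37): basic definitions

* `GQ`, `gal N σ` : the Galois group of `ℚ` and its action on the function field `FB N` of `X₀(N)`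
* `IsKum N m f` : `f ∈ FB N` is a Kummer generator (`m ∣ ord_P f` for all places `P`)
* `EP N B` : homomorphisms `Γ₀(N) → B` killing all elements of trace `0, ±1, ±2`
* `chr m φ` : the character `γ ↦ exp(2πi φ(γ)/m)` attached to `φ : Γ₀(N) → ℤ`
* `IsMFc N k c u` : `u` is a holomorphic modular form of weight `k` and multiplier `c` on `Γ₀(N)`
* `Rt N m f φ` : `f` has an analytic `m`-th root with multiplier `chr m φ`
* `twist`, `normL`, `heckeMul` : the multiplicative Hecke operator on `q`-expansions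
-/

set_option autoImplicit false
set_option synthInstance.maxHeartbeats 400000

open AlgebraicCurve ModularCurve CongruenceSubgroup UpperHalfPlane ModularForm
open scoped MatrixGroups Manifold

namespace Fermat.Agent.ESLib

open Fermat.Agent.S18Lib Fermat.Agent.S20Lib Fermat.Agent.S24Lib

noncomputable section

/-- the absolute Galois group of `ℚ` -/
abbrev GQ : Type := Qb ≃ₐ[ℚ] Qb

/-- the action of `σ` on the coefficients of `q`-expansions, restricted to the function field -/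
def gal (N : ℕ) (σ : GQ) : FB N ≃+* FB N := arithmeticRingAut (modularFunctionFieldFull N) σ

@[simp] theorem coe_gal (N : ℕ) (σ : GQ) (f : FB N) :
    ((gal N σ f : FB N) : LaurentSeries Qb) = coeffMap (σ : Qb →+* Qb) (f : LaurentSeries Qb) := rfl

/-- Kummer generators: nonzero functions whose divisor is divisible by `m` -/
def IsKum (N m : ℕ) (f : FB N) : Prop := f ≠ 0 ∧ ∀ P : Place Qb (FB N), (m : ℤ) ∣ P.ord f

/-- homomorphisms `Γ₀(N) → B` killing elliptic and parabolic elements and `±1` -/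
def EP (N : ℕ) (B : Type*) [AddCommGroup B] : AddSubgroup (Additive (Gamma0 N) →+ B) where
  carrier := {φ | ∀ γ : Gamma0 N, ((γ : SL(2, ℤ)) : Matrix (Fin 2) (Fin 2) ℤ).trace ^ 2 ≤ 4 →
    φ (Additive.ofMul γ) = 0}
  zero_mem' := fun _ _ => rfl
  add_mem' := by
    intro φ ψ hφ hψ γ hγ
    show φ (Additive.ofMul γ) + ψ (Additive.ofMul γ) = 0
    rw [hφ γ hγ, hψ γ hγ, add_zero]
  neg_mem' := by
    intro φ hφ γ hγ
    show -φ (Additive.ofMul γ) = 0
    rw [hφ γ hγ, neg_zero]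

/-- the multiplier `γ ↦ exp(2πi φ(γ)/m)` -/
def chr {N : ℕ} (m : ℕ) (φ : Additive (Gamma0 N) →+ ℤ) (γ : Gamma0 N) : ℂ :=
  Complex.exp (2 * Real.pi * Complex.I * (φ (Additive.ofMul γ) : ℂ) / (m : ℂ))

/-- holomorphic modular forms of weight `k` with multiplier `c` on `Γ₀(N)` -/
structure IsMFc (N : ℕ) (k : ℤ) (c : Gamma0 N → ℂ) (u : ℍ → ℂ) : Prop where
  holo : MDiff u
  inv : ∀ γ : Gamma0 N, u ∣[k] (γ : SL(2, ℤ)) = c γ • u
  bdd : ∀ g : SL(2, ℤ), IsBoundedAtImInfty (u ∣[k] g)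

/-- `f` has an analytic `m`-th root `u / v` with multiplier `chr m φ` -/
def Rt (N m : ℕ) (f : FB N) (φ : Additive (Gamma0 N) →+ ℤ) : Prop :=
  ∃ (k : ℤ) (u v : ℍ → ℂ), IsMFc N k (chr m φ) u ∧ IsMF (Gamma0 N) k v ∧ u ≠ 0 ∧ v ≠ 0 ∧
    coeffMap iotaC (f : LaurentSeries Qb) * qL v ^ m = qL u ^ m

/-! ### the transfer (Hecke operator on homomorphisms `Γ₀(N) → B`) -/

open P2MW.S_ModularForm_heckeT_slash_eq_self_of_mem_Gamma0.ModularForm.HeckeSlashInvariance in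
/-- `δ_x γ = γ'_x δ_{π x}` for the standard representatives `δ_x = heckeRep ℓ x` of `T_ℓ` -/
def Transfer (N ℓ : ℕ) (γ : Gamma0 N) (γ' : OnePoint (ZMod ℓ) → Gamma0 N) : Prop :=
  ∃ π : Equiv.Perm (OnePoint (ZMod ℓ)), ∀ x,
    heckeRep ℓ x * Matrix.SpecialLinearGroup.mapGL ℝ (γ : SL(2, ℤ)) =
      Matrix.SpecialLinearGroup.mapGL ℝ (γ' x : SL(2, ℤ)) * heckeRep ℓ (π x)

/-- `φ' = t_ℓ φ`, i.e. `φ'(γ) = ∑_x φ(γ'_x)` -/
def IsTr (N ℓ : ℕ) [NeZero ℓ] {B : Type*} [AddCommGroup B] (φ φ' : Additive (Gamma0 N) →+ B) :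
    Prop :=
  ∀ (γ : Gamma0 N) (γ' : OnePoint (ZMod ℓ) → Gamma0 N), Transfer N ℓ γ γ' →
    φ' (Additive.ofMul γ) = ∑ x, φ (Additive.ofMul (γ' x))

/-! ### formal operators on Laurent series -/

section Formal

variable {R : Type*} [CommRing R]

/-- `f(q) ↦ f(z q)` (for a unit `z`; only used for roots of unity) -/
def twist (z : Rˣ) (f : LaurentSeries R) : LaurentSeries R :=
  HahnSeries.ofSuppBddBelow (fun n : ℤ => ((z ^ n : Rˣ) : R) * f.coeff n) (by
    refine HahnSeries.forallLTEqZero_supp_BddBelow _ f.order fun n hn => ?_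
    rw [HahnSeries.coeff_eq_zero_of_lt_order hn, mul_zero])

/-- `f(q) ↦ g(q)` with `g_n = f_{ℓ n}` -/
def contract (ℓ : ℕ) [NeZero ℓ] (f : LaurentSeries R) : LaurentSeries R :=
  HahnSeries.ofSuppBddBelow (fun n : ℤ => f.coeff (ℓ * n)) (by
    refine HahnSeries.forallLTEqZero_supp_BddBelow _ (min f.order 0) fun n hn => ?_
    have hℓ : (1 : ℤ) ≤ ℓ := by exact_mod_cast Nat.one_le_iff_ne_zero.mpr (NeZero.ne ℓ)
    rw [lt_min_iff] at hn
    exact HahnSeries.coeff_eq_zero_of_lt_order (by nlinarith))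

end Formal

/-- `∏_{z^ℓ = 1} f(z q)`, contracted: the norm from `K((q^{1/ℓ}))` to `K((q))` of `f(q^{1/ℓ})` -/
def normL {K : Type*} [Field K] (ℓ : ℕ) [NeZero ℓ] (f : LaurentSeries K) : LaurentSeries K :=
  haveI : Fintype (rootsOfUnity ℓ K) := Fintype.ofFinite _
  contract ℓ (∏ z : rootsOfUnity ℓ K, twist (z : Kˣ) f)

/-- the multiplicative Hecke operator `f ↦ f(q^ℓ) ∏_{z^ℓ=1} f(z q^{1/ℓ})` (`ℓ ∤ N`) -/
def heckeMul {K : Type*} [Field K] (ℓ : ℕ) [NeZero ℓ] (f : LaurentSeries K) : LaurentSeries K :=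
  qExpand K ℓ f * normL ℓ f

/-! ### the final product of the Kummer part -/

/-- the Hecke algebra generated by the `T_ℓ`, `ℓ ∤ N` -/
abbrev TT0 (N : ℕ) [NeZero N] : Type := CuspForm.heckeAlgebra N 2 {q : ℕ | q ∣ N}

/-- reduction of an integral matrix modulo `p ^ n` -/
def redM {r : ℕ} (p n : ℕ) (M : Matrix (Fin r) (Fin r) ℤ) : Matrix (Fin r) (Fin r) (ZMod (p ^ n)) :=
  M.map (Int.castRingHom (ZMod (p ^ n)))

/-- **The trunk**: the `p`-adic Tate module of `J₀(N)` as a compatible system of matrix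
representations of `G_ℚ` on `L / pⁿ L`, `L = ℤ^r` a faithful module over the Hecke algebra. -/
structure IsESData (N p : ℕ) [NeZero N] (r : ℕ) (Θ : TT0 N →+* Matrix (Fin r) (Fin r) ℤ)
    (ρ : (n : ℕ) → GQ →* Matrix (Fin r) (Fin r) (ZMod (p ^ n))) : Prop where
  inj : Function.Injective Θ
  compat : ∀ (n : ℕ) (σ : GQ),
    (ρ (n + 1) σ).map (ZMod.castHom (pow_dvd_pow p (Nat.le_succ n)) (ZMod (p ^ n))) = ρ n σ
  level : ∀ n, GaloisFactorsThroughFiniteLevel (ρ n)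
  comm : ∀ (n : ℕ) (σ : GQ) (T : TT0 N), ρ n σ * redM p n (Θ T) = redM p n (Θ T) * ρ n σ
  unram : ∀ (n q : ℕ), q.Prime → ¬ q ∣ N * p → ∀ A : ValuationSubring Qb, A.LiesOverPrime q →
    ∀ σ ∈ A.inertiaSubgroupIn ℚ, ρ n σ = 1
  es : ∀ (n ℓ : ℕ) (hℓ : ℓ.Prime) (hℓN : ¬ ℓ ∣ N), ℓ ≠ p →
    ∀ A : ValuationSubring Qb, A.LiesOverPrime ℓ → ∀ σ : GQ, A.IsFrobeniusAt σ ℓ →
      ρ n σ * ρ n σ - redM p n (Θ (CuspForm.heckeAlgebra.T hℓ hℓN hℓN)) * ρ n σ
        + (ℓ : Matrix (Fin r) (Fin r) (ZMod (p ^ n))) = 0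

end

end Fermat.Agent.ESLib
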