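import Mathlib
import Fermat.Agent.ES.Defs
import Fermat.Agent.ES.KDefs

/-!
# ES cluster, descent `ℂ → ℚ̄` (block R1): definitions

* `dP δ`, `dL δ` : a derivation `δ` of `ℂ` applied to the coefficients of a power / Laurent series
* `thL` : the Euler operator `t d/dt` on Laurent series
* `chrHom m φ` : the multiplier `chr m φ` as a monoid homomorphism `Γ₀(N) →* ℂˣ`
-/

set_option autoImplicit false

open UpperHalfPlane ModularForm CongruenceSubgroup
open scoped MatrixGroups Manifold

namespace Fermat.Agent.ESLib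

noncomputable section

/-- `δ` applied to the coefficients of a power series -/
def dP (δ : Derivation ℚ ℂ ℂ) (p : PowerSeries ℂ) : PowerSeries ℂ :=
  PowerSeries.mk fun n => δ (PowerSeries.coeff n p)

/-- `δ` applied to the coefficients of a Laurent series -/
def dL (δ : Derivation ℚ ℂ ℂ) (x : LaurentSeries ℂ) : LaurentSeries ℂ :=
  HahnSeries.ofSuppBddBelow (fun n : ℤ => δ (x.coeff n)) (by
    refine HahnSeries.forallLTEqZero_supp_BddBelow _ x.order fun n hn => ?_
    rw [HahnSeries.coeff_eq_zero_of_lt_order hn, map_zero])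

/-- the Euler operator `t d/dt` on Laurent series -/
def thL (x : LaurentSeries ℂ) : LaurentSeries ℂ :=
  HahnSeries.ofSuppBddBelow (fun n : ℤ => (n : ℂ) * x.coeff n) (by
    refine HahnSeries.forallLTEqZero_supp_BddBelow _ x.order fun n hn => ?_
    rw [HahnSeries.coeff_eq_zero_of_lt_order hn, mul_zero])

@[simp] theorem coeff_dP (δ : Derivation ℚ ℂ ℂ) (p : PowerSeries ℂ) (n : ℕ) :
    PowerSeries.coeff n (dP δ p) = δ (PowerSeries.coeff n p) := PowerSeries.coeff_mk _ _

@[simp] theorem coeff_dL (δ : Derivation ℚ ℂ ℂ) (x : LaurentSeries ℂ) (n : ℤ) :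
    (dL δ x).coeff n = δ (x.coeff n) := rfl

@[simp] theorem coeff_thL (x : LaurentSeries ℂ) (n : ℤ) :
    (thL x).coeff n = (n : ℂ) * x.coeff n := rfl

/-- the multiplier `γ ↦ exp(2πi φ(γ)/m)` as a homomorphism -/
def chrHom {N : ℕ} (m : ℕ) (φ : Additive (Gamma0 N) →+ ℤ) : Gamma0 N →* ℂˣ where
  toFun γ := Units.mk0 (chr m φ γ) (Complex.exp_ne_zero _)
  map_one' := by
    apply Units.ext
    simp [chr]
  map_mul' a b := by
    apply Units.ext
    simp only [Units.val_mk0, Units.val_mul, chr, ofMul_mul, map_add, Int.cast_add]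
    rw [← Complex.exp_add]
    congr 1
    ring

@[simp] theorem coe_chrHom {N : ℕ} (m : ℕ) (φ : Additive (Gamma0 N) →+ ℤ) (γ : Gamma0 N) :
    ((chrHom m φ γ : ℂˣ) : ℂ) = chr m φ γ := rfl

end

end Fermat.Agent.ESLib
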