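import Fermat.Agent.ES.DDefs

/-!
# ES block R1, leaf (K1): formal calculus of `dP`, `dL`, `thL`
-/

set_option autoImplicit false
set_option synthInstance.maxHeartbeats 400000

namespace Fermat.Agent.ESLib

noncomputable section

theorem k1_support_dL (δ : Derivation ℚ ℂ ℂ) (x : LaurentSeries ℂ) :
    (dL δ x).support ⊆ x.support := by
  intro n hn
  rw [HahnSeries.mem_support] at hn ⊢
  intro h
  apply hn
  rw [coeff_dL, h, map_zero]

theorem k1_support_thL (x : LaurentSeries ℂ) : (thL x).support ⊆ x.support := by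
  intro n hn
  rw [HahnSeries.mem_support] at hn ⊢
  intro h
  apply hn
  rw [coeff_thL, h, mul_zero]

theorem dL_add (δ : Derivation ℚ ℂ ℂ) (x y : LaurentSeries ℂ) :
    dL δ (x + y) = dL δ x + dL δ y := by
  ext n
  simp

theorem dL_mul (δ : Derivation ℚ ℂ ℂ) (x y : LaurentSeries ℂ) :
    dL δ (x * y) = x * dL δ y + y * dL δ x := by
  ext n
  rw [coeff_dL, HahnSeries.coeff_add, mul_comm y (dL δ x), HahnSeries.coeff_mul,
    HahnSeries.coeff_mul_right' y.isPWO_support (k1_support_dL δ y),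
    HahnSeries.coeff_mul_left' x.isPWO_support (k1_support_dL δ x), map_sum,
    ← Finset.sum_add_distrib]
  refine Finset.sum_congr rfl fun ij _ => ?_
  rw [Derivation.leibniz, coeff_dL, coeff_dL, smul_eq_mul, smul_eq_mul]
  ring

theorem dL_C (δ : Derivation ℚ ℂ ℂ) (c : ℂ) : dL δ (HahnSeries.C c) = HahnSeries.C (δ c) := by
  ext n
  rw [coeff_dL, HahnSeries.C_apply, HahnSeries.C_apply, HahnSeries.coeff_single,
    HahnSeries.coeff_single]
  split_ifs
  · rfl
  · exact map_zero _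

theorem dL_ofPowerSeries (δ : Derivation ℚ ℂ ℂ) (p : PowerSeries ℂ) :
    dL δ (HahnSeries.ofPowerSeries ℤ ℂ p) = HahnSeries.ofPowerSeries ℤ ℂ (dP δ p) := by
  ext n
  rw [coeff_dL, PowerSeries.coeff_coe, PowerSeries.coeff_coe]
  split_ifs
  · exact map_zero _
  · rw [coeff_dP]

theorem thL_add (x y : LaurentSeries ℂ) : thL (x + y) = thL x + thL y := by
  ext n
  simp [mul_add]

theorem thL_mul (x y : LaurentSeries ℂ) : thL (x * y) = x * thL y + y * thL x := by
  ext n
  rw [coeff_thL, HahnSeries.coeff_add, mul_comm y (thL x), HahnSeries.coeff_mul,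
    HahnSeries.coeff_mul_right' y.isPWO_support (k1_support_thL y),
    HahnSeries.coeff_mul_left' x.isPWO_support (k1_support_thL x), Finset.mul_sum,
    ← Finset.sum_add_distrib]
  refine Finset.sum_congr rfl fun ij hij => ?_
  have h : ij.1 + ij.2 = n := (Finset.mem_antidiagonal.1 hij).2.2
  rw [coeff_thL, coeff_thL, ← h]
  push_cast
  ring

theorem thL_C (c : ℂ) : thL (HahnSeries.C c) = 0 := by
  ext n
  rw [coeff_thL, HahnSeries.C_apply, HahnSeries.coeff_single, HahnSeries.coeff_zero]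
  split_ifs with h
  · rw [h]; simp
  · simp

theorem dP_add (δ : Derivation ℚ ℂ ℂ) (p q : PowerSeries ℂ) : dP δ (p + q) = dP δ p + dP δ q := by
  ext n
  simp

theorem dP_mul (δ : Derivation ℚ ℂ ℂ) (p q : PowerSeries ℂ) :
    dP δ (p * q) = p * dP δ q + q * dP δ p := by
  ext n
  rw [coeff_dP, map_add, mul_comm q (dP δ p), PowerSeries.coeff_mul, PowerSeries.coeff_mul,
    PowerSeries.coeff_mul, map_sum, ← Finset.sum_add_distrib]
  refine Finset.sum_congr rfl fun ij _ => ?_
  rw [Derivation.leibniz, coeff_dP, coeff_dP, smul_eq_mul, smul_eq_mul]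
  ring

theorem dP_pow_succ (δ : Derivation ℚ ℂ ℂ) (p : PowerSeries ℂ) (n : ℕ) :
    dP δ (p ^ (n + 1)) = PowerSeries.C ((n : ℂ) + 1) * p ^ n * dP δ p := by
  induction n with
  | zero => simp
  | succ n ih =>
    rw [pow_succ, dP_mul, ih]
    push_cast
    simp only [map_add, map_one]
    ring

theorem dP_C_mul_map (δ : Derivation ℚ ℂ ℂ) (c : ℂ) (s : PowerSeries ℚ) :
    dP δ (PowerSeries.C c * s.map (algebraMap ℚ ℂ)) =
      PowerSeries.C (δ c) * s.map (algebraMap ℚ ℂ) := by
  ext n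
  rw [coeff_dP, PowerSeries.coeff_C_mul, PowerSeries.coeff_C_mul, PowerSeries.coeff_map,
    Derivation.leibniz, Derivation.map_algebraMap, smul_zero, zero_add, smul_eq_mul, mul_comm]

theorem order_le_order_dL (δ : Derivation ℚ ℂ ℂ) {x : LaurentSeries ℂ} (h : dL δ x ≠ 0) :
    x.order ≤ (dL δ x).order := by
  apply HahnSeries.order_le_of_coeff_ne_zero
  intro h0
  apply h
  rw [← HahnSeries.coeff_order_eq_zero, coeff_dL, h0, map_zero]

theorem order_le_order_thL {x : LaurentSeries ℂ} (h : thL x ≠ 0) : x.order ≤ (thL x).order := by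
  apply HahnSeries.order_le_of_coeff_ne_zero
  intro h0
  apply h
  rw [← HahnSeries.coeff_order_eq_zero, coeff_thL, h0, mul_zero]

/-- all coefficients of index `< n` vanish -/
def k1_GE (x : LaurentSeries ℂ) (n : ℤ) : Prop := ∀ m < n, x.coeff m = 0

theorem k1_GE_order (x : LaurentSeries ℂ) : k1_GE x x.order := fun _ hm =>
  HahnSeries.coeff_eq_zero_of_lt_order hm

theorem k1_GE.mono {x : LaurentSeries ℂ} {n n' : ℤ} (h : k1_GE x n) (hn : n' ≤ n) : k1_GE x n' :=
  fun m hm => h m (lt_of_lt_of_le hm hn)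

theorem k1_GE_zero (n : ℤ) : k1_GE 0 n := fun _ _ => rfl

theorem k1_GE.sub {x y : LaurentSeries ℂ} {n : ℤ} (hx : k1_GE x n) (hy : k1_GE y n) :
    k1_GE (x - y) n := fun m hm => by
  rw [HahnSeries.coeff_sub, hx m hm, hy m hm, sub_zero]

theorem k1_GE.mul {x y : LaurentSeries ℂ} {n n' : ℤ} (hx : k1_GE x n) (hy : k1_GE y n') :
    k1_GE (x * y) (n + n') := fun m hm => by
  rw [HahnSeries.coeff_mul]
  refine Finset.sum_eq_zero fun ij hij => ?_
  have h : ij.1 + ij.2 = m := (Finset.mem_antidiagonal.1 hij).2.2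
  by_cases h1 : ij.1 < n
  · rw [hx _ h1, zero_mul]
  · rw [hy _ (by omega), mul_zero]

theorem k1_GE.dL {x : LaurentSeries ℂ} {n : ℤ} (hx : k1_GE x n) (δ : Derivation ℚ ℂ ℂ) :
    k1_GE (dL δ x) n := fun m hm => by rw [coeff_dL, hx m hm, map_zero]

theorem k1_GE.thL {x : LaurentSeries ℂ} {n : ℤ} (hx : k1_GE x n) :
    k1_GE (thL x) n := fun m hm => by rw [coeff_thL, hx m hm, mul_zero]

theorem k1_GE.le_order {x : LaurentSeries ℂ} {n : ℤ} (hx : k1_GE x n) (h0 : x ≠ 0) :
    n ≤ x.order := (HahnSeries.le_order_iff_forall h0).2 hx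

/-- the two consequences of the formula `θJ · (δb - b') = δJ · θb` -/
theorem kd_order (δ : Derivation ℚ ℂ ℂ) {J b b' : LaurentSeries ℂ}
    (h : thL J * (dL δ b - b') = dL δ J * thL b) (hJ : thL J ≠ 0)
    (hord : dL δ J = 0 ∨ (thL J).order ≤ (dL δ J).order + 1) (hb' : b' ≠ 0) :
    b.order ≤ b'.order + 1 := by
  have h1 : thL J * b' = thL J * dL δ b - dL δ J * thL b := by rw [← h]; ring
  have hA : k1_GE (thL J) (thL J).order := k1_GE_order _
  have hD : k1_GE (dL δ J) ((thL J).order - 1) := by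
    rcases hord with h0 | h0
    · rw [h0]; exact k1_GE_zero _
    · exact (k1_GE_order _).mono (by omega)
  have hb : k1_GE b b.order := k1_GE_order _
  have h2 : k1_GE (thL J * b') ((thL J).order - 1 + b.order) := by
    rw [h1]
    exact ((hA.mul (hb.dL δ)).mono (by omega)).sub (hD.mul hb.thL)
  have h3 := h2.le_order (mul_ne_zero hJ hb')
  rw [HahnSeries.order_mul hJ hb'] at h3
  omega

theorem kd_order_zero (δ : Derivation ℚ ℂ ℂ) {J b b' : LaurentSeries ℂ}
    (h : thL J * (dL δ b - b') = dL δ J * thL b) (hJ : thL J ≠ 0)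
    (hord : dL δ J = 0) (hb' : b' ≠ 0) : b.order ≤ b'.order := by
  rw [hord, zero_mul] at h
  have h1 : dL δ b = b' := by
    rcases mul_eq_zero.1 h with h2 | h2
    · exact absurd h2 hJ
    · exact sub_eq_zero.1 h2
  rw [← h1] at hb' ⊢
  exact order_le_order_dL δ hb'

end

end Fermat.Agent.ESLib
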