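import Mathlib
import Fermat.Agent.ES.DDefs
import Fermat.Agent.S24.AnDefs

/-!
# ES block R1, leaf (K8): enough derivations of `ℂ`

* `isAlgebraic_of_forall_derivation` : a complex number killed by all `ℚ`-derivations of `ℂ` is
  algebraic.  (`ℂ` is formally smooth over `ℚ[X]`, `X ↦ z`, so `ℂ ⊗ Ω[ℚ[X]/ℚ] → Ω[ℂ/ℚ]` is
  injective and `D z ≠ 0`.)
* `mem_range_iotaC_of_isAlgebraic` : algebraic numbers lie in the image of `iotaC`.
-/

set_option autoImplicit false
set_option linter.style.haveILetI false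

open Polynomial KaehlerDifferential TensorProduct
open Fermat.Agent.S24Lib

namespace Fermat.Agent.ESLib

theorem k8_formallySmooth (K L : Type*) [Field K] [Field L] [Algebra K L] [CharZero K] :
    Algebra.FormallySmooth K L := by
  obtain ⟨ι, x, hx⟩ := exists_isTranscendenceBasis' K L
  haveI : Algebra.IsAlgebraic (IntermediateField.adjoin K (Set.range x)) L := hx.isAlgebraic_field
  haveI : Algebra.IsSeparable (IntermediateField.adjoin K (Set.range x)) L := inferInstance
  exact Algebra.FormallySmooth.of_algebraicIndependent_of_isSeparable hx.1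

theorem k8_injective (R S T : Type*) [CommRing R] [CommRing S] [CommRing T]
    [Algebra R S] [Algebra R T] [Algebra S T] [IsScalarTower R S T] [Algebra.FormallySmooth S T] :
    Function.Injective (KaehlerDifferential.mapBaseChange R S T) := by
  rw [injective_iff_map_eq_zero]
  intro x hx
  obtain ⟨x, rfl⟩ := (Algebra.H1Cotangent.exact_δ_mapBaseChange R S T x).mp hx
  rw [Subsingleton.elim x 0, map_zero]

theorem isAlgebraic_of_forall_derivation (z : ℂ) (h : ∀ δ : Derivation ℚ ℂ ℂ, δ z = 0) :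
    IsAlgebraic ℚ z := by
  by_contra hz
  letI : Algebra ℚ[X] ℂ := (Polynomial.aeval z).toAlgebra
  have halg : ∀ p : ℚ[X], algebraMap ℚ[X] ℂ p = Polynomial.aeval z p := fun p => rfl
  haveI : IsScalarTower ℚ ℚ[X] ℂ := IsScalarTower.of_algebraMap_eq fun q => by
    rw [halg]; simp
  haveI : FaithfulSMul ℚ[X] ℂ := by
    rw [faithfulSMul_iff_algebraMap_injective]
    exact transcendental_iff_injective.mp hz
  haveI : Algebra.FormallySmooth ℚ[X] (FractionRing ℚ[X]) :=
    Algebra.FormallySmooth.of_isLocalization (nonZeroDivisors ℚ[X])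
  letI : Algebra (FractionRing ℚ[X]) ℂ := FractionRing.liftAlgebra ℚ[X] ℂ
  haveI : IsScalarTower ℚ[X] (FractionRing ℚ[X]) ℂ :=
    FractionRing.isScalarTower_liftAlgebra ℚ[X] ℂ
  haveI : CharZero (FractionRing ℚ[X]) := inferInstance
  haveI : Algebra.FormallySmooth (FractionRing ℚ[X]) ℂ := k8_formallySmooth _ _
  haveI : Algebra.FormallySmooth ℚ[X] ℂ := Algebra.FormallySmooth.comp _ (FractionRing ℚ[X]) _
  have hinj := k8_injective ℚ ℚ[X] ℂ
  have hD : KaehlerDifferential.D ℚ ℂ z ≠ 0 := by
    intro h0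
    have h1 : KaehlerDifferential.mapBaseChange ℚ ℚ[X] ℂ
        (1 ⊗ₜ KaehlerDifferential.D ℚ ℚ[X] X) = 0 := by
      rw [KaehlerDifferential.mapBaseChange_tmul, one_smul, KaehlerDifferential.map_D, halg,
        aeval_X, h0]
    have h2 := hinj (h1.trans (map_zero _).symm)
    have h3 := congrArg
      (LinearMap.lTensor ℂ (KaehlerDifferential.polynomialEquiv ℚ).toLinearMap) h2
    have h4 := congrArg (TensorProduct.rid ℚ[X] ℂ) h3
    simp at h4
  obtain ⟨f, hf⟩ := Module.Projective.exists_dual_ne_zero ℂ hD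
  exact hf (h (f.compDer (KaehlerDifferential.D ℚ ℂ)))

theorem mem_range_iotaC_of_isAlgebraic {z : ℂ} (h : IsAlgebraic ℚ z) : z ∈ Set.range iotaC := by
  have hsplit : ((minpoly ℚ z).map (algebraMap ℚ (AlgebraicClosure ℚ))).Splits :=
    IsAlgClosed.splits _
  have h0 : (minpoly ℚ z).map (algebraMap ℚ (AlgebraicClosure ℚ)) ≠ 0 :=
    Polynomial.map_ne_zero (minpoly.ne_zero h.isIntegral)
  have hroot : (((minpoly ℚ z).map (algebraMap ℚ (AlgebraicClosure ℚ))).map iotaC).IsRoot z := by
    rw [Polynomial.map_map, Subsingleton.elim (iotaC.comp (algebraMap ℚ (AlgebraicClosure ℚ)))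
      (algebraMap ℚ ℂ), Polynomial.IsRoot.def, Polynomial.eval_map_algebraMap]
    exact minpoly.aeval ℚ z
  exact hsplit.mem_range_of_isRoot h0 hroot

end Fermat.Agent.ESLib
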