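import Fermat.Agent.ES.DDefs
import Fermat.Agent.ES.DFormal
import Fermat.Agent.S18.Defs
import Fermat.Agent.S24.Kaehler
import Fermat.Agent.S24.Fibres

/-!
# ES block R1, leaf (K2): two derivations of `FB N` are proportional
-/

set_option autoImplicit false
set_option synthInstance.maxHeartbeats 400000
set_option linter.style.haveILetI false

open AlgebraicCurve IntermediateField ModularCurve
open Fermat.Agent.S18Lib Fermat.Agent.S24Lib

namespace Fermat.Agent.ESLib

noncomputable section

/-- a `ℚ`-derivation of `ℂ` kills the algebraic numbers -/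
theorem k2_deriv_alg (δ : Derivation ℚ ℂ ℂ) {z : ℂ} (hz : IsAlgebraic ℚ z) : δ z = 0 := by
  have h1 := δ.map_aeval (minpoly ℚ z) z
  rw [minpoly.aeval, map_zero] at h1
  have hsep : (minpoly ℚ z).Separable := (minpoly.irreducible hz.isIntegral).separable
  have h2 : Polynomial.aeval z (Polynomial.derivative (minpoly ℚ z)) ≠ 0 :=
    hsep.aeval_derivative_ne_zero (minpoly.aeval ℚ z)
  rcases smul_eq_zero.mp h1.symm with h | h
  · exact absurd h h2
  · exact h

theorem k2_deriv_iotaC (δ : Derivation ℚ ℂ ℂ) (c : Qb) : δ (iotaC c) = 0 := by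
  apply k2_deriv_alg
  have hc : IsAlgebraic ℚ c := (AlgebraicClosure.isAlgebraic ℚ).isAlgebraic c
  obtain ⟨p, hp0, hp⟩ := hc
  refine ⟨p, hp0, ?_⟩
  have := congrArg iotaC hp
  rw [map_zero, Polynomial.aeval_def, Polynomial.hom_eval₂,
    Subsingleton.elim (iotaC.comp (algebraMap ℚ Qb)) (algebraMap ℚ ℂ)] at this
  rw [Polynomial.aeval_def]
  exact this

/-- abstract form: two "derivations along `σ`" of a function field are proportional -/
theorem k2_prop {K F M : Type*} [Field K] [Field F] [Algebra K F] [IsAlgClosed K] [CharZero K]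
    [CommRing M] (hFF : IsFF K F) {y : F} (hy : Transcendental K y) (σ : F →+* M)
    (D1 D2 : F → M)
    (hadd1 : ∀ a b, D1 (a + b) = D1 a + D1 b)
    (hmul1 : ∀ a b, D1 (a * b) = σ a * D1 b + σ b * D1 a)
    (hc1 : ∀ c : K, D1 (algebraMap K F c) = 0)
    (hadd2 : ∀ a b, D2 (a + b) = D2 a + D2 b)
    (hmul2 : ∀ a b, D2 (a * b) = σ a * D2 b + σ b * D2 a)
    (hc2 : ∀ c : K, D2 (algebraMap K F c) = 0) (f : F) :
    D2 y * D1 f = D1 y * D2 f := by
  letI : Algebra F M := σ.toAlgebra
  letI : Algebra K M := (σ.comp (algebraMap K F)).toAlgebra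
  haveI : IsScalarTower K F M := IsScalarTower.of_algebraMap_eq fun c => rfl
  have hsm : ∀ (a : F) (m : M), a • m = σ a * m := fun a m => by
    rw [Algebra.smul_def]; rfl
  have hsmK : ∀ (c : K) (m : M), c • m = σ (algebraMap K F c) * m := fun c m => by
    rw [Algebra.smul_def]; rfl
  have hmem : KaehlerDifferential.D K F f ∈ Submodule.span F {KaehlerDifferential.D K F y} := by
    rw [span_D_eq_top hFF hy]; trivial
  obtain ⟨a, ha⟩ := Submodule.mem_span_singleton.mp hmem
  have key : ∀ (D : F → M), (∀ a b, D (a + b) = D a + D b) →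
      (∀ a b, D (a * b) = σ a * D b + σ b * D a) → (∀ c : K, D (algebraMap K F c) = 0) →
      D f = σ a * D y := by
    intro D hadd hmul hc
    let L : F →ₗ[K] M :=
      { toFun := D
        map_add' := hadd
        map_smul' := fun c x => by
          rw [Algebra.smul_def, hmul, hc, mul_zero, add_zero, RingHom.id_apply, hsmK] }
    let D' : Derivation K F M := Derivation.mk' L (fun x z => by
      change D (x * z) = x • D z + z • D x
      rw [hmul, hsm, hsm])
    have h1 : D'.liftKaehlerDifferential (KaehlerDifferential.D K F f) = D' f :=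
      D'.liftKaehlerDifferential_comp_D f
    rw [← ha, map_smul, D'.liftKaehlerDifferential_comp_D, hsm] at h1
    exact h1.symm
  rw [key D1 hadd1 hmul1 hc1, key D2 hadd2 hmul2 hc2]
  ring

theorem kd_formula (N : ℕ) [NeZero N] (σ : FB N →+* LaurentSeries ℂ)
    (hσ : ∀ c : Qb, σ (algebraMap Qb (FB N) c) = HahnSeries.C (iotaC c))
    (δ : Derivation ℚ ℂ ℂ) (f : FB N) :
    thL (σ (jBar N)) * dL δ (σ f) = dL δ (σ (jBar N)) * thL (σ f) := by
  refine k2_prop (isFF_bar N) (transcendental_jBar N) σ (fun x => dL δ (σ x))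
    (fun x => thL (σ x)) ?_ ?_ ?_ ?_ ?_ ?_ f
  · intro a b; simp only [map_add, dL_add]
  · intro a b; simp only [map_mul, dL_mul]
  · intro c; simp only [hσ, dL_C, k2_deriv_iotaC, map_zero]
  · intro a b; simp only [map_add, thL_add]
  · intro a b; simp only [map_mul, thL_mul]
  · intro c; simp only [hσ, thL_C]

theorem kd_formula_sum (N : ℕ) [NeZero N] (σ : FB N →+* LaurentSeries ℂ)
    (hσ : ∀ c : Qb, σ (algebraMap Qb (FB N) c) = HahnSeries.C (iotaC c))
    (δ : Derivation ℚ ℂ ℂ) {ι : Type*} (s : Finset ι) (c : ι → ℂ) (f : ι → FB N) :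
    thL (σ (jBar N)) * (dL δ (∑ i ∈ s, HahnSeries.C (c i) * σ (f i)) -
        ∑ i ∈ s, HahnSeries.C (δ (c i)) * σ (f i)) =
      dL δ (σ (jBar N)) * thL (∑ i ∈ s, HahnSeries.C (c i) * σ (f i)) := by
  classical
  induction s using Finset.induction_on with
  | empty =>
    have h1 : dL δ 0 = 0 := by ext n; simp
    have h2 : thL 0 = 0 := by ext n; simp
    simp [h1, h2]
  | insert a s ha ih =>
    rw [Finset.sum_insert ha, Finset.sum_insert ha, dL_add, thL_add, mul_add, ← ih, dL_mul,
      thL_mul, dL_C, thL_C]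
    have := kd_formula N σ hσ δ (f a)
    linear_combination (HahnSeries.C (c a)) * this

end

end Fermat.Agent.ESLib
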