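import Fermat.Agent.ES.DFormal
import Fermat.Agent.S18.RiemannLower

/-!
# ES block R1, leaf (K3): a derivation of `ℂ` acts on `M_k(Γ₀(N))` through the rational structure
-/

set_option autoImplicit false
set_option synthInstance.maxHeartbeats 400000

open UpperHalfPlane ModularForm Matrix.SpecialLinearGroup CongruenceSubgroup ModularCurve
open AlgebraicCurve IntermediateField
open scoped MatrixGroups Manifold
open Fermat.Agent.S18Lib Fermat.Agent.S20Lib Fermat.Agent.S28Lib Fermat.Agent.S24Lib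
open Fermat.Agent.S23Lib

namespace Fermat.Agent.ESLib

noncomputable section

theorem k3_qExp_sum (N : ℕ) [NeZero N] (k : ℤ) {r : ℕ} (c : Fin r → ℂ)
    (b : Fin r → ModularForm (Gamma0 N) k) :
    qExpansion 1 (∑ i, c i • b i : ModularForm (Gamma0 N) k) =
      ∑ i, PowerSeries.C (c i) * qExpansion 1 (b i) := by
  classical
  have key : ∀ s : Finset (Fin r),
      qExpansion 1 (∑ i ∈ s, c i • b i : ModularForm (Gamma0 N) k) =
        ∑ i ∈ s, PowerSeries.C (c i) * qExpansion 1 (b i) := by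
    intro s
    induction s using Finset.induction_on with
    | empty =>
      simp only [Finset.sum_empty]
      rw [FunLike.coe_zero]
      exact qExpansion_zero 1
    | insert a s ha ih =>
      rw [Finset.sum_insert ha, Finset.sum_insert ha, FunLike.coe_add,
        ModularForm.qExpansion_add one_pos (one_mem_sp N), ih, FunLike.coe_smul,
        ModularForm.qExpansion_smul one_pos (one_mem_sp N)]
      congr 1
      ext m
      simp
  exact key Finset.univ

theorem k3_injective (N : ℕ) [NeZero N] (k : ℤ) {f g : ModularForm (Gamma0 N) k}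
    (h : qExpansion 1 f = qExpansion 1 g) : f = g := by
  apply br_injective N k
  ext i
  show (qExpansion 1 f).coeff i = (qExpansion 1 g).coeff i
  rw [h]

theorem k3_dP_sum (δ : Derivation ℚ ℂ ℂ) {ι : Type*} (s : Finset ι) (F : ι → PowerSeries ℂ) :
    dP δ (∑ i ∈ s, F i) = ∑ i ∈ s, dP δ (F i) := by
  classical
  induction s using Finset.induction_on with
  | empty =>
    simp only [Finset.sum_empty]
    ext i; simp
  | insert a s ha ih => rw [Finset.sum_insert ha, Finset.sum_insert ha, dP_add, ih]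

theorem k3_main (N : ℕ) [NeZero N] (k : ℤ) (δ : Derivation ℚ ℂ ℂ)
    (Φ : ModularForm (Gamma0 N) k) :
    ∃ (r : ℕ) (c : Fin r → ℂ) (b : Fin r → ModularForm (Gamma0 N) k),
      (∀ i, ∃ s : PowerSeries ℚ, qExpansion 1 (b i) = s.map (algebraMap ℚ ℂ)) ∧
      Φ = ∑ i, c i • b i ∧
      qExpansion 1 (∑ i, δ (c i) • b i : ModularForm (Gamma0 N) k) = dP δ (qExpansion 1 Φ) := by
  classical
  obtain ⟨b, hli, hb⟩ := exists_rat_basis N k
  have hfin : FiniteDimensional ℂ (ModularForm (Gamma0 N) k) :=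
    FiniteDimensional.of_injective _ (br_injective N k)
  let B := Module.Basis.mk hli (hli.span_eq_top_of_card_eq_finrank' (by simp)).ge
  have hB : ∀ i, B i = b i := fun i => Module.Basis.mk_apply _ _ i
  refine ⟨_, fun i => B.repr Φ i, b, hb, ?_, ?_⟩
  · conv_lhs => rw [← B.sum_repr Φ]
    exact Finset.sum_congr rfl fun i _ => by rw [hB]
  · have h1 : Φ = ∑ i, B.repr Φ i • b i := by
      conv_lhs => rw [← B.sum_repr Φ]
      exact Finset.sum_congr rfl fun i _ => by rw [hB]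
    conv_rhs => rw [h1]
    rw [k3_qExp_sum, k3_qExp_sum]
    rw [k3_dP_sum]
    refine Finset.sum_congr rfl fun i _ => ?_
    obtain ⟨s, hs⟩ := hb i
    rw [hs, dP_C_mul_map]

theorem exists_deriv_mf (N : ℕ) [NeZero N] (k : ℤ) (δ : Derivation ℚ ℂ ℂ) {Φ : ℍ → ℂ}
    (hΦ : IsMF (Gamma0 N) k Φ) :
    ∃ Ψ : ℍ → ℂ, IsMF (Gamma0 N) k Ψ ∧ qExpansion 1 Ψ = dP δ (qExpansion 1 Φ) := by
  obtain ⟨r, c, b, -, -, h⟩ := k3_main N k δ hΦ.toModularForm
  exact ⟨_, isMF_coe _ (∑ i, δ (c i) • b i : ModularForm (Gamma0 N) k), h⟩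

theorem exists_decomp (N : ℕ) [NeZero N] (k : ℤ) (δ : Derivation ℚ ℂ ℂ) {Φ Ψ : ℍ → ℂ}
    (hΦ : IsMF (Gamma0 N) k Φ) (hΨ : IsMF (Gamma0 N) k Ψ)
    (hq : qExpansion 1 Ψ = dP δ (qExpansion 1 Φ)) :
    ∃ (r : ℕ) (c : Fin r → ℂ) (b : Fin r → ModularForm (Gamma0 N) k),
      (∀ i, ∃ s : PowerSeries ℚ, qExpansion 1 (b i) = s.map (algebraMap ℚ ℂ)) ∧
      Φ = ∑ i, c i • (b i : ℍ → ℂ) ∧ Ψ = ∑ i, δ (c i) • (b i : ℍ → ℂ) := by
  obtain ⟨r, c, b, hb, h1, h2⟩ := k3_main N k δ hΦ.toModularForm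
  have hcoe : ∀ d : Fin r → ℂ, ((∑ i, d i • b i : ModularForm (Gamma0 N) k) : ℍ → ℂ) =
      ∑ i, d i • (b i : ℍ → ℂ) := by
    intro d
    ext z
    simp
  refine ⟨r, c, b, hb, ?_, ?_⟩
  · rw [← hcoe, ← h1]; rfl
  · rw [← hcoe]
    have : hΨ.toModularForm = ∑ i, δ (c i) • b i := by
      apply k3_injective
      rw [h2]
      exact hq
    rw [← this]; rfl

end

end Fermat.Agent.ESLib
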