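import Mathlib
import Fermat.Agent.ES.Defs
import Fermat.Agent.S24.Taylor

/-!
# ES R1 (K7): division of holomorphic functions on the upper half plane
-/

set_option autoImplicit false

open UpperHalfPlane ModularForm Matrix.SpecialLinearGroup CongruenceSubgroup ModularCurve
open scoped MatrixGroups Manifold Topology
open Fermat.Agent.S24Lib

namespace Fermat.Agent.ESLib

noncomputable section

/-- local division of analytic functions -/
theorem k7_local {p q : ℂ → ℂ} {z₀ : ℂ} (hp : AnalyticAt ℂ p z₀) (hq : AnalyticAt ℂ q z₀) {b : ℕ}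
    (hb : analyticOrderAt q z₀ = b) (hle : (b : ℕ∞) ≤ analyticOrderAt p z₀) :
    ∃ r : ℂ → ℂ, AnalyticAt ℂ r z₀ ∧ (∀ᶠ z in 𝓝 z₀, p z = q z * r z) ∧
      ∀ᶠ z in 𝓝 z₀, z ≠ z₀ → q z ≠ 0 := by
  obtain ⟨q₁, hq₁, hq₁0, hqe⟩ := (hq.analyticOrderAt_eq_natCast).mp hb
  obtain ⟨p₂, hp₂, hpe⟩ := (natCast_le_analyticOrderAt hp).mp hle
  have hne : ∀ᶠ z in 𝓝 z₀, q₁ z ≠ 0 := hq₁.continuousAt.eventually_ne hq₁0
  refine ⟨fun z => p₂ z / q₁ z, hp₂.div hq₁ hq₁0, ?_, ?_⟩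
  · filter_upwards [hqe, hpe, hne] with z h1 h2 h3
    rw [h1, h2, smul_eq_mul, smul_eq_mul]
    field_simp
  · filter_upwards [hqe, hne] with z h1 h3 hz
    rw [h1, smul_eq_mul]
    exact mul_ne_zero (pow_ne_zero _ (sub_ne_zero.mpr hz)) h3

theorem exists_mdiff_quotient {P Q : ℍ → ℂ} (hP : MDiff P) (hQ : MDiff Q) (hQ0 : Q ≠ 0)
    (h : ∀ τ, ordH Q τ ≤ ordH P τ) : ∃ R : ℍ → ℂ, MDiff R ∧ P = Q * R := by
  by_cases hP0 : P = 0
  · exact ⟨0, mdifferentiable_const, by rw [hP0, mul_zero]⟩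
  have hloc : ∀ τ : ℍ, ∃ r : ℂ → ℂ, AnalyticAt ℂ r τ ∧
      (∀ᶠ z : ℂ in 𝓝 (τ : ℂ), (P ∘ ofComplex) z = (Q ∘ ofComplex) z * r z) ∧
      ∀ᶠ z : ℂ in 𝓝 (τ : ℂ), z ≠ (τ : ℂ) → (Q ∘ ofComplex) z ≠ 0 := by
    intro τ
    have hp := analyticAt_comp_ofComplex hP τ
    have hq := analyticAt_comp_ofComplex hQ τ
    have h1 : (taylorH P τ).order = analyticOrderAt (P ∘ ofComplex) τ := order_taylorPS hp
    have h2 : (taylorH Q τ).order = analyticOrderAt (Q ∘ ofComplex) τ := order_taylorPS hq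
    have h3 : (taylorH P τ).order ≠ ⊤ := by
      rw [Ne, PowerSeries.order_eq_top, taylorH_eq_zero_iff hP]
      exact hP0
    have h4 : (taylorH Q τ).order ≠ ⊤ := by
      rw [Ne, PowerSeries.order_eq_top, taylorH_eq_zero_iff hQ]
      exact hQ0
    have h5 := h τ
    unfold ordH at h5
    have h6 : (taylorH Q τ).order.toNat ≤ (taylorH P τ).order.toNat := by exact_mod_cast h5
    refine k7_local hp hq (b := (taylorH Q τ).order.toNat) ?_ ?_
    · rw [← h2]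
      exact (ENat.natCast_toNat h4).symm
    · rw [← h1, ← ENat.natCast_toNat h3]
      exact_mod_cast h6
  choose r hr hpr hq using hloc
  refine ⟨fun τ => r τ τ, ?_, ?_⟩
  · rw [UpperHalfPlane.mdifferentiable_iff]
    intro z hz
    have h1 : ((fun τ : ℍ => r τ τ) ∘ ofComplex) =ᶠ[𝓝 z] r ⟨z, hz⟩ := by
      filter_upwards [isOpen_upperHalfPlaneSet.mem_nhds hz, hpr ⟨z, hz⟩, hq ⟨z, hz⟩]
        with w hw h2 h3
      show r (ofComplex w) (ofComplex w) = _
      rw [ofComplex_apply_of_im_pos hw]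
      by_cases hwz : w = z
      · subst hwz
        rfl
      · have h4 := (hpr ⟨w, hw⟩).self_of_nhds
        have h5 : (Q ∘ ofComplex) w * r ⟨w, hw⟩ w = (Q ∘ ofComplex) w * r ⟨z, hz⟩ w := by
          rw [← h2]
          exact h4.symm
        exact mul_left_cancel₀ (h3 hwz) h5
    exact ((hr ⟨z, hz⟩).differentiableAt.congr_of_eventuallyEq h1).differentiableWithinAt
  · ext τ
    have := (hpr τ).self_of_nhds
    simpa using this

end

end Fermat.Agent.ESLib
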