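import Fermat.Agent.ES.DDefs
import Fermat.Agent.ES.DFormal
import Fermat.Agent.ES.KDAbs
import Fermat.Agent.ES.DerivMF
import Fermat.Agent.S18.RiemannLower
import Fermat.Agent.S24.EmbCommon
import Fermat.Agent.S24.Theta

/-!
# ES block R1, leaf (K4): the formula `θJ (δa - b) = δJ θa` for every analytic embedding
-/

set_option autoImplicit false
set_option synthInstance.maxHeartbeats 400000

open UpperHalfPlane ModularForm Matrix.SpecialLinearGroup CongruenceSubgroup ModularCurve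
open AlgebraicCurve IntermediateField
open scoped MatrixGroups Manifold
open Fermat.Agent.S18Lib Fermat.Agent.S20Lib Fermat.Agent.S28Lib Fermat.Agent.S24Lib

namespace Fermat.Agent.ESLib

noncomputable section

lemma k4_theta_eq (N : ℕ) [NeZero N] (x : FB N) (g : WH (Gamma0 N))
    (h : laurentFun 1 (g : ℍ → ℂ) = coeffMap iotaC (x : LaurentSeries Qb)) :
    W6_theta N x = algebraMap _ _ g := by
  apply (W6_laurFrac N).injective
  rw [W6_laurFrac_theta, W6_laurFrac_algebraMap, h]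

lemma k4_theta_const (N : ℕ) [NeZero N] (c : Qb) :
    W6_theta N (algebraMap Qb (FB N) c) = algebraMap _ _ (whConst (Gamma0 N) (iotaC c)) := by
  apply k4_theta_eq
  have h1 : ((algebraMap Qb (FB N) c : FB N) : LaurentSeries Qb) =
      algebraMap Qb (LaurentSeries Qb) c := rfl
  rw [h1, W6_coeffMap_iotaC_algebraMap]
  exact laurentFun_const one_pos _

lemma k4_theta_j (N : ℕ) [NeZero N] :
    W6_theta N (jBar N) = algebraMap _ _ (⟨jan, isWH_jan.mono le_top⟩ : WH (Gamma0 N)) := by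
  apply k4_theta_eq
  show laurentFun 1 jan = coeffMap iotaC (coeffEmb Qb (qExpand ℚ 1 jq))
  rw [W6_coeffMap_iotaC_coeffEmb, ← laurentFun_janD, janD_one]

/-- cancel `Δⁿ` -/
lemma k4_eq_sum (N : ℕ) (n : ℕ) {r : ℕ} (c : Fin r → ℂ) (y : Fin r → WH (Gamma0 N))
    (B : Fin r → ℍ → ℂ) (hy : ∀ i, (y i : ℍ → ℂ) * Dl ^ n = B i) (a : WH (Gamma0 N)) {Φ : ℍ → ℂ}
    (ha : (a : ℍ → ℂ) * Dl ^ n = Φ) (hΦ : Φ = ∑ i, c i • B i) :
    a = ∑ i, whConst (Gamma0 N) (c i) * y i := by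
  apply Subtype.ext
  funext τ
  have hne : Dl τ ^ n ≠ 0 := pow_ne_zero _ (Dl_ne_zero τ)
  have h1 : (a : ℍ → ℂ) τ * Dl τ ^ n = ∑ i, c i * ((y i : ℍ → ℂ) τ * Dl τ ^ n) := by
    have := congrFun (ha.trans hΦ) τ
    simp only [Pi.mul_apply, Pi.pow_apply, Finset.sum_apply, Pi.smul_apply, smul_eq_mul] at this
    rw [this]
    refine Finset.sum_congr rfl fun i _ => ?_
    rw [← hy i]
    rfl
  have h2 : ((∑ i, whConst (Gamma0 N) (c i) * y i : WH (Gamma0 N)) : ℍ → ℂ) τ =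
      ∑ i, c i * (y i : ℍ → ℂ) τ := by
    rw [AddSubmonoidClass.coe_finsetSum, Finset.sum_apply]
    rfl
  rw [h2]
  apply mul_right_cancel₀ hne
  rw [h1, Finset.sum_mul]
  exact Finset.sum_congr rfl fun i _ => by ring

/-- (K4) -/
theorem kd_analytic (N : ℕ) [NeZero N] (E : WH (Gamma0 N) →+* LaurentSeries ℂ)
    (hE : Function.Injective E) (hEc : ∀ c : ℂ, E (whConst _ c) = HahnSeries.C c)
    (δ : Derivation ℚ ℂ ℂ) (n : ℕ) {Φ Ψ : ℍ → ℂ}
    (hΦ : IsMF (Gamma0 N) (12 * (n : ℤ)) Φ) (hΨ : IsMF (Gamma0 N) (12 * (n : ℤ)) Ψ)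
    (hq : qExpansion 1 Ψ = dP δ (qExpansion 1 Φ))
    (a b : WH (Gamma0 N)) (ha : (a : ℍ → ℂ) * Dl ^ n = Φ) (hb : (b : ℍ → ℂ) * Dl ^ n = Ψ) :
    thL (E ⟨jan, isWH_jan.mono le_top⟩) * (dL δ (E a) - E b) =
      dL δ (E ⟨jan, isWH_jan.mono le_top⟩) * thL (E a) := by
  obtain ⟨r, c, B, hs, eΦ, eΨ⟩ := exists_decomp N (12 * (n : ℤ)) δ hΦ hΨ hq
  choose s hs using hs
  choose g hgWH hgL hgB using fun i => bl_Rep N n (B i) (s i) (hs i)
  have hmem : ∀ i, blX n (s i) ∈ FB N := fun i =>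
    mem_FB_of_Rep N n _ (bl_W7_Rep N n (B i) (s i) (hs i))
  set σ : FB N →+* LaurentSeries ℂ := (Emb.lift E hE).comp (W6_theta N) with hσdef
  have hσ : ∀ c : Qb, σ (algebraMap Qb (FB N) c) = HahnSeries.C (iotaC c) := by
    intro c
    rw [hσdef, RingHom.comp_apply, k4_theta_const, Emb.lift_algebraMap, hEc]
  have hσj : σ (jBar N) = E ⟨jan, isWH_jan.mono le_top⟩ := by
    rw [hσdef, RingHom.comp_apply, k4_theta_j, Emb.lift_algebraMap]
  let f : Fin r → FB N := fun i => ⟨blX n (s i), hmem i⟩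
  let y : Fin r → WH (Gamma0 N) := fun i => ⟨g i, hgWH i⟩
  have hσf : ∀ i, σ (f i) = E (y i) := by
    intro i
    rw [hσdef, RingHom.comp_apply, k4_theta_eq N (f i) (y i) (hgL i), Emb.lift_algebraMap]
  have ea : E a = ∑ i, HahnSeries.C (c i) * σ (f i) := by
    rw [k4_eq_sum N n c y (fun i => (B i : ℍ → ℂ)) hgB a ha eΦ, map_sum]
    exact Finset.sum_congr rfl fun i _ => by rw [map_mul, hEc, hσf]
  have eb : E b = ∑ i, HahnSeries.C (δ (c i)) * σ (f i) := by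
    rw [k4_eq_sum N n (fun i => δ (c i)) y (fun i => (B i : ℍ → ℂ)) hgB b hb eΨ, map_sum]
    exact Finset.sum_congr rfl fun i _ => by rw [map_mul, hEc, hσf]
  rw [ea, eb, ← hσj]
  exact kd_formula_sum N σ hσ δ Finset.univ c f

end

end Fermat.Agent.ESLib
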