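import Mathlib
import Fermat.Agent.ES.Defs
import Fermat.Agent.S24.FibreLemma
import Fermat.Agent.S24.Taylor
import Fermat.Agent.S24.JFun
import Fermat.Agent.S24.Theta
import Fermat.Agent.S24.Degree
import Fermat.Agent.S24.EmbAt

/-!
# ES block (B1): the function field of `X₀(N)` over `ℂ` is `Frac (WH (Γ₀(N)))`
-/

set_option autoImplicit false

open UpperHalfPlane ModularForm Matrix.SpecialLinearGroup CongruenceSubgroup ModularCurve
open AlgebraicCurve IntermediateField
open scoped MatrixGroups Manifold Polynomial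
open Fermat.Agent.S20Lib Fermat.Agent.S28Lib Fermat.Agent.S24Lib

namespace Fermat.Agent.ESLib

noncomputable section

/-- generators of `FC N` over `ℂ`. -/
def b1_gens (N : ℕ) : Set (LaurentSeries ℂ) := ⇑(coeffEmb ℂ) '' divisorExpansions N

theorem b1_coeffEmb_algebraMap (c : ℚ) :
    coeffEmb ℂ (algebraMap ℚ (LaurentSeries ℚ) c) =
      algebraMap ℂ (LaurentSeries ℂ) (algebraMap ℚ ℂ c) := by
  rw [algebraMap_laurentSeries_eq_single, algebraMap_laurentSeries_eq_single, coeffEmb,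
    coeffMap_single]

theorem b1_FC_eq_adjoin (N : ℕ) [NeZero N] :
    FC N = IntermediateField.adjoin ℂ (b1_gens N) := by
  apply le_antisymm
  · show IntermediateField.adjoin ℂ _ ≤ _
    rw [IntermediateField.adjoin_le_iff]
    rintro _ ⟨x, hx, rfl⟩
    have hx' : x ∈ IntermediateField.adjoin ℚ (divisorExpansions N) := hx
    show coeffEmb ℂ x ∈ IntermediateField.adjoin ℂ (b1_gens N)
    induction hx' using IntermediateField.adjoin_induction with
    | mem y hy => exact IntermediateField.subset_adjoin _ _ ⟨y, hy, rfl⟩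
    | algebraMap c =>
      rw [b1_coeffEmb_algebraMap]
      exact IntermediateField.algebraMap_mem _ _
    | add y z _ _ hy hz => rw [map_add]; exact add_mem (hy (by assumption)) (hz (by assumption))
    | inv y _ hy => rw [map_inv₀]; exact inv_mem (hy (by assumption))
    | mul y z _ _ hy hz => rw [map_mul]; exact mul_mem (hy (by assumption)) (hz (by assumption))
  · apply IntermediateField.adjoin.mono
    rintro _ ⟨x, hx, rfl⟩
    exact ⟨x, IntermediateField.subset_adjoin _ _ hx, rfl⟩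

theorem b1_algebraMap_eq_C (c : ℂ) :
    algebraMap ℂ (LaurentSeries ℂ) c = HahnSeries.C c := by
  rw [algebraMap_laurentSeries_eq_single]
  rfl

theorem b1_mem_fieldRange (N : ℕ) [NeZero N] (x : LaurentSeries ℂ)
    (hx : x ∈ FC N) : x ∈ (W6_laurFrac N).fieldRange := by
  rw [b1_FC_eq_adjoin] at hx
  induction hx using IntermediateField.adjoin_induction with
  | mem y hy =>
    obtain ⟨y, ⟨d, hne, hd, rfl⟩, rfl⟩ := hy
    exact ⟨algebraMap _ _ (⟨janD d, isWH_janD hd⟩ : WH (Gamma0 N)), by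
      rw [W6_laurFrac_algebraMap, laurentFun_janD]; rfl⟩
  | algebraMap c =>
    exact ⟨algebraMap _ _ (whConst (Gamma0 N) c), by
      rw [W6_laurFrac_algebraMap, b1_algebraMap_eq_C]
      exact laurentFun_const one_pos c⟩
  | add y z _ _ hy hz => exact add_mem hy hz
  | inv y _ hy => exact inv_mem hy
  | mul y z _ _ hy hz => exact mul_mem hy hz

/-- `j` as a Laurent series over `ℂ` -/
def b1_jL : LaurentSeries ℂ := coeffEmb ℂ (qExpand ℚ 1 jq)

theorem b1_coe_jC (N : ℕ) : ((jC N : FC N) : LaurentSeries ℂ) = b1_jL := rfl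

theorem b1_jL_eq : b1_jL = coeffEmb ℂ jq := by rw [b1_jL, qExpand_one_apply]

theorem b1_coeff_jL_pow_self (n : ℕ) : (b1_jL ^ n).coeff (-(n : ℤ)) = 1 := by
  rw [b1_jL_eq, ← map_pow, coeffEmb_coeff, coeff_jq_pow_self, map_one]

theorem b1_coeff_jL_pow_of_lt {n : ℕ} {m : ℤ} (hm : m < -(n : ℤ)) : (b1_jL ^ n).coeff m = 0 := by
  rw [b1_jL_eq, ← map_pow, coeffEmb_coeff, coeff_jq_pow_of_lt hm, map_zero]

theorem b1_coeff_algebraMap_mul (a : ℂ) (x : LaurentSeries ℂ) (k : ℤ) :
    (algebraMap ℂ (LaurentSeries ℂ) a * x).coeff k = a * x.coeff k := by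
  rw [algebraMap_laurentSeries_eq_single, HahnSeries.coeff_single_mul, sub_zero]

theorem b1_transcendental_jL : Transcendental ℂ b1_jL := by
  rw [transcendental_iff]
  intro p hp
  by_contra hp0
  have h1 := congrArg (fun x => HahnSeries.coeff x (-(p.natDegree : ℤ))) hp
  simp only [Polynomial.aeval_eq_sum_range, HahnSeries.coeff_sum, Algebra.smul_def,
    b1_coeff_algebraMap_mul, HahnSeries.coeff_zero] at h1
  rw [Finset.sum_eq_single p.natDegree] at h1
  · rw [b1_coeff_jL_pow_self, mul_one] at h1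
    exact hp0 (Polynomial.leadingCoeff_eq_zero.mp h1)
  · intro i hi hne
    rw [Finset.mem_range] at hi
    have hlt : (-(p.natDegree : ℤ)) < -(i : ℤ) := by omega
    rw [b1_coeff_jL_pow_of_lt hlt, mul_zero]
  · intro h
    exact absurd (Finset.mem_range.mpr (Nat.lt_succ_self _)) h

theorem transcendental_jC (N : ℕ) [NeZero N] : Transcendental ℂ (jC N) := by
  rw [transcendental_iff]
  intro p hp
  apply transcendental_iff.mp b1_transcendental_jL
  have := congrArg (FC N).val hp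
  rw [← Polynomial.aeval_algHom_apply, map_zero] at this
  exact this

/-- `Δ` as a Laurent series over `ℂ` -/
def b1_DK : LaurentSeries ℂ := HahnSeries.ofPowerSeries ℤ ℂ (qExpansion 1 Dl)

/-- `x` is the expansion of `G/Δ^M` with `G` a modular form of weight `12 M`. -/
def b1_Rep (N M : ℕ) (x : LaurentSeries ℂ) : Prop :=
  ∃ g : ℍ → ℂ, IsWH (Gamma0 N) g ∧ laurentFun 1 g = x ∧
    IsMF (Gamma0 N) (12 * (M : ℤ)) (g * Dl ^ M)

variable {N M M' : ℕ} {x y : LaurentSeries ℂ}

theorem b1_Rep.add (hx : b1_Rep N M x) (hy : b1_Rep N M y) : b1_Rep N M (x + y) := by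
  obtain ⟨g₁, h₁, e₁, m₁⟩ := hx
  obtain ⟨g₂, h₂, e₂, m₂⟩ := hy
  refine ⟨g₁ + g₂, h₁.add h₂, ?_, ?_⟩
  · rw [laurentFun_add one_pos h₁.isMerInf_one h₂.isMerInf_one, e₁, e₂]
  · rw [add_mul]; exact m₁.add m₂

theorem b1_Rep.mul (hx : b1_Rep N M x) (hy : b1_Rep N M' y) : b1_Rep N (M + M') (x * y) := by
  obtain ⟨g₁, h₁, e₁, m₁⟩ := hx
  obtain ⟨g₂, h₂, e₂, m₂⟩ := hy
  refine ⟨g₁ * g₂, h₁.mul h₂, ?_, ?_⟩
  · rw [laurentFun_mul one_pos h₁.isMerInf_one h₂.isMerInf_one, e₁, e₂]
  · rw [pow_add, mul_mul_mul_comm]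
    exact m₁.mul' m₂ (by push_cast; ring)

theorem b1_Rep_const (N : ℕ) (a : ℂ) : b1_Rep N 0 (algebraMap ℂ (LaurentSeries ℂ) a) := by
  refine ⟨Function.const ℍ a, isWH_const _, ?_, ?_⟩
  · rw [laurentFun_const one_pos, b1_algebraMap_eq_C]
  · rw [pow_zero, mul_one]
    simpa using isMF_const (Γ := Gamma0 N) a

theorem b1_Rep_zero (N M : ℕ) : b1_Rep N M 0 := by
  refine ⟨0, isWH_const 0, ?_, ?_⟩
  · have := laurentFun_const (h := 1) one_pos 0
    rw [map_zero] at this
    exact this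
  · rw [zero_mul]; exact IsMF.zero_mf

theorem b1_Rep.smul (a : ℂ) (hx : b1_Rep N M x) :
    b1_Rep N M (algebraMap ℂ (LaurentSeries ℂ) a * x) := by
  have := (b1_Rep_const N a).mul hx
  rwa [zero_add] at this

theorem b1_Rep_one_one (N : ℕ) : b1_Rep N 1 1 := by
  refine ⟨Function.const ℍ 1, isWH_const _, ?_, ?_⟩
  · rw [laurentFun_const one_pos, map_one]
  · rw [pow_one]
    have : (Function.const ℍ (1 : ℂ)) * Dl = Dl := by
      ext τ; simp
    rw [this]
    simpa using isMF_Dl.mono (Γ' := Gamma0 N) le_top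

theorem b1_Rep_jL (N : ℕ) : b1_Rep N 1 b1_jL := by
  refine ⟨jan, isWH_jan.mono le_top, ?_, ?_⟩
  · rw [← janD_one, laurentFun_janD]; rfl
  · rw [pow_one, W7_jan_mul_Dl]
    have h : IsMF ⊤ 12 (E4 ^ 3) := by
      have := (isMF_E4.mul isMF_E4).mul isMF_E4
      have e : E4 ^ 3 = E4 * E4 * E4 := by ring
      rw [e]
      exact this
    simpa using h.mono (Γ' := Gamma0 N) le_top

theorem b1_Rep_one (N M : ℕ) : b1_Rep N M 1 := by
  induction M with
  | zero => simpa using b1_Rep_const N 1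
  | succ k ih => simpa using ih.mul (b1_Rep_one_one N)

theorem b1_Rep.lift (hx : b1_Rep N M x) (h : M ≤ M') : b1_Rep N M' x := by
  obtain ⟨k, rfl⟩ := Nat.exists_eq_add_of_le h
  simpa using hx.mul (b1_Rep_one N k)

theorem b1_Rep_jL_pow (N l : ℕ) : b1_Rep N l (b1_jL ^ l) := by
  induction l with
  | zero => simpa using b1_Rep_one N 0
  | succ k ih => rw [pow_succ]; exact ih.mul (b1_Rep_jL N)

theorem b1_Rep.sum {α : Type*} (s : Finset α) (v : α → LaurentSeries ℂ)
    (h : ∀ i ∈ s, b1_Rep N M (v i)) : b1_Rep N M (∑ i ∈ s, v i) :=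
  Finset.sum_induction _ _ (fun _ _ => b1_Rep.add) (b1_Rep_zero N M) h

theorem b1_Rep_aeval (N : ℕ) {L : ℕ} {P : ℂ[X]} (hP : P.natDegree < L + 1) :
    b1_Rep N L (Polynomial.aeval b1_jL P) := by
  rw [Polynomial.aeval_eq_sum_range' hP]
  refine b1_Rep.sum _ _ fun i hi => ?_
  rw [Finset.mem_range] at hi
  rw [Algebra.smul_def]
  exact ((b1_Rep_jL_pow N i).lift (Nat.lt_succ_iff.mp hi)).smul _

theorem b1_Rep_of_isWH (N : ℕ) {g : ℍ → ℂ} (hg : IsWH (Gamma0 N) g) :
    ∃ M₀ : ℕ, b1_Rep N M₀ (laurentFun 1 g) := by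
  obtain ⟨M₀, h⟩ := hg.exists_isMF
  exact ⟨M₀, g, hg, rfl, h M₀ le_rfl⟩

theorem b1_Rep.eq_zero [NeZero N] (hx : b1_Rep N M x)
    (h0 : ∀ k : ℕ, k ≤ M * (Gamma0 N).index → (x * b1_DK ^ M).coeff (k : ℤ) = 0) : x = 0 := by
  obtain ⟨g, hg, e, m⟩ := hx
  have hb : IsBoundedAtImInfty (g * Dl ^ M) := by simpa using m.bdd 1
  have h1 := laurentFun_mul_pow one_pos hg.isMerInf_one hb
  rw [Nat.cast_one, e] at h1
  have h2 : m.toModularForm = 0 := by
    apply ModularForm.sturm_bound_Gamma0 N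
    intro k hk
    have hk' : k ≤ M * (Gamma0 N).index := by
      have e1 : ((12 : ℤ) * (M : ℤ) * ((Gamma0 N).index : ℤ)) =
          ((12 * (M * (Gamma0 N).index) : ℕ) : ℤ) := by push_cast; ring
      rwa [e1, Int.toNat_natCast, Nat.mul_div_cancel_left _ (by norm_num)] at hk
    have h3 := congrArg (fun z => HahnSeries.coeff z (k : ℤ)) h1
    simp only [HahnSeries.ofPowerSeries_apply_coeff] at h3
    have h4 := h0 k hk'
    rw [b1_DK] at h4
    rw [h4] at h3
    exact h3.symm
  have h3 : g * Dl ^ M = 0 := by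
    have := congrArg (fun F : ModularForm _ _ => (F : ℍ → ℂ)) h2
    simpa using this
  have h4 : g = 0 := by
    ext τ
    have := congrFun h3 τ
    simp only [Pi.mul_apply, Pi.pow_apply, Pi.zero_apply, mul_eq_zero] at this
    rcases this with h | h
    · exact h
    · exact absurd (eq_zero_of_pow_eq_zero h) (Dl_ne_zero τ)
  rw [← e]
  exact (laurentFun_eq_zero_iff one_pos hg.isMerInf_one).mpr h4

theorem b1_natDegree_lt {p : ℂ[X]} {n : ℕ} (hn : 0 < n) (h : p ∈ Polynomial.degreeLT ℂ n) :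
    p.natDegree < n := by
  by_cases hp : p = 0
  · simp [hp, hn]
  · exact (Polynomial.natDegree_lt_iff_degree_lt hp).mpr (Polynomial.mem_degreeLT.mp h)

theorem b1_core (N : ℕ) [NeZero N] {α : Type} [Fintype α] (c : α → LaurentSeries ℂ)
    (hc : ∀ i, ∃ g, IsWH (Gamma0 N) g ∧ laurentFun 1 g = c i)
    (hind : ∀ P : α → ℂ[X], ∑ i, Polynomial.aeval b1_jL (P i) * c i = 0 → ∀ i, P i = 0) :
    Fintype.card α ≤ (Gamma0 N).index := by
  classical
  set n := (Gamma0 N).index with hn
  have hc' : ∀ i, ∃ M₀ : ℕ, b1_Rep N M₀ (c i) := by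
    intro i
    obtain ⟨g, hg, e⟩ := hc i
    rw [← e]
    exact b1_Rep_of_isWH N hg
  choose M₀ hM₀ using hc'
  set M1 := Finset.univ.sup M₀ with hM1def
  have hM1 : ∀ i, b1_Rep N M1 (c i) := fun i => (hM₀ i).lift (Finset.le_sup (Finset.mem_univ i))
  by_contra hlt
  rw [not_le] at hlt
  set L := M1 * n + 1 with hL
  set M := L + M1 with hM
  set B := M * n with hB
  let S : (α → Polynomial.degreeLT ℂ (L + 1)) → LaurentSeries ℂ :=
    fun P => ∑ i, Polynomial.aeval b1_jL (P i : ℂ[X]) * c i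
  have hSadd : ∀ P Q, S (P + Q) = S P + S Q := by
    intro P Q
    simp only [S, Pi.add_apply, Submodule.coe_add, map_add, add_mul, Finset.sum_add_distrib]
  have hSsmul : ∀ (a : ℂ) P, S (a • P) = algebraMap ℂ (LaurentSeries ℂ) a * S P := by
    intro a P
    simp only [S, Pi.smul_apply, Submodule.coe_smul, Algebra.smul_def, Finset.mul_sum,
      map_mul, mul_assoc]
    refine Finset.sum_congr rfl fun i _ => ?_
    congr 1
    simp
  let Φ : (α → Polynomial.degreeLT ℂ (L + 1)) →ₗ[ℂ] (Fin (B + 1) → ℂ) :=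
    { toFun := fun P k => (S P * b1_DK ^ M).coeff ((k : ℕ) : ℤ)
      map_add' := by
        intro P Q
        funext k
        simp only [hSadd, add_mul, HahnSeries.coeff_add, Pi.add_apply]
      map_smul' := by
        intro a P
        funext k
        simp only [hSsmul, mul_assoc, b1_coeff_algebraMap_mul, Pi.smul_apply, smul_eq_mul,
          RingHom.id_apply] }
  have hinj : Function.Injective Φ := by
    rw [injective_iff_map_eq_zero]
    intro P hP
    have hrep : b1_Rep N M (S P) := by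
      refine b1_Rep.sum _ _ fun i _ => ?_
      exact (b1_Rep_aeval N (b1_natDegree_lt (Nat.succ_pos L) (P i).2)).mul (hM1 i)
    have hS0 : S P = 0 := by
      apply hrep.eq_zero
      intro k hk
      exact congrFun hP ⟨k, Nat.lt_succ_of_le hk⟩
    funext i
    exact Subtype.ext (hind (fun i => (P i : ℂ[X])) hS0 i)
  have : Module.Finite ℂ (Polynomial.degreeLT ℂ (L + 1)) :=
    Module.Finite.equiv (Polynomial.degreeLTEquiv ℂ (L + 1)).symm
  have h1 := LinearMap.finrank_le_finrank_of_injective hinj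
  rw [Module.finrank_pi_fintype, Module.finrank_fin_fun] at h1
  simp only [(Polynomial.degreeLTEquiv ℂ (L + 1)).finrank_eq, Module.finrank_fin_fun,
    Finset.sum_const, Finset.card_univ, smul_eq_mul] at h1
  have h2 : (n + 1) * (L + 1) ≤ Fintype.card α * (L + 1) := Nat.mul_le_mul_right _ hlt
  have h3 : (n + 1) * (L + 1) ≤ (L + M1) * n + 1 := h2.trans h1
  nlinarith

/-- the core bound for families in the range of `Frac (WH) → ℂ((q))`. -/
theorem b1_core_range (N : ℕ) [NeZero N] {α : Type} [Fintype α] (c : α → LaurentSeries ℂ)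
    (hc : ∀ i, c i ∈ (W6_laurFrac N).fieldRange)
    (hind : ∀ P : α → ℂ[X], ∑ i, Polynomial.aeval b1_jL (P i) * c i = 0 → ∀ i, P i = 0) :
    Fintype.card α ≤ (Gamma0 N).index := by
  classical
  have hden : ∀ i : α, ∃ r t : WH (Gamma0 N), t ≠ 0 ∧
      c i * laurentFun 1 (t : ℍ → ℂ) = laurentFun 1 (r : ℍ → ℂ) := by
    intro i
    obtain ⟨z, hz⟩ := hc i
    obtain ⟨a, b, hb, rfl⟩ := IsFractionRing.div_surjective (A := WH (Gamma0 N)) z
    have hb0 : b ≠ 0 := nonZeroDivisors.ne_zero hb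
    refine ⟨a, b, hb0, ?_⟩
    rw [← hz, map_div₀, W6_laurFrac_algebraMap, W6_laurFrac_algebraMap]
    refine div_mul_cancel₀ _ ?_
    intro h
    exact hb0 (Subtype.ext ((laurentFun_eq_zero_iff one_pos b.2.isMerInf_one).mp h))
  choose r t ht0 hrt using hden
  set T : WH (Gamma0 N) := ∏ i, t i with hT
  have hT0 : T ≠ 0 := Finset.prod_ne_zero_iff.mpr fun i _ => ht0 i
  set b : LaurentSeries ℂ := W6_laurHom N T with hb
  have hb0 : b ≠ 0 := fun h => hT0 (W6_laurHom_injective N (by rw [← hb, h, map_zero]))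
  refine b1_core N (fun i => c i * b) ?_ ?_
  · intro i
    have h1 : T = t i * ∏ k ∈ Finset.univ.erase i, t k :=
      (Finset.mul_prod_erase _ _ (Finset.mem_univ i)).symm
    refine ⟨((r i * ∏ k ∈ Finset.univ.erase i, t k : WH (Gamma0 N)) : ℍ → ℂ),
      (r i * ∏ k ∈ Finset.univ.erase i, t k : WH (Gamma0 N)).2, ?_⟩
    show W6_laurHom N (r i * ∏ k ∈ Finset.univ.erase i, t k) = c i * b
    rw [hb, h1, map_mul, map_mul, ← mul_assoc, W6_laurHom_apply N (t i), hrt, W6_laurHom_apply]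
  · intro P hP
    apply hind
    have h : (∑ i, Polynomial.aeval b1_jL (P i) * c i) * b = 0 := by
      rw [Finset.sum_mul, ← hP]
      exact Finset.sum_congr rfl fun i _ => by ring
    exact (mul_eq_zero.mp h).resolve_right hb0

theorem b1_coe_aeval_gen (N : ℕ) (p : ℂ[X]) :
    (((Polynomial.aeval (AdjoinSimple.gen ℂ (jC N)) p : ℂ⟮jC N⟯) :
      FC N) : LaurentSeries ℂ) = Polynomial.aeval b1_jL p := by
  have e1 : ((Polynomial.aeval (AdjoinSimple.gen ℂ (jC N)) p : ℂ⟮jC N⟯) :
      FC N) = Polynomial.aeval (jC N) p :=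
    (Polynomial.aeval_algHom_apply (ℂ⟮jC N⟯).val (AdjoinSimple.gen ℂ (jC N)) p).symm
  have e2 : ((Polynomial.aeval (jC N) p : FC N) : LaurentSeries ℂ) =
      Polynomial.aeval b1_jL p :=
    (Polynomial.aeval_algHom_apply (FC N).val (jC N) p).symm
  rw [e1, e2]

/-- polynomial independence from linear independence over `ℂ(j)`. -/
theorem b1_indep (N : ℕ) [NeZero N] {α : Type} [Fintype α] (v : α → FC N)
    (hv : LinearIndependent ℂ⟮jC N⟯ v) (P : α → ℂ[X])
    (hP : ∑ i, Polynomial.aeval b1_jL (P i) * ((v i : FC N) : LaurentSeries ℂ) = 0) :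
    ∀ i, P i = 0 := by
  intro i
  have h2 : ∑ i, (Polynomial.aeval (AdjoinSimple.gen ℂ (jC N)) (P i) : ℂ⟮jC N⟯) • v i = 0 := by
    apply (FC N).val.toRingHom.injective
    rw [map_sum, map_zero, ← hP]
    refine Finset.sum_congr rfl fun i _ => ?_
    rw [Algebra.smul_def, map_mul]
    congr 1
    exact b1_coe_aeval_gen N (P i)
  have h3 := Fintype.linearIndependent_iff.mp hv _ h2 i
  apply transcendental_iff.mp b1_transcendental_jL
  rw [← b1_coe_aeval_gen N, h3]
  rfl

theorem b1_card_le (N : ℕ) [NeZero N] (s : Finset (FC N))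
    (hs : LinearIndependent ℂ⟮jC N⟯ (fun i : s => (i : FC N))) :
    s.card ≤ (Gamma0 N).index := by
  classical
  have key := b1_core_range N (fun i : s => ((i : FC N) : LaurentSeries ℂ))
    (fun i => b1_mem_fieldRange N _ (i : FC N).2) (b1_indep N _ hs)
  simpa using key

theorem b1_finrank_le_index (N : ℕ) [NeZero N] :
    FiniteDimensional ℂ⟮jC N⟯ (FC N) ∧
      Module.finrank ℂ⟮jC N⟯ (FC N) ≤ (Gamma0 N).index := by
  have h := rank_le (R := ℂ⟮jC N⟯) (M := FC N)
    (n := (Gamma0 N).index) (b1_card_le N)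
  have hfree : Module.Free ℂ⟮jC N⟯ (FC N) :=
    Module.Free.of_divisionRing _ _
  exact ⟨Module.rank_lt_aleph0_iff.mp (h.trans_lt (Cardinal.natCast_lt_aleph0)),
    Module.finrank_le_of_rank_le h⟩

/-- `Θ₀ : FC N → Frac (WH)` -/
def b1_theta0 (N : ℕ) [NeZero N] : FC N →+* FractionRing (WH (Gamma0 N)) :=
  ((W6_laurFrac N).rangeRestrictFieldEquiv.symm : _ →+* _).comp
    ((FC N).val.toRingHom.codRestrict
      (W6_laurFrac N).fieldRange (fun x => b1_mem_fieldRange N x x.2))

theorem b1_laurFrac_theta0 (N : ℕ) [NeZero N] (x : FC N) :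
    W6_laurFrac N (b1_theta0 N x) = (x : LaurentSeries ℂ) := by
  have h := (W6_laurFrac N).rangeRestrictFieldEquiv.apply_symm_apply
    (((FC N).val.toRingHom.codRestrict
      (W6_laurFrac N).fieldRange (fun x => b1_mem_fieldRange N x x.2)) x)
  exact congrArg Subtype.val h

theorem b1_theta0_const (N : ℕ) [NeZero N] (c : ℂ) :
    b1_theta0 N (algebraMap ℂ (FC N) c) = algebraMap (WH (Gamma0 N)) _ (whConst _ c) := by
  apply (W6_laurFrac N).injective
  rw [b1_laurFrac_theta0, W6_laurFrac_algebraMap]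
  have h1 : ((algebraMap ℂ (FC N) c : FC N) : LaurentSeries ℂ) =
      algebraMap ℂ (LaurentSeries ℂ) c := rfl
  rw [h1, b1_algebraMap_eq_C]
  exact (laurentFun_const one_pos _).symm

/-- `j(dτ)` as an element of `FC N`. -/
def b1_jCD (N d : ℕ) [NeZero d] (hd : d ∣ N) : FC N :=
  ⟨coeffEmb ℂ (qExpand ℚ d jq), coeffEmb_mem_laurentBaseChange ℂ (jqd_mem_full N hd)⟩

theorem b1_theta0_jCD (N : ℕ) [NeZero N] (d : ℕ) [NeZero d] (hd : d ∣ N) :
    b1_theta0 N (b1_jCD N d hd) = algebraMap (WH (Gamma0 N)) _ ⟨janD d, isWH_janD hd⟩ := by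
  apply (W6_laurFrac N).injective
  rw [b1_laurFrac_theta0, W6_laurFrac_algebraMap]
  show coeffEmb ℂ (qExpand ℚ d jq) = laurentFun 1 (janD d)
  rw [laurentFun_janD]
  rfl

theorem b1_theta0_jC (N : ℕ) [NeZero N] :
    b1_theta0 N (jC N) = algebraMap (WH (Gamma0 N)) _ ⟨jan, isWH_jan.mono le_top⟩ := by
  apply (W6_laurFrac N).injective
  rw [b1_laurFrac_theta0, W6_laurFrac_algebraMap]
  show coeffEmb ℂ (qExpand ℚ 1 jq) = laurentFun 1 jan
  rw [← janD_one, laurentFun_janD]
  rfl

theorem b1_index_le_finrank (N : ℕ) [NeZero N] :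
    (Gamma0 N).index ≤ Module.finrank ℂ⟮jC N⟯ (FC N) := by
  have hfd := (b1_finrank_le_index N).1
  have hfin : Finite (SL(2, ℤ) ⧸ Gamma0 N) := by
    have : (Gamma0 N).FiniteIndex := inferInstance
    exact Subgroup.finite_quotient_of_finiteIndex
  have key := card_le_finrank_of_embeddings (K := ℂ) (F := FC N) (y := jC N)
    (X := SL(2, ℤ) ⧸ Gamma0 N)
    (fun x => (Emb.lift (W8.EAt (Gamma0 N) I x) (W8.EAt_injective I x)).comp (b1_theta0 N))
    ?_ ?_ ?_
  · exact key
  · intro x y hxy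
    have h1 := DFunLike.congr_fun hxy (b1_jCD N N dvd_rfl)
    simp only [RingHom.comp_apply, b1_theta0_jCD, Emb.lift_algebraMap, W8.EAt_apply] at h1
    have h2 := HahnSeries.ofPowerSeries_injective h1
    apply conj_janD_injective N
    have hol := fun z => (isWH_janD (N := N) (d := N) dvd_rfl).conj_holo z
    have hc : MDiff (Function.const ℍ (-1 : ℂ)) := mdifferentiable_const
    have h3 : taylorH (conj (Gamma0 N) 0 (janD N) x +
        Function.const ℍ (-1 : ℂ) * conj (Gamma0 N) 0 (janD N) y) I = 0 := by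
      rw [taylorH_add (hol x) (hc.mul (hol y)),
        taylorH_mul hc (hol y), taylorH_const, h2]
      simp
    rw [taylorH_eq_zero_iff ((hol x).add (hc.mul (hol y)))] at h3
    funext τ
    have h4 := congrFun h3 τ
    simp only [Pi.add_apply, Pi.mul_apply, Function.const_apply, Pi.zero_apply] at h4
    linear_combination h4
  · intro x y a
    simp only [RingHom.comp_apply, b1_theta0_const, Emb.lift_algebraMap, W8.EAt_apply]
    have : ((whConst (Gamma0 N) a : WH (Gamma0 N)) : ℍ → ℂ) = Function.const ℍ a := rfl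
    rw [this, W8.conj_const, W8.conj_const]
  · intro x y
    simp only [RingHom.comp_apply, b1_theta0_jC, Emb.lift_algebraMap, W8.EAt_apply]
    congr 2
    exact (isWH_jan.inv _ trivial).trans (isWH_jan.inv _ trivial).symm

theorem finrank_FC (N : ℕ) [NeZero N] :
    FiniteDimensional ℂ⟮jC N⟯ (FC N) ∧ Module.finrank ℂ⟮jC N⟯ (FC N) = (Gamma0 N).index :=
  ⟨(b1_finrank_le_index N).1, le_antisymm (b1_finrank_le_index N).2 (b1_index_le_finrank N)⟩

/-- the range of `Frac (WH) → ℂ((q))` is contained in `FC N`. -/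
theorem b1_mem_FC (N : ℕ) [NeZero N] (x : LaurentSeries ℂ)
    (hx : x ∈ (W6_laurFrac N).fieldRange) : x ∈ FC N := by
  classical
  by_contra hxF
  obtain ⟨hfd, hrk⟩ := finrank_FC N
  have hfree : Module.Free ℂ⟮jC N⟯ (FC N) := Module.Free.of_divisionRing _ _
  let b := Module.finBasis ℂ⟮jC N⟯ (FC N)
  let c : Option (Fin (Module.finrank ℂ⟮jC N⟯ (FC N))) → LaurentSeries ℂ :=
    fun o => o.elim x (fun i => ((b i : FC N) : LaurentSeries ℂ))
  have key := b1_core_range N c ?_ ?_
  · rw [Fintype.card_option, Fintype.card_fin, hrk] at key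
    omega
  · intro o
    cases o with
    | none => exact hx
    | some i => exact b1_mem_fieldRange N _ (b i).2
  · intro P hP
    rw [Fintype.sum_option] at hP
    simp only [c, Option.elim_none, Option.elim_some] at hP
    have h0 : P none = 0 := by
      by_contra hne
      have hne' : Polynomial.aeval b1_jL (P none) ≠ 0 := fun h =>
        hne (transcendental_iff.mp b1_transcendental_jL _ h)
      apply hxF
      have hx' : x = -(∑ i, Polynomial.aeval b1_jL (P (some i)) *
          ((b i : FC N) : LaurentSeries ℂ)) / Polynomial.aeval b1_jL (P none) := by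
        rw [eq_div_iff hne']
        linear_combination hP
      rw [hx']
      have hmem : ∀ p : ℂ[X], Polynomial.aeval b1_jL p ∈ FC N := fun p => by
        rw [← b1_coe_aeval_gen N p]
        exact Subtype.mem _
      exact div_mem (neg_mem (sum_mem fun i _ => mul_mem (hmem _) (b i).2)) (hmem _)
    rw [h0, map_zero, zero_mul, zero_add] at hP
    have h1 := b1_indep N (fun i => b i) b.linearIndependent (fun i => P (some i)) hP
    intro o
    cases o with
    | none => exact h0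
    | some i => exact h1 i

/-- `FC N` is the range of `Frac (WH) → ℂ((q))`. -/
def b1_equivRange (N : ℕ) [NeZero N] : FC N ≃+* (W6_laurFrac N).fieldRange where
  toFun x := ⟨x.1, b1_mem_fieldRange N x.1 x.2⟩
  invFun y := ⟨y.1, b1_mem_FC N y.1 y.2⟩
  left_inv _ := rfl
  right_inv _ := rfl
  map_mul' _ _ := rfl
  map_add' _ _ := rfl

/-- `Θ` -/
def b1_theta (N : ℕ) [NeZero N] : FC N ≃+* FractionRing (WH (Gamma0 N)) :=
  (b1_equivRange N).trans (W6_laurFrac N).rangeRestrictFieldEquiv.symm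

theorem b1_laurFrac_theta (N : ℕ) [NeZero N] (x : FC N) :
    W6_laurFrac N (b1_theta N x) = (x : LaurentSeries ℂ) := by
  have h := (W6_laurFrac N).rangeRestrictFieldEquiv.apply_symm_apply (b1_equivRange N x)
  exact congrArg Subtype.val h

theorem b1_coe_theta_symm (N : ℕ) [NeZero N] (z : FractionRing (WH (Gamma0 N))) :
    (((b1_theta N).symm z : FC N) : LaurentSeries ℂ) = W6_laurFrac N z := by
  rw [← b1_laurFrac_theta, RingEquiv.apply_symm_apply]

theorem exists_thetaC (N : ℕ) [NeZero N] :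
    ∃ Θ : FC N ≃+* FractionRing (WH (Gamma0 N)),
      (∀ g : WH (Gamma0 N), ((Θ.symm (algebraMap _ _ g) : FC N) : LaurentSeries ℂ) =
        laurentFun 1 (g : ℍ → ℂ)) ∧
      (∀ c : ℂ, Θ (algebraMap ℂ (FC N) c) = algebraMap (WH (Gamma0 N)) _ (whConst _ c)) ∧
      Θ (jC N) = algebraMap (WH (Gamma0 N)) _ ⟨jan, isWH_jan.mono le_top⟩ := by
  refine ⟨b1_theta N, fun g => ?_, fun c => ?_, ?_⟩
  · rw [b1_coe_theta_symm, W6_laurFrac_algebraMap]
  · apply (W6_laurFrac N).injective
    rw [b1_laurFrac_theta, ← b1_laurFrac_theta0, b1_theta0_const]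
  · apply (W6_laurFrac N).injective
    rw [b1_laurFrac_theta, ← b1_laurFrac_theta0, b1_theta0_jC]

end

end Fermat.Agent.ESLib
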