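import Mathlib
import Fermat.Agent.ES.Defs
import Fermat.Agent.ES.ThetaC
import Fermat.Agent.S24.FormalLink
import Fermat.Agent.S24.JFun
import Fermat.Agent.S20.Gamma0Basis

/-!
# ES block (4), leaf (B2): quotients of modular forms of equal weight in `FC N`
-/

set_option autoImplicit false

open UpperHalfPlane ModularForm Matrix.SpecialLinearGroup CongruenceSubgroup ModularCurve
open AlgebraicCurve IntermediateField
open scoped MatrixGroups Manifold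
open Fermat.Agent.S20Lib Fermat.Agent.S28Lib Fermat.Agent.S24Lib

namespace Fermat.Agent.ESLib

noncomputable section

theorem B2.qL_eq {N : ℕ} [NeZero N] {k : ℤ} {a : ℍ → ℂ} (ha : IsMF (Gamma0 N) k a) :
    qL a = laurentFun 1 a := by
  rw [laurentFun_of_bdd one_pos (W2.isMerInf_of_isMF ha) (by simpa using ha.bdd 1), qL,
    Nat.cast_one]

theorem qL_eq_zero_iff {N : ℕ} [NeZero N] {k : ℤ} {a : ℍ → ℂ} (ha : IsMF (Gamma0 N) k a) :
    qL a = 0 ↔ a = 0 := by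
  rw [B2.qL_eq ha]
  exact laurentFun_eq_zero_iff one_pos (W2.isMerInf_of_isMF ha)

theorem qL_mul {N : ℕ} [NeZero N] {k l : ℤ} {a b : ℍ → ℂ} (ha : IsMF (Gamma0 N) k a)
    (hb : IsMF (Gamma0 N) l b) : qL (a * b) = qL a * qL b := by
  rw [B2.qL_eq ha, B2.qL_eq hb, B2.qL_eq (ha.mul hb)]
  exact laurentFun_mul one_pos (W2.isMerInf_of_isMF ha) (W2.isMerInf_of_isMF hb)

theorem B2.isMF_Dl_pow (m : ℕ) : IsMF ⊤ (12 * m) (Dl ^ m) := by
  have := SeparatingAux.isMF_pow isMF_Dl m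
  rwa [mul_comm] at this

theorem B2.Dl_pow_ne_zero (m : ℕ) (τ : ℍ) : (Dl ^ m) τ ≠ 0 := pow_ne_zero m (Dl_ne_zero τ)

/-- a form of weight `12 m` divided by `Δ^m` is weakly holomorphic of weight `0` -/
theorem B2.isWH_div {Γ : Subgroup SL(2, ℤ)} {m : ℕ} {f : ℍ → ℂ} (hf : IsMF Γ (12 * m) f) :
    IsWH Γ (f / Dl ^ m) := by
  have hmul : (f / Dl ^ m) * Dl ^ m = f := by
    ext τ
    simp only [Pi.mul_apply, Pi.div_apply]
    exact div_mul_cancel₀ _ (B2.Dl_pow_ne_zero m τ)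
  have hsl : ∀ γ : SL(2, ℤ), ((f / Dl ^ m) ∣[(0 : ℤ)] γ) * Dl ^ m = f ∣[(12 * m : ℤ)] γ := by
    intro γ
    have := mul_slash_SL2 0 (12 * m) γ (f / Dl ^ m) (Dl ^ m)
    rw [zero_add, (B2.isMF_Dl_pow m).top_slash, hmul] at this
    exact this.symm
  refine ⟨hf.holo.div (B2.isMF_Dl_pow m).holo (B2.Dl_pow_ne_zero m), fun γ hγ => ?_,
    ⟨m, fun γ => ?_⟩⟩
  · have h1 := hsl γ
    rw [hf.inv γ hγ] at h1
    ext τ
    have h2 := congrFun h1 τ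
    have h3 := congrFun hmul τ
    simp only [Pi.mul_apply] at h2 h3
    exact mul_right_cancel₀ (B2.Dl_pow_ne_zero m τ) (h2.trans h3.symm)
  · rw [hsl]
    exact hf.bdd γ

theorem B2.key {N : ℕ} [NeZero N] {k : ℤ} {a b : ℍ → ℂ} (ha : IsMF (Gamma0 N) k a)
    (hb : IsMF (Gamma0 N) k b) (hb0 : b ≠ 0) (A B : WH (Gamma0 N))
    (h : (A : ℍ → ℂ) * b = (B : ℍ → ℂ) * a) (hB : B ≠ 0) :
    qL a / qL b = laurentFun 1 (A : ℍ → ℂ) / laurentFun 1 (B : ℍ → ℂ) := by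
  have hA' : IsMerInf 1 (A : ℍ → ℂ) := A.2.isMerInf_one
  have hB' : IsMerInf 1 (B : ℍ → ℂ) := B.2.isMerInf_one
  have h1 : qL b ≠ 0 := fun h0 => hb0 ((qL_eq_zero_iff hb).1 h0)
  have h2 : laurentFun 1 (B : ℍ → ℂ) ≠ 0 := fun h0 =>
    hB (Subtype.ext ((laurentFun_eq_zero_iff one_pos hB').1 h0))
  rw [div_eq_div_iff h1 h2, B2.qL_eq ha, B2.qL_eq hb,
    ← laurentFun_mul one_pos (W2.isMerInf_of_isMF ha) hB',
    ← laurentFun_mul one_pos hA' (W2.isMerInf_of_isMF hb), h, mul_comm]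

theorem B2.laurentFun_mem (N : ℕ) [NeZero N] (A : WH (Gamma0 N)) :
    laurentFun 1 (A : ℍ → ℂ) ∈ FC N := by
  obtain ⟨Θ, hΘ, -, -⟩ := exists_thetaC N
  rw [← hΘ A]
  exact (Θ.symm (algebraMap _ _ A)).2

theorem B2.exists_WH {N : ℕ} [NeZero N] {k : ℤ} {a b : ℍ → ℂ} (ha : IsMF (Gamma0 N) k a)
    (hb : IsMF (Gamma0 N) k b) (hb0 : b ≠ 0) :
    ∃ A B : WH (Gamma0 N), (A : ℍ → ℂ) * b = (B : ℍ → ℂ) * a ∧ B ≠ 0 := by
  have hk : 0 ≤ k := by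
    by_contra hneg
    exact hb0 (isMF_eq_zero_of_neg (not_le.mp hneg) hb)
  obtain ⟨m, rfl⟩ := Int.eq_ofNat_of_zero_le hk
  have hb11 : IsMF (Gamma0 N) (((11 : ℕ) : ℤ) * (m : ℤ)) (b ^ 11) := SeparatingAux.isMF_pow hb 11
  have hA : IsMF (Gamma0 N) (12 * (m : ℤ)) (a * b ^ 11) := ha.mul' hb11 (by push_cast; ring)
  have hB : IsMF (Gamma0 N) (12 * (m : ℤ)) (b * b ^ 11) := hb.mul' hb11 (by push_cast; ring)
  refine ⟨⟨_, B2.isWH_div hA⟩, ⟨_, B2.isWH_div hB⟩, ?_, ?_⟩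
  · ext τ
    simp only [Pi.mul_apply, Pi.div_apply]
    ring
  · intro h0
    have h1 : (b * b ^ 11) / Dl ^ m = 0 := congrArg Subtype.val h0
    apply hb0
    ext τ
    have h2 := congrFun h1 τ
    simp only [Pi.mul_apply, Pi.div_apply, Pi.pow_apply, Pi.zero_apply, div_eq_zero_iff] at h2
    rcases h2 with h2 | h2
    · have : b τ ^ 12 = 0 := by rw [← h2]; ring
      simpa using this
    · exact absurd h2 (pow_ne_zero m (Dl_ne_zero τ))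

theorem B2.mem {N : ℕ} [NeZero N] {k : ℤ} {a b : ℍ → ℂ} (ha : IsMF (Gamma0 N) k a)
    (hb : IsMF (Gamma0 N) k b) : qL a / qL b ∈ FC N := by
  by_cases hb0 : b = 0
  · rw [(qL_eq_zero_iff hb).2 hb0, div_zero]
    exact (FC N).zero_mem
  · obtain ⟨A, B, h, hB⟩ := B2.exists_WH ha hb hb0
    rw [B2.key ha hb hb0 A B h hB]
    exact (FC N).div_mem (B2.laurentFun_mem N A) (B2.laurentFun_mem N B)

theorem coe_ratio (N : ℕ) [NeZero N] {k : ℤ} {a b : ℍ → ℂ} (ha : IsMF (Gamma0 N) k a)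
    (hb : IsMF (Gamma0 N) k b) : ((ratio N a b : FC N) : LaurentSeries ℂ) = qL a / qL b := by
  rw [ratio, dif_pos (B2.mem ha hb)]

/-- `Θ (a/b) = (a b¹¹/Δᵏ) / (b¹²/Δᵏ)`, stated without division. -/
theorem thetaC_ratio (N : ℕ) [NeZero N] (Θ : FC N ≃+* FractionRing (WH (Gamma0 N)))
    (hΘ : ∀ g : WH (Gamma0 N), ((Θ.symm (algebraMap _ _ g) : FC N) : LaurentSeries ℂ) =
        laurentFun 1 (g : ℍ → ℂ))
    {k : ℤ} {a b : ℍ → ℂ} (ha : IsMF (Gamma0 N) k a) (hb : IsMF (Gamma0 N) k b) (hb0 : b ≠ 0)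
    (A B : WH (Gamma0 N)) (h : (A : ℍ → ℂ) * b = (B : ℍ → ℂ) * a) (hB : B ≠ 0) :
    Θ (ratio N a b) = algebraMap _ _ A / algebraMap _ _ B := by
  apply Θ.symm.injective
  rw [RingEquiv.symm_apply_apply, map_div₀]
  apply Subtype.ext
  rw [coe_ratio N ha hb, B2.key ha hb hb0 A B h hB]
  show _ = ((Θ.symm (algebraMap _ _ A) : FC N) : LaurentSeries ℂ) /
    ((Θ.symm (algebraMap _ _ B) : FC N) : LaurentSeries ℂ)
  rw [hΘ, hΘ]

theorem exists_ratio (N : ℕ) [NeZero N] (u : FC N) :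
    ∃ (k : ℕ) (a b : ℍ → ℂ), IsMF (Gamma0 N) (2 * k) a ∧ IsMF (Gamma0 N) (2 * k) b ∧ b ≠ 0 ∧
      u = ratio N a b := by
  obtain ⟨Θ, hΘ, -, -⟩ := exists_thetaC N
  obtain ⟨A, B, hB, hAB⟩ := IsFractionRing.div_surjective (A := WH (Gamma0 N)) (Θ u)
  have hB0 : B ≠ 0 := nonZeroDivisors.ne_zero hB
  obtain ⟨M₁, h₁⟩ := A.2.exists_isMF
  obtain ⟨M₂, h₂⟩ := B.2.exists_isMF
  set M := max M₁ M₂ with hM
  have e : (2 * ((6 * M : ℕ) : ℤ)) = 12 * (M : ℤ) := by push_cast; ring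
  have ha : IsMF (Gamma0 N) (2 * ((6 * M : ℕ) : ℤ)) ((A : ℍ → ℂ) * Dl ^ M) := by
    rw [e]; exact h₁ M (le_max_left _ _)
  have hb : IsMF (Gamma0 N) (2 * ((6 * M : ℕ) : ℤ)) ((B : ℍ → ℂ) * Dl ^ M) := by
    rw [e]; exact h₂ M (le_max_right _ _)
  have hb0 : (B : ℍ → ℂ) * Dl ^ M ≠ 0 := by
    intro h0
    apply hB0
    apply Subtype.ext
    ext τ
    have h2 := congrFun h0 τ
    simp only [Pi.mul_apply, Pi.zero_apply, mul_eq_zero] at h2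
    rcases h2 with h2 | h2
    · exact h2
    · exact absurd h2 (B2.Dl_pow_ne_zero M τ)
  refine ⟨6 * M, _, _, ha, hb, hb0, ?_⟩
  apply Θ.injective
  rw [thetaC_ratio N Θ hΘ ha hb hb0 A B (by ext τ; simp only [Pi.mul_apply]; ring) hB0, hAB]

end

end Fermat.Agent.ESLib
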