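import Mathlib
import Fermat.Agent.ES.Defs
import Fermat.Agent.ES.ThetaC
import Fermat.Agent.ES.Ratio
import Fermat.Agent.ES.FibrePlus
import Fermat.Agent.S24.Fibres
import Fermat.Agent.S20.Gamma0Basis

/-!
# ES (C3): the places of `FC N` above `j = ∞` are the cusps
-/

set_option autoImplicit false

open UpperHalfPlane ModularForm Matrix.SpecialLinearGroup CongruenceSubgroup ModularCurve
open AlgebraicCurve IntermediateField
open scoped MatrixGroups Manifold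
open Fermat.Agent.S20Lib Fermat.Agent.S28Lib Fermat.Agent.S24Lib

namespace Fermat.Agent.ESLib

noncomputable section

namespace C3

/-! ### quotients of modular forms as weakly holomorphic functions -/

lemma isMF_Dl_pow (n : ℕ) : IsMF ⊤ (12 * n) (Dl ^ n) := by
  have := SeparatingAux.isMF_pow isMF_Dl n
  rwa [mul_comm] at this

lemma Dl_pow_ne_zero (n : ℕ) (τ : ℍ) : (Dl ^ n) τ ≠ 0 := by
  rw [Pi.pow_apply]
  exact pow_ne_zero _ (Dl_ne_zero τ)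

lemma div_slash {n : ℕ} (F : ℍ → ℂ) (γ : SL(2, ℤ)) :
    (F / Dl ^ n) ∣[(0 : ℤ)] γ = (F ∣[(12 * n : ℤ)] γ) / Dl ^ n := by
  have := div_slash_SL2 (12 * n) (12 * n) γ F (Dl ^ n)
  rw [(isMF_Dl_pow n).top_slash, sub_self] at this
  exact this

lemma isWH_div {Γ : Subgroup SL(2, ℤ)} {n : ℕ} {F : ℍ → ℂ} (hF : IsMF Γ (12 * n) F) :
    IsWH Γ (F / Dl ^ n) where
  holo := hF.holo.div (isMF_Dl_pow n).holo (Dl_pow_ne_zero n)
  inv γ hγ := by rw [div_slash, hF.inv γ hγ]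
  bdd := ⟨n, fun γ => by
    rw [div_slash]
    have : (F ∣[(12 * n : ℤ)] γ) / Dl ^ n * Dl ^ n = F ∣[(12 * n : ℤ)] γ := by
      funext τ
      simp only [Pi.mul_apply, Pi.div_apply]
      exact div_mul_cancel₀ _ (Dl_pow_ne_zero n τ)
    rw [this]
    exact hF.bdd γ⟩

/-- a quotient of two forms of the same weight is a quotient of weakly holomorphic functions -/
lemma exists_WH {Γ : Subgroup SL(2, ℤ)} [Γ.FiniteIndex] {k : ℤ} {a b : ℍ → ℂ} (ha : IsMF Γ k a)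
    (hb : IsMF Γ k b) (hb0 : b ≠ 0) :
    ∃ A B : WH Γ, (A : ℍ → ℂ) * b = (B : ℍ → ℂ) * a ∧ B ≠ 0 := by
  have hk : 0 ≤ k := by
    by_contra h
    exact hb0 (isMF_eq_zero_of_neg (not_le.mp h) hb)
  obtain ⟨n, rfl⟩ := Int.eq_ofNat_of_zero_le hk
  have h11 : IsMF Γ (11 * n) (b ^ 11) := by
    have := SeparatingAux.isMF_pow hb 11
    simpa using this
  have hB : IsMF Γ (12 * n) (b ^ 11 * b) := h11.mul' hb (by ring)
  have hA : IsMF Γ (12 * n) (b ^ 11 * a) := h11.mul' ha (by ring)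
  refine ⟨⟨_, isWH_div hA⟩, ⟨_, isWH_div hB⟩, ?_, ?_⟩
  · funext τ
    simp only [Pi.mul_apply, Pi.div_apply]
    ring
  · intro h
    have h1 := congrArg Subtype.val h
    apply hb0
    funext τ
    have h2 := congrFun h1 τ
    simp only [Pi.div_apply, Pi.mul_apply, Pi.pow_apply] at h2
    have h3 : b τ ^ 11 * b τ / Dl τ ^ n = 0 := h2
    rw [div_eq_zero_iff] at h3
    rcases h3 with h3 | h3
    · have : b τ ^ 12 = 0 := by rw [← h3]; ring
      exact pow_eq_zero_iff (by norm_num) |>.mp this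
    · exact absurd h3 (pow_ne_zero _ (Dl_ne_zero τ))

/-! ### orders of `q`-expansions in different variables -/

lemma ordI_mul {w M : ℕ} (hw : 0 < w) (hM : 0 < M) {g : ℍ → ℂ} (hg : MDiff g)
    (hper : Function.Periodic (g ∘ ofComplex) w) (hb : IsBoundedAtImInfty g) :
    ordI (M * w) g = M * ordI w g := by
  have hw' : (0 : ℝ) < w := by exact_mod_cast hw
  have hc := UpperHalfPlane.qExpansion_coeff_nat_mul hw' (by simpa using hper) hg hb hM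
  have hcast : (((M * w : ℕ) : ℝ)) = (M : ℝ) * (w : ℝ) := by push_cast; ring
  unfold ordI
  rw [hcast]
  by_cases h0 : qExpansion (w : ℝ) g = 0
  · have h1 : qExpansion ((M : ℝ) * (w : ℝ)) g = 0 := by
      ext n
      rw [hc, h0]
      simp
    rw [h0, h1]
    simp
  · obtain ⟨n, hn⟩ : ∃ n : ℕ, (qExpansion (w : ℝ) g).order = n := by
      have : (qExpansion (w : ℝ) g).order ≠ ⊤ := by rwa [Ne, PowerSeries.order_eq_top]
      exact ⟨_, (ENat.natCast_toNat this).symm⟩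
    have h2 : (qExpansion ((M : ℝ) * (w : ℝ)) g).order = ((M * n : ℕ) : ℕ∞) := by
      rw [PowerSeries.order_eq_nat]
      rw [PowerSeries.order_eq_nat] at hn
      refine ⟨?_, fun i hi => ?_⟩
      · rw [hc, if_pos (Dvd.intro _ rfl), Nat.mul_div_cancel_left _ hM]
        exact hn.1
      · rw [hc]
        split_ifs with hd
        · obtain ⟨j, rfl⟩ := hd
          rw [Nat.mul_div_cancel_left _ hM]
          exact hn.2 j (Nat.lt_of_mul_lt_mul_left hi)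
        · rfl
    rw [hn, h2]
    simp

lemma slash_T_zpow_apply' (k : ℤ) (g : ℍ → ℂ) (n : ℤ) (τ : ℍ) :
    (g ∣[k] (ModularGroup.T ^ n)) τ = g ((n : ℝ) +ᵥ τ) := by
  rw [SL_slash_apply, modular_T_zpow_smul]
  have : denom (ModularGroup.T ^ n : SL(2, ℤ)) τ = 1 := by
    simp [denom, ModularGroup.coe_T_zpow, -map_zpow]
  rw [this]
  simp

lemma periodic_slash {N : ℕ} {k : ℤ} {a : ℍ → ℂ} (ha : ∀ γ ∈ Gamma0 N, a ∣[k] γ = a)
    (δ : SL(2, ℤ)) (w : ℕ) (hw : δ * ModularGroup.T ^ (w : ℤ) * δ⁻¹ ∈ Gamma0 N) :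
    Function.Periodic ((a ∣[k] δ) ∘ ofComplex) w := by
  apply W3.periodic_of_vadd_nat
  intro τ
  have h1 := slash_T_zpow_apply' k (a ∣[k] δ) (w : ℤ) τ
  rw [← SlashAction.slash_mul] at h1
  have h2 : δ * ModularGroup.T ^ (w : ℤ) = (δ * ModularGroup.T ^ (w : ℤ) * δ⁻¹) * δ := by group
  rw [h2, SlashAction.slash_mul, ha _ hw] at h1
  rw [h1]
  simp

lemma isMerInf_slash {N : ℕ} {k : ℤ} {a : ℍ → ℂ} (ha : IsMF (Gamma0 N) k a)
    (δ : SL(2, ℤ)) (w : ℕ) (hw : δ * ModularGroup.T ^ (w : ℤ) * δ⁻¹ ∈ Gamma0 N) :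
    IsMerInf w (a ∣[k] δ) where
  holo := ha.slash_holo δ
  per := periodic_slash ha.inv δ w hw
  bdd := ⟨0, by simpa using ha.bdd δ⟩

lemma slash_ne_zero {k : ℤ} {a : ℍ → ℂ} (ha : a ≠ 0) (δ : SL(2, ℤ)) : a ∣[k] δ ≠ 0 := by
  intro h
  apply ha
  have h1 : (a ∣[k] δ) ∣[k] δ⁻¹ = a := by
    rw [← SlashAction.slash_mul]; simp
  rw [← h1, h, SlashAction.zero_slash]

lemma order_laurentFun_eq_ordI {w : ℕ} (hw : 0 < w) {g : ℍ → ℂ} (hg : IsMerInf w g)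
    (hb : IsBoundedAtImInfty g) (hg0 : g ≠ 0) : (laurentFun w g).order = ordI w g := by
  have h1 := laurentFun_of_bdd hw hg hb
  have h2 : qExpansion w g ≠ 0 := by
    intro h
    rw [h, map_zero, laurentFun_eq_zero_iff hw hg] at h1
    exact hg0 h1
  rw [h1, Emb.order_ofPowerSeries h2]
  rfl

variable (N : ℕ) [NeZero N]

lemma N_pos : 0 < N := Nat.pos_of_ne_zero (NeZero.ne N)

omit [NeZero N] in
lemma Gamma_le : Gamma N ≤ Gamma0 N := by
  intro γ hγ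
  rw [Gamma_mem] at hγ
  rw [Gamma0_mem]
  exact hγ.2.2.1

/-- the embeddings of `FC N` given by the expansions at the cusps -/
def sig (Θ : FC N ≃+* FractionRing (WH (Gamma0 N))) (x : SL(2, ℤ) ⧸ Gamma0 N) :
    FC N →+* LaurentSeries ℂ :=
  (Emb.lift (W9.EInf (N_pos N) (Gamma_le N) x) (W9.EInf_injective (N_pos N) (Gamma_le N) x)).comp
    (Θ : FC N →+* FractionRing (WH (Gamma0 N)))

omit [NeZero N] in
lemma conj_T_pow_N_mem (δ : SL(2, ℤ)) : δ * ModularGroup.T ^ (N : ℤ) * δ⁻¹ ∈ Gamma0 N := by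
  have h := Fib.T_pow_N_smul N ((δ⁻¹ : SL(2, ℤ)) : SL(2, ℤ) ⧸ Gamma0 N)
  rw [MulAction.Quotient.smul_coe, eq_comm, QuotientGroup.eq] at h
  simpa [mul_assoc] using h

lemma order_sig (Θ : FC N ≃+* FractionRing (WH (Gamma0 N)))
    (hΘ : ∀ g : WH (Gamma0 N), ((Θ.symm (algebraMap _ _ g) : FC N) : LaurentSeries ℂ) =
        laurentFun 1 (g : ℍ → ℂ))
    (δ : SL(2, ℤ)) {k : ℤ} {a b : ℍ → ℂ} (ha : IsMF (Gamma0 N) k a) (hb : IsMF (Gamma0 N) k b)
    (ha0 : a ≠ 0) (hb0 : b ≠ 0) :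
    (sig N Θ ((δ⁻¹ : SL(2, ℤ)) : SL(2, ℤ) ⧸ Gamma0 N) (ratio N a b)).order =
      ordI N (a ∣[k] δ) - ordI N (b ∣[k] δ) := by
  have hN := N_pos N
  obtain ⟨A, B, hAB, hB⟩ := exists_WH ha hb hb0
  have hA : A ≠ 0 := by
    rintro rfl
    have h1 : (B : ℍ → ℂ) * a = 0 := by rw [← hAB]; simp
    rcases (UpperHalfPlane.mul_eq_zero_iff B.2.holo ha.holo).mp h1 with h | h
    · exact hB (Subtype.ext h)
    · exact ha0 h
  have hT := conj_T_pow_N_mem N δ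
  have e1 : sig N Θ ((δ⁻¹ : SL(2, ℤ)) : SL(2, ℤ) ⧸ Gamma0 N) (ratio N a b) =
      Emb.lift (W9.EInf (N_pos N) (Gamma_le N) ((δ⁻¹ : SL(2, ℤ)) : SL(2, ℤ) ⧸ Gamma0 N))
        (W9.EInf_injective (N_pos N) (Gamma_le N) ((δ⁻¹ : SL(2, ℤ)) : SL(2, ℤ) ⧸ Gamma0 N))
        (algebraMap _ _ A / algebraMap _ _ B) := by
    rw [← thetaC_ratio N Θ hΘ ha hb hb0 A B hAB hB]
    rfl
  rw [e1, Emb.order_lift_div _ _ hA hB, W9.EInf_apply, W9.EInf_apply, conj_mk A.2.inv,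
    conj_mk B.2.inv, inv_inv]
  have mA : IsMerInf N ((A : ℍ → ℂ) ∣[(0 : ℤ)] δ) := by
    have := A.2.isMerInf_conj (Gamma_le N) ((δ⁻¹ : SL(2, ℤ)) : SL(2, ℤ) ⧸ Gamma0 N)
    rwa [conj_mk A.2.inv, inv_inv] at this
  have mB : IsMerInf N ((B : ℍ → ℂ) ∣[(0 : ℤ)] δ) := by
    have := B.2.isMerInf_conj (Gamma_le N) ((δ⁻¹ : SL(2, ℤ)) : SL(2, ℤ) ⧸ Gamma0 N)
    rwa [conj_mk B.2.inv, inv_inv] at this
  have ma := isMerInf_slash ha δ N hT
  have mb := isMerInf_slash hb δ N hT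
  have e2 : ((A : ℍ → ℂ) ∣[(0 : ℤ)] δ) * (b ∣[k] δ) = ((B : ℍ → ℂ) ∣[(0 : ℤ)] δ) * (a ∣[k] δ) := by
    have h1 := mul_slash_SL2 0 k δ (A : ℍ → ℂ) b
    have h2 := mul_slash_SL2 0 k δ (B : ℍ → ℂ) a
    rw [← h1, ← h2, hAB]
  have e3 := congrArg (laurentFun N) e2
  rw [laurentFun_mul hN mA mb, laurentFun_mul hN mB ma] at e3
  have nA : laurentFun N ((A : ℍ → ℂ) ∣[(0 : ℤ)] δ) ≠ 0 := by
    rw [Ne, laurentFun_eq_zero_iff hN mA]
    exact slash_ne_zero (fun h => hA (Subtype.ext h)) δ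
  have nB : laurentFun N ((B : ℍ → ℂ) ∣[(0 : ℤ)] δ) ≠ 0 := by
    rw [Ne, laurentFun_eq_zero_iff hN mB]
    exact slash_ne_zero (fun h => hB (Subtype.ext h)) δ
  have na : laurentFun N (a ∣[k] δ) ≠ 0 := by
    rw [Ne, laurentFun_eq_zero_iff hN ma]
    exact slash_ne_zero ha0 δ
  have nb : laurentFun N (b ∣[k] δ) ≠ 0 := by
    rw [Ne, laurentFun_eq_zero_iff hN mb]
    exact slash_ne_zero hb0 δ
  have e4 := congrArg HahnSeries.order e3
  rw [HahnSeries.order_mul nA nb, HahnSeries.order_mul nB na,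
    order_laurentFun_eq_ordI hN ma (ha.bdd δ) (slash_ne_zero ha0 δ),
    order_laurentFun_eq_ordI hN mb (hb.bdd δ) (slash_ne_zero hb0 δ)] at e4
  linarith

lemma sig_algebraMap (Θ : FC N ≃+* FractionRing (WH (Gamma0 N))) (x : SL(2, ℤ) ⧸ Gamma0 N)
    (f : FC N) (g : WH (Gamma0 N)) (h : Θ f = algebraMap _ _ g) :
    sig N Θ x f = laurentFun N (conj (Gamma0 N) 0 g.1 x) := by
  have : sig N Θ x f = Emb.lift (W9.EInf (N_pos N) (Gamma_le N) x)
      (W9.EInf_injective (N_pos N) (Gamma_le N) x) (Θ f) := rfl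
  rw [this, h, Emb.lift_algebraMap, W9.EInf_apply]

lemma sig_injective (Θ : FC N ≃+* FractionRing (WH (Gamma0 N))) :
    Function.Injective (sig N Θ) := by
  have hN := N_pos N
  have hΓ := Gamma_le N
  intro x y hxy
  have h1 := DFunLike.congr_fun hxy
    (Θ.symm (algebraMap _ _ (⟨janD N, isWH_janD dvd_rfl⟩ : WH (Gamma0 N))))
  rw [sig_algebraMap N Θ x _ _ (Θ.apply_symm_apply _),
    sig_algebraMap N Θ y _ _ (Θ.apply_symm_apply _)] at h1
  apply conj_janD_injective N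
  have hol := fun z => (isWH_janD (N := N) (d := N) dvd_rfl).isMerInf_conj hΓ z
  have hc : IsMerInf N (Function.const ℍ (-1 : ℂ)) := isMerInf_const N _
  have h3 : laurentFun N (conj (Gamma0 N) 0 (janD N) x +
      Function.const ℍ (-1 : ℂ) * conj (Gamma0 N) 0 (janD N) y) = 0 := by
    rw [laurentFun_add hN (hol x) (hc.mul (hol y)),
      laurentFun_mul hN hc (hol y), laurentFun_const hN, h1, map_neg, map_one]
    ring
  rw [laurentFun_eq_zero_iff hN ((hol x).add (hc.mul (hol y)))] at h3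
  funext τ
  have h4 := congrFun h3 τ
  simp only [Pi.add_apply, Pi.mul_apply, Function.const_apply, Pi.zero_apply] at h4
  linear_combination h4

/-- size of the `T`-orbit of `x` -/
def wd (x : SL(2, ℤ) ⧸ Gamma0 N) : ℕ :=
  Nat.card {x' // MulAction.orbitRel (Subgroup.zpowers ModularGroup.T)
    (SL(2, ℤ) ⧸ Gamma0 N) x x'}

lemma isFF_FC : IsFF ℂ (FC N) := ⟨jC N, transcendental_jC N, (finrank_FC N).1⟩

open ModularGroup in
theorem fibre (Θ : FC N ≃+* FractionRing (WH (Gamma0 N)))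
    (hΘ2 : ∀ c : ℂ, Θ (algebraMap ℂ (FC N) c) = algebraMap (WH (Gamma0 N)) _ (whConst _ c))
    (hΘ3 : Θ (jC N) = algebraMap (WH (Gamma0 N)) _ ⟨jan, isWH_jan.mono le_top⟩) :
    (∀ v ∈ zerosOf ℂ (jC N)⁻¹, ∃ x, ∀ f, f ≠ 0 →
        (sig N Θ x f).order = ((N / wd N x : ℕ) : ℤ) * v.ord f) ∧
      (∀ x, ∃ v ∈ zerosOf ℂ (jC N)⁻¹, ∀ f, f ≠ 0 →
        (sig N Θ x f).order = ((N / wd N x : ℕ) : ℤ) * v.ord f) := by
  have hNpos := N_pos N
  have hΓ := Gamma_le N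
  have hK : ∀ x (c : ℂ), sig N Θ x (algebraMap ℂ (FC N) c) = HahnSeries.C c := by
    intro x c
    rw [sig_algebraMap N Θ x _ _ (hΘ2 c)]
    have : ((whConst (Gamma0 N) c : WH (Gamma0 N)) : ℍ → ℂ) = Function.const ℍ c := rfl
    rw [this, W9.conj_const, laurentFun_const hNpos]
  have hj : ∀ x, sig N Θ x (jC N) = laurentFun N jan := by
    intro x
    rw [sig_algebraMap N Θ x _ _ hΘ3]
    congr 1
    exact isWH_jan.inv _ trivial
  have hord : ∀ x f, (sig N Θ (T • x) f).order = (sig N Θ x f).order := by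
    intro x f
    exact Emb.order_lift_eq _ _ (W9.EInf_injective hNpos hΓ _) (W9.EInf_injective hNpos hΓ _)
      (W9.order_EInf_T hNpos hΓ x) (Θ f)
  have hdvd : ∀ x (k : ℕ), T ^ k • x = x → ∀ f, f ≠ 0 → (N : ℤ) ∣ k * (sig N Θ x f).order := by
    intro x k hk f hf
    refine Emb.order_lift_prop _ (W9.EInf_injective hNpos hΓ x) (fun m => (N : ℤ) ∣ k * m) ?_
      (fun g _ => W9.dvd_order_EInf hNpos hΓ x k hk g) (Θ f) ?_
    · intro m n hm hn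
      rw [mul_sub]
      exact dvd_sub hm hn
    · intro h
      exact hf (Θ.injective (by rw [map_zero]; exact h))
  have hjne : laurentFun N jan ≠ 0 := by
    intro h
    have := order_laurentFun_jan hNpos
    rw [h, HahnSeries.order_zero] at this
    omega
  have hy : ∀ x, sig N Θ x (jC N)⁻¹ = (laurentFun N jan)⁻¹ := by
    intro x
    rw [map_inv₀, hj]
  have hordz : ∀ (k : ℤ) x f, (sig N Θ (T ^ k • x) f).order = (sig N Θ x f).order := by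
    intro k
    induction k using Int.induction_on with
    | zero => intro x f; simp
    | succ n ih =>
      intro x f
      rw [zpow_add, zpow_one, mul_smul, ih, hord]
    | pred n ih =>
      intro x f
      rw [zpow_sub, zpow_one, mul_smul, ih, ← hord (T⁻¹ • x) f, smul_inv_smul]
  have hcard : Nat.card (SL(2, ℤ) ⧸ Gamma0 N) = Module.finrank ℂ⟮(jC N)⁻¹⟯ (FC N) := by
    rw [Fib.adjoin_inv, (finrank_FC N).2]; rfl
  exact fibre_lemma_plus (isFF_FC N) (Fib.transcendental_inv (transcendental_jC N))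
    hcard (sig N Θ) (sig_injective N Θ) (fun γ γ' a => by rw [hK, hK])
    (fun γ γ' => by rw [hy, hy]) (fun γ a _ => by rw [hK]; exact HahnSeries.order_C)
    N hNpos (fun γ => by rw [hy, Fib.order_inv' hjne, order_laurentFun_jan hNpos, neg_neg])
    (MulAction.orbitRel (Subgroup.zpowers T) (SL(2, ℤ) ⧸ Gamma0 N))
    (fun γ γ' h f => by
      obtain ⟨⟨g, k, rfl⟩, rfl⟩ := h
      exact hordz k γ' f)
    (fun γ => N / wd N γ)
    (fun γ f hf => by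
      obtain ⟨h1, h2⟩ := card_orbit_dvd T N (Fib.T_pow_N_smul N) γ
      exact Fib.div_dvd_of h1 hNpos (hdvd γ _ h2 f hf))
    (fun γ => by
      obtain ⟨h1, -⟩ := card_orbit_dvd T N (Fib.T_pow_N_smul N) γ
      exact le_of_eq (Nat.div_mul_cancel h1).symm)

lemma wd_pos (x : SL(2, ℤ) ⧸ Gamma0 N) : 0 < wd N x := by
  have : Nonempty {x' // MulAction.orbitRel (Subgroup.zpowers ModularGroup.T)
      (SL(2, ℤ) ⧸ Gamma0 N) x x'} := ⟨⟨x, Setoid.refl' _ x⟩⟩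
  exact Nat.card_pos

lemma isWidth (δ : SL(2, ℤ)) :
    IsWidth N δ (wd N ((δ⁻¹ : SL(2, ℤ)) : SL(2, ℤ) ⧸ Gamma0 N)) := by
  refine ⟨wd_pos N _, fun m => ?_⟩
  have h : wd N ((δ⁻¹ : SL(2, ℤ)) : SL(2, ℤ) ⧸ Gamma0 N) = MulAction.period ModularGroup.T
      ((δ⁻¹ : SL(2, ℤ)) : SL(2, ℤ) ⧸ Gamma0 N) :=
    G_card_orbit_eq_period (X := SL(2, ℤ) ⧸ Gamma0 N) ModularGroup.T
      ((δ⁻¹ : SL(2, ℤ)) : SL(2, ℤ) ⧸ Gamma0 N)
  rw [h, ← MulAction.zpow_smul_eq_iff_period_dvd,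
    MulAction.Quotient.smul_coe, eq_comm, QuotientGroup.eq]
  simp [mul_assoc]

lemma placeCusp (Θ : FC N ≃+* FractionRing (WH (Gamma0 N)))
    (hΘ : ∀ g : WH (Gamma0 N), ((Θ.symm (algebraMap _ _ g) : FC N) : LaurentSeries ℂ) =
        laurentFun 1 (g : ℍ → ℂ))
    (δ : SL(2, ℤ)) (v : Place ℂ (FC N))
    (hv : ∀ f, f ≠ 0 → (sig N Θ ((δ⁻¹ : SL(2, ℤ)) : SL(2, ℤ) ⧸ Gamma0 N) f).order =
      ((N / wd N ((δ⁻¹ : SL(2, ℤ)) : SL(2, ℤ) ⧸ Gamma0 N) : ℕ) : ℤ) * v.ord f) :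
    PlaceCusp N v δ (wd N ((δ⁻¹ : SL(2, ℤ)) : SL(2, ℤ) ⧸ Gamma0 N)) := by
  intro k a b ha hb ha0 hb0
  set w := wd N ((δ⁻¹ : SL(2, ℤ)) : SL(2, ℤ) ⧸ Gamma0 N) with hw
  have hwpos : 0 < w := wd_pos N _
  have hwid := isWidth N δ
  rw [← hw] at hwid
  have hwN : w ∣ N := (card_orbit_dvd ModularGroup.T N (Fib.T_pow_N_smul N) _).1
  obtain ⟨M, hM⟩ := hwN
  have hMpos : 0 < M := by
    rcases Nat.eq_zero_or_pos M with h | h
    · rw [h, mul_zero] at hM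
      exact absurd hM (NeZero.ne N)
    · exact h
  have hdiv : N / w = M := by rw [hM, Nat.mul_div_cancel_left _ hwpos]
  have hT : δ * ModularGroup.T ^ (w : ℤ) * δ⁻¹ ∈ Gamma0 N := (hwid.2 w).mpr dvd_rfl
  have hr0 : ratio N a b ≠ 0 := by
    intro h
    have h1 := coe_ratio N ha hb
    rw [h] at h1
    have h2 : qL a / qL b = 0 := h1.symm
    rw [div_eq_zero_iff, qL_eq_zero_iff ha, qL_eq_zero_iff hb] at h2
    exact h2.elim ha0 hb0
  have h1 := hv _ hr0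
  rw [order_sig N Θ hΘ δ ha hb ha0 hb0, hdiv] at h1
  have hNM : N = M * w := by rw [hM, mul_comm]
  have e1 : ordI N (a ∣[k] δ) = M * ordI w (a ∣[k] δ) := by
    conv_lhs => rw [hNM]
    exact ordI_mul hwpos hMpos (ha.slash_holo δ) (periodic_slash ha.inv δ w hT) (ha.bdd δ)
  have e2 : ordI N (b ∣[k] δ) = M * ordI w (b ∣[k] δ) := by
    conv_lhs => rw [hNM]
    exact ordI_mul hwpos hMpos (hb.slash_holo δ) (periodic_slash hb.inv δ w hT) (hb.bdd δ)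
  rw [e1, e2, ← mul_sub] at h1
  exact (mul_left_cancel₀ (by exact_mod_cast hMpos.ne') h1).symm

end C3

/-! (C3) [PlaceCusp.lean] -/

theorem exists_placeCusp_of_place (N : ℕ) [NeZero N] (v : Place ℂ (FC N)) (hv : v.ord (jC N) < 0) :
    ∃ (δ : SL(2, ℤ)) (w : ℕ), IsWidth N δ w ∧ PlaceCusp N v δ w := by
  obtain ⟨Θ, h1, h2, h3⟩ := exists_thetaC N
  have hz : v ∈ zerosOf ℂ (jC N)⁻¹ := by
    rw [mem_zerosOf, Place.ord_inv]
    omega
  obtain ⟨x, hx⟩ := (C3.fibre N Θ h2 h3).1 v hz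
  obtain ⟨g, rfl⟩ := QuotientGroup.mk_surjective x
  have hg : ((g : SL(2, ℤ)) : SL(2, ℤ) ⧸ Gamma0 N) = (((g⁻¹)⁻¹ : SL(2, ℤ)) : SL(2, ℤ) ⧸ Gamma0 N) := by
    rw [inv_inv]
  rw [hg] at hx
  exact ⟨g⁻¹, _, C3.isWidth N g⁻¹, C3.placeCusp N Θ h1 g⁻¹ v hx⟩

theorem exists_placeCusp_of_cusp (N : ℕ) [NeZero N] (δ : SL(2, ℤ)) :
    ∃ (v : Place ℂ (FC N)) (w : ℕ), IsWidth N δ w ∧ PlaceCusp N v δ w := by
  obtain ⟨Θ, h1, h2, h3⟩ := exists_thetaC N
  obtain ⟨v, -, hx⟩ := (C3.fibre N Θ h2 h3).2 ((δ⁻¹ : SL(2, ℤ)) : SL(2, ℤ) ⧸ Gamma0 N)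
  exact ⟨v, _, C3.isWidth N δ, C3.placeCusp N Θ h1 δ v hx⟩

end

end Fermat.Agent.ESLib
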