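import Fermat.Agent.ES.DDefs
import Fermat.Agent.ES.DFormal
import Fermat.Agent.ES.KDAn
import Fermat.Agent.ES.PlaceCusp

/-!
# ES block R1, leaf (K6): `δ` does not lower the order at a cusp
-/

set_option autoImplicit false
set_option synthInstance.maxHeartbeats 400000

open UpperHalfPlane ModularForm Matrix.SpecialLinearGroup CongruenceSubgroup ModularCurve
open AlgebraicCurve IntermediateField Filter Topology
open scoped MatrixGroups Manifold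
open Fermat.Agent.S18Lib Fermat.Agent.S20Lib Fermat.Agent.S28Lib Fermat.Agent.S24Lib

namespace Fermat.Agent.ESLib

noncomputable section

/-! ### the analytic lemma -/

lemma k6_isBigO_nhds {c₁ c₂ : ℂ → ℂ} (h₁ : AnalyticAt ℂ c₁ 0) (h₂ : AnalyticAt ℂ c₂ 0)
    (hne : analyticOrderAt c₁ 0 ≠ ⊤) (hle : analyticOrderAt c₁ 0 ≤ analyticOrderAt c₂ 0) :
    c₂ =O[𝓝 0] c₁ := by
  obtain ⟨n, hn⟩ : ∃ n : ℕ, analyticOrderAt c₁ 0 = n := ⟨_, (ENat.natCast_toNat hne).symm⟩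
  obtain ⟨g₁, hg₁, hg₁0, e₁⟩ := (h₁.analyticOrderAt_eq_natCast).mp hn
  rw [hn] at hle
  obtain ⟨g₂, hg₂, e₂⟩ := (natCast_le_analyticOrderAt h₂).mp hle
  have b₂ : g₂ =O[𝓝 0] (fun _ => (1 : ℂ)) := hg₂.continuousAt.tendsto.isBigO_one ℂ
  have b₁ : (fun _ => (1 : ℂ)) =O[𝓝 0] g₁ := by
    rw [Asymptotics.isBigO_const_left_iff_pos_le_norm one_ne_zero]
    refine ⟨‖g₁ 0‖ / 2, by positivity, ?_⟩
    have : Tendsto (fun z => ‖g₁ z‖) (𝓝 0) (𝓝 ‖g₁ 0‖) := hg₁.continuousAt.tendsto.norm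
    exact (this.eventually (lt_mem_nhds (half_lt_self (norm_pos_iff.mpr hg₁0)))).mono
      fun z hz => hz.le
  have b := (Asymptotics.isBigO_refl (fun z : ℂ => (z - 0) ^ n) (𝓝 0)).smul (b₂.trans b₁)
  exact b.congr' (e₂.mono fun z hz => hz.symm) (e₁.mono fun z hz => hz.symm)

lemma k6_isBigO {w : ℕ} (hw : 0 < w) {g₁ g₂ : ℍ → ℂ} (h₁ : QI ⊤ w g₁) (h₂ : QI ⊤ w g₂)
    (hne : qExpansion w g₁ ≠ 0) (hle : (qExpansion w g₁).order ≤ (qExpansion w g₂).order) :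
    g₂ =O[atImInfty] g₁ := by
  have hw' : (0 : ℝ) < w := by exact_mod_cast hw
  have a₁ := h₁.analytic hw
  have a₂ := h₂.analytic hw
  have o₁ : (qExpansion w g₁).order = analyticOrderAt (cuspFunction w g₁) 0 := order_taylorPS a₁
  have o₂ : (qExpansion w g₂).order = analyticOrderAt (cuspFunction w g₂) 0 := order_taylorPS a₂
  have hb := k6_isBigO_nhds a₁ a₂ (by rw [← o₁, Ne, PowerSeries.order_eq_top]; exact hne)
    (by rw [← o₁, ← o₂]; exact hle)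
  have := hb.comp_tendsto (qParam_tendsto_atImInfty hw')
  refine this.congr (fun τ => ?_) (fun τ => ?_)
  · exact eq_cuspFunction τ hw'.ne' h₂.per'
  · exact eq_cuspFunction τ hw'.ne' h₁.per'

/-! ### `δ` kills the expansion of `j` -/

lemma k6_dL_int (δ : Derivation ℚ ℂ ℂ) {w : ℕ} (hw : 0 < w) {F : ℍ → ℂ} (hF : QI ⊤ 1 F)
    (P : PowerSeries ℤ) (hP : qExpansion 1 F = P.map (Int.castRingHom ℂ)) :
    dL δ (HahnSeries.ofPowerSeries ℤ ℂ (qExpansion w F)) = 0 := by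
  rw [dL_ofPowerSeries]
  have : dP δ (qExpansion w F) = 0 := by
    ext n
    have h := UpperHalfPlane.qExpansion_coeff_nat_mul (h := 1) one_pos (F := F)
      (by simpa using hF.per') hF.holo hF.bdd hw n
    rw [mul_one] at h
    rw [coeff_dP, h]
    split_ifs
    · rw [hP, PowerSeries.coeff_map]
      simp
    · simp
  rw [this, map_zero]

lemma k6_isMerInf_jan (w : ℕ) : IsMerInf w jan := by
  have := isWH_jan.isMerInf_conj (N := w) le_top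
    ((1 : SL(2, ℤ)) : SL(2, ℤ) ⧸ (⊤ : Subgroup SL(2, ℤ)))
  rwa [conj_one isWH_jan.inv] at this

lemma k6_dL_jan (δ : Derivation ℚ ℂ ℂ) {w : ℕ} (hw : 0 < w) : dL δ (laurentFun w jan) = 0 := by
  have hJ := k6_isMerInf_jan w
  have hD := isMerInf_Dl w
  have hmul : jan * Dl = E4 ^ 3 := by
    funext τ
    simp only [Pi.mul_apply, jan, Pi.pow_apply]
    field_simp [Dl_ne_zero τ]
  have hE : IsMerInf w (E4 ^ 3) := hmul ▸ hJ.mul hD
  have hEb : IsBoundedAtImInfty (E4 ^ 3) := by simpa using W2.isMF_E4_cube.bdd 1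
  have h1 := laurentFun_mul hw hJ hD
  rw [hmul, laurentFun_of_bdd hw hE hEb, laurentFun_of_bdd hw hD W1_bdd_Dl] at h1
  have e1 := k6_dL_int δ hw (W2.qi_of_isMF_top W2.isMF_E4_cube) (eisenstein4 ^ 3)
    (by rw [W2.qExpansion_E4_cube, map_pow])
  have e2 := k6_dL_int δ hw (W2.qi_of_isMF_top isMF_Dl) (PowerSeries.X * dedekindEtaUnit)
    qExpansion_Delta
  have h2 := congrArg (dL δ) h1
  rw [e1, dL_mul, e2, mul_zero, zero_add] at h2
  exact (mul_eq_zero.mp h2.symm).resolve_left (W1_d_ne_zero hw)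

lemma k6_thL_jan_ne_zero {w : ℕ} (hw : 0 < w) : thL (laurentFun w jan) ≠ 0 := by
  intro h
  have ho := order_laurentFun_jan hw
  have hne : laurentFun w jan ≠ 0 := by
    intro h0
    rw [h0, HahnSeries.order_zero] at ho
    omega
  have h1 := congrArg (fun x => x.coeff (-(w : ℤ))) h
  simp only [coeff_thL, HahnSeries.coeff_zero] at h1
  rcases mul_eq_zero.mp h1 with h2 | h2
  · have : (w : ℂ) = 0 := by
      push_cast at h2
      simpa using h2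
    exact hw.ne' (by exact_mod_cast this)
  · rw [← ho] at h2
    exact hne (HahnSeries.coeff_order_eq_zero.mp h2)

lemma k6_isMerInf_Dl_pow (w n : ℕ) : IsMerInf w (Dl ^ n) := by
  induction n with
  | zero =>
    have : (Dl ^ 0 : ℍ → ℂ) = Function.const ℍ 1 := by rw [pow_zero]; rfl
    rw [this]
    exact isMerInf_const w 1
  | succ n ih =>
    rw [pow_succ]
    exact ih.mul (isMerInf_Dl w)

lemma k6_qi_slash {N : ℕ} {k : ℤ} {a : ℍ → ℂ} (ha : IsMF (Gamma0 N) k a) (γ : SL(2, ℤ)) :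
    QI ⊤ N (a ∣[k] γ) where
  per := C3.periodic_slash ha.inv γ N (C3.conj_T_pow_N_mem N γ)
  holo := ha.slash_holo γ
  bdd := ha.bdd γ
  int _ := Subring.mem_top _

lemma k6_qExpansion_ne_zero {w : ℕ} (hw : 0 < w) {g : ℍ → ℂ} (hg : IsMerInf w g)
    (hb : IsBoundedAtImInfty g) (hg0 : g ≠ 0) : qExpansion w g ≠ 0 := by
  intro h
  have h1 := laurentFun_of_bdd hw hg hb
  rw [h, map_zero, laurentFun_eq_zero_iff hw hg] at h1
  exact hg0 h1

/-- (K6) -/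
theorem isBigO_of_deriv (N : ℕ) [NeZero N] (δ : Derivation ℚ ℂ ℂ) (n : ℕ) {Φ Ψ : ℍ → ℂ}
    (hΦ : IsMF (Gamma0 N) (12 * (n : ℤ)) Φ) (hΨ : IsMF (Gamma0 N) (12 * (n : ℤ)) Ψ)
    (hq : qExpansion 1 Ψ = dP δ (qExpansion 1 Φ)) (γ : SL(2, ℤ)) :
    (Ψ ∣[12 * (n : ℤ)] γ) =O[atImInfty] (Φ ∣[12 * (n : ℤ)] γ) := by
  by_cases hΨ0 : Ψ = 0
  · rw [hΨ0, SlashAction.zero_slash]
    exact Asymptotics.isBigO_zero _ _
  have hΦ0 : Φ ≠ 0 := by
    rintro rfl
    apply hΨ0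
    have h0 : qExpansion 1 Ψ = 0 := by
      rw [hq, qExpansion_zero]
      ext m
      simp
    exact (qL_eq_zero_iff hΨ).mp (by rw [qL, h0, map_zero])
  have hN := C3.N_pos N
  have hΓ := C3.Gamma_le N
  set a : WH (Gamma0 N) := ⟨Φ / Dl ^ n, C3.isWH_div hΦ⟩ with ha_def
  set b : WH (Gamma0 N) := ⟨Ψ / Dl ^ n, C3.isWH_div hΨ⟩ with hb_def
  have ha : (a : ℍ → ℂ) * Dl ^ n = Φ := by
    funext τ
    simp only [ha_def, Pi.mul_apply, Pi.div_apply]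
    exact div_mul_cancel₀ _ (C3.Dl_pow_ne_zero n τ)
  have hb : (b : ℍ → ℂ) * Dl ^ n = Ψ := by
    funext τ
    simp only [hb_def, Pi.mul_apply, Pi.div_apply]
    exact div_mul_cancel₀ _ (C3.Dl_pow_ne_zero n τ)
  have ha0 : a ≠ 0 := by
    intro h
    apply hΦ0
    rw [← ha, h]
    simp
  have hb0 : b ≠ 0 := by
    intro h
    apply hΨ0
    rw [← hb, h]
    simp
  set x : SL(2, ℤ) ⧸ Gamma0 N := ((γ⁻¹ : SL(2, ℤ)) : SL(2, ℤ) ⧸ Gamma0 N) with hx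
  have hEc : ∀ c : ℂ, W9.EInf hN hΓ x (whConst _ c) = HahnSeries.C c := by
    intro c
    rw [W9.EInf_apply]
    have : ((whConst (Gamma0 N) c : WH (Gamma0 N)) : ℍ → ℂ) = Function.const ℍ c := rfl
    rw [this, W9.conj_const, laurentFun_const hN]
  have key := kd_analytic N (W9.EInf hN hΓ x) (W9.EInf_injective hN hΓ x) hEc δ n hΦ hΨ hq a b ha hb
  have hj : W9.EInf hN hΓ x ⟨jan, isWH_jan.mono le_top⟩ = laurentFun N jan := by
    rw [W9.EInf_apply]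
    congr 1
    exact isWH_jan.inv _ trivial
  rw [hj] at key
  have hEb0 : W9.EInf hN hΓ x b ≠ 0 := fun h =>
    hb0 (W9.EInf_injective hN hΓ x (by rw [h, map_zero]))
  have hEa0 : W9.EInf hN hΓ x a ≠ 0 := fun h =>
    ha0 (W9.EInf_injective hN hΓ x (by rw [h, map_zero]))
  have hord := kd_order_zero δ key (k6_thL_jan_ne_zero hN) (k6_dL_jan δ hN) hEb0
  -- translate to `Φ ∣ γ`, `Ψ ∣ γ`
  have hT := C3.conj_T_pow_N_mem N γ
  have mD := k6_isMerInf_Dl_pow N n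
  have nD : laurentFun N (Dl ^ n) ≠ 0 := by
    rw [Ne, laurentFun_eq_zero_iff hN mD]
    intro h
    exact C3.Dl_pow_ne_zero n UpperHalfPlane.I (by rw [h]; rfl)
  have tr : ∀ (F : ℍ → ℂ) (hF : IsMF (Gamma0 N) (12 * (n : ℤ)) F) (hF0 : F ≠ 0) (c : WH (Gamma0 N))
      (hc : (c : ℍ → ℂ) * Dl ^ n = F) (hEc0 : W9.EInf hN hΓ x c ≠ 0),
      ordI N (F ∣[12 * (n : ℤ)] γ) = (W9.EInf hN hΓ x c).order + (laurentFun N (Dl ^ n)).order := by
    intro F hF hF0 c hc hEc0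
    have mc : IsMerInf N (conj (Gamma0 N) 0 c.1 x) := c.2.isMerInf_conj hΓ x
    have e1 : F ∣[12 * (n : ℤ)] γ = conj (Gamma0 N) 0 c.1 x * Dl ^ n := by
      rw [hx, conj_mk c.2.inv, inv_inv, ← hc]
      have := mul_slash_SL2 0 (12 * (n : ℤ)) γ (c : ℍ → ℂ) (Dl ^ n)
      rw [zero_add, (C3.isMF_Dl_pow n).top_slash] at this
      exact this
    rw [← C3.order_laurentFun_eq_ordI hN (C3.isMerInf_slash hF γ N hT) (hF.bdd γ)
      (C3.slash_ne_zero hF0 γ), e1, laurentFun_mul hN mc mD, ← W9.EInf_apply hN hΓ x c,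
      HahnSeries.order_mul hEc0 nD]
  have o1 := tr Φ hΦ hΦ0 a ha hEa0
  have o2 := tr Ψ hΨ hΨ0 b hb hEb0
  have hle : ordI N (Φ ∣[12 * (n : ℤ)] γ) ≤ ordI N (Ψ ∣[12 * (n : ℤ)] γ) := by
    rw [o1, o2]
    omega
  have n1 := k6_qExpansion_ne_zero hN (C3.isMerInf_slash hΦ γ N hT) (hΦ.bdd γ)
    (C3.slash_ne_zero hΦ0 γ)
  have n2 := k6_qExpansion_ne_zero hN (C3.isMerInf_slash hΨ γ N hT) (hΨ.bdd γ)
    (C3.slash_ne_zero hΨ0 γ)
  refine k6_isBigO hN (k6_qi_slash hΦ γ) (k6_qi_slash hΨ γ) n1 ?_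
  have t1 : (qExpansion N (Φ ∣[12 * (n : ℤ)] γ)).order ≠ ⊤ := by
    rwa [Ne, PowerSeries.order_eq_top]
  have t2 : (qExpansion N (Ψ ∣[12 * (n : ℤ)] γ)).order ≠ ⊤ := by
    rwa [Ne, PowerSeries.order_eq_top]
  rw [← ENat.natCast_toNat t1, ← ENat.natCast_toNat t2]
  unfold ordI at hle
  exact_mod_cast hle

end

end Fermat.Agent.ESLib
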