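import Fermat.Agent.ES.DDefs
import Fermat.Agent.ES.DFormal
import Fermat.Agent.ES.KDAn
import Fermat.Agent.ES.Local
import Fermat.Agent.ES.PlaceCusp
import Fermat.Agent.S24.EmbAt
import Fermat.Agent.S24.JLocal

/-!
# ES block R1, leaf (K5): `δ` lowers the order at a point of `ℍ` by at most one
-/

set_option autoImplicit false
set_option synthInstance.maxHeartbeats 400000

open UpperHalfPlane ModularForm Matrix.SpecialLinearGroup CongruenceSubgroup ModularCurve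
open AlgebraicCurve IntermediateField Filter Topology
open scoped MatrixGroups Manifold
open Fermat.Agent.S18Lib Fermat.Agent.S20Lib Fermat.Agent.S28Lib Fermat.Agent.S24Lib

namespace Fermat.Agent.ESLib

noncomputable section

lemma k5_coeff_zero_taylorH (g : ℍ → ℂ) (τ : ℍ) : (taylorH g τ).coeff 0 = g τ := by
  rw [taylorH, taylor_coeff_taylorPS]
  simp

lemma k5_ordH_eq_zero {g : ℍ → ℂ} {τ : ℍ} (h : g τ ≠ 0) : ordH g τ = 0 := by
  have : (taylorH g τ).order = 0 := by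
    rw [PowerSeries.order_zero_of_unit]
    rw [PowerSeries.isUnit_iff_constantCoeff, ← PowerSeries.coeff_zero_eq_constantCoeff_apply,
      k5_coeff_zero_taylorH]
    exact isUnit_iff_ne_zero.mpr h
  rw [ordH, this]
  rfl

/-- the local shape of the Taylor series `J` of `j`. -/
lemma k5_local (δ : Derivation ℚ ℂ ℂ) (τ : ℍ) :
    thL (HahnSeries.ofPowerSeries ℤ ℂ (taylorH jan τ)) ≠ 0 ∧
      (dL δ (HahnSeries.ofPowerSeries ℤ ℂ (taylorH jan τ)) = 0 ∨
        (thL (HahnSeries.ofPowerSeries ℤ ℂ (taylorH jan τ))).order ≤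
          (dL δ (HahnSeries.ofPowerSeries ℤ ℂ (taylorH jan τ))).order + 1) := by
  set P := taylorH jan τ with hP
  obtain ⟨e, he1, hord, hδ⟩ : ∃ e : ℕ, 1 ≤ e ∧ (P - PowerSeries.C (jan τ)).order = e ∧
      (2 ≤ e → δ (jan τ) = 0) := by
    have h := order_taylorH_jan_sub τ
    by_cases h0 : jan τ = 0
    · rw [if_pos h0] at h
      exact ⟨3, by norm_num, h, fun _ => by rw [h0, map_zero]⟩
    · rw [if_neg h0] at h
      by_cases h1 : jan τ = 1728
      · rw [if_pos h1] at h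
        refine ⟨2, by norm_num, h, fun _ => ?_⟩
        rw [h1]
        exact_mod_cast δ.map_natCast 1728
      · rw [if_neg h1] at h
        exact ⟨1, le_refl _, h, fun h2 => absurd h2 (by norm_num)⟩
  rw [PowerSeries.order_eq_nat] at hord
  have hc : ∀ n : ℕ, 0 < n → P.coeff n = (P - PowerSeries.C (jan τ)).coeff n := by
    intro n hn
    rw [map_sub, PowerSeries.coeff_C, if_neg hn.ne', sub_zero]
  have hce : P.coeff e ≠ 0 := by rw [hc e he1]; exact hord.1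
  have hlt : ∀ n : ℕ, 0 < n → n < e → P.coeff n = 0 := by
    intro n hn hne
    rw [hc n hn]
    exact hord.2 n hne
  have hth : (thL (HahnSeries.ofPowerSeries ℤ ℂ P)).coeff (e : ℤ) ≠ 0 := by
    rw [coeff_thL, HahnSeries.ofPowerSeries_apply_coeff]
    refine mul_ne_zero ?_ hce
    have : (e : ℂ) ≠ 0 := by exact_mod_cast (by omega : e ≠ 0)
    exact_mod_cast this
  have hth0 : thL (HahnSeries.ofPowerSeries ℤ ℂ P) ≠ 0 := by
    intro h
    rw [h] at hth
    exact hth rfl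
  refine ⟨hth0, ?_⟩
  by_cases hd : dL δ (HahnSeries.ofPowerSeries ℤ ℂ P) = 0
  · exact Or.inl hd
  right
  have h1 : (thL (HahnSeries.ofPowerSeries ℤ ℂ P)).order ≤ e :=
    HahnSeries.order_le_of_coeff_ne_zero hth
  have h2 : (e : ℤ) - 1 ≤ (dL δ (HahnSeries.ofPowerSeries ℤ ℂ P)).order := by
    rw [HahnSeries.le_order_iff_forall hd]
    intro j hj
    rw [coeff_dL]
    rcases lt_or_ge j 0 with hj0 | hj0
    · rw [ofPowerSeries_coeff_of_neg _ hj0, map_zero]
    · lift j to ℕ using hj0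
      rw [HahnSeries.ofPowerSeries_apply_coeff]
      have hj' : j + 1 < e := by omega
      rcases Nat.eq_zero_or_pos j with rfl | hjpos
      · rw [hP, k5_coeff_zero_taylorH]
        exact hδ (by omega)
      · rw [hlt j hjpos (by omega), map_zero]
  omega

/-- (K5) -/
theorem ordH_le_of_deriv (N : ℕ) [NeZero N] (δ : Derivation ℚ ℂ ℂ) (n : ℕ) {Φ Ψ : ℍ → ℂ}
    (hΦ : IsMF (Gamma0 N) (12 * (n : ℤ)) Φ) (hΨ : IsMF (Gamma0 N) (12 * (n : ℤ)) Ψ)
    (hq : qExpansion 1 Ψ = dP δ (qExpansion 1 Φ)) (hΨ0 : Ψ ≠ 0) (τ : ℍ) :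
    ordH Φ τ ≤ ordH Ψ τ + 1 := by
  have hΦ0 : Φ ≠ 0 := by
    rintro rfl
    apply hΨ0
    have h0 : qExpansion 1 Ψ = 0 := by
      rw [hq, qExpansion_zero]
      ext m
      simp
    exact (qL_eq_zero_iff hΨ).mp (by rw [qL, h0, map_zero])
  set a : WH (Gamma0 N) := ⟨Φ / Dl ^ n, C3.isWH_div hΦ⟩ with ha_def
  set b : WH (Gamma0 N) := ⟨Ψ / Dl ^ n, C3.isWH_div hΨ⟩ with hb_def
  have ha : (a : ℍ → ℂ) * Dl ^ n = Φ := by
    funext τ
    simp only [ha_def, Pi.mul_apply, Pi.div_apply]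
    exact div_mul_cancel₀ _ (C3.Dl_pow_ne_zero n τ)
  have hb : (b : ℍ → ℂ) * Dl ^ n = Ψ := by
    funext τ
    simp only [hb_def, Pi.mul_apply, Pi.div_apply]
    exact div_mul_cancel₀ _ (C3.Dl_pow_ne_zero n τ)
  have ha0 : a ≠ 0 := by
    intro h
    apply hΦ0
    rw [← ha, h]
    simp
  have hb0 : b ≠ 0 := by
    intro h
    apply hΨ0
    rw [← hb, h]
    simp
  set x : SL(2, ℤ) ⧸ Gamma0 N := ((1 : SL(2, ℤ)) : SL(2, ℤ) ⧸ Gamma0 N) with hx
  have hEc : ∀ c : ℂ, W8.EAt (Gamma0 N) τ x (whConst _ c) = HahnSeries.C c := by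
    intro c
    rw [W8.EAt_apply]
    have : ((whConst (Gamma0 N) c : WH (Gamma0 N)) : ℍ → ℂ) = Function.const ℍ c := rfl
    rw [this, W8.conj_const, taylorH_const, HahnSeries.ofPowerSeries_C]
  have key := kd_analytic N (W8.EAt (Gamma0 N) τ x) (W8.EAt_injective τ x) hEc δ n hΦ hΨ hq a b
    ha hb
  have hj : W8.EAt (Gamma0 N) τ x ⟨jan, isWH_jan.mono le_top⟩ =
      HahnSeries.ofPowerSeries ℤ ℂ (taylorH jan τ) := by
    rw [W8.EAt_apply]
    congr 2
    exact isWH_jan.inv _ trivial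
  rw [hj] at key
  have hEb0 : W8.EAt (Gamma0 N) τ x b ≠ 0 := fun h =>
    hb0 (W8.EAt_injective τ x (by rw [h, map_zero]))
  obtain ⟨l1, l2⟩ := k5_local δ τ
  have hord := kd_order δ key l1 l2 hEb0
  have tr : ∀ (F : ℍ → ℂ) (c : WH (Gamma0 N)) (hc : (c : ℍ → ℂ) * Dl ^ n = F) (hc0 : c ≠ 0),
      ordH F τ = (W8.EAt (Gamma0 N) τ x c).order := by
    intro F c hc hc0
    have hD0 : (Dl ^ n : ℍ → ℂ) ≠ 0 := fun h =>
      C3.Dl_pow_ne_zero n UpperHalfPlane.I (by rw [h]; rfl)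
    rw [← hc, ordH_mul c.2.holo (fun h => hc0 (Subtype.ext h)) (C3.isMF_Dl_pow n).holo hD0,
      k5_ordH_eq_zero (C3.Dl_pow_ne_zero n τ), add_zero, W8.order_EAt τ x hc0, hx,
      conj_one c.2.inv]
    rfl
  rw [tr Φ a ha ha0, tr Ψ b hb hb0]
  exact hord

end

end Fermat.Agent.ESLib
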