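import Mathlib
import Fermat.Agent.ES.Defs
import Fermat.Agent.ES.Ratio
import Fermat.Agent.ES.PlaceFin
import Fermat.Agent.ES.PlaceCusp
import Fermat.Agent.ES.Local

/-!
# ES block (4), leaf (D2): `(g₁/g₀)^n` is a Kummer element
-/

set_option autoImplicit false

open UpperHalfPlane ModularForm Matrix.SpecialLinearGroup CongruenceSubgroup ModularCurve
open AlgebraicCurve IntermediateField
open scoped MatrixGroups Manifold
open Fermat.Agent.S20Lib Fermat.Agent.S28Lib Fermat.Agent.S24Lib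

namespace Fermat.Agent.ESLib

noncomputable section

/-- an element of `SL(2,ℤ)` with a fixed point in `ℍ` has trace `0, ±1, ±2`. -/
theorem D2.trace_sq_le (ε : SL(2, ℤ)) (τ : ℍ) (h : ε • τ = τ) :
    (ε : Matrix (Fin 2) (Fin 2) ℤ).trace ^ 2 ≤ 4 := by
  have hne := taylor_denom_ne ε τ
  have hden := taylor_denom_eq ε τ
  set lam : ℂ := (ε 1 0 : ℤ) * (τ : ℂ) + (ε 1 1 : ℤ) with hlam
  have h1 : ((ε 0 0 : ℤ) : ℂ) * τ + (ε 0 1 : ℤ) = τ * lam := by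
    have := taylor_coe_smul ε τ
    rw [h, taylorMob, eq_div_iff hne] at this
    exact this.symm
  have hdet := taylor_det ε
  have hq : lam ^ 2 + 1 = (((ε 0 0 + ε 1 1 : ℤ)) : ℂ) * lam := by
    push_cast
    rw [hlam] at h1 ⊢
    linear_combination (-((ε 1 0 : ℤ) : ℂ)) * h1 - hdet
  have hnorm : ‖lam‖ = 1 := by
    have h2 := ModularGroup.im_smul_eq_div_normSq ε τ
    rw [h, hden] at h2
    have hpos : 0 < Complex.normSq lam := Complex.normSq_pos.2 hne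
    rw [eq_div_iff hpos.ne'] at h2
    have h3 : Complex.normSq lam = 1 := by
      have := τ.im_pos
      nlinarith
    rw [Complex.normSq_eq_norm_sq] at h3
    have h4 : 0 ≤ ‖lam‖ := norm_nonneg _
    nlinarith
  have h5 : ‖(((ε 0 0 + ε 1 1 : ℤ)) : ℂ)‖ ≤ 2 := by
    have h6 : ‖(((ε 0 0 + ε 1 1 : ℤ)) : ℂ) * lam‖ ≤ 2 := by
      rw [← hq]
      calc ‖lam ^ 2 + 1‖ ≤ ‖lam ^ 2‖ + ‖(1 : ℂ)‖ := norm_add_le _ _
        _ = 2 := by rw [norm_pow, hnorm]; norm_num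
    rwa [norm_mul, hnorm, mul_one] at h6
  rw [Complex.norm_intCast] at h5
  rw [Matrix.trace_fin_two]
  have h7 := abs_le.1 h5
  have h8 : ((ε 0 0 + ε 1 1 : ℤ) : ℝ) ^ 2 ≤ 4 := by nlinarith [h7.1, h7.2]
  exact_mod_cast h8

theorem D2.trace_conj_T (δ : SL(2, ℤ)) (m : ℤ) :
    ((δ * ModularGroup.T ^ m * δ⁻¹ : SL(2, ℤ)) : Matrix (Fin 2) (Fin 2) ℤ).trace = 2 := by
  have h1 : ((δ * ModularGroup.T ^ m * δ⁻¹ : SL(2, ℤ)) : Matrix (Fin 2) (Fin 2) ℤ) =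
      (δ : Matrix (Fin 2) (Fin 2) ℤ) * ((ModularGroup.T ^ m : SL(2, ℤ)) : Matrix (Fin 2) (Fin 2) ℤ)
        * ((δ⁻¹ : SL(2, ℤ)) : Matrix (Fin 2) (Fin 2) ℤ) := by
    simp [Matrix.SpecialLinearGroup.coe_mul]
  have h2 : ((δ⁻¹ : SL(2, ℤ)) : Matrix (Fin 2) (Fin 2) ℤ) * (δ : Matrix (Fin 2) (Fin 2) ℤ) = 1 := by
    rw [← Matrix.SpecialLinearGroup.coe_mul, inv_mul_cancel, Matrix.SpecialLinearGroup.coe_one]
  rw [h1, Matrix.trace_mul_cycle, h2, one_mul, ModularGroup.coe_T_zpow, Matrix.trace_fin_two]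
  simp

theorem D2.slash_T_zpow_apply (k : ℤ) (f : ℍ → ℂ) (m : ℕ) (τ : ℍ) :
    (f ∣[k] (ModularGroup.T ^ (m : ℤ) : SL(2, ℤ))) τ = f (((m : ℕ) : ℝ) +ᵥ τ) := by
  rw [ModularForm.SL_slash_apply, taylor_denom_eq]
  have h10 : (ModularGroup.T ^ (m : ℤ) : SL(2, ℤ)) 1 0 = 0 := by
    show ((ModularGroup.T ^ (m : ℤ) : SL(2, ℤ)).1) 1 0 = 0
    rw [ModularGroup.coe_T_zpow]; simp
  have h11 : (ModularGroup.T ^ (m : ℤ) : SL(2, ℤ)) 1 1 = 1 := by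
    show ((ModularGroup.T ^ (m : ℤ) : SL(2, ℤ)).1) 1 1 = 1
    rw [ModularGroup.coe_T_zpow]; simp
  rw [h10, h11]
  have h3 : (ModularGroup.T ^ (m : ℤ) : SL(2, ℤ)) • τ = ((m : ℕ) : ℝ) +ᵥ τ := by
    ext
    rw [ModularGroup.coe_T_zpow_smul_eq]
    simp [add_comm]
  rw [h3]
  simp

/-- translates of forms with an elliptic-parabolic-trivial multiplier are periodic of period the
width of the cusp -/
theorem D2.periodic {N : ℕ} {k : ℤ} {χ : Gamma0 N →* ℂˣ} (hχ : IsEllPar χ) {g : ℍ → ℂ}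
    (hg : IsMFChar N k χ g) {δ : SL(2, ℤ)} {w : ℕ} (hw : IsWidth N δ w) :
    Function.Periodic ((g ∣[k] δ) ∘ ofComplex) w := by
  apply W3.periodic_of_vadd_nat
  intro τ
  rw [← D2.slash_T_zpow_apply k (g ∣[k] δ) w τ]
  have hmem : δ * ModularGroup.T ^ (w : ℤ) * δ⁻¹ ∈ Gamma0 N := (hw.2 w).2 (dvd_refl _)
  have hχ1 : χ ⟨_, hmem⟩ = 1 := by
    apply hχ
    show ((δ * ModularGroup.T ^ (w : ℤ) * δ⁻¹ : SL(2, ℤ)) : Matrix (Fin 2) (Fin 2) ℤ).trace ^ 2 ≤ 4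
    rw [D2.trace_conj_T]
    norm_num
  have h1 := hg.slash ⟨_, hmem⟩
  rw [hχ1] at h1
  simp only [Units.val_one, one_smul] at h1
  have h2 : (g ∣[k] δ) ∣[k] (ModularGroup.T ^ (w : ℤ) : SL(2, ℤ)) = g ∣[k] δ := by
    conv_rhs => rw [← h1]
    rw [← SlashAction.slash_mul, ← SlashAction.slash_mul]
    congr 1
    group
  rw [h2]

theorem D2.slash_ne_zero {k : ℤ} {g : ℍ → ℂ} (hg : g ≠ 0) (δ : SL(2, ℤ)) : g ∣[k] δ ≠ 0 := by
  intro h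
  apply hg
  have h1 : (g ∣[k] δ) ∣[k] δ⁻¹ = 0 := by rw [h, SlashAction.zero_slash]
  rwa [← SlashAction.slash_mul, mul_inv_cancel, SlashAction.slash_one] at h1

/-- (D2) -/
theorem kummer_of_char (N : ℕ) [NeZero N] (n : ℕ) (k : ℤ) (χ : Gamma0 N →* ℂˣ) (hχ : IsEllPar χ)
    (hn : ∀ γ, χ γ ^ n = 1) (g₁ g₀ : ℍ → ℂ) (h₁ : IsMFChar N k χ g₁) (h₀ : IsMF (Gamma0 N) k g₀)
    (h₁0 : g₁ ≠ 0) (h₀0 : g₀ ≠ 0) (v : Place ℂ (FC N)) :
    (n : ℤ) ∣ v.ord (ratio N (g₁ ^ n) (g₀ ^ n)) := by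
  have ha : IsMF (Gamma0 N) (n * k) (g₁ ^ n) := h₁.pow hn
  have hb : IsMF (Gamma0 N) (n * k) (g₀ ^ n) := SeparatingAux.isMF_pow h₀ n
  have ha0 : g₁ ^ n ≠ 0 := d1_pow_ne_zero h₁.holo h₁0 n
  have hb0 : g₀ ^ n ≠ 0 := d1_pow_ne_zero h₀.holo h₀0 n
  have h₀' : IsMFChar N k 1 g₀ := isMFChar_one_iff.2 h₀
  rcases le_or_gt 0 (v.ord (jC N)) with hv | hv
  · obtain ⟨τ, e, ⟨he, ε, hε, hfix, hdiv⟩, hP⟩ := exists_placeAt_of_place N v hv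
    have h1 := hP _ _ _ ha hb ha0 hb0
    rw [ordH_pow h₁.holo h₁0, ordH_pow h₀.holo h₀0] at h1
    have hχε : χ ⟨ε, hε⟩ = 1 := hχ _ (D2.trace_sq_le ε τ hfix)
    have e1 := denom_pow_ordH h₁.holo h₁0 ε τ hfix 1 (by
      have := h₁.slash ⟨ε, hε⟩
      rw [hχε] at this
      simpa using this)
    have e0 := denom_pow_ordH h₀.holo h₀0 ε τ hfix 1 (by
      rw [one_smul]; exact h₀.inv ε hε)
    have hd : denom ε τ ≠ 0 := denom_ne_zero _ _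
    have hd2 : denom ε τ ^ 2 ≠ 0 := pow_ne_zero 2 hd
    have e2 : (denom ε τ ^ 2) ^ (ordH g₁ τ - ordH g₀ τ) = 1 := by
      rw [zpow_sub₀ hd2, div_eq_one_iff_eq (zpow_ne_zero _ hd2)]
      have hk : denom ε τ ^ k ≠ 0 := zpow_ne_zero _ hd
      apply mul_right_cancel₀ hk
      rw [one_mul] at e1 e0
      rw [e1, e0]
    obtain ⟨m, hm⟩ := hdiv _ e2
    refine ⟨m, ?_⟩
    have he' : (e : ℤ) ≠ 0 := by exact_mod_cast he.ne'
    apply mul_left_cancel₀ he'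
    rw [h1, ← mul_sub, hm]
    ring
  · obtain ⟨δ, w, hw, hP⟩ := exists_placeCusp_of_place N v hv
    have h1 := hP _ _ _ ha hb ha0 hb0
    have hol1 : MDiff (g₁ ∣[k] δ) := h₁.holo.slash k _
    have hol0 : MDiff (g₀ ∣[k] δ) := h₀.holo.slash k _
    rw [d1_pow_slash, d1_pow_slash,
      ordI_pow hw.1 hol1 (D2.periodic hχ h₁ hw) (h₁.bdd δ) (D2.slash_ne_zero h₁0 δ),
      ordI_pow hw.1 hol0 (D2.periodic (fun _ _ => rfl) h₀' hw) (h₀.bdd δ)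
        (D2.slash_ne_zero h₀0 δ)] at h1
    exact ⟨_, by rw [h1, ← mul_sub]⟩

end

end Fermat.Agent.ESLib
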