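import Mathlib
import Fermat.Agent.ES.Defs
import Fermat.Agent.ES.Local
import Fermat.Agent.ES.Kummer

/-!
# ES R1 (K9a): `q`-expansions of forms with multiplier
-/

set_option autoImplicit false
set_option synthInstance.maxHeartbeats 400000

open UpperHalfPlane ModularForm Matrix.SpecialLinearGroup CongruenceSubgroup ModularCurve
open scoped MatrixGroups Manifold
open Fermat.Agent.S20Lib Fermat.Agent.S28Lib Fermat.Agent.S24Lib

namespace Fermat.Agent.ESLib

noncomputable section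

theorem k9a_isWidth_one (N : ℕ) : IsWidth N 1 1 := by
  refine ⟨one_pos, fun m => ⟨fun _ => one_dvd _, fun _ => ?_⟩⟩
  rw [one_mul, inv_one, mul_one, Gamma0_mem]
  have h10 : (ModularGroup.T ^ m : SL(2, ℤ)) 1 0 = 0 := by
    show ((ModularGroup.T ^ m : SL(2, ℤ)).1) 1 0 = 0
    rw [ModularGroup.coe_T_zpow]; simp
  rw [h10]
  simp

/-- (K9a) [QChar.lean] `q`-expansions of forms with multiplier (deps: D1 Local.lean) -/
theorem IsMFChar.periodic {N : ℕ} {k : ℤ} {χ : Gamma0 N →* ℂˣ} {g : ℍ → ℂ}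
    (hg : IsMFChar N k χ g) (hχ : IsEllPar χ) : Function.Periodic (g ∘ ofComplex) (1 : ℕ) := by
  have := D2.periodic hχ hg (k9a_isWidth_one N)
  rwa [SlashAction.slash_one] at this

theorem IsMFChar.bddInf {N : ℕ} {k : ℤ} {χ : Gamma0 N →* ℂˣ} {g : ℍ → ℂ}
    (hg : IsMFChar N k χ g) : IsBoundedAtImInfty g := by
  have := hg.bdd 1
  rwa [SlashAction.slash_one] at this

theorem IsMFChar.analyticAt_cusp {N : ℕ} {k : ℤ} {χ : Gamma0 N →* ℂˣ} {g : ℍ → ℂ}
    (hg : IsMFChar N k χ g) (hχ : IsEllPar χ) : AnalyticAt ℂ (cuspFunction 1 g) 0 := by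
  have hper := hg.periodic hχ
  rw [Nat.cast_one] at hper
  exact analyticAt_cuspFunction_zero one_pos hper hg.holo hg.bddInf

theorem qExpansion_mul_of_char {N : ℕ} {k l : ℤ} {χ ψ : Gamma0 N →* ℂˣ} {g h : ℍ → ℂ}
    (hg : IsMFChar N k χ g) (hχ : IsEllPar χ) (hh : IsMFChar N l ψ h) (hψ : IsEllPar ψ) :
    qExpansion 1 (g * h) = qExpansion 1 g * qExpansion 1 h :=
  UpperHalfPlane.qExpansion_mul (hg.analyticAt_cusp hχ) (hh.analyticAt_cusp hψ)

theorem qExpansion_pow_of_char {N : ℕ} {k : ℤ} {χ : Gamma0 N →* ℂˣ} {g : ℍ → ℂ}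
    (hg : IsMFChar N k χ g) (hχ : IsEllPar χ) (n : ℕ) :
    qExpansion 1 (g ^ n) = qExpansion 1 g ^ n := by
  have := UpperHalfPlane.qExpansion_prod (h := (1 : ℝ)) (Finset.range n) (F := fun _ => g)
    (fun _ _ => hg.analyticAt_cusp hχ)
  simpa using this

theorem qExpansion_smul_of_char {N : ℕ} {k : ℤ} {χ : Gamma0 N →* ℂˣ} {g : ℍ → ℂ}
    (hg : IsMFChar N k χ g) (hχ : IsEllPar χ) (c : ℂ) :
    qExpansion 1 (c • g) = PowerSeries.C c * qExpansion 1 g := by
  rw [UpperHalfPlane.qExpansion_smul (hg.analyticAt_cusp hχ), PowerSeries.smul_eq_C_mul]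

theorem qExpansion_eq_zero_iff_of_char {N : ℕ} {k : ℤ} {χ : Gamma0 N →* ℂˣ} {g : ℍ → ℂ}
    (hg : IsMFChar N k χ g) (hχ : IsEllPar χ) : qExpansion 1 g = 0 ↔ g = 0 := by
  have hper := hg.periodic hχ
  rw [Nat.cast_one] at hper
  exact UpperHalfPlane.qExpansion_eq_zero_iff one_pos hper hg.holo hg.bddInf

end

end Fermat.Agent.ESLib
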