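import Fermat.Agent.ES.DFormal
import Fermat.Agent.ES.DerivMF
import Fermat.Agent.ES.OrdFin
import Fermat.Agent.ES.OrdCusp
import Fermat.Agent.ES.Division
import Fermat.Agent.ES.QChar
import Fermat.Agent.ES.Local

/-!
# ES block R1, leaf (K9c): a derivation of `ℂ` acts on forms with multiplier
-/

set_option autoImplicit false
set_option synthInstance.maxHeartbeats 400000

open UpperHalfPlane ModularForm Matrix.SpecialLinearGroup CongruenceSubgroup ModularCurve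
open AlgebraicCurve IntermediateField Filter Topology
open scoped MatrixGroups Manifold
open Fermat.Agent.S18Lib Fermat.Agent.S20Lib Fermat.Agent.S28Lib Fermat.Agent.S24Lib

namespace Fermat.Agent.ESLib

noncomputable section

theorem k9c_zero (N : ℕ) (k : ℤ) (χ : Gamma0 N →* ℂˣ) : IsMFChar N k χ 0 where
  holo := mdifferentiable_const
  slash γ := by rw [SlashAction.zero_slash, smul_zero]
  bdd γ := by
    rw [SlashAction.zero_slash]
    exact Filter.const_boundedAtFilter _ (0 : ℂ)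

theorem k9c_smul {N : ℕ} {k : ℤ} {χ : Gamma0 N →* ℂˣ} {g : ℍ → ℂ} (hg : IsMFChar N k χ g)
    (c : ℂ) : IsMFChar N k χ (c • g) where
  holo := hg.holo.const_smul c
  slash γ := by rw [ModularForm.SL_smul_slash, hg.slash γ, smul_comm]
  bdd γ := by
    rw [ModularForm.SL_smul_slash]
    exact (hg.bdd γ).const_smul_left c

theorem k9c_pow {N : ℕ} {k : ℤ} {χ : Gamma0 N →* ℂˣ} {g : ℍ → ℂ} (hg : IsMFChar N k χ g)
    (n : ℕ) : IsMFChar N ((n : ℤ) * k) (χ ^ n) (g ^ n) where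
  holo := hg.holo.pow n
  slash γ := by
    rw [d1_pow_slash, hg.slash γ, smul_pow]
    simp
  bdd γ := by
    rw [d1_pow_slash]
    exact d1_bdd_pow (hg.bdd γ) n

theorem k9c_isEllPar_pow {N : ℕ} {χ : Gamma0 N →* ℂˣ} (hχ : IsEllPar χ) (n : ℕ) :
    IsEllPar (χ ^ n) := fun γ hγ => by
  rw [MonoidHom.pow_apply, hχ γ hγ, one_pow]

/-- removing the zeros of `a` from an inequality -/
theorem k9c_le {a r : ℍ → ℂ} (ha : MDiff a) (ha0 : a ≠ 0) (hr : MDiff r) (n : ℕ) (C A : ℝ)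
    (h : ∀ τ : ℍ, A < im τ → ‖a τ‖ ^ n * ‖r τ‖ ≤ C * ‖a τ‖ ^ (n + 1)) (τ₀ : ℍ) (hτ₀ : A < im τ₀) :
    ‖r τ₀‖ ≤ C * ‖a τ₀‖ := by
  have hA := analyticAt_comp_ofComplex ha τ₀
  have hR := analyticAt_comp_ofComplex hr τ₀
  have hne : ∀ᶠ z in 𝓝[≠] (τ₀ : ℂ), (a ∘ ofComplex) z ≠ 0 := by
    rcases hA.eventually_eq_zero_or_eventually_ne_zero with h0 | h0
    · exfalso
      have h1 : analyticOrderAt (a ∘ ofComplex) (τ₀ : ℂ) = ⊤ := analyticOrderAt_eq_top.mpr h0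
      have h2 := order_taylorPS hA
      exact d1_order_ne_top ha ha0 τ₀ (by rw [taylorH, h2, h1])
    · exact h0
  have hopen : ∀ᶠ z in 𝓝[≠] (τ₀ : ℂ), A < z.im ∧ 0 < z.im := by
    apply Filter.Eventually.filter_mono nhdsWithin_le_nhds
    have e1 : ∀ᶠ z in 𝓝 (τ₀ : ℂ), A < z.im :=
      (isOpen_lt continuous_const Complex.continuous_im).mem_nhds hτ₀
    have e2 : ∀ᶠ z in 𝓝 (τ₀ : ℂ), 0 < z.im :=
      (isOpen_lt continuous_const Complex.continuous_im).mem_nhds τ₀.im_pos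
    exact e1.and e2
  have hle : ∀ᶠ z in 𝓝[≠] (τ₀ : ℂ), ‖(r ∘ ofComplex) z‖ ≤ C * ‖(a ∘ ofComplex) z‖ := by
    filter_upwards [hne, hopen] with z hz1 hz2
    have h1 := h (ofComplex z) (by rw [ofComplex_apply_of_im_pos hz2.2]; exact hz2.1)
    simp only [Function.comp_apply] at hz1 ⊢
    have hpos : 0 < ‖a (ofComplex z)‖ ^ n := pow_pos (norm_pos_iff.mpr hz1) n
    rw [pow_succ, ← mul_assoc, mul_comm C, mul_assoc] at h1
    exact le_of_mul_le_mul_left h1 hpos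
  have t1 : Tendsto (fun z => ‖(r ∘ ofComplex) z‖) (𝓝[≠] (τ₀ : ℂ)) (𝓝 ‖(r ∘ ofComplex) τ₀‖) :=
    (hR.continuousAt.norm.tendsto).mono_left nhdsWithin_le_nhds
  have t2 : Tendsto (fun z => C * ‖(a ∘ ofComplex) z‖) (𝓝[≠] (τ₀ : ℂ))
      (𝓝 (C * ‖(a ∘ ofComplex) τ₀‖)) :=
    ((hA.continuousAt.norm.tendsto).const_mul C).mono_left nhdsWithin_le_nhds
  have := le_of_tendsto_of_tendsto t1 t2 hle
  simpa using this

theorem k9c_slash_ne_zero {k : ℤ} {a : ℍ → ℂ} (ha0 : a ≠ 0) (g : SL(2, ℤ)) : a ∣[k] g ≠ 0 := by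
  intro h
  apply ha0
  have := congrArg (fun f => f ∣[k] g⁻¹) h
  simpa [← SlashAction.slash_mul] using this

theorem exists_deriv_char (N : ℕ) [NeZero N] (m : ℕ) (hm : 0 < m) (χ : Gamma0 N →* ℂˣ)
    (hχ : IsEllPar χ) (hχm : ∀ γ, χ γ ^ m = 1) (δ : Derivation ℚ ℂ ℂ) {G : ℍ → ℂ}
    (hG : IsMFChar N 12 χ G) :
    ∃ G₁ : ℍ → ℂ, IsMFChar N 12 χ G₁ ∧ qExpansion 1 G₁ = dP δ (qExpansion 1 G) := by
  obtain ⟨n, rfl⟩ : ∃ n, m = n + 1 := ⟨m - 1, by omega⟩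
  have hz : qExpansion 1 (0 : ℍ → ℂ) = 0 :=
    (qExpansion_eq_zero_iff_of_char (k9c_zero N 12 χ) hχ).mpr rfl
  have hd0 : dP δ 0 = 0 := by ext i; simp
  by_cases hG0 : G = 0
  · exact ⟨0, k9c_zero N 12 χ, by rw [hG0, hz, hd0]⟩
  set P := qExpansion 1 G with hP
  have hP0 : P ≠ 0 := fun h => hG0 ((qExpansion_eq_zero_iff_of_char hG hχ).mp h)
  have hΦ : IsMF (Gamma0 N) (12 * ((n + 1 : ℕ) : ℤ)) (G ^ (n + 1)) := by
    rw [mul_comm]; exact hG.pow hχm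
  obtain ⟨Ψ, hΨ, hq⟩ := exists_deriv_mf N _ δ hΦ
  have hq' : qExpansion 1 Ψ = PowerSeries.C ((n : ℂ) + 1) * P ^ n * dP δ P := by
    rw [hq, qExpansion_pow_of_char hG hχ, dP_pow_succ]
  have hn1 : ((n : ℂ) + 1) ≠ 0 := by exact_mod_cast Nat.succ_ne_zero n
  have hC0 : PowerSeries.C ((n : ℂ) + 1) ≠ 0 := by
    rw [Ne, ← map_zero (PowerSeries.C (R := ℂ))]
    exact fun h => hn1 (PowerSeries.C_injective h)
  by_cases hΨ0 : Ψ = 0
  · refine ⟨0, k9c_zero N 12 χ, ?_⟩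
    rw [hΨ0, hz] at hq'
    have := mul_eq_zero.mp hq'.symm
    rcases this with h | h
    · exact absurd h (mul_ne_zero hC0 (pow_ne_zero _ hP0))
    · rw [hz, h]
  -- division
  have hQ0 : G ^ n ≠ 0 := d1_pow_ne_zero hG.holo hG0 n
  have hord : ∀ τ, ordH (G ^ n) τ ≤ ordH Ψ τ := by
    intro τ
    have h1 := ordH_le_of_deriv N δ (n + 1) hΦ hΨ hq hΨ0 τ
    rw [ordH_pow hG.holo hG0] at h1 ⊢
    have h2 : 0 ≤ ordH G τ := by unfold ordH; positivity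
    have h3 : 0 ≤ ordH Ψ τ := by unfold ordH; positivity
    push_cast at h1
    rcases h2.eq_or_lt with h4 | h4
    · rw [← h4]; simpa using h3
    · nlinarith
  obtain ⟨R, hR, hΨR⟩ := exists_mdiff_quotient hΨ.holo (hG.holo.pow n) hQ0 hord
  have hw : (12 * ((n + 1 : ℕ) : ℤ)) = (n : ℤ) * 12 + 12 := by push_cast; ring
  have hslash : ∀ g : SL(2, ℤ), Ψ ∣[12 * ((n + 1 : ℕ) : ℤ)] g =
      (G ∣[(12 : ℤ)] g) ^ n * (R ∣[(12 : ℤ)] g) := by
    intro g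
    rw [hΨR, hw, mul_slash_SL2, d1_pow_slash]
  have hRchar : IsMFChar N 12 χ R := by
    refine ⟨hR, fun γ => ?_, fun g => ?_⟩
    · have h1 := hslash γ
      rw [hΨ.inv γ γ.2, hG.slash γ, smul_pow, hΨR] at h1
      have h2 : G ^ n * (R - (((χ γ : ℂˣ) : ℂ) ^ n) • (R ∣[(12 : ℤ)] (γ : SL(2, ℤ)))) = 0 := by
        rw [mul_sub, h1]
        ext z
        simp only [Pi.sub_apply, Pi.mul_apply, Pi.smul_apply, smul_eq_mul, Pi.zero_apply,
          Pi.pow_apply]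
        ring
      have h3 := (UpperHalfPlane.mul_eq_zero_iff (hG.holo.pow n)
        (hR.sub ((hR.slash 12 _).const_smul _))).mp h2
      have h4 := h3.resolve_left hQ0
      have h5 : ((χ γ : ℂˣ) : ℂ) ^ (n + 1) = 1 := by
        have := congrArg (fun u : ℂˣ => (u : ℂ)) (hχm γ)
        simpa using this
      have h6 : R = (((χ γ : ℂˣ) : ℂ) ^ n) • (R ∣[(12 : ℤ)] (γ : SL(2, ℤ))) := sub_eq_zero.mp h4
      conv_rhs => rw [h6]
      rw [smul_smul, ← pow_succ', h5, one_smul]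
    · -- boundedness
      have hbig := isBigO_of_deriv N δ (n + 1) hΦ hΨ hq g
      obtain ⟨C, hC⟩ := hbig.bound
      obtain ⟨A, hA⟩ := (atImInfty_mem _).mp hC
      obtain ⟨M, B, hB⟩ := isBoundedAtImInfty_iff.mp (hG.bdd g)
      have hΦs : (G ^ (n + 1)) ∣[12 * ((n + 1 : ℕ) : ℤ)] g = (G ∣[(12 : ℤ)] g) ^ (n + 1) := by
        rw [mul_comm, d1_pow_slash]
      have key := k9c_le (a := G ∣[(12 : ℤ)] g) (r := R ∣[(12 : ℤ)] g) (hG.holo.slash 12 g)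
        (k9c_slash_ne_zero hG0 g) (hR.slash 12 g) n C A
        (fun τ hτ => by
          have h0 : ‖(Ψ ∣[12 * ((n + 1 : ℕ) : ℤ)] g) τ‖ ≤
              C * ‖((G ^ (n + 1)) ∣[12 * ((n + 1 : ℕ) : ℤ)] g) τ‖ := hA τ hτ.le
          rw [hslash g, hΦs] at h0
          simp only [Pi.mul_apply, Pi.pow_apply, norm_mul, norm_pow] at h0
          exact h0)
      rw [isBoundedAtImInfty_iff]
      refine ⟨|C| * M, max (A + 1) B, fun z hz => ?_⟩
      have h1 := key z (by have := le_max_left (A + 1) B; linarith)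
      have h2 := hB z ((le_max_right _ _).trans hz)
      calc ‖(R ∣[(12 : ℤ)] g) z‖ ≤ C * ‖(G ∣[(12 : ℤ)] g) z‖ := h1
        _ ≤ |C| * ‖(G ∣[(12 : ℤ)] g) z‖ := by gcongr; exact le_abs_self C
        _ ≤ |C| * M := by gcongr
  refine ⟨((n : ℂ) + 1)⁻¹ • R, k9c_smul hRchar _, ?_⟩
  rw [qExpansion_smul_of_char hRchar hχ]
  have h7 : qExpansion 1 Ψ = P ^ n * qExpansion 1 R := by
    rw [hΨR, qExpansion_mul_of_char (k9c_pow hG n) (k9c_isEllPar_pow hχ n) hRchar hχ,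
      qExpansion_pow_of_char hG hχ]
  rw [hq'] at h7
  have h8 : qExpansion 1 R = PowerSeries.C ((n : ℂ) + 1) * dP δ P := by
    have : P ^ n * (PowerSeries.C ((n : ℂ) + 1) * dP δ P) = P ^ n * qExpansion 1 R := by
      rw [← h7]; ring
    exact (mul_left_cancel₀ (pow_ne_zero _ hP0) this).symm
  rw [h8, ← mul_assoc, ← map_mul, inv_mul_cancel₀ hn1, map_one, one_mul]

end

end Fermat.Agent.ESLib
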