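import Mathlib
import Fermat.Agent.ES.Defs

/-!
# ES (A1): Eisenstein-type series with bounded coefficients
-/

set_option autoImplicit false

open UpperHalfPlane ModularForm Matrix.SpecialLinearGroup CongruenceSubgroup ModularCurve
open EisensteinSeries
open scoped MatrixGroups Manifold

namespace Fermat.Agent.ESLib

noncomputable section

namespace A1

/-- right multiplication by `γ` on row vectors -/
def vecEquiv (γ : SL(2, ℤ)) : (Fin 2 → ℤ) ≃ (Fin 2 → ℤ) where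
  toFun v := Matrix.vecMul v γ.1
  invFun v := Matrix.vecMul v (γ⁻¹ : SL(2, ℤ)).1
  left_inv v := by
    show Matrix.vecMul (Matrix.vecMul v γ.1) (γ⁻¹ : SL(2, ℤ)).1 = v
    rw [Matrix.vecMul_vecMul, ← Matrix.SpecialLinearGroup.coe_mul, mul_inv_cancel]
    simp
  right_inv v := by
    show Matrix.vecMul (Matrix.vecMul v (γ⁻¹ : SL(2, ℤ)).1) γ.1 = v
    rw [Matrix.vecMul_vecMul, ← Matrix.SpecialLinearGroup.coe_mul, inv_mul_cancel]
    simp

theorem norm_term_le {k : ℤ} {c : (Fin 2 → ℤ) → ℂ} (hc : ∀ v, ‖c v‖ ≤ 1) (v : Fin 2 → ℤ) (z : ℍ) :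
    ‖c v * eisSummand k v z‖ ≤ ‖eisSummand k v z‖ := by
  rw [norm_mul]
  exact mul_le_of_le_one_left (norm_nonneg _) (hc v)

/-- the sum of the norms -/
def normSum (k : ℤ) (z : ℍ) : ℝ := ∑' v : Fin 2 → ℤ, ‖eisSummand k v z‖

theorem normSum_smul (k : ℤ) (γ : SL(2, ℤ)) (z : ℍ) (h : denom γ z = 1) :
    normSum k (γ • z) = normSum k z := by
  unfold normSum
  rw [← (vecEquiv γ).tsum_eq (fun v => ‖eisSummand k v z‖)]
  refine tsum_congr fun v => ?_
  rw [eisSummand_SL2_apply, h, one_zpow, one_mul]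
  rfl

/-- the uniform bound -/
def bnd (k : ℤ) : ℝ := ∑' x : Fin 2 → ℤ, r ⟨⟨1, 2⟩, Nat.ofNat_pos⟩ ^ (-k) * ‖x‖ ^ (-k)

theorem normSum_le {k : ℤ} (hk : 3 ≤ k) {z : ℍ} (hz : 2 ≤ z.im) : normSum k z ≤ bnd k := by
  obtain ⟨n, hn⟩ := ModularGroup_T_zpow_mem_verticalStrip z (N := 1) one_pos
  obtain ⟨g, hg⟩ : ∃ g : SL(2, ℤ), g = ModularGroup.T ^ (((1 : ℕ) : ℤ) * n) := ⟨_, rfl⟩
  rw [← hg] at hn
  have hden : denom g z = 1 := by
    have h := ModularGroup.coe_T_zpow (((1 : ℕ) : ℤ) * n)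
    rw [← hg] at h
    rw [ModularGroup.denom_apply]
    have h10 : g 1 0 = 0 := by
      show g.1 1 0 = 0
      rw [h]; simp
    have h11 : g 1 1 = 1 := by
      show g.1 1 1 = 1
      rw [h]; simp
    rw [h10, h11]
    simp
  rw [← normSum_smul k g z hden]
  have hk' : (2 : ℝ) < k := by norm_cast
  unfold normSum bnd
  apply (summable_norm_eisSummand hk _).tsum_le_tsum _
  · exact_mod_cast (summable_one_div_norm_rpow hk').mul_left <| r ⟨⟨1, 2⟩, Nat.ofNat_pos⟩ ^ (-k)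
  · intro x
    simp_rw [eisSummand, norm_zpow]
    have := summand_bound_of_mem_verticalStrip (lt_trans two_pos hk').le x two_pos
      (verticalStrip_anti_right ((1 : ℕ) : ℝ) hz hn)
    exact_mod_cast this

theorem norm_eisC_le {k : ℤ} (hk : 3 ≤ k) {c : (Fin 2 → ℤ) → ℂ} (hc : ∀ v, ‖c v‖ ≤ 1) (z : ℍ) :
    ‖eisC k c z‖ ≤ normSum k z := by
  unfold eisC normSum
  have h1 : Summable fun v : Fin 2 → ℤ => ‖c v * eisSummand k v z‖ :=
    Summable.of_nonneg_of_le (fun _ => norm_nonneg _) (fun v => norm_term_le hc v z)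
      (summable_norm_eisSummand hk z)
  exact (norm_tsum_le_tsum_norm h1).trans
    (h1.tsum_le_tsum (fun v => norm_term_le hc v z) (summable_norm_eisSummand hk z))

end A1

theorem eisC_summable {k : ℤ} (hk : 3 ≤ k) {c : (Fin 2 → ℤ) → ℂ} (hc : ∀ v, ‖c v‖ ≤ 1) (z : ℍ) :
    Summable fun v : Fin 2 → ℤ => c v * EisensteinSeries.eisSummand k v z :=
  Summable.of_norm_bounded (summable_norm_eisSummand hk z) (fun v => A1.norm_term_le hc v z)

namespace A1

theorem tendstoLocallyUniformly {k : ℤ} (hk : 3 ≤ k) {c : (Fin 2 → ℤ) → ℂ}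
    (hc : ∀ v, ‖c v‖ ≤ 1) :
    TendstoLocallyUniformly (fun (s : Finset (Fin 2 → ℤ)) ↦ (∑ x ∈ s, c x * eisSummand k x ·))
      (eisC k c ·) Filter.atTop := by
  have hk' : (2 : ℝ) < k := by norm_cast
  have p_sum : Summable fun x : Fin 2 → ℤ ↦ ‖x‖ ^ (-k) :=
    mod_cast (summable_one_div_norm_rpow hk')
  simp only [tendstoLocallyUniformly_iff_forall_isCompact, eisC]
  intro K hK
  obtain ⟨A, B, hB, HABK⟩ := subset_verticalStrip_of_isCompact hK
  refine (tendstoUniformlyOn_tsum (hu := p_sum.mul_left <| r ⟨⟨A, B⟩, hB⟩ ^ (-k : ℝ))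
    (fun p z hz ↦ ?_)).mono HABK
  refine (norm_term_le hc p z).trans ?_
  simpa only [eisSummand, one_div, ← zpow_neg, norm_zpow, ← Real.rpow_intCast,
    Int.cast_neg] using summand_bound_of_mem_verticalStrip (by positivity) p hB hz

theorem tendstoLocallyUniformlyOn {k : ℤ} (hk : 3 ≤ k) {c : (Fin 2 → ℤ) → ℂ}
    (hc : ∀ v, ‖c v‖ ≤ 1) :
    TendstoLocallyUniformlyOn (fun (s : Finset (Fin 2 → ℤ)) ↦
      ↑ₕ(fun (z : ℍ) ↦ ∑ x ∈ s, c x * eisSummand k x z)) (↑ₕ(eisC k c))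
          Filter.atTop {z : ℂ | 0 < z.im} := by
  rw [← upperHalfPlaneSet, ← range_coe, ← Set.image_univ]
  apply TendstoLocallyUniformlyOn.comp (s := ⊤) _ _ _ (OpenPartialHomeomorph.continuousOn_symm _)
  · simp only [Set.top_eq_univ, tendstoLocallyUniformlyOn_univ]
    apply tendstoLocallyUniformly hk hc
  · simp only [Topology.IsOpenEmbedding.toOpenPartialHomeomorph_target, Set.top_eq_univ,
      Set.mapsTo_range_iff, Set.mem_univ, forall_const]

end A1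

theorem eisC_mdiff {k : ℤ} (hk : 3 ≤ k) {c : (Fin 2 → ℤ) → ℂ} (hc : ∀ v, ‖c v‖ ≤ 1) :
    MDiff (eisC k c) := by
  intro τ
  suffices DifferentiableAt ℂ (↑ₕ(eisC k c)) τ.1 by
    convert!
      MDifferentiableAt.comp τ (DifferentiableAt.mdifferentiableAt this) τ.mdifferentiable_coe
    exact funext fun z ↦ (comp_ofComplex (eisC k c) z).symm
  refine DifferentiableOn.differentiableAt ?_ (isOpen_upperHalfPlaneSet.mem_nhds τ.2)
  refine (A1.tendstoLocallyUniformlyOn hk hc).differentiableOn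
    (Filter.Eventually.of_forall fun s ↦ ?_) isOpen_upperHalfPlaneSet
  have : (↑ₕ(fun (z : ℍ) ↦ ∑ x ∈ s, c x * eisSummand k x z)) =
      fun w => ∑ x ∈ s, c x * (↑ₕ(eisSummand k x)) w := by
    funext w
    simp [Function.comp]
  rw [this]
  exact DifferentiableOn.fun_sum
    fun x _ ↦ (eisSummand_extension_differentiableOn k x).const_mul (c x)

theorem eisC_slash {k : ℤ} (hk : 3 ≤ k) {c : (Fin 2 → ℤ) → ℂ} (hc : ∀ v, ‖c v‖ ≤ 1)
    (γ : SL(2, ℤ)) :
    eisC k c ∣[k] γ = eisC k (fun v => c (Matrix.vecMul v (γ⁻¹ : SL(2, ℤ)).1)) := by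
  ext1 z
  rw [SL_slash_apply, zpow_neg, mul_inv_eq_iff_eq_mul₀ (zpow_ne_zero _ <| denom_ne_zero _ z)]
  unfold eisC
  rw [← (A1.vecEquiv γ).tsum_eq
    (fun v => c (Matrix.vecMul v (γ⁻¹ : SL(2, ℤ)).1) * eisSummand k v z), ← tsum_mul_right]
  refine tsum_congr fun v => ?_
  rw [eisSummand_SL2_apply]
  have h : Matrix.vecMul ((A1.vecEquiv γ) v) (γ⁻¹ : SL(2, ℤ)).1 = v := (A1.vecEquiv γ).left_inv v
  rw [h]
  show c v * (denom γ z ^ k * eisSummand k (Matrix.vecMul v γ.1) z) =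
    c v * eisSummand k (Matrix.vecMul v γ.1) z * denom γ z ^ k
  ring

theorem eisC_bdd {k : ℤ} (hk : 3 ≤ k) {c : (Fin 2 → ℤ) → ℂ} (hc : ∀ v, ‖c v‖ ≤ 1) :
    IsBoundedAtImInfty (eisC k c) := by
  rw [isBoundedAtImInfty_iff]
  exact ⟨A1.bnd k, 2, fun z hz => (A1.norm_eisC_le hk hc z).trans (A1.normSum_le hk hz)⟩

namespace A1

theorem norm_eisSummand_le (k : ℤ) (v : Fin 2 → ℤ) (hv : v 0 ≠ 0) (z : ℍ) :
    ‖eisSummand k v z‖ ≤ (z.im)⁻¹ * ‖eisSummand (k - 1) v z‖ := by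
  simp only [eisSummand, norm_zpow]
  set w : ℂ := (v 0 : ℂ) * z + v 1 with hw
  have h1 : z.im ≤ ‖w‖ := by
    have him : w.im = (v 0 : ℝ) * z.im := by simp [hw]
    have hc1 : (1 : ℝ) ≤ |((v 0 : ℤ) : ℝ)| := by
      have : (1 : ℤ) ≤ |v 0| := Int.one_le_abs hv
      exact_mod_cast this
    calc z.im ≤ |((v 0 : ℤ) : ℝ)| * z.im := le_mul_of_one_le_left z.im_pos.le hc1
      _ = |w.im| := by rw [him, abs_mul, abs_of_pos z.im_pos]
      _ ≤ ‖w‖ := Complex.abs_im_le_norm _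
  have hpos : 0 < ‖w‖ := lt_of_lt_of_le z.im_pos h1
  have e : ‖w‖ ^ (-k) = ‖w‖⁻¹ * ‖w‖ ^ (-(k - 1)) := by
    rw [← zpow_neg_one, ← zpow_add₀ hpos.ne']
    congr 1
    ring
  rw [e]
  exact mul_le_mul_of_nonneg_right (inv_anti₀ z.im_pos h1) (zpow_nonneg hpos.le _)

theorem norm_eisC_le' {k : ℤ} (hk : 4 ≤ k) {c : (Fin 2 → ℤ) → ℂ} (hc : ∀ v, ‖c v‖ ≤ 1)
    (h0 : ∀ v, v 0 = 0 → c v = 0) (z : ℍ) :
    ‖eisC k c z‖ ≤ (z.im)⁻¹ * normSum (k - 1) z := by
  unfold eisC normSum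
  have hk3 : 3 ≤ k := by omega
  have hk3' : 3 ≤ k - 1 := by omega
  have h1 : Summable fun v : Fin 2 → ℤ => ‖c v * eisSummand k v z‖ :=
    Summable.of_nonneg_of_le (fun _ => norm_nonneg _) (fun v => norm_term_le hc v z)
      (summable_norm_eisSummand hk3 z)
  rw [← tsum_mul_left]
  refine (norm_tsum_le_tsum_norm h1).trans
    (h1.tsum_le_tsum (fun v => ?_) ((summable_norm_eisSummand hk3' z).mul_left _))
  by_cases hv : v 0 = 0
  · rw [h0 v hv, zero_mul, norm_zero]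
    exact mul_nonneg (inv_nonneg.mpr z.im_pos.le) (norm_nonneg _)
  · exact (norm_term_le hc v z).trans (norm_eisSummand_le k v hv z)

theorem tendsto_zero {k : ℤ} (hk : 4 ≤ k) {c : (Fin 2 → ℤ) → ℂ} (hc : ∀ v, ‖c v‖ ≤ 1)
    (h0 : ∀ v, v 0 = 0 → c v = 0) : Filter.Tendsto (eisC k c) atImInfty (nhds 0) := by
  have him : Filter.Tendsto (fun z : ℍ => z.im) atImInfty Filter.atTop := Filter.tendsto_comap
  have h1 : Filter.Tendsto (fun z : ℍ => (z.im)⁻¹ * bnd (k - 1)) atImInfty (nhds 0) := by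
    have := (tendsto_inv_atTop_zero.comp him).mul_const (bnd (k - 1))
    simpa using this
  refine squeeze_zero_norm' ?_ h1
  filter_upwards [him.eventually_ge_atTop 2] with z hz
  exact (norm_eisC_le' hk hc h0 z).trans
    (mul_le_mul_of_nonneg_left (normSum_le (by omega) hz) (inv_nonneg.mpr z.im_pos.le))

theorem eisC_zero_part (k : ℤ) (c : (Fin 2 → ℤ) → ℂ) (z : ℍ) :
    eisC k (fun v => if v 0 = 0 then c v else 0) z = ∑' d : ℤ, c ![0, d] * ((d : ℂ) ^ k)⁻¹ := by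
  unfold eisC
  have hinj : Function.Injective (fun d : ℤ => (![0, d] : Fin 2 → ℤ)) := by
    intro a b hab
    have := congrFun hab 1
    simpa using this
  rw [← hinj.tsum_eq]
  · refine tsum_congr fun d => ?_
    simp [eisSummand]
  · intro v hv
    have hv0 : v 0 = 0 := by
      by_contra h
      apply hv
      simp [h]
    refine ⟨v 1, ?_⟩
    funext i
    fin_cases i
    · simp [hv0]
    · simp

end A1

theorem eisC_tendsto {k : ℤ} (hk : 4 ≤ k) {c : (Fin 2 → ℤ) → ℂ} (hc : ∀ v, ‖c v‖ ≤ 1) :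
    Filter.Tendsto (eisC k c) atImInfty (nhds (∑' d : ℤ, c ![0, d] * ((d : ℂ) ^ k)⁻¹)) := by
  have hk3 : 3 ≤ k := by omega
  set c₀ : (Fin 2 → ℤ) → ℂ := fun v => if v 0 = 0 then c v else 0 with hc₀
  set c₁ : (Fin 2 → ℤ) → ℂ := fun v => if v 0 = 0 then 0 else c v with hc₁
  have hb₀ : ∀ v, ‖c₀ v‖ ≤ 1 := by
    intro v
    simp only [hc₀]
    split_ifs
    · exact hc v
    · simp
  have hb₁ : ∀ v, ‖c₁ v‖ ≤ 1 := by
    intro v
    simp only [hc₁]
    split_ifs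
    · simp
    · exact hc v
  have hsplit : eisC k c = fun z => (∑' d : ℤ, c ![0, d] * ((d : ℂ) ^ k)⁻¹) + eisC k c₁ z := by
    funext z
    rw [← A1.eisC_zero_part k c z]
    unfold eisC
    rw [← (eisC_summable hk3 hb₀ z).tsum_add (eisC_summable hk3 hb₁ z)]
    refine tsum_congr fun v => ?_
    simp only [hc₀, hc₁]
    split_ifs <;> simp
  rw [hsplit]
  have h := (A1.tendsto_zero hk hb₁ (fun v hv => by simp [hc₁, hv])).const_add
    (∑' d : ℤ, c ![0, d] * ((d : ℂ) ^ k)⁻¹)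
  simpa using h

end

end Fermat.Agent.ESLib
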