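import Mathlib
import Fermat.Agent.ES.Defs
import Fermat.Agent.ES.EisC

/-!
# ES (A2): the twisted Eisenstein series
-/

set_option autoImplicit false

open UpperHalfPlane ModularForm Matrix.SpecialLinearGroup CongruenceSubgroup ModularCurve
open EisensteinSeries
open scoped MatrixGroups Manifold

namespace Fermat.Agent.ESLib

noncomputable section

namespace A2

/-- bottom row -/
def bot (γ : SL(2, ℤ)) : Fin 2 → ℤ := γ.1 1

theorem bot_mul (δ γ : SL(2, ℤ)) : bot (δ * γ) = Matrix.vecMul (bot δ) γ.1 := by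
  unfold bot
  rw [Matrix.SpecialLinearGroup.coe_mul, Matrix.mul_apply_eq_vecMul]

theorem bot_one : bot 1 = ![0, 1] := by
  funext i
  fin_cases i <;> simp [bot]

variable {N : ℕ} (χ : Gamma0 N →* ℂˣ)

theorem chi_eq_of_bot_eq (hχ : IsEllPar χ) (δ δ' : Gamma0 N)
    (h : bot (δ : SL(2, ℤ)) = bot (δ' : SL(2, ℤ))) : χ δ = χ δ' := by
  have hb : bot ((δ' * δ⁻¹ : Gamma0 N) : SL(2, ℤ)) = ![0, 1] := by
    rw [Subgroup.coe_mul, bot_mul, ← h, ← bot_mul, Subgroup.coe_inv, mul_inv_cancel, bot_one]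
  set ε : SL(2, ℤ) := ((δ' * δ⁻¹ : Gamma0 N) : SL(2, ℤ)) with hε
  have h10 : ε.1 1 0 = 0 := by
    have := congrFun hb 0
    simpa [bot] using this
  have h11 : ε.1 1 1 = 1 := by
    have := congrFun hb 1
    simpa [bot] using this
  have hdet := ε.det_coe
  rw [Matrix.det_fin_two] at hdet
  have h00 : ε.1 0 0 = 1 := by
    have h10' : (ε : Matrix (Fin 2) (Fin 2) ℤ) 1 0 = 0 := h10
    have h11' : (ε : Matrix (Fin 2) (Fin 2) ℤ) 1 1 = 1 := h11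
    rw [h10', h11'] at hdet
    linarith
  have h1 : χ (δ' * δ⁻¹) = 1 := by
    apply hχ
    rw [Matrix.trace_fin_two]
    have e0 : (((δ' * δ⁻¹ : Gamma0 N) : SL(2, ℤ)) : Matrix (Fin 2) (Fin 2) ℤ) 0 0 = 1 := h00
    have e1 : (((δ' * δ⁻¹ : Gamma0 N) : SL(2, ℤ)) : Matrix (Fin 2) (Fin 2) ℤ) 1 1 = 1 := h11
    rw [e0, e1]
    norm_num
  rw [map_mul, map_inv, mul_inv_eq_one] at h1
  exact h1.symm

open Classical in
/-- the coefficients of the twisted Eisenstein series -/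
def cf (v : Fin 2 → ℤ) : ℂ :=
  if h : ∃ δ : Gamma0 N, bot (δ : SL(2, ℤ)) = v then (((χ h.choose)⁻¹ : ℂˣ) : ℂ) else 0

theorem cf_bot (hχ : IsEllPar χ) (δ : Gamma0 N) :
    cf χ (bot (δ : SL(2, ℤ))) = (((χ δ)⁻¹ : ℂˣ) : ℂ) := by
  have h : ∃ δ' : Gamma0 N, bot (δ' : SL(2, ℤ)) = bot (δ : SL(2, ℤ)) := ⟨δ, rfl⟩
  rw [cf, dif_pos h, chi_eq_of_bot_eq χ hχ _ _ h.choose_spec]

theorem cf_of_not {v : Fin 2 → ℤ} (h : ¬ ∃ δ : Gamma0 N, bot (δ : SL(2, ℤ)) = v) : cf χ v = 0 := by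
  rw [cf, dif_neg h]

theorem norm_cf_le (hu : ∀ γ, ‖((χ γ : ℂˣ) : ℂ)‖ = 1) (v : Fin 2 → ℤ) : ‖cf χ v‖ ≤ 1 := by
  unfold cf
  split_ifs with h
  · rw [Units.val_inv_eq_inv_val, norm_inv, hu, inv_one]
  · simp

theorem cf_vecMul (hχ : IsEllPar χ) (γ : Gamma0 N) (v : Fin 2 → ℤ) :
    cf χ (Matrix.vecMul v ((γ : SL(2, ℤ))⁻¹ : SL(2, ℤ)).1) = ((χ γ : ℂˣ) : ℂ) * cf χ v := by
  by_cases h : ∃ δ : Gamma0 N, bot (δ : SL(2, ℤ)) = v
  · obtain ⟨δ, rfl⟩ := h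
    have e : Matrix.vecMul (bot (δ : SL(2, ℤ))) ((γ : SL(2, ℤ))⁻¹ : SL(2, ℤ)).1
        = bot ((δ * γ⁻¹ : Gamma0 N) : SL(2, ℤ)) := by
      rw [Subgroup.coe_mul, bot_mul, Subgroup.coe_inv]
    rw [e, cf_bot χ hχ, cf_bot χ hχ, map_mul, map_inv, mul_inv, inv_inv, Units.val_mul, mul_comm]
  · have h' : ¬ ∃ δ : Gamma0 N, bot (δ : SL(2, ℤ))
        = Matrix.vecMul v ((γ : SL(2, ℤ))⁻¹ : SL(2, ℤ)).1 := by
      rintro ⟨δ, hδ⟩
      apply h
      refine ⟨δ * γ, ?_⟩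
      rw [Subgroup.coe_mul, bot_mul, hδ]
      exact (A1.vecEquiv (γ : SL(2, ℤ))).right_inv v
    rw [cf_of_not χ h, cf_of_not χ h', mul_zero]

theorem eisC_const_mul (k : ℤ) (a : ℂ) (c : (Fin 2 → ℤ) → ℂ) :
    eisC k (fun v => a * c v) = a • eisC k c := by
  funext z
  simp only [eisC, Pi.smul_apply, smul_eq_mul, mul_assoc, tsum_mul_left]

theorem neg_one_mem : (-1 : SL(2, ℤ)) ∈ Gamma0 N := by
  rw [Gamma0_mem]
  simp

theorem tsum_cf (hχ : IsEllPar χ) {k : ℕ} (hk2 : Even k) :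
    ∑' d : ℤ, cf χ ![0, d] * ((d : ℂ) ^ (k : ℤ))⁻¹ = 2 := by
  have h1 : cf χ ![0, 1] = 1 := by
    have := cf_bot χ hχ 1
    rw [OneMemClass.coe_one, bot_one, map_one] at this
    simpa using this
  have hm1 : cf χ ![0, -1] = 1 := by
    have := cf_bot χ hχ ⟨-1, neg_one_mem⟩
    have hb : bot (-1 : SL(2, ℤ)) = ![0, -1] := by
      funext i
      fin_cases i <;> simp [bot]
    have hc : χ ⟨-1, neg_one_mem⟩ = 1 := by
      apply hχ
      rw [Matrix.trace_fin_two]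
      simp
    rw [hb, hc] at this
    simpa using this
  rw [tsum_eq_sum (s := {1, -1})]
  · rw [Finset.sum_pair (by norm_num)]
    rw [h1, hm1]
    simp only [zpow_natCast]
    push_cast
    rw [hk2.neg_one_pow]
    norm_num
  · intro d hd
    have h : ¬ ∃ δ : Gamma0 N, bot (δ : SL(2, ℤ)) = ![0, d] := by
      rintro ⟨δ, hδ⟩
      apply hd
      have h10 : ((δ : SL(2, ℤ)) : Matrix (Fin 2) (Fin 2) ℤ) 1 0 = 0 := by
        have := congrFun hδ 0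
        simpa [bot] using this
      have h11 : ((δ : SL(2, ℤ)) : Matrix (Fin 2) (Fin 2) ℤ) 1 1 = d := by
        have := congrFun hδ 1
        simpa [bot] using this
      have hdet := (δ : SL(2, ℤ)).det_coe
      rw [Matrix.det_fin_two, h10, h11, mul_zero, sub_zero] at hdet
      have hu : IsUnit d := IsUnit.of_mul_eq_one _ (by rw [mul_comm]; exact hdet)
      rcases Int.isUnit_iff.mp hu with rfl | rfl <;> simp
    rw [cf_of_not χ h, zero_mul]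

end A2

/-- (A2) [TwEis.lean] the twisted Eisenstein series. -/
theorem exists_twistedEisenstein (N : ℕ) [NeZero N] (χ : Gamma0 N →* ℂˣ) (hχ : IsEllPar χ)
    (hu : ∀ γ, ‖((χ γ : ℂˣ) : ℂ)‖ = 1) (k : ℕ) (hk : 4 ≤ k) (hk2 : Even k) :
    ∃ g : ℍ → ℂ, IsMFChar N k χ g ∧ Filter.Tendsto g atImInfty (nhds 1) := by
  have hk4 : (4 : ℤ) ≤ (k : ℤ) := by exact_mod_cast hk
  have hk3 : (3 : ℤ) ≤ (k : ℤ) := by omega
  have hc := A2.norm_cf_le χ hu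
  refine ⟨(2 : ℂ)⁻¹ • eisC k (A2.cf χ), ⟨(eisC_mdiff hk3 hc).const_smul _, fun γ => ?_, fun γ => ?_⟩,
    ?_⟩
  · rw [SL_smul_slash, eisC_slash hk3 hc]
    have : (fun v => A2.cf χ (Matrix.vecMul v ((γ : SL(2, ℤ))⁻¹ : SL(2, ℤ)).1))
        = fun v => ((χ γ : ℂˣ) : ℂ) * A2.cf χ v := funext fun v => A2.cf_vecMul χ hχ γ v
    rw [this, A2.eisC_const_mul, smul_comm]
  · rw [SL_smul_slash, eisC_slash hk3 hc]
    exact (eisC_bdd hk3 (fun v => hc _)).const_smul_left _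
  · have h := (eisC_tendsto hk4 hc).const_smul (2 : ℂ)⁻¹
    rw [A2.tsum_cf χ hχ hk2] at h
    have e : (2 : ℂ)⁻¹ • (2 : ℂ) = 1 := by simp
    rw [e] at h
    exact h

end

end Fermat.Agent.ESLib
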