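import Mathlib
import Fermat.Agent.ES.QChar
import Fermat.Agent.ES.TwEis
import Fermat.Prelude.Thm_ModularForm_sturm_bound_Gamma0

/-!
# ES R1 (K9b): a normalised form with multiplier of maximal order at `i∞`
-/

set_option autoImplicit false
set_option synthInstance.maxHeartbeats 400000

open UpperHalfPlane ModularForm Matrix.SpecialLinearGroup CongruenceSubgroup ModularCurve
open scoped MatrixGroups Manifold
open Fermat.Agent.S20Lib Fermat.Agent.S28Lib Fermat.Agent.S24Lib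

namespace Fermat.Agent.ESLib

noncomputable section

theorem IsMFChar.smul {N : ℕ} {k : ℤ} {χ : Gamma0 N →* ℂˣ} {g : ℍ → ℂ} (hg : IsMFChar N k χ g)
    (c : ℂ) : IsMFChar N k χ (c • g) where
  holo := hg.holo.const_smul c
  slash γ := by rw [SL_smul_slash, hg.slash γ, smul_comm]
  bdd γ := by rw [SL_smul_slash]; exact (hg.bdd γ).const_smul_left c

/-- Sturm bound for forms with multiplier of finite order -/
theorem k9b_order_le (N : ℕ) [NeZero N] (m : ℕ) (hm : 0 < m) (χ : Gamma0 N →* ℂˣ)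
    (hχ : IsEllPar χ) (hχm : ∀ γ, χ γ ^ m = 1) {G : ℍ → ℂ} (hG : IsMFChar N 12 χ G) {a : ℕ}
    (ha : (qExpansion 1 G).order = a) :
    a ≤ (((m : ℤ) * 12) * ((Gamma0 N).index : ℤ)).toNat / 12 := by
  by_contra hcon
  push Not at hcon
  have hG0 : G ≠ 0 := by
    rintro rfl
    rw [qExpansion_zero, PowerSeries.order_zero] at ha
    exact ENat.top_ne_natCast a ha
  have hF : IsMF (Gamma0 N) ((m : ℤ) * 12) (G ^ m) := hG.pow hχm
  have h1 : hF.toModularForm = 0 := by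
    apply ModularForm.sturm_bound_Gamma0 N
    intro n hn
    rw [IsMF.coe_toModularForm, qExpansion_pow_of_char hG hχ]
    apply PowerSeries.coeff_of_lt_order
    rw [PowerSeries.order_pow, ha]
    have h2 : n < m * a := lt_of_lt_of_le (lt_of_le_of_lt hn hcon) (Nat.le_mul_of_pos_left a hm)
    rw [nsmul_eq_mul]
    exact_mod_cast h2
  have h2 : G ^ m = 0 := by
    have := congrArg (fun F : ModularForm _ _ => (F : ℍ → ℂ)) h1
    simpa using this
  exact d1_pow_ne_zero hG.holo hG0 m h2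

/-- (K9b) [MaxOrd.lean] a normalised form of maximal order at `i∞` (deps K9a, A2 TwEis, D1) -/
theorem exists_extremal (N : ℕ) [NeZero N] (m : ℕ) (hm : 0 < m) (χ : Gamma0 N →* ℂˣ)
    (hχ : IsEllPar χ) (hχm : ∀ γ, χ γ ^ m = 1) :
    ∃ (G : ℍ → ℂ) (a : ℕ), IsMFChar N 12 χ G ∧ (qExpansion 1 G).order = a ∧
      PowerSeries.coeff a (qExpansion 1 G) = 1 ∧
      ∀ G' : ℍ → ℂ, IsMFChar N 12 χ G' → (a : ℕ∞) < (qExpansion 1 G').order → G' = 0 := by
  set S : Set ℕ := {a : ℕ | ∃ G : ℍ → ℂ, IsMFChar N 12 χ G ∧ (qExpansion 1 G).order = a} with hS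
  have hmem : ∀ G : ℍ → ℂ, IsMFChar N 12 χ G → G ≠ 0 → ∃ a ∈ S, (qExpansion 1 G).order = a := by
    intro G hG hG0
    have h1 : (qExpansion 1 G).order ≠ ⊤ := by
      rw [Ne, PowerSeries.order_eq_top, qExpansion_eq_zero_iff_of_char hG hχ]
      exact hG0
    obtain ⟨a, ha⟩ := ENat.ne_top_iff_exists.1 h1
    exact ⟨a, ⟨G, hG, ha.symm⟩, ha.symm⟩
  have hne : S.Nonempty := by
    have hu : ∀ γ, ‖((χ γ : ℂˣ) : ℂ)‖ = 1 := by
      intro γ
      have h1 : ((χ γ : ℂˣ) : ℂ) ^ m = 1 := by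
        have := congrArg (fun u : ℂˣ => (u : ℂ)) (hχm γ)
        simpa using this
      have h2 : ‖((χ γ : ℂˣ) : ℂ)‖ ^ m = 1 := by rw [← norm_pow, h1, norm_one]
      exact (pow_eq_one_iff_of_nonneg (norm_nonneg _) hm.ne').mp h2
    obtain ⟨g, hg, hlim⟩ := exists_twistedEisenstein N χ hχ hu 12 (by norm_num) (by decide)
    have hg' : IsMFChar N 12 χ g := by simpa using hg
    have hg0 : g ≠ 0 := by
      rintro rfl
      have h1 : Filter.Tendsto (0 : ℍ → ℂ) atImInfty (nhds 0) := tendsto_const_nhds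
      exact zero_ne_one (tendsto_nhds_unique h1 hlim)
    obtain ⟨a, ha, -⟩ := hmem g hg' hg0
    exact ⟨a, ha⟩
  have hbdd : BddAbove S := by
    refine ⟨(((m : ℤ) * 12) * ((Gamma0 N).index : ℤ)).toNat / 12, ?_⟩
    rintro a ⟨G, hG, ha⟩
    exact k9b_order_le N m hm χ hχ hχm hG ha
  obtain ⟨G₀, hG₀, ha⟩ := Nat.sSup_mem hne hbdd
  set a := sSup S with ha_def
  obtain ⟨hc, hlt⟩ := PowerSeries.order_eq_nat.mp ha
  set c := PowerSeries.coeff a (qExpansion 1 G₀) with hc_def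
  refine ⟨c⁻¹ • G₀, a, hG₀.smul _, ?_, ?_, ?_⟩
  · rw [qExpansion_smul_of_char hG₀ hχ, PowerSeries.order_eq_nat]
    refine ⟨?_, fun i hi => ?_⟩
    · rw [PowerSeries.coeff_C_mul]
      exact mul_ne_zero (inv_ne_zero hc) hc
    · rw [PowerSeries.coeff_C_mul, hlt i hi, mul_zero]
  · rw [qExpansion_smul_of_char hG₀ hχ, PowerSeries.coeff_C_mul]
    exact inv_mul_cancel₀ hc
  · intro G' hG' hlt'
    by_contra hG'0
    obtain ⟨a', ha'S, ha'⟩ := hmem G' hG' hG'0
    have h1 : a' ≤ a := le_csSup hbdd ha'S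
    rw [ha'] at hlt'
    have h2 : a < a' := by exact_mod_cast hlt'
    omega

end

end Fermat.Agent.ESLib
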