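import Fermat.Agent.ES.Deriv
import Fermat.Agent.ES.MaxOrd
import Fermat.Agent.ES.DerivChar

/-!
# ES block R1, leaf (K9d): a nonzero form with multiplier `χ` and `ℚ̄`-rational `q`-expansion
-/

set_option autoImplicit false
set_option synthInstance.maxHeartbeats 400000

open UpperHalfPlane ModularForm Matrix.SpecialLinearGroup CongruenceSubgroup ModularCurve
open AlgebraicCurve IntermediateField
open scoped MatrixGroups Manifold
open Fermat.Agent.S18Lib Fermat.Agent.S20Lib Fermat.Agent.S28Lib Fermat.Agent.S24Lib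

namespace Fermat.Agent.ESLib

noncomputable section

theorem exists_rational_form (N : ℕ) [NeZero N] (m : ℕ) (hm : 0 < m) (χ : Gamma0 N →* ℂˣ)
    (hχ : IsEllPar χ) (hχm : ∀ γ, χ γ ^ m = 1) :
    ∃ (G : ℍ → ℂ) (s : PowerSeries Qb), IsMFChar N 12 χ G ∧ G ≠ 0 ∧
      qExpansion 1 G = s.map iotaC := by
  obtain ⟨G, a, hG, hord, hlead, hmax⟩ := exists_extremal N m hm χ hχ hχm
  have hG0 : G ≠ 0 := by
    intro h
    have h1 : qExpansion 1 G = 0 := (qExpansion_eq_zero_iff_of_char hG hχ).mpr h
    rw [h1] at hlead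
    simp at hlead
  have hkill : ∀ (δ : Derivation ℚ ℂ ℂ) (n : ℕ), δ (PowerSeries.coeff n (qExpansion 1 G)) = 0 := by
    intro δ n
    obtain ⟨G₁, hG₁, hq⟩ := exists_deriv_char N m hm χ hχ hχm δ hG
    have hlt : (a : ℕ∞) < (qExpansion 1 G₁).order := by
      have h1 : ((a + 1 : ℕ) : ℕ∞) ≤ (qExpansion 1 G₁).order := by
        apply PowerSeries.nat_le_order
        intro i hi
        rw [hq, coeff_dP]
        rcases Nat.lt_succ_iff_lt_or_eq.mp hi with h | h
        · rw [PowerSeries.coeff_of_lt_order i (by rw [hord]; exact_mod_cast h), map_zero]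
        · rw [h, hlead]
          exact δ.map_one_eq_zero
      refine lt_of_lt_of_le ?_ h1
      exact_mod_cast Nat.lt_succ_self a
    have h0 := hmax G₁ hG₁ hlt
    have h2 : qExpansion 1 G₁ = 0 := (qExpansion_eq_zero_iff_of_char hG₁ hχ).mpr h0
    rw [h2] at hq
    have := congrArg (PowerSeries.coeff n) hq
    rw [coeff_dP, map_zero] at this
    exact this.symm
  have hmem : ∀ n, PowerSeries.coeff n (qExpansion 1 G) ∈ Set.range iotaC := fun n =>
    mem_range_iotaC_of_isAlgebraic (isAlgebraic_of_forall_derivation _ fun δ => hkill δ n)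
  choose c hc using hmem
  refine ⟨G, PowerSeries.mk c, hG, hG0, ?_⟩
  ext n
  rw [PowerSeries.coeff_map, PowerSeries.coeff_mk, hc]

end

end Fermat.Agent.ESLib
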