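import Fermat.Agent.ES.DDefs

/-!
# ES Block R, leaf (RC): the characters `chrHom m φ`
-/

set_option autoImplicit false
set_option synthInstance.maxHeartbeats 400000

open AlgebraicCurve ModularCurve CongruenceSubgroup UpperHalfPlane ModularForm
open scoped MatrixGroups Manifold

namespace Fermat.Agent.ESLib

noncomputable section

variable {N : ℕ} {m : ℕ} {φ φ' : Additive (Gamma0 N) →+ ℤ}

theorem isEllPar_chrHom {N : ℕ} (m : ℕ) {φ : Additive (Gamma0 N) →+ ℤ} (hφ : φ ∈ EP N ℤ) :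
    IsEllPar (chrHom m φ) := by
  intro γ hγ
  apply Units.ext
  have h : φ (Additive.ofMul γ) = 0 := hφ γ hγ
  simp [chr, h]

theorem chrHom_pow {N : ℕ} (m : ℕ) (hm : 0 < m) (φ : Additive (Gamma0 N) →+ ℤ) (γ : Gamma0 N) :
    chrHom m φ γ ^ m = 1 := by
  apply Units.ext
  have hm' : (m : ℂ) ≠ 0 := by exact_mod_cast hm.ne'
  rw [Units.val_pow_eq_pow_val, coe_chrHom, chr, ← Complex.exp_nat_mul, Units.val_one,
    Complex.exp_eq_one_iff]
  refine ⟨φ (Additive.ofMul γ), ?_⟩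
  field_simp

theorem isMFc_chr_iff {N : ℕ} {k : ℤ} {m : ℕ} {φ : Additive (Gamma0 N) →+ ℤ} {u : ℍ → ℂ} :
    IsMFc N k (chr m φ) u ↔ IsMFChar N k (chrHom m φ) u :=
  ⟨fun h => ⟨h.holo, h.inv, h.bdd⟩, fun h => ⟨h.holo, h.slash, h.bdd⟩⟩

theorem norm_chrHom (m : ℕ) (φ : Additive (Gamma0 N) →+ ℤ) (γ : Gamma0 N) :
    ‖((chrHom m φ γ : ℂˣ) : ℂ)‖ = 1 := by
  rw [coe_chrHom, chr]
  have : 2 * (Real.pi : ℂ) * Complex.I * (φ (Additive.ofMul γ) : ℂ) / (m : ℂ) =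
      ((2 * Real.pi * (φ (Additive.ofMul γ) : ℝ) / (m : ℝ) : ℝ) : ℂ) * Complex.I := by
    push_cast
    ring
  rw [this, Complex.norm_exp_ofReal_mul_I]

theorem chr_eq_chr_iff (hm : 0 < m) (γ : Gamma0 N) :
    chr m φ γ = chr m φ' γ ↔ (m : ℤ) ∣ φ (Additive.ofMul γ) - φ' (Additive.ofMul γ) := by
  have hm' : (m : ℂ) ≠ 0 := by exact_mod_cast hm.ne'
  have hpi : (2 * (Real.pi : ℂ) * Complex.I) ≠ 0 := Complex.two_pi_I_ne_zero
  rw [chr, chr, Complex.exp_eq_exp_iff_exists_int]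
  constructor
  · rintro ⟨n, hn⟩
    refine ⟨n, ?_⟩
    have h1 : (φ (Additive.ofMul γ) : ℂ) = φ' (Additive.ofMul γ) + m * n := by
      field_simp at hn
      exact hn
    have h3 : φ (Additive.ofMul γ) = φ' (Additive.ofMul γ) + m * n := by exact_mod_cast h1
    rw [h3]; ring
  · rintro ⟨n, hn⟩
    refine ⟨n, ?_⟩
    have h1 : φ (Additive.ofMul γ) = φ' (Additive.ofMul γ) + m * n := by rw [← hn]; ring
    rw [h1]
    push_cast
    field_simp

theorem chrHom_eq_iff (hm : 0 < m) :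
    chrHom m φ = chrHom m φ' ↔ ∀ γ : Additive (Gamma0 N), (m : ℤ) ∣ φ γ - φ' γ := by
  constructor
  · intro h γ
    have h1 := congrArg (fun u : ℂˣ => (u : ℂ)) (DFunLike.congr_fun h (Additive.toMul γ))
    simp only [coe_chrHom] at h1
    exact (chr_eq_chr_iff hm _).1 h1
  · intro h
    ext γ
    rw [coe_chrHom, coe_chrHom]
    exact (chr_eq_chr_iff hm γ).2 (h (Additive.ofMul γ))

theorem chrHom_add (m : ℕ) (φ φ' : Additive (Gamma0 N) →+ ℤ) :
    chrHom m (φ + φ') = chrHom m φ * chrHom m φ' := by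
  ext γ
  rw [MonoidHom.mul_apply, Units.val_mul, coe_chrHom, coe_chrHom, coe_chrHom, chr, chr, chr,
    ← Complex.exp_add]
  congr 1
  rw [AddMonoidHom.add_apply]
  push_cast
  ring

theorem chrHom_zero (m : ℕ) : chrHom m (0 : Additive (Gamma0 N) →+ ℤ) = 1 := by
  ext γ
  simp [chr]

theorem chrHom_neg (m : ℕ) (φ : Additive (Gamma0 N) →+ ℤ) : chrHom m (-φ) = (chrHom m φ)⁻¹ := by
  have h : chrHom m (-φ) * chrHom m φ = 1 := by
    rw [← chrHom_add, neg_add_cancel, chrHom_zero]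
  ext γ
  have h1 := DFunLike.congr_fun h γ
  rw [MonoidHom.mul_apply, MonoidHom.one_apply] at h1
  rw [MonoidHom.inv_apply, eq_inv_of_mul_eq_one_left h1]

theorem chrHom_mul_pow {d : ℕ} (hd : 0 < d) (m : ℕ) (φ : Additive (Gamma0 N) →+ ℤ) :
    chrHom (d * m) φ ^ d = chrHom m φ := by
  ext γ
  have hd' : (d : ℂ) ≠ 0 := by exact_mod_cast hd.ne'
  rw [MonoidHom.pow_apply, Units.val_pow_eq_pow_val, coe_chrHom, coe_chrHom, chr, chr,
    ← Complex.exp_nat_mul]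
  congr 1
  push_cast
  rcases eq_or_ne (m : ℂ) 0 with h0 | h0
  · simp [h0]
  · field_simp

end

end Fermat.Agent.ESLib
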