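import Mathlib
import Fermat.Agent.ES.Defs
import Fermat.Agent.S24.Taylor

/-!
# ES (E1): `n`-th roots of holomorphic functions on the upper half plane whose orders of vanishing
are all divisible by `n`
-/

set_option autoImplicit false

open UpperHalfPlane ModularForm Matrix.SpecialLinearGroup CongruenceSubgroup ModularCurve
open scoped MatrixGroups Manifold Topology
open Fermat.Agent.S24Lib

namespace Fermat.Agent.ESLib

noncomputable section

open Metric Set Complex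

/-- a nonvanishing holomorphic function on a disc has a holomorphic `n`-th root -/
theorem e1_root_of_ne_zero (n : ℕ) (hn : 0 < n) (c : ℂ) (r : ℝ) (g : ℂ → ℂ)
    (hg : DifferentiableOn ℂ g (ball c r)) (hg0 : ∀ z ∈ ball c r, g z ≠ 0) :
    ∃ h : ℂ → ℂ, DifferentiableOn ℂ h (ball c r) ∧ ∀ z ∈ ball c r, h z ^ n = g z := by
  by_cases hr : 0 < r
  swap
  · refine ⟨0, differentiableOn_const _, fun z hz => ?_⟩
    rw [ball_eq_empty.mpr (not_lt.mp hr)] at hz
    exact absurd hz (notMem_empty z)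
  have hc : c ∈ ball c r := mem_ball_self hr
  have hφ : DifferentiableOn ℂ (fun z => deriv g z / g z) (ball c r) :=
    (hg.deriv isOpen_ball).div hg hg0
  obtain ⟨L, hL⟩ := hφ.isExactOn_ball
  have hgd : ∀ z ∈ ball c r, HasDerivAt g (deriv g z) z := fun z hz =>
    (hg.differentiableAt (isOpen_ball.mem_nhds hz)).hasDerivAt
  have hψ : ∀ z ∈ ball c r, HasDerivAt (fun z => g z * Complex.exp (-L z)) 0 z := by
    intro z hz
    have h1 : HasDerivAt (fun z => g z * Complex.exp (-L z))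
        (deriv g z * Complex.exp (-L z) + g z * (Complex.exp (-L z) * -(deriv g z / g z))) z :=
      (hgd z hz).mul ((hL z hz).neg.cexp)
    have h2 : deriv g z * Complex.exp (-L z) + g z * (Complex.exp (-L z) * -(deriv g z / g z))
        = 0 := by
      have := hg0 z hz
      field_simp
      ring
    rwa [h2] at h1
  have hconst : ∀ z ∈ ball c r, g z * Complex.exp (-L z) = g c * Complex.exp (-L c) := by
    intro z hz
    exact isOpen_ball.is_const_of_deriv_eq_zero (convex_ball c r).isPreconnected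
      (fun w hw => (hψ w hw).differentiableAt.differentiableWithinAt)
      (fun w hw => (hψ w hw).deriv) hz hc
  set C : ℂ := g c * Complex.exp (-L c) with hC
  have hC0 : C ≠ 0 := mul_ne_zero (hg0 c hc) (Complex.exp_ne_zero _)
  refine ⟨fun z => Complex.exp ((L z + Complex.log C) / n), ?_, fun z hz => ?_⟩
  · intro z hz
    have : DifferentiableAt ℂ L z := (hL z hz).differentiableAt
    exact (((this.add_const _).div_const _).cexp).differentiableWithinAt
  · have hn' : (n : ℂ) ≠ 0 := by exact_mod_cast hn.ne'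
    show Complex.exp ((L z + Complex.log C) / n) ^ n = g z
    rw [← Complex.exp_nat_mul, mul_div_cancel₀ _ hn', Complex.exp_add, Complex.exp_log hC0,
      ← hconst z hz, Complex.exp_neg]
    field_simp [Complex.exp_ne_zero]

/-- dividing out a zero of finite order -/
theorem e1_factor {B : Set ℂ} {F : ℂ → ℂ} (hF : AnalyticOnNhd ℂ F B) {a : ℂ}
    (ha : a ∈ B) {m : ℕ} (hm : analyticOrderAt F a = m) :
    ∃ F₁ : ℂ → ℂ, AnalyticOnNhd ℂ F₁ B ∧ F₁ a ≠ 0 ∧ ∀ z, F z = (z - a) ^ m * F₁ z := by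
  classical
  obtain ⟨G, hG, hGa, hFG⟩ := (hF a ha).analyticOrderAt_eq_natCast.mp hm
  refine ⟨fun z => if z = a then G a else F z / (z - a) ^ m, ?_, by simpa using hGa, ?_⟩
  · intro z hz
    by_cases hza : z = a
    · subst hza
      refine hG.congr ?_
      filter_upwards [hFG] with w hw
      by_cases hwz : w = z
      · simp [hwz]
      · rw [if_neg hwz, hw, smul_eq_mul, mul_div_cancel_left₀]
        exact pow_ne_zero _ (sub_ne_zero.mpr hwz)
    · have h1 : AnalyticAt ℂ (fun w => F w / (w - a) ^ m) z :=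
        (hF z hz).div ((analyticAt_id.sub analyticAt_const).pow m)
          (pow_ne_zero _ (sub_ne_zero.mpr hza))
      refine h1.congr ?_
      filter_upwards [isOpen_ne.mem_nhds hza] with w hw
      rw [if_neg hw]
  · intro z
    by_cases hza : z = a
    · subst hza
      simpa using hFG.self_of_nhds
    · show F z = (z - a) ^ m * (if z = a then G a else F z / (z - a) ^ m)
      rw [if_neg hza, mul_div_cancel₀]
      exact pow_ne_zero _ (sub_ne_zero.mpr hza)

/-- `n`-th root on a disc, for finitely many zeros -/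
theorem e1_root_of_finite (n : ℕ) (hn : 0 < n) (c : ℂ) (r : ℝ) (s : Finset ℂ) :
    ∀ F : ℂ → ℂ, AnalyticOnNhd ℂ F (ball c r) → (∀ z ∈ ball c r, F z = 0 → z ∈ s) →
      (∀ z ∈ ball c r, ∃ k : ℕ, analyticOrderAt F z = ((n * k : ℕ) : ℕ∞)) →
      ∃ h : ℂ → ℂ, AnalyticOnNhd ℂ h (ball c r) ∧ ∀ z ∈ ball c r, h z ^ n = F z := by
  classical
  induction s using Finset.induction_on with
  | empty =>
    intro F hF hz _
    obtain ⟨h, hh, hpow⟩ := e1_root_of_ne_zero n hn c r F hF.differentiableOn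
      (fun z hzB h0 => absurd (hz z hzB h0) (Finset.notMem_empty z))
    exact ⟨h, hh.analyticOnNhd isOpen_ball, hpow⟩
  | insert a s _ ih =>
    intro F hF hz hord
    by_cases ha : a ∈ ball c r ∧ F a = 0
    swap
    · refine ih F hF (fun z hzB h0 => ?_) hord
      rcases Finset.mem_insert.mp (hz z hzB h0) with rfl | h1
      · exact absurd ⟨hzB, h0⟩ ha
      · exact h1
    obtain ⟨haB, -⟩ := ha
    obtain ⟨k, hk⟩ := hord a haB
    obtain ⟨F₁, hF₁, hF₁a, hfac⟩ := e1_factor hF haB hk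
    have hfun : F = (fun z => (z - a) ^ (n * k)) * F₁ := funext hfac
    obtain ⟨h₁, hh₁, hpow⟩ := ih F₁ hF₁ (fun z hzB h0 => by
        have h1 : F z = 0 := by rw [hfac, h0, mul_zero]
        rcases Finset.mem_insert.mp (hz z hzB h1) with rfl | h2
        · exact absurd h0 hF₁a
        · exact h2) (fun z hzB => by
        by_cases hza : z = a
        · subst hza
          exact ⟨0, by simpa using (hF₁ z hzB).analyticOrderAt_eq_zero.mpr hF₁a⟩
        · obtain ⟨k', hk'⟩ := hord z hzB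
          refine ⟨k', ?_⟩
          have hp : AnalyticAt ℂ (fun z => (z - a) ^ (n * k)) z :=
            (analyticAt_id.sub analyticAt_const).pow _
          have hp0 : analyticOrderAt (fun z => (z - a) ^ (n * k)) z = 0 :=
            hp.analyticOrderAt_eq_zero.mpr (pow_ne_zero _ (sub_ne_zero.mpr hza))
          rw [hfun, analyticOrderAt_mul hp (hF₁ z hzB), hp0, zero_add] at hk'
          exact hk')
    refine ⟨fun z => (z - a) ^ k * h₁ z, fun z hzB =>
      ((analyticAt_id.sub analyticAt_const).pow k).mul (hh₁ z hzB), fun z hzB => ?_⟩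
    show ((z - a) ^ k * h₁ z) ^ n = F z
    rw [mul_pow, hpow z hzB, hfac, ← pow_mul, mul_comm k n]

/-- an analytic function on a preconnected set, not identically zero, has finitely many zeros in
a compact subset -/
theorem e1_finite_zeros {U K : Set ℂ} {F : ℂ → ℂ} (hF : AnalyticOnNhd ℂ F U)
    (hU : IsPreconnected U) (hK : IsCompact K) (hKU : K ⊆ U) {z₀ : ℂ} (hz₀ : z₀ ∈ U)
    (hFz₀ : F z₀ ≠ 0) : {z ∈ K | F z = 0}.Finite := by
  by_contra hinf
  obtain ⟨x, hxK, hx⟩ := Set.Infinite.exists_accPt_of_subset_isCompact hinf hK (sep_subset _ _)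
  rw [accPt_iff_frequently_nhdsNE] at hx
  have h1 : ∃ᶠ z in 𝓝[≠] x, F z = 0 := hx.mono fun z hz => hz.2
  exact hFz₀ (hF.eqOn_zero_of_preconnected_of_frequently_eq_zero hU (hKU hxK) h1 hz₀)

/-- uniqueness of normalised `n`-th roots -/
theorem e1_unique (n : ℕ) (hn : 0 < n) {U : Set ℂ} (hUo : IsOpen U) (hU : IsPreconnected U)
    {h₁ h₂ : ℂ → ℂ} (hh₁ : AnalyticOnNhd ℂ h₁ U) (hh₂ : AnalyticOnNhd ℂ h₂ U)
    (hpow : ∀ z ∈ U, h₁ z ^ n = h₂ z ^ n) {z₀ : ℂ} (hz₀ : z₀ ∈ U) (heq : h₁ z₀ = h₂ z₀)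
    (hne : h₂ z₀ ≠ 0) : EqOn h₁ h₂ U := by
  refine hh₁.eqOn_of_preconnected_of_eventuallyEq hh₂ hU hz₀ ?_
  have hcont : ContinuousAt
      (fun z => ∑ i ∈ Finset.range n, h₁ z ^ i * h₂ z ^ (n - 1 - i)) z₀ := by
    refine tendsto_finsetSum _ fun i _ => ?_
    exact ((hh₁ z₀ hz₀).continuousAt.pow i).mul ((hh₂ z₀ hz₀).continuousAt.pow _)
  have hS0 : (∑ i ∈ Finset.range n, h₁ z₀ ^ i * h₂ z₀ ^ (n - 1 - i)) ≠ 0 := by
    rw [heq, geom_sum₂_self]
    exact mul_ne_zero (by exact_mod_cast hn.ne') (pow_ne_zero _ hne)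
  filter_upwards [hcont.eventually_ne hS0, hUo.mem_nhds hz₀] with z hz hzU
  have h1 := geom_sum₂_mul (h₁ z) (h₂ z) n
  rw [hpow z hzU, sub_self] at h1
  exact sub_eq_zero.mp ((mul_eq_zero.mp h1).resolve_left hz)

/-- two points of the upper half plane lie in a disc whose closure is in the upper half plane -/
theorem e1_cover (z z₀ : ℂ) (hz : 0 < z.im) (hz₀ : 0 < z₀.im) :
    ∃ (c : ℂ) (r : ℝ), z ∈ ball c r ∧ z₀ ∈ ball c r ∧ closedBall c r ⊆ {w : ℂ | 0 < w.im} := by
  set R : ℝ := max 1 (max ((‖z‖ ^ 2 + 2) / (2 * z.im)) ((‖z₀‖ ^ 2 + 2) / (2 * z₀.im))) with hR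
  have hR1 : 1 ≤ R := le_max_left _ _
  have hRz : (‖z‖ ^ 2 + 2) / (2 * z.im) ≤ R := (le_max_left _ _).trans (le_max_right _ _)
  have hRz₀ : (‖z₀‖ ^ 2 + 2) / (2 * z₀.im) ≤ R := (le_max_right _ _).trans (le_max_right _ _)
  have key : ∀ w : ℂ, 0 < w.im → (‖w‖ ^ 2 + 2) / (2 * w.im) ≤ R →
      w ∈ ball ((R : ℂ) * Complex.I) (Real.sqrt (R ^ 2 - 1)) := by
    intro w hw hwR
    rw [mem_ball, dist_eq_norm, Real.lt_sqrt (norm_nonneg _), Complex.sq_norm,
      Complex.normSq_apply]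
    rw [div_le_iff₀ (by positivity), Complex.sq_norm, Complex.normSq_apply] at hwR
    simp only [Complex.sub_re, Complex.mul_re, Complex.ofReal_re, Complex.I_re, mul_zero,
      Complex.ofReal_im, Complex.I_im, mul_one, sub_self, sub_zero, Complex.sub_im,
      Complex.mul_im, add_zero]
    nlinarith
  refine ⟨(R : ℂ) * Complex.I, Real.sqrt (R ^ 2 - 1), key z hz hRz, key z₀ hz₀ hRz₀, ?_⟩
  intro w hw
  rw [mem_closedBall, dist_eq_norm] at hw
  have h1 : Real.sqrt (R ^ 2 - 1) < R := by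
    rw [Real.sqrt_lt' (by linarith)]; linarith
  have h2 : |(w - (R : ℂ) * Complex.I).im| ≤ ‖w - (R : ℂ) * Complex.I‖ := Complex.abs_im_le_norm _
  have h3 : (w - (R : ℂ) * Complex.I).im = w.im - R := by simp
  rw [h3] at h2
  have h4 := neg_abs_le (w.im - R)
  show 0 < w.im
  linarith

/-- (E1) pure complex analysis. -/
theorem exists_nthRoot (n : ℕ) (hn : 0 < n) (f : ℍ → ℂ) (hf : MDiff f) (hf0 : f ≠ 0)
    (hord : ∀ τ, (n : ℤ) ∣ ordH f τ) : ∃ h : ℍ → ℂ, MDiff h ∧ h ^ n = f := by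
  classical
  set F : ℂ → ℂ := f ∘ ofComplex with hFdef
  have hHc : IsPreconnected {z : ℂ | 0 < z.im} := (convex_halfSpace_im_gt 0).isPreconnected
  have hF : AnalyticOnNhd ℂ F {z : ℂ | 0 < z.im} := fun z hz =>
    analyticAt_comp_ofComplex hf ⟨z, hz⟩
  have hFcoe : ∀ τ : ℍ, F τ = f τ := fun τ => by simp [hFdef]
  -- base point
  obtain ⟨τ₀, hτ₀⟩ : ∃ τ₀, f τ₀ ≠ 0 := by
    by_contra hcon
    push Not at hcon
    exact hf0 (funext hcon)
  have hFτ₀ : F τ₀ ≠ 0 := by rw [hFcoe]; exact hτ₀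
  obtain ⟨w₀, hw₀⟩ := IsAlgClosed.exists_pow_nat_eq (F τ₀) hn
  have hw₀0 : w₀ ≠ 0 := by
    rintro rfl
    rw [zero_pow hn.ne'] at hw₀
    exact hFτ₀ hw₀.symm
  -- orders
  have hordF : ∀ z ∈ {z : ℂ | 0 < z.im}, ∃ k : ℕ, analyticOrderAt F z = ((n * k : ℕ) : ℕ∞) := by
    intro z hz
    have h1 := hord ⟨z, hz⟩
    have h2 : (taylorH f ⟨z, hz⟩).order = analyticOrderAt F z := order_taylorPS (hF z hz)
    have h3 : taylorH f ⟨z, hz⟩ ≠ 0 := fun h => hf0 ((taylorH_eq_zero_iff hf _).mp h)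
    have h4 : (taylorH f ⟨z, hz⟩).order ≠ ⊤ := by rwa [Ne, PowerSeries.order_eq_top]
    unfold ordH at h1
    obtain ⟨k, hk⟩ := Int.natCast_dvd_natCast.mp h1
    refine ⟨k, ?_⟩
    rw [← h2, ← hk]
    exact (ENat.natCast_toNat h4).symm
  -- local data
  have hloc : ∀ τ : ℍ, ∃ (c : ℂ) (r : ℝ) (h : ℂ → ℂ), (τ : ℂ) ∈ ball c r ∧ (τ₀ : ℂ) ∈ ball c r ∧
      ball c r ⊆ {z : ℂ | 0 < z.im} ∧ AnalyticOnNhd ℂ h (ball c r) ∧
      (∀ z ∈ ball c r, h z ^ n = F z) ∧ h τ₀ = w₀ := by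
    intro τ
    obtain ⟨c, r, h1, h2, h3⟩ := e1_cover τ τ₀ τ.2 τ₀.2
    have hfin := e1_finite_zeros hF hHc (isCompact_closedBall c r) h3 τ₀.2 hFτ₀
    have hsub : ball c r ⊆ {z : ℂ | 0 < z.im} := ball_subset_closedBall.trans h3
    obtain ⟨h, hh, hpow⟩ := e1_root_of_finite n hn c r hfin.toFinset F (hF.mono hsub)
      (fun z hz h0 => by
        rw [Set.Finite.mem_toFinset]
        exact ⟨ball_subset_closedBall hz, h0⟩)
      (fun z hz => hordF z (hsub hz))
    have hh0 : h τ₀ ≠ 0 := by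
      intro h0
      have := hpow τ₀ h2
      rw [h0, zero_pow hn.ne'] at this
      exact hFτ₀ this.symm
    refine ⟨c, r, fun z => (w₀ / h τ₀) * h z, h1, h2, hsub,
      fun z hz => analyticAt_const.mul (hh z hz), fun z hz => ?_, ?_⟩
    · show ((w₀ / h τ₀) * h z) ^ n = F z
      rw [mul_pow, div_pow, hw₀, hpow τ₀ h2, div_self hFτ₀, one_mul, hpow z hz]
    · show (w₀ / h τ₀) * h τ₀ = w₀
      field_simp
  choose c r H hτ hτ₀' hsub hH hpow hnorm using hloc
  -- compatibility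
  have hcompat : ∀ τ τ' : ℍ, EqOn (H τ) (H τ') (ball (c τ) (r τ) ∩ ball (c τ') (r τ')) := by
    intro τ τ'
    exact e1_unique n hn (isOpen_ball.inter isOpen_ball)
      ((convex_ball _ _).inter (convex_ball _ _)).isPreconnected
      ((hH τ).mono inter_subset_left) ((hH τ').mono inter_subset_right)
      (fun z hz => by rw [hpow τ z hz.1, hpow τ' z hz.2]) ⟨hτ₀' τ, hτ₀' τ'⟩
      (by rw [hnorm, hnorm]) (by rw [hnorm]; exact hw₀0)
  refine ⟨fun τ => H τ τ, ?_, ?_⟩
  · rw [UpperHalfPlane.mdifferentiable_iff]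
    intro z hz
    have h1 : ((fun τ : ℍ => H τ τ) ∘ ofComplex) =ᶠ[𝓝 z] H ⟨z, hz⟩ := by
      filter_upwards [isOpen_ball.mem_nhds (hτ ⟨z, hz⟩)] with w hw
      have hwH : 0 < w.im := hsub _ hw
      show H (ofComplex w) (ofComplex w) = _
      rw [ofComplex_apply_of_im_pos hwH]
      exact hcompat _ _ ⟨hτ ⟨w, hwH⟩, hw⟩
    exact ((hH _ z (hτ ⟨z, hz⟩)).differentiableAt.congr_of_eventuallyEq h1).differentiableWithinAt
  · ext τ
    show H τ τ ^ n = f τ
    rw [hpow τ τ (hτ τ), hFcoe]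

end

end Fermat.Agent.ESLib
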