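import Mathlib
import Fermat.Agent.ES.Defs
import Fermat.Agent.ES.Local
import Fermat.Agent.ES.Ratio
import Fermat.Agent.ES.PlaceFin
import Fermat.Agent.ES.NthRoot
import Fermat.Agent.S24.FibreLemma
import Fermat.Agent.S24.Taylor
import Fermat.Agent.S24.JFun

/-!
# ES block (4), leaf (E2): Kummer elements of `FC N` come from forms with multiplier
-/

set_option autoImplicit false

open UpperHalfPlane ModularForm Matrix.SpecialLinearGroup CongruenceSubgroup ModularCurve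
open AlgebraicCurve IntermediateField
open scoped MatrixGroups Manifold
open Fermat.Agent.S20Lib Fermat.Agent.S28Lib Fermat.Agent.S24Lib

namespace Fermat.Agent.ESLib

noncomputable section

/-- powers of modular forms -/
theorem e2_isMF_pow {N : ℕ} {k : ℤ} {b : ℍ → ℂ} (hb : IsMF (Gamma0 N) k b) (n : ℕ) :
    IsMF (Gamma0 N) (n * k) (b ^ n) :=
  (isMFChar_one_iff.2 hb).pow (n := n) (fun γ => by simp)

/-- a function whose `n`-th power is bounded at `i∞` is bounded at `i∞`. -/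
theorem e2_bdd_of_pow {f : ℍ → ℂ} {n : ℕ} (hn : 0 < n) (h : IsBoundedAtImInfty (f ^ n)) :
    IsBoundedAtImInfty f := by
  rw [UpperHalfPlane.isBoundedAtImInfty_iff] at h ⊢
  obtain ⟨M, A, hM⟩ := h
  refine ⟨max M 1, A, fun z hz => ?_⟩
  by_contra hlt
  push Not at hlt
  have h1 : 1 < ‖f z‖ := lt_of_le_of_lt (le_max_right _ _) hlt
  have h2 : M < ‖f z‖ := lt_of_le_of_lt (le_max_left _ _) hlt
  have h3 := hM z hz
  rw [Pi.pow_apply, norm_pow] at h3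
  have h4 : ‖f z‖ ≤ ‖f z‖ ^ n := le_self_pow₀ h1.le hn.ne'
  linarith

/-- uniqueness of the multiplier -/
theorem e2_smul_cancel {h : ℍ → ℂ} (h0 : h ≠ 0) {c d : ℂ} (e : c • h = d • h) : c = d := by
  by_contra hcd
  apply h0
  ext z
  have := congrFun e z
  simp only [Pi.smul_apply, smul_eq_mul] at this
  have h1 : (c - d) * h z = 0 := by linear_combination this
  rcases mul_eq_zero.1 h1 with h2 | h2
  · exact absurd (sub_eq_zero.1 h2) hcd
  · exact h2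

/-- the multiplier system of an `n`-th root of a modular form. -/
theorem e2_exists_char (N : ℕ) (n : ℕ) (hn : 0 < n) (k : ℤ) (G h : ℍ → ℂ)
    (hG : IsMF (Gamma0 N) (n * k) G) (hh : MDiff h) (h0 : h ≠ 0) (e : h ^ n = G) :
    ∃ χ : Gamma0 N →* ℂˣ, (∀ γ, χ γ ^ n = 1) ∧ IsMFChar N k χ h := by
  have key : ∀ γ : Gamma0 N, ∃ c : ℂˣ, c ^ n = 1 ∧ h ∣[k] (γ : SL(2, ℤ)) = (c : ℂ) • h := by
    intro γ
    have e1 : (h ∣[k] (γ : SL(2, ℤ))) ^ n = h ^ n := by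
      rw [← d1_pow_slash, e, hG.inv γ γ.2]
    obtain ⟨c, hc, hc'⟩ := eq_smul_of_pow_eq hn (hh.slash k _) hh e1
    have hc0 : c ≠ 0 := by
      rintro rfl
      rw [zero_pow hn.ne'] at hc
      exact zero_ne_one hc
    refine ⟨Units.mk0 c hc0, ?_, hc'⟩
    ext
    simpa using hc
  choose χ hχ1 hχ2 using key
  have hmul : ∀ γ γ' : Gamma0 N, χ (γ * γ') = χ γ * χ γ' := by
    intro γ γ'
    ext
    apply e2_smul_cancel h0
    rw [← hχ2 (γ * γ')]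
    have : ((γ * γ' : Gamma0 N) : SL(2, ℤ)) = (γ : SL(2, ℤ)) * (γ' : SL(2, ℤ)) := rfl
    rw [this, SlashAction.slash_mul, hχ2 γ, ModularForm.SL_smul_slash, hχ2 γ', smul_smul]
    simp
  refine ⟨MonoidHom.mk' χ hmul, hχ1, hh, hχ2, fun δ => ?_⟩
  apply e2_bdd_of_pow hn
  rw [← d1_pow_slash, e]
  exact hG.bdd δ

/-- (E2) [Converse.lean] -/
theorem exists_char_of_kummer (N : ℕ) [NeZero N] (n : ℕ) (hn : 0 < n) (u : FC N) (hu : u ≠ 0)
    (hk : ∀ v : Place ℂ (FC N), (n : ℤ) ∣ v.ord u) :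
    ∃ (k : ℤ) (χ : Gamma0 N →* ℂˣ) (g₁ g₀ : ℍ → ℂ), (∀ γ, χ γ ^ n = 1) ∧
      IsMFChar N k χ g₁ ∧ IsMF (Gamma0 N) k g₀ ∧ g₁ ≠ 0 ∧ g₀ ≠ 0 ∧
      u = ratio N (g₁ ^ n) (g₀ ^ n) := by
  obtain ⟨k', a, b, ha, hb, hb0, rfl⟩ := exists_ratio N u
  have ha0 : a ≠ 0 := by
    rintro rfl
    apply hu
    apply Subtype.ext
    rw [coe_ratio N ha hb, (qL_eq_zero_iff ha).2 rfl, zero_div]
    rfl
  obtain ⟨m, rfl⟩ : ∃ m, n = m + 1 := ⟨n - 1, by omega⟩
  set K : ℤ := 2 * (k' : ℤ) with hK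
  have hbm : IsMF (Gamma0 N) (m * K) (b ^ m) := e2_isMF_pow hb m
  have hbm0 : b ^ m ≠ 0 := d1_pow_ne_zero hb.holo hb0 m
  have hG : IsMF (Gamma0 N) (((m + 1 : ℕ) : ℤ) * K) (a * b ^ m) :=
    ha.mul' hbm (by push_cast; ring)
  have hG0 : a * b ^ m ≠ 0 := by
    intro h
    have h1 := qL_mul ha hbm
    rw [h, (qL_eq_zero_iff (N := N) (k := 0) IsMF.zero_mf).2 rfl] at h1
    rcases mul_eq_zero.1 h1.symm with h2 | h2
    · exact ha0 ((qL_eq_zero_iff ha).1 h2)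
    · exact hbm0 ((qL_eq_zero_iff hbm).1 h2)
  have hord : ∀ τ, (((m + 1 : ℕ) : ℤ)) ∣ ordH (a * b ^ m) τ := by
    intro τ
    obtain ⟨v, e, -, hv⟩ := exists_placeAt_of_point N τ
    have h1 := hv K a b ha hb ha0 hb0
    obtain ⟨c, hc⟩ := hk v
    rw [ordH_mul ha.holo ha0 hbm.holo hbm0, ordH_pow hb.holo hb0]
    refine ⟨e * c + ordH b τ, ?_⟩
    rw [hc] at h1
    push_cast at h1 ⊢
    linear_combination -h1
  obtain ⟨h, hh, e⟩ := exists_nthRoot (m + 1) hn (a * b ^ m) hG.holo hG0 hord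
  have h0 : h ≠ 0 := by
    rintro rfl
    apply hG0
    rw [← e, zero_pow hn.ne']
  obtain ⟨χ, hχ1, hχ2⟩ := e2_exists_char N (m + 1) hn K (a * b ^ m) h hG hh h0 e
  refine ⟨K, χ, h, b, hχ1, hχ2, hb, h0, hb0, ?_⟩
  apply Subtype.ext
  rw [e, coe_ratio N ha hb, coe_ratio N hG (e2_isMF_pow hb (m + 1)), pow_succ', qL_mul ha hbm,
    qL_mul hb hbm]
  have h1 : qL (b ^ m) ≠ 0 := fun h => hbm0 ((qL_eq_zero_iff hbm).1 h)
  rw [mul_div_mul_right _ _ h1]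

end

end Fermat.Agent.ESLib
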