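import Mathlib
import Fermat.Agent.ES.Defs
import Fermat.Agent.ES.Local
import Fermat.Agent.ES.Ratio
import Fermat.Agent.ES.PlaceFin
import Fermat.Agent.ES.PlaceCusp
import Fermat.Agent.ES.Kummer
import Fermat.Agent.S24.PlaceBasic
import Fermat.Agent.S24.FibreLemma
import Fermat.Agent.S24.Taylor
import Fermat.Agent.S24.JFun
import Fermat.Agent.S28.QI

/-!
# ES block (4), leaf (E3): the multiplier of a Kummer element is elliptic-parabolic trivial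
-/

set_option autoImplicit false

open UpperHalfPlane ModularForm Matrix.SpecialLinearGroup CongruenceSubgroup ModularCurve
open AlgebraicCurve IntermediateField
open scoped MatrixGroups Manifold
open Fermat.Agent.S20Lib Fermat.Agent.S28Lib Fermat.Agent.S24Lib

namespace Fermat.Agent.ESLib

noncomputable section

local notation "𝕢" => Function.Periodic.qParam

/-! ### analysis at a cusp -/

theorem e3_mdiff_qParam (h : ℝ) : MDiff (fun τ : ℍ => 𝕢 h (τ : ℂ)) :=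
  (Function.Periodic.differentiable_qParam (h := h)).mdifferentiable.comp mdifferentiable_coe

theorem e3_bdd_of_norm_le_one {f : ℍ → ℂ} (h : ∀ τ, ‖f τ‖ ≤ 1) : IsBoundedAtImInfty f := by
  rw [UpperHalfPlane.isBoundedAtImInfty_iff]
  exact ⟨1, 0, fun z _ => h z⟩

theorem e3_norm_qParam_le {h : ℝ} (hh : 0 < h) (τ : ℍ) : ‖𝕢 h (τ : ℂ)‖ ≤ 1 :=
  (Function.Periodic.norm_qParam_lt_one hh τ.im_pos).le

theorem e3_qParam_add (h : ℝ) (z t : ℂ) : 𝕢 h (z + t) = 𝕢 h z * 𝕢 h t := by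
  simp only [Function.Periodic.qParam, ← Complex.exp_add]
  congr 1
  ring

theorem e3_qParam_self {h : ℝ} (hh : h ≠ 0) : 𝕢 h (h : ℂ) = 1 := by
  have : (h : ℂ) ≠ 0 := by exact_mod_cast hh
  rw [Function.Periodic.qParam, mul_div_assoc, div_self this, mul_one, Complex.exp_two_pi_mul_I]

theorem e3_qParam_vadd {w : ℕ} (hw : 0 < w) (τ : ℍ) :
    𝕢 (w : ℝ) (((((w : ℕ) : ℝ) +ᵥ τ : ℍ)) : ℂ) = 𝕢 (w : ℝ) (τ : ℂ) := by
  have hw' : (w : ℝ) ≠ 0 := by exact_mod_cast hw.ne'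
  rw [UpperHalfPlane.coe_vadd, e3_qParam_add, e3_qParam_self hw', one_mul]

/-- the `q`-expansion of `q_w ^ s`. -/
theorem e3_qParam_pow {w : ℕ} (hw : 0 < w) (s : ℕ) :
    AnalyticAt ℂ (cuspFunction (w : ℝ) (fun τ : ℍ => 𝕢 (w : ℝ) (τ : ℂ) ^ s)) 0 ∧
    qExpansion (w : ℝ) (fun τ : ℍ => 𝕢 (w : ℝ) (τ : ℂ) ^ s) = PowerSeries.X ^ s := by
  have hw' : (0 : ℝ) < (w : ℝ) := by exact_mod_cast hw
  have hper : Function.Periodic ((fun τ : ℍ => 𝕢 (w : ℝ) (τ : ℂ) ^ s) ∘ ofComplex) (w : ℂ) := by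
    apply W3.periodic_of_vadd_nat
    intro τ
    simp only [e3_qParam_vadd hw]
  have hol : MDiff (fun τ : ℍ => 𝕢 (w : ℝ) (τ : ℂ) ^ s) := (e3_mdiff_qParam (w : ℝ)).pow s
  have hb : IsBoundedAtImInfty (fun τ : ℍ => 𝕢 (w : ℝ) (τ : ℂ) ^ s) := by
    apply e3_bdd_of_norm_le_one
    intro τ
    rw [norm_pow]
    exact pow_le_one₀ (norm_nonneg _) (e3_norm_qParam_le hw' τ)
  have han : AnalyticAt ℂ (cuspFunction (w : ℝ) (fun τ : ℍ => 𝕢 (w : ℝ) (τ : ℂ) ^ s)) 0 :=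
    analyticAt_cuspFunction_zero hw' hper hol hb
  refine ⟨han, ?_⟩
  have hsum : ∀ τ : ℍ, HasSum (fun m : ℕ => (if m = s then (1 : ℂ) else 0) • 𝕢 (w : ℝ) (τ : ℂ) ^ m)
      (𝕢 (w : ℝ) (τ : ℂ) ^ s) := by
    intro τ
    convert hasSum_single (f := fun m : ℕ => (if m = s then (1 : ℂ) else 0) • 𝕢 (w : ℝ) (τ : ℂ) ^ m)
      s (fun m hm => by simp [hm]) using 1
    simp
  ext m
  have := QIAux.coeff_unique hw' han hsum m
  rw [← this, PowerSeries.coeff_X_pow]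

/-- a holomorphic function, bounded at `i∞`, with `h (τ + w) = c h τ`, `c ^ n = 1`, such that the
order of `h ^ n` at `i∞` is divisible by `n`, is `w`-periodic. -/
theorem e3_cusp {w n : ℕ} (hw : 0 < w) (hn : 0 < n) {h : ℍ → ℂ} (hol : MDiff h)
    (hb : IsBoundedAtImInfty h) (h0 : h ≠ 0) (c : ℂ) (hc : c ^ n = 1)
    (hper : ∀ τ, h (((w : ℕ) : ℝ) +ᵥ τ) = c * h τ) (hdvd : (n : ℤ) ∣ ordI w (h ^ n)) : c = 1 := by
  have : NeZero n := ⟨hn.ne'⟩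
  have hw' : (0 : ℝ) < (w : ℝ) := by exact_mod_cast hw
  have hwC : (w : ℂ) ≠ 0 := by exact_mod_cast hw.ne'
  have hnC : (n : ℂ) ≠ 0 := by exact_mod_cast hn.ne'
  have hnw : (0 : ℝ) < ((n * w : ℕ) : ℝ) := by exact_mod_cast Nat.mul_pos hn hw
  set Q : ℍ → ℂ := fun τ => 𝕢 ((n * w : ℕ) : ℝ) (τ : ℂ) with hQ
  set ζ : ℂ := 𝕢 ((n * w : ℕ) : ℝ) (w : ℂ) with hζdef
  have hζ : IsPrimitiveRoot ζ n := by
    have h1 := Complex.isPrimitiveRoot_exp n hn.ne'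
    have h2 : ζ = Complex.exp (2 * Real.pi * Complex.I / n) := by
      rw [hζdef, Function.Periodic.qParam]
      congr 1
      push_cast
      field_simp
    rwa [h2]
  have hc0 : c ≠ 0 := by
    rintro rfl
    rw [zero_pow hn.ne'] at hc
    exact zero_ne_one hc
  obtain ⟨s, hs, hs'⟩ := hζ.eq_pow_of_pow_eq_one (ξ := c⁻¹) (by rw [inv_pow, hc, inv_one])
  have hQshift : ∀ τ : ℍ, Q (((w : ℕ) : ℝ) +ᵥ τ) = Q τ * ζ := by
    intro τ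
    simp only [hQ]
    rw [UpperHalfPlane.coe_vadd, add_comm, e3_qParam_add]
    rfl
  have hQpow : ∀ τ : ℍ, Q τ ^ n = 𝕢 (w : ℝ) (τ : ℂ) := by
    intro τ
    simp only [hQ, Function.Periodic.qParam]
    rw [← Complex.exp_nat_mul]
    congr 1
    push_cast
    field_simp
  have hQ0 : ∀ τ : ℍ, Q τ ≠ 0 := fun τ => Function.Periodic.qParam_ne_zero _
  have hQol : MDiff Q := e3_mdiff_qParam _
  have hQb : IsBoundedAtImInfty (Q ^ s) := by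
    apply e3_bdd_of_norm_le_one
    intro τ
    rw [Pi.pow_apply, norm_pow]
    exact pow_le_one₀ (norm_nonneg _) (e3_norm_qParam_le hnw τ)
  set H : ℍ → ℂ := h * Q ^ s with hH
  have hHper : ∀ τ, H (((w : ℕ) : ℝ) +ᵥ τ) = H τ := by
    intro τ
    simp only [hH, Pi.mul_apply, Pi.pow_apply]
    rw [hper, hQshift, mul_pow, hs']
    field_simp
  have hHol : MDiff H := hol.mul (hQol.pow s)
  have hHb : IsBoundedAtImInfty H := hb.mul hQb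
  have hH0 : H ≠ 0 := by
    intro hz
    apply h0
    ext τ
    have := congrFun hz τ
    simp only [hH, Pi.mul_apply, Pi.pow_apply, Pi.zero_apply] at this
    exact (mul_eq_zero.1 this).resolve_right (pow_ne_zero _ (hQ0 τ))
  have e1 := ordI_pow hw hHol (W3.periodic_of_vadd_nat w hHper) hHb hH0 n
  have hHn : H ^ n = h ^ n * (fun τ : ℍ => 𝕢 (w : ℝ) (τ : ℂ) ^ s) := by
    ext τ
    simp only [hH, Pi.mul_apply, Pi.pow_apply]
    rw [mul_pow, ← pow_mul, mul_comm s n, pow_mul, hQpow]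
  have hnper : ∀ τ, (h ^ n) (((w : ℕ) : ℝ) +ᵥ τ) = (h ^ n) τ := by
    intro τ
    simp only [Pi.pow_apply]
    rw [hper, mul_pow, hc, one_mul]
  have hnper' := W3.periodic_of_vadd_nat w hnper
  have han : AnalyticAt ℂ (cuspFunction (w : ℝ) (h ^ n)) 0 :=
    analyticAt_cuspFunction_zero hw' hnper' (hol.pow n) (d1_bdd_pow hb n)
  have hq0 : qExpansion (w : ℝ) (h ^ n) ≠ 0 := by
    rw [Ne, qExpansion_eq_zero_iff hw' hnper' (hol.pow n) (d1_bdd_pow hb n)]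
    exact d1_pow_ne_zero hol h0 n
  have e2 : ordI w (H ^ n) = ordI w (h ^ n) + s := by
    unfold ordI
    rw [hHn, qExpansion_mul han (e3_qParam_pow hw s).1, (e3_qParam_pow hw s).2,
      PowerSeries.order_mul, PowerSeries.order_X_pow]
    have hne : (qExpansion (w : ℝ) (h ^ n)).order ≠ ⊤ := by
      rw [Ne, PowerSeries.order_eq_top]; exact hq0
    obtain ⟨a, ha⟩ := ENat.ne_top_iff_exists.1 hne
    rw [← ha]
    norm_cast
  have e3 : (n : ℤ) ∣ (s : ℤ) := by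
    have h1 : (n : ℤ) ∣ ordI w (h ^ n) + s := by rw [← e2, e1]; exact dvd_mul_right _ _
    exact (dvd_add_right hdvd).1 h1
  have hs0 : s = 0 := by
    have := Int.natCast_dvd_natCast.1 e3
    exact Nat.eq_zero_of_dvd_of_lt this hs
  rw [hs0, pow_zero] at hs'
  exact (inv_eq_one.1 hs'.symm)

/-! ### elements of trace `2` are conjugate to translations -/

theorem e3_exists_fixed_vector (s b c : ℤ) (h : s * s + b * c = 0) :
    ∃ x y : ℤ, IsCoprime x y ∧ s * x + b * y = 0 ∧ c * x - s * y = 0 := by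
  rcases eq_or_ne b 0 with rfl | hb
  · have hs : s = 0 := by
      have : s * s = 0 := by linarith
      exact mul_self_eq_zero.1 this
    subst hs
    exact ⟨0, 1, isCoprime_zero_left.2 isUnit_one, by ring, by ring⟩
  · have hg : 0 < Int.gcd s b := Int.gcd_pos_of_ne_zero_right _ hb
    obtain ⟨s', b', h1, h2, h3⟩ := Int.exists_gcd_one hg
    set g : ℤ := (Int.gcd s b : ℤ) with hgdef
    have hg0 : g ≠ 0 := by
      rw [hgdef]; exact_mod_cast hg.ne'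
    refine ⟨b', -s', ?_, ?_, ?_⟩
    · have : IsCoprime s' b' := Int.isCoprime_iff_gcd_eq_one.2 h1
      exact this.symm.neg_right
    · rw [h2, h3]; ring
    · apply mul_left_cancel₀ hg0
      rw [h2, h3] at h
      rw [h2]
      linear_combination h

theorem e3_conj (γ : SL(2, ℤ)) (h : (γ : Matrix (Fin 2) (Fin 2) ℤ).trace = 2) :
    ∃ (δ : SL(2, ℤ)) (m : ℤ), γ = δ * ModularGroup.T ^ m * δ⁻¹ := by
  rw [Matrix.trace_fin_two] at h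
  have hdet := γ.det_coe
  rw [Matrix.det_fin_two] at hdet
  obtain ⟨x, y, hxy, h1, h2⟩ := e3_exists_fixed_vector (γ.1 0 0 - 1) (γ.1 0 1) (γ.1 1 0) (by
    have : γ.1 1 1 = 2 - γ.1 0 0 := by linarith
    rw [this] at hdet
    linear_combination -hdet)
  obtain ⟨δ, hδ0, hδ1⟩ := hxy.exists_SL2_col 0
  subst hδ0 hδ1
  have hδdet := δ.det_coe
  rw [Matrix.det_fin_two] at hδdet
  set M : SL(2, ℤ) := δ⁻¹ * γ * δ with hM
  have hMmat : M.1 = Matrix.adjugate δ.1 * γ.1 * δ.1 := by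
    rw [hM, Matrix.SpecialLinearGroup.coe_mul, Matrix.SpecialLinearGroup.coe_mul,
      Matrix.SpecialLinearGroup.coe_inv]
  have hM00 : M.1 0 0 = 1 := by
    rw [hMmat, Matrix.adjugate_fin_two]
    simp only [Matrix.mul_apply, Fin.sum_univ_two, Matrix.of_apply, Matrix.cons_val_zero,
      Matrix.cons_val_one, Matrix.cons_val']
    linear_combination (δ.1 1 1) * h1 - (δ.1 0 1) * h2 - (δ.1 0 1) * (δ.1 1 0) * h + hδdet
  have hM10 : M.1 1 0 = 0 := by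
    rw [hMmat, Matrix.adjugate_fin_two]
    simp only [Matrix.mul_apply, Fin.sum_univ_two, Matrix.of_apply, Matrix.cons_val_zero,
      Matrix.cons_val_one, Matrix.cons_val']
    linear_combination (-(δ.1 1 0)) * h1 + (δ.1 0 0) * h2 + (δ.1 0 0) * (δ.1 1 0) * h
  have hMdet := M.det_coe
  rw [Matrix.det_fin_two, hM00, hM10] at hMdet
  refine ⟨δ, M.1 0 1, ?_⟩
  have hMT : M = ModularGroup.T ^ (M.1 0 1) := by
    ext i j
    rw [ModularGroup.coe_T_zpow]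
    fin_cases i <;> fin_cases j
    · simpa using hM00
    · simp
    · simpa using hM10
    · simp; linarith
  rw [← hMT, hM]
  group

/-! ### elliptic elements have a fixed point -/

theorem e3_exists_fixed (γ : SL(2, ℤ)) (h : (γ : Matrix (Fin 2) (Fin 2) ℤ).trace ^ 2 < 4) :
    ∃ τ : ℍ, γ • τ = τ := by
  rw [Matrix.trace_fin_two] at h
  have hdet := taylor_det γ
  have hdetZ := γ.det_coe
  rw [Matrix.det_fin_two] at hdetZ
  have hc : γ.1 1 0 ≠ 0 := by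
    intro hc
    rw [hc, mul_zero, sub_zero] at hdetZ
    rcases Int.mul_eq_one_iff_eq_one_or_neg_one.1 hdetZ with ⟨h1, h2⟩ | ⟨h1, h2⟩ <;>
      rw [h1, h2] at h <;> norm_num at h
  set D : ℝ := 4 - ((γ.1 0 0 + γ.1 1 1 : ℤ) : ℝ) ^ 2 with hDdef
  have hD : 0 < D := by
    have : ((γ.1 0 0 + γ.1 1 1 : ℤ) : ℝ) ^ 2 < 4 := by exact_mod_cast h
    linarith
  have hcR : ((γ.1 1 0 : ℤ) : ℝ) ≠ 0 := by exact_mod_cast hc
  obtain ⟨ε, hε2, hεc⟩ : ∃ ε : ℝ, ε ^ 2 = 1 ∧ 0 < ε * ((γ.1 1 0 : ℤ) : ℝ) := by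
    rcases lt_or_gt_of_ne hcR with h1 | h1
    · exact ⟨-1, by norm_num, by linarith⟩
    · exact ⟨1, by norm_num, by linarith⟩
  set Y : ℝ := ε * Real.sqrt D / (2 * ((γ.1 1 0 : ℤ) : ℝ)) with hYdef
  set X : ℝ := (((γ.1 0 0 : ℤ) : ℝ) - ((γ.1 1 1 : ℤ) : ℝ)) / (2 * ((γ.1 1 0 : ℤ) : ℝ)) with hXdef
  have hY : 0 < Y := by
    have h1 : Y = (ε * ((γ.1 1 0 : ℤ) : ℝ)) * Real.sqrt D / (2 * ((γ.1 1 0 : ℤ) : ℝ) ^ 2) := by
      rw [hYdef]; field_simp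
    rw [h1]
    have := Real.sqrt_pos.2 hD
    positivity
  have him : 0 < ((X : ℂ) + (Y : ℂ) * Complex.I).im := by simpa using hY
  refine ⟨⟨(X : ℂ) + (Y : ℂ) * Complex.I, him⟩, ?_⟩
  apply UpperHalfPlane.ext
  rw [taylor_coe_smul, taylorMob, div_eq_iff (taylor_denom_ne γ _)]
  show ((γ 0 0 : ℤ) : ℂ) * ((X : ℂ) + (Y : ℂ) * Complex.I) + ((γ 0 1 : ℤ) : ℂ) =
    ((X : ℂ) + (Y : ℂ) * Complex.I) *
      (((γ 1 0 : ℤ) : ℂ) * ((X : ℂ) + (Y : ℂ) * Complex.I) + ((γ 1 1 : ℤ) : ℂ))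
  have hcC : ((γ.1 1 0 : ℤ) : ℂ) ≠ 0 := by exact_mod_cast hc
  set S : ℂ := ((ε * Real.sqrt D : ℝ) : ℂ) * Complex.I with hS
  have hS2 : S ^ 2 = (((γ.1 0 0 : ℤ) : ℂ) + ((γ.1 1 1 : ℤ) : ℂ)) ^ 2 - 4 := by
    rw [hS, mul_pow, Complex.I_sq, ← Complex.ofReal_pow, mul_pow, hε2, Real.sq_sqrt hD.le, hDdef]
    push_cast
    ring
  generalize hz : (X : ℂ) + (Y : ℂ) * Complex.I = z
  have hz' : 2 * ((γ.1 1 0 : ℤ) : ℂ) * z = ((γ.1 0 0 : ℤ) : ℂ) - ((γ.1 1 1 : ℤ) : ℂ) + S := by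
    rw [← hz, hS, hXdef, hYdef]
    push_cast
    field_simp
  have h4c : 4 * ((γ.1 1 0 : ℤ) : ℂ) ≠ 0 := mul_ne_zero (by norm_num) hcC
  apply mul_left_cancel₀ h4c
  linear_combination (2 * ((γ.1 0 0 : ℤ) : ℂ) - 2 * ((γ.1 1 1 : ℤ) : ℂ) -
    (2 * ((γ.1 1 0 : ℤ) : ℂ) * z + (((γ.1 0 0 : ℤ) : ℂ) - ((γ.1 1 1 : ℤ) : ℂ)) + S)) * hz'
    - hS2 - 4 * hdet

/-! ### the two local computations -/

theorem e3_isMF_pow {N : ℕ} {k : ℤ} {b : ℍ → ℂ} (hb : IsMF (Gamma0 N) k b) (n : ℕ) :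
    IsMF (Gamma0 N) (n * k) (b ^ n) :=
  (isMFChar_one_iff.2 hb).pow (n := n) (fun γ => by simp)

theorem e3_of_fixed (N : ℕ) [NeZero N] (n : ℕ) (hn0 : 0 < n) (k : ℤ) (χ : Gamma0 N →* ℂˣ)
    (hn : ∀ γ, χ γ ^ n = 1) (g₁ g₀ : ℍ → ℂ) (h₁ : IsMFChar N k χ g₁) (h₀ : IsMF (Gamma0 N) k g₀)
    (h₁0 : g₁ ≠ 0) (h₀0 : g₀ ≠ 0)
    (hk : ∀ v : Place ℂ (FC N), (n : ℤ) ∣ v.ord (ratio N (g₁ ^ n) (g₀ ^ n)))
    (γ : Gamma0 N) (τ : ℍ) (hfix : (γ : SL(2, ℤ)) • τ = τ) : χ γ = 1 := by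
  obtain ⟨v, e, he, hP⟩ := exists_placeAt_of_point N τ
  obtain ⟨t, ht⟩ := exists_ord_eq_one v
  have ht0 : t ≠ 0 := by
    rintro rfl
    simp at ht
  obtain ⟨k', a, b, ha, hb, hb0, rfl⟩ := exists_ratio N t
  have ha0 : a ≠ 0 := by
    rintro rfl
    apply ht0
    apply Subtype.ext
    rw [coe_ratio N ha hb, (qL_eq_zero_iff ha).2 rfl, zero_div]
    rfl
  have e1 := hP _ a b ha hb ha0 hb0
  rw [ht, mul_one] at e1
  have hd : denom (γ : SL(2, ℤ)) τ ≠ 0 := denom_ne_zero _ _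
  have hd2 : denom (γ : SL(2, ℤ)) τ ^ 2 ≠ 0 := pow_ne_zero 2 hd
  have key : ∀ (K : ℤ) (f f' : ℍ → ℂ) (c : ℂ), MDiff f → f ≠ 0 → MDiff f' → f' ≠ 0 →
      f ∣[K] (γ : SL(2, ℤ)) = c • f → f' ∣[K] (γ : SL(2, ℤ)) = f' →
      c * (denom (γ : SL(2, ℤ)) τ ^ 2) ^ (ordH f τ - ordH f' τ) = 1 := by
    intro K f f' c hf hf0 hf' hf'0 hs hs'
    have ea := denom_pow_ordH hf hf0 γ τ hfix c hs
    have eb := denom_pow_ordH hf' hf'0 γ τ hfix 1 (by rw [one_smul]; exact hs')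
    rw [one_mul] at eb
    have hK : denom (γ : SL(2, ℤ)) τ ^ K ≠ 0 := zpow_ne_zero _ hd
    have hz : (denom (γ : SL(2, ℤ)) τ ^ 2) ^ ordH f' τ ≠ 0 := zpow_ne_zero _ hd2
    rw [zpow_sub₀ hd2, ← mul_div_assoc, div_eq_one_iff_eq hz]
    apply mul_right_cancel₀ hK
    rw [ea, eb]
  have hde : (denom (γ : SL(2, ℤ)) τ ^ 2) ^ (e : ℤ) = 1 := by
    have := key _ a b 1 ha.holo ha0 hb.holo hb0 (by rw [one_smul]; exact ha.inv γ γ.2)
      (hb.inv γ γ.2)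
    rwa [one_mul, ← e1] at this
  have e2 := hP _ (g₁ ^ n) (g₀ ^ n) (h₁.pow hn) (e3_isMF_pow h₀ n)
    (d1_pow_ne_zero h₁.holo h₁0 n) (d1_pow_ne_zero h₀.holo h₀0 n)
  rw [ordH_pow h₁.holo h₁0, ordH_pow h₀.holo h₀0] at e2
  obtain ⟨m, hm⟩ := hk v
  have e3 : ordH g₁ τ - ordH g₀ τ = e * m := by
    have hn' : (n : ℤ) ≠ 0 := by exact_mod_cast hn0.ne'
    apply mul_left_cancel₀ hn'
    rw [hm] at e2
    linear_combination -e2
  have e4 := key k g₁ g₀ (χ γ : ℂˣ) h₁.holo h₁0 h₀.holo h₀0 (h₁.slash γ) (h₀.inv γ γ.2)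
  rw [e3, zpow_mul, hde, one_zpow, mul_one] at e4
  exact Units.ext e4

theorem e3_of_conj_T (N : ℕ) [NeZero N] (n : ℕ) (hn0 : 0 < n) (k : ℤ) (χ : Gamma0 N →* ℂˣ)
    (hn : ∀ γ, χ γ ^ n = 1) (g₁ g₀ : ℍ → ℂ) (h₁ : IsMFChar N k χ g₁) (h₀ : IsMF (Gamma0 N) k g₀)
    (h₁0 : g₁ ≠ 0) (h₀0 : g₀ ≠ 0)
    (hk : ∀ v : Place ℂ (FC N), (n : ℤ) ∣ v.ord (ratio N (g₁ ^ n) (g₀ ^ n)))
    (γ : Gamma0 N) (δ : SL(2, ℤ)) (m : ℤ) (hγ : (γ : SL(2, ℤ)) = δ * ModularGroup.T ^ m * δ⁻¹) :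
    χ γ = 1 := by
  obtain ⟨v, w, hw, hP⟩ := exists_placeCusp_of_cusp N δ
  have hmem : δ * ModularGroup.T ^ m * δ⁻¹ ∈ Gamma0 N := hγ ▸ γ.2
  obtain ⟨m', rfl⟩ := (hw.2 m).1 hmem
  have hmemw : δ * ModularGroup.T ^ (w : ℤ) * δ⁻¹ ∈ Gamma0 N := (hw.2 w).2 (dvd_refl _)
  set γw : Gamma0 N := ⟨_, hmemw⟩ with hγw
  have hpow : γ = γw ^ m' := by
    apply Subtype.ext
    rw [hγ, Subgroup.coe_zpow, hγw]
    show _ = (δ * ModularGroup.T ^ (w : ℤ) * δ⁻¹) ^ m'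
    rw [conj_zpow, zpow_mul]
  suffices hχ : χ γw = 1 by rw [hpow, map_zpow, hχ, one_zpow]
  have hper : ∀ τ, (g₁ ∣[k] δ) (((w : ℕ) : ℝ) +ᵥ τ) = ((χ γw : ℂˣ) : ℂ) * (g₁ ∣[k] δ) τ := by
    intro τ
    rw [← D2.slash_T_zpow_apply k (g₁ ∣[k] δ) w τ]
    have h2 : (g₁ ∣[k] δ) ∣[k] (ModularGroup.T ^ (w : ℤ) : SL(2, ℤ)) =
        ((χ γw : ℂˣ) : ℂ) • (g₁ ∣[k] δ) := by
      rw [← ModularForm.SL_smul_slash, ← h₁.slash γw, ← SlashAction.slash_mul,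
        ← SlashAction.slash_mul]
      congr 1
      rw [hγw]
      show δ * ModularGroup.T ^ (w : ℤ) = δ * ModularGroup.T ^ (w : ℤ) * δ⁻¹ * δ
      group
    rw [h2]
    rfl
  have hol1 : MDiff (g₁ ∣[k] δ) := h₁.holo.slash k _
  have hol0 : MDiff (g₀ ∣[k] δ) := h₀.holo.slash k _
  have hdvd : (n : ℤ) ∣ ordI w ((g₁ ∣[k] δ) ^ n) := by
    have h1 := hP _ (g₁ ^ n) (g₀ ^ n) (h₁.pow hn) (e3_isMF_pow h₀ n)
      (d1_pow_ne_zero h₁.holo h₁0 n) (d1_pow_ne_zero h₀.holo h₀0 n)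
    rw [d1_pow_slash, d1_pow_slash,
      ordI_pow hw.1 hol0
        (D2.periodic (χ := 1) (fun _ _ => rfl) (isMFChar_one_iff.2 h₀) hw) (h₀.bdd δ)
        (D2.slash_ne_zero h₀0 δ)] at h1
    have h2 : ordI w ((g₁ ∣[k] δ) ^ n) =
        v.ord (ratio N (g₁ ^ n) (g₀ ^ n)) + n * ordI w (g₀ ∣[k] δ) := by
      rw [h1]; ring
    rw [h2]
    exact dvd_add (hk v) (dvd_mul_right _ _)
  have hc := e3_cusp hw.1 hn0 hol1 (h₁.bdd δ) (D2.slash_ne_zero h₁0 δ)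
    ((χ γw : ℂˣ) : ℂ) (by
      have := congrArg (fun u : ℂˣ => (u : ℂ)) (hn γw)
      simpa using this) hper hdvd
  exact Units.ext hc

/-- (E3) [ConverseEllPar.lean] the multiplier of a Kummer element is elliptic-parabolic trivial. -/
theorem isEllPar_of_kummer (N : ℕ) [NeZero N] (n : ℕ) (hn0 : 0 < n) (k : ℤ) (χ : Gamma0 N →* ℂˣ)
    (hn : ∀ γ, χ γ ^ n = 1) (g₁ g₀ : ℍ → ℂ) (h₁ : IsMFChar N k χ g₁) (h₀ : IsMF (Gamma0 N) k g₀)
    (h₁0 : g₁ ≠ 0) (h₀0 : g₀ ≠ 0)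
    (hk : ∀ v : Place ℂ (FC N), (n : ℤ) ∣ v.ord (ratio N (g₁ ^ n) (g₀ ^ n))) :
    IsEllPar χ := by
  intro γ hγ
  rcases lt_or_eq_of_le hγ with hlt | heq
  · obtain ⟨τ, hτ⟩ := e3_exists_fixed γ hlt
    exact e3_of_fixed N n hn0 k χ hn g₁ g₀ h₁ h₀ h₁0 h₀0 hk γ τ hτ
  · have hneg1 : (-1 : SL(2, ℤ)) ∈ Gamma0 N := by
      rw [Gamma0_mem]
      simp
    have hχneg : χ ⟨-1, hneg1⟩ = 1 :=
      e3_of_fixed N n hn0 k χ hn g₁ g₀ h₁ h₀ h₁0 h₀0 hk ⟨-1, hneg1⟩ UpperHalfPlane.I (by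
        show (-1 : SL(2, ℤ)) • UpperHalfPlane.I = UpperHalfPlane.I
        rw [ModularGroup.SL_neg_smul, one_smul])
    have key : ∀ γ' : Gamma0 N, ((γ' : SL(2, ℤ)) : Matrix (Fin 2) (Fin 2) ℤ).trace = 2 →
        χ γ' = 1 := by
      intro γ' h2
      obtain ⟨δ, m, hδ⟩ := e3_conj γ' h2
      exact e3_of_conj_T N n hn0 k χ hn g₁ g₀ h₁ h₀ h₁0 h₀0 hk γ' δ m hδ
    have h2 : ((γ : SL(2, ℤ)) : Matrix (Fin 2) (Fin 2) ℤ).trace = 2 ∨
        ((γ : SL(2, ℤ)) : Matrix (Fin 2) (Fin 2) ℤ).trace = -2 := by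
      have : (((γ : SL(2, ℤ)) : Matrix (Fin 2) (Fin 2) ℤ).trace - 2) *
          (((γ : SL(2, ℤ)) : Matrix (Fin 2) (Fin 2) ℤ).trace + 2) = 0 := by
        linear_combination heq
      rcases mul_eq_zero.1 this with h | h
      · left; linarith
      · right; linarith
    rcases h2 with h2 | h2
    · exact key γ h2
    · have h3 := key (⟨-1, hneg1⟩ * γ) (by
        show (((-1 : SL(2, ℤ)) * (γ : SL(2, ℤ)) : SL(2, ℤ)) : Matrix (Fin 2) (Fin 2) ℤ).trace = 2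
        rw [neg_one_mul, Matrix.SpecialLinearGroup.coe_neg, Matrix.trace_neg, h2]
        norm_num)
      rwa [map_mul, hχneg, one_mul] at h3

end

end Fermat.Agent.ESLib
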