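import Fermat.Agent.ES.KDefs
import Fermat.Prelude.Thm_ModularCurve_coeffMap_qExpand

/-! # ES cluster, Block G: formal Galois facts -/

set_option autoImplicit false
set_option synthInstance.maxHeartbeats 400000

open AlgebraicCurve ModularCurve CongruenceSubgroup UpperHalfPlane ModularForm
open scoped MatrixGroups Manifold

namespace Fermat.Agent.ESLib

open Fermat.Agent.S18Lib Fermat.Agent.S20Lib Fermat.Agent.S24Lib

theorem IsKum.gal {N m : ℕ} {f : FB N} (h : IsKum N m f) (σ : GQ) : IsKum N m (gal N σ f) := by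
  refine ⟨fun h0 => h.1 ((map_eq_zero_iff _ (ESLib.gal N σ).injective).mp h0), fun P => ?_⟩
  set g : SemilinearAut Qb (FB N) := arithmeticGalois (modularFunctionFieldFull N) σ with hg
  have h1 := SemilinearAut.ord_smul g (g⁻¹ • P) f
  rw [smul_inv_smul] at h1
  have h2 : g • f = ESLib.gal N σ f := rfl
  rw [← h2, h1]
  exact h.2 _

theorem G_exists_level (N : ℕ) (x : LaurentSeries Qb) (hx : x ∈ FB N) :
    ∃ L : IntermediateField ℚ Qb, FiniteDimensional ℚ L ∧
      ∀ σ : GQ, (∀ a ∈ L, σ a = a) → coeffMap (σ : Qb →+* Qb) x = x := by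
  rw [mem_laurentBaseChange_iff] at hx
  induction hx using Subfield.closure_induction with
  | mem y hy =>
      rcases hy with ⟨a, rfl⟩ | ⟨z, hz, rfl⟩
      · refine ⟨IntermediateField.adjoin ℚ {a},
          IntermediateField.adjoin.finiteDimensional
            ((AlgebraicClosure.isAlgebraic ℚ).isIntegral.isIntegral a),
          fun σ hσ => ?_⟩
        rw [coeffMap_algebraMap]
        congr 1
        exact hσ a (IntermediateField.mem_adjoin_simple_self ℚ a)
      · exact ⟨⊥, inferInstance, fun σ _ => coeffMap_coeffEmb σ z⟩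
  | one => exact ⟨⊥, inferInstance, fun σ _ => map_one _⟩
  | add x y _ _ hx hy =>
      obtain ⟨L₁, h₁, hL₁⟩ := hx
      obtain ⟨L₂, h₂, hL₂⟩ := hy
      refine ⟨L₁ ⊔ L₂, IntermediateField.finiteDimensional_sup L₁ L₂, fun σ hσ => ?_⟩
      rw [map_add, hL₁ σ fun a ha => hσ a (le_sup_left (a := L₁) ha),
        hL₂ σ fun a ha => hσ a (le_sup_right (b := L₂) ha)]
  | neg x _ hx =>
      obtain ⟨L₁, h₁, hL₁⟩ := hx
      exact ⟨L₁, h₁, fun σ hσ => by rw [map_neg, hL₁ σ hσ]⟩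
  | inv x _ hx =>
      obtain ⟨L₁, h₁, hL₁⟩ := hx
      exact ⟨L₁, h₁, fun σ hσ => by rw [map_inv₀, hL₁ σ hσ]⟩
  | mul x y _ _ hx hy =>
      obtain ⟨L₁, h₁, hL₁⟩ := hx
      obtain ⟨L₂, h₂, hL₂⟩ := hy
      refine ⟨L₁ ⊔ L₂, IntermediateField.finiteDimensional_sup L₁ L₂, fun σ hσ => ?_⟩
      rw [map_mul, hL₁ σ fun a ha => hσ a (le_sup_left (a := L₁) ha),
        hL₂ σ fun a ha => hσ a (le_sup_right (b := L₂) ha)]

theorem exists_level_gal (N : ℕ) (f : FB N) :
    ∃ L : IntermediateField ℚ Qb, FiniteDimensional ℚ L ∧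
      ∀ σ : GQ, (∀ x ∈ L, σ x = x) → gal N σ f = f := by
  obtain ⟨L, hL, h⟩ := G_exists_level N f f.2
  exact ⟨L, hL, fun σ hσ => Subtype.ext (h σ hσ)⟩

section Formal

variable {R S : Type*} [CommRing R] [CommRing S]

theorem G_twist_coeff (z : Rˣ) (f : LaurentSeries R) (n : ℤ) :
    (twist z f).coeff n = ((z ^ n : Rˣ) : R) * f.coeff n := rfl

theorem G_contract_coeff (ℓ : ℕ) [NeZero ℓ] (f : LaurentSeries R) (n : ℤ) :
    (contract ℓ f).coeff n = f.coeff (ℓ * n) := rfl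

theorem G_coeffMap_twist (φ : R →+* S) (z : Rˣ) (f : LaurentSeries R) :
    coeffMap φ (twist z f) = twist (Units.map (φ : R →* S) z) (coeffMap φ f) := by
  ext n
  rw [coeffMap_coeff, G_twist_coeff, G_twist_coeff, coeffMap_coeff, map_mul, ← map_zpow]
  rfl

theorem G_coeffMap_contract (φ : R →+* S) (ℓ : ℕ) [NeZero ℓ] (f : LaurentSeries R) :
    coeffMap φ (contract ℓ f) = contract ℓ (coeffMap φ f) := by
  ext n
  rfl

end Formal

/-- the permutation of the `ℓ`-th roots of unity induced by a field automorphism -/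
noncomputable def G_rootsEquiv (ℓ : ℕ) (σ : GQ) : rootsOfUnity ℓ Qb ≃ rootsOfUnity ℓ Qb :=
  (MulEquiv.restrictRootsOfUnity (σ : Qb ≃* Qb) ℓ).toEquiv

theorem G_normL_gal {ℓ : ℕ} [NeZero ℓ] (σ : GQ) (f : LaurentSeries Qb) :
    normL ℓ (coeffMap (σ : Qb →+* Qb) f) = coeffMap (σ : Qb →+* Qb) (normL ℓ f) := by
  unfold normL
  rw [G_coeffMap_contract, map_prod]
  congr 1
  let _ : Fintype (rootsOfUnity ℓ Qb) := Fintype.ofFinite _
  rw [← Equiv.prod_comp (G_rootsEquiv ℓ σ)]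
  refine Finset.prod_congr rfl fun z _ => ?_
  rw [G_coeffMap_twist]
  congr 1

theorem heckeMul_gal {ℓ : ℕ} [NeZero ℓ] (σ : GQ) (f : LaurentSeries Qb) :
    heckeMul ℓ (coeffMap (σ : Qb →+* Qb) f) = coeffMap (σ : Qb →+* Qb) (heckeMul ℓ f) := by
  unfold heckeMul
  rw [map_mul, coeffMap_qExpand, G_normL_gal]

end Fermat.Agent.ESLib
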