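import Fermat.Agent.ES.Formal

/-!
# ES library, Block E (2): integral `q`-expansions, Galois action and the Hecke operator mod `ℓ`
-/

set_option autoImplicit false
set_option synthInstance.maxHeartbeats 400000

open ModularCurve

namespace Fermat.Agent.ESLib

open Fermat.Agent.S18Lib

noncomputable section

/-! ### `f ^ ℓ = (Frob f)(q^ℓ)` in characteristic `ℓ` -/

section CharL

variable {k : Type*} [Field k] (ℓ : ℕ) [Fact ℓ.Prime] [CharP k ℓ]

instance E_charP_laurent : CharP (LaurentSeries k) ℓ :=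
  charP_of_injective_ringHom (f := (HahnSeries.C : k →+* LaurentSeries k))
    HahnSeries.C_injective ℓ

/-- truncation: the part of degree `< M` -/
def E_trunc (M : ℤ) (f : LaurentSeries k) : LaurentSeries k :=
  HahnSeries.ofSuppBddBelow (fun n : ℤ => if n < M then f.coeff n else 0) (by
    refine ⟨f.order, fun n hn => ?_⟩
    by_contra hlt
    apply hn
    show (if n < M then f.coeff n else 0) = 0
    rw [HahnSeries.coeff_eq_zero_of_lt_order (not_le.mp hlt)]
    simp)

theorem E_trunc_coeff (M : ℤ) (f : LaurentSeries k) (n : ℤ) :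
    (E_trunc M f).coeff n = if n < M then f.coeff n else 0 := rfl

theorem E_trunc_eq_sum (M : ℤ) (f : LaurentSeries k) :
    E_trunc M f = ∑ i ∈ Finset.Ico f.order M, HahnSeries.single i (f.coeff i) := by
  ext n
  rw [E_trunc_coeff, HahnSeries.coeff_sum]
  by_cases h : n ∈ Finset.Ico f.order M
  · rw [Finset.sum_eq_single n (fun i _ hi => HahnSeries.coeff_single_of_ne (Ne.symm hi))
      (fun h' => absurd h h'), HahnSeries.coeff_single_same, if_pos (Finset.mem_Ico.mp h).2]
  · rw [Finset.sum_eq_zero (fun i hi => HahnSeries.coeff_single_of_ne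
      (fun e : n = i => h (e.symm ▸ hi)))]
    rw [Finset.mem_Ico, not_and_or] at h
    rcases h with h | h
    · rw [HahnSeries.coeff_eq_zero_of_lt_order (not_le.mp h)]; simp
    · rw [if_neg h]

theorem E_coeff_pow_eq_zero {g : LaurentSeries k} {M : ℤ} (hg : ∀ n < M, g.coeff n = 0) (hM : 0 ≤ M)
    (e : ℕ) (he : 0 < e) (n : ℤ) (hn : n < M) : (g ^ e).coeff n = 0 := by
  rcases eq_or_ne g 0 with rfl | hg0
  · rw [zero_pow he.ne']; rfl
  have hord : M ≤ g.order := by
    by_contra hlt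
    exact hg0 (HahnSeries.coeff_order_eq_zero.mp (hg _ (not_le.mp hlt)))
  apply HahnSeries.coeff_eq_zero_of_lt_order
  rw [HahnSeries.order_pow]
  have : M ≤ e • g.order := by
    rw [nsmul_eq_mul]
    have he' : (1 : ℤ) ≤ e := by exact_mod_cast he
    nlinarith
  omega

theorem pow_char_eq (f : LaurentSeries k) :
    f ^ ℓ = qExpand k ℓ (coeffMap (frobenius k ℓ) f) := by
  have hℓ : ℓ.Prime := Fact.out
  ext n
  set M : ℤ := max (n + 1) 0 with hM
  have hsplit : f = E_trunc M f + (f - E_trunc M f) := by ring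
  have hpow : f ^ ℓ = E_trunc M f ^ ℓ + (f - E_trunc M f) ^ ℓ := by
    conv_lhs => rw [hsplit]
    exact add_pow_char _ _ _
  have htail : ((f - E_trunc M f) ^ ℓ).coeff n = 0 := by
    refine E_coeff_pow_eq_zero (M := M) ?_ (le_max_right _ _) ℓ hℓ.pos n
      (lt_of_lt_of_le (lt_add_one n) (le_max_left _ _))
    intro i hi
    rw [HahnSeries.coeff_sub, E_trunc_coeff, if_pos hi, sub_self]
  rw [hpow, HahnSeries.coeff_add, htail, add_zero, E_trunc_eq_sum, sum_pow_char]
  simp only [HahnSeries.single_pow, HahnSeries.coeff_sum, HahnSeries.coeff_single]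
  by_cases hn : (ℓ : ℤ) ∣ n
  · obtain ⟨j, rfl⟩ := hn
    rw [qExpand_coeff_mul, coeffMap_coeff, frobenius_def]
    have hℓ0 : (ℓ : ℤ) ≠ 0 := by exact_mod_cast hℓ.ne_zero
    have hcond : ∀ i : ℤ, ((ℓ : ℤ) * j = ℓ • i) ↔ j = i := by
      intro i
      rw [nsmul_eq_mul]
      exact mul_right_inj' hℓ0
    simp only [hcond]
    rw [Finset.sum_ite_eq]
    split_ifs with hmem
    · rfl
    · rw [Finset.mem_Ico, not_and_or] at hmem
      rcases hmem with h | h
      · rw [HahnSeries.coeff_eq_zero_of_lt_order (not_le.mp h), zero_pow hℓ.ne_zero]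
      · exfalso
        apply h
        have h1 : (ℓ : ℤ) * j + 1 ≤ M := le_max_left _ _
        have h2 : (0 : ℤ) ≤ M := le_max_right _ _
        have hℓ1 : (1 : ℤ) ≤ ℓ := by exact_mod_cast hℓ.one_lt.le
        by_contra hlt
        rw [not_lt] at hlt
        nlinarith
  · rw [qExpand_coeff_of_not_dvd ℓ _ hn]
    apply Finset.sum_eq_zero
    intro i _
    rw [if_neg]
    intro h
    exact hn ⟨i, by rw [h, nsmul_eq_mul]⟩

end CharL

/-! ### the decomposition group acting on integral series -/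

section Decomp

variable (A : ValuationSubring Qb)

/-- the ring endomorphism of `A` induced by an element of the decomposition group -/
def actA (σ : GQ) (hσ : σ ∈ A.decompositionSubgroup ℚ) : A →+* A :=
  MulSemiringAction.toRingHom (A.decompositionSubgroup ℚ) A ⟨σ, hσ⟩

theorem coe_actA (σ : GQ) (hσ : σ ∈ A.decompositionSubgroup ℚ) (x : A) :
    ((actA A σ hσ x : A) : Qb) = σ (x : Qb) := rfl

theorem coeffMap_subtype_actA (σ : GQ) (hσ : σ ∈ A.decompositionSubgroup ℚ)
    (y : LaurentSeries A) :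
    coeffMap A.subtype (coeffMap (actA A σ hσ) y)
      = coeffMap (σ : Qb →+* Qb) (coeffMap A.subtype y) := by
  ext n
  simp only [coeffMap_coeff]
  rfl

theorem residue_actA (σ : GQ) (hσ : σ ∈ A.decompositionSubgroup ℚ) (x : A) :
    IsLocalRing.residue A (actA A σ hσ x)
      = (⟨σ, hσ⟩ : A.decompositionSubgroup ℚ) • IsLocalRing.residue A x :=
  IsLocalRing.ResidueField.residue_smul _ (⟨σ, hσ⟩ : A.decompositionSubgroup ℚ) x

theorem mem_decomp_of_inertia {τ : GQ} (hτ : τ ∈ A.inertiaSubgroupIn ℚ) :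
    τ ∈ A.decompositionSubgroup ℚ := by
  obtain ⟨g, _, rfl⟩ := hτ
  exact g.2

theorem coeffMap_residue_actA_inertia {τ : GQ} (hτ : τ ∈ A.inertiaSubgroupIn ℚ)
    (y : LaurentSeries A) :
    coeffMap (IsLocalRing.residue A) (coeffMap (actA A τ (mem_decomp_of_inertia A hτ)) y)
      = coeffMap (IsLocalRing.residue A) y := by
  obtain ⟨g, hg, rfl⟩ := hτ
  ext n
  simp only [coeffMap_coeff]
  rw [residue_actA]
  have h1 : MulSemiringAction.toRingAut (A.decompositionSubgroup ℚ) (IsLocalRing.ResidueField A) g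
      = 1 := hg
  have h2 := congrArg (fun e : RingAut (IsLocalRing.ResidueField A) =>
    e (IsLocalRing.residue A (y.coeff n))) h1
  exact h2

variable {A}

theorem coeffMap_residue_actA_frob {ℓ : ℕ} [Fact ℓ.Prime] [CharP (kk A) ℓ] {σ : GQ}
    (hσ : A.IsFrobeniusAt σ ℓ) (y : LaurentSeries A) :
    coeffMap (IsLocalRing.residue A) (coeffMap (actA A σ hσ.mem_decompositionSubgroup) y)
      = coeffMap (frobenius (kk A) ℓ) (coeffMap (IsLocalRing.residue A) y) := by
  ext n
  simp only [coeffMap_coeff]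
  rw [residue_actA, hσ.smul_residue_eq, frobenius_def]

theorem charP_kk {ℓ : ℕ} (hℓ : ℓ.Prime) (hA : A.LiesOverPrime ℓ) : CharP (kk A) ℓ := by
  have h0 : ((ℓ : ℕ) : kk A) = 0 := by
    have hmem : (ℓ : Qb) ∈ A := A.nonunits_subset hA
    have h1 : IsLocalRing.residue A (⟨(ℓ : Qb), hmem⟩ : A) = 0 := by
      rw [IsLocalRing.residue_eq_zero_iff, IsLocalRing.mem_maximalIdeal, mem_nonunits_iff]
      intro hu
      have h2 : (ℓ : Qb) ∈ A.nonunits := hA
      rw [ValuationSubring.mem_nonunits_iff_exists_mem_maximalIdeal] at h2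
      obtain ⟨ha, h3⟩ := h2
      exact h3 hu
    have h2 : (⟨(ℓ : Qb), hmem⟩ : A) = ((ℓ : ℕ) : A) := by
      ext; simp
    rw [h2, map_natCast] at h1
    exact h1
  exact (CharP.charP_iff_prime_eq_zero hℓ).mpr h0

end Decomp

/-! ### integrality of `normL` and its reduction -/

section NormInt

variable {A : ValuationSubring Qb}

theorem exists_primitiveRoot_Qb (ℓ : ℕ) [NeZero ℓ] : ∃ ζ : Qb, IsPrimitiveRoot ζ ℓ :=
  HasEnoughRootsOfUnity.exists_primitiveRoot Qb ℓ

theorem E_mem_of_pow_eq_one {ℓ : ℕ} (hℓ : ℓ ≠ 0) {z : Qb} (hz : z ^ ℓ = 1) : z ∈ A := by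
  obtain ⟨e, rfl⟩ : ∃ e, ℓ = e + 1 := Nat.exists_eq_succ_of_ne_zero hℓ
  rcases A.mem_or_inv_mem z with h | h
  · exact h
  · have : z = z⁻¹ ^ e := by
      have hz0 : z ≠ 0 := by
        rintro rfl
        simp at hz
      rw [inv_pow]
      field_simp
      rw [← hz]; ring
    rw [this]
    exact pow_mem h e

/-- roots of unity as units of `A` -/
def rootA (A : ValuationSubring Qb) (ℓ : ℕ) [NeZero ℓ] (z : rootsOfUnity ℓ Qb) : Aˣ where
  val := ⟨((z : Qbˣ) : Qb), E_mem_of_pow_eq_one (NeZero.ne ℓ) (by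
    have := z.2
    rw [mem_rootsOfUnity] at this
    rw [← Units.val_pow_eq_pow_val, this, Units.val_one])⟩
  inv := ⟨(((z : Qbˣ)⁻¹ : Qbˣ) : Qb), E_mem_of_pow_eq_one (NeZero.ne ℓ) (by
    have := z.2
    rw [mem_rootsOfUnity] at this
    rw [← Units.val_pow_eq_pow_val, inv_pow, this, inv_one, Units.val_one])⟩
  val_inv := by ext; simp
  inv_val := by ext; simp

theorem map_subtype_rootA (ℓ : ℕ) [NeZero ℓ] (z : rootsOfUnity ℓ Qb) :
    Units.map (A.subtype : A →* Qb) (rootA A ℓ z) = (z : Qbˣ) := by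
  ext; rfl

theorem map_residue_rootA (ℓ : ℕ) [Fact ℓ.Prime] [NeZero ℓ] [CharP (kk A) ℓ]
    (z : rootsOfUnity ℓ Qb) :
    Units.map (IsLocalRing.residue A : A →* kk A) (rootA A ℓ z) = 1 := by
  have h1 : rootA A ℓ z ^ ℓ = 1 := by
    ext
    have := z.2
    rw [mem_rootsOfUnity] at this
    have h2 := congrArg (fun u : Qbˣ => (u : Qb)) this
    simpa [rootA] using h2
  set x := Units.map (IsLocalRing.residue A : A →* kk A) (rootA A ℓ z) with hx
  have h2 : x ^ ℓ = 1 := by rw [hx, ← map_pow, h1, map_one]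
  have h3 : ((x : kk A) - 1) ^ ℓ = 0 := by
    rw [sub_pow_char, one_pow, ← Units.val_pow_eq_pow_val, h2, Units.val_one, sub_self]
  ext
  rw [Units.val_one]
  exact sub_eq_zero.mp (pow_eq_zero_iff (Fact.out : ℓ.Prime).ne_zero |>.mp h3)

theorem exists_normL_int (ℓ : ℕ) [Fact ℓ.Prime] [NeZero ℓ] [CharP (kk A) ℓ] (y : LaurentSeries A) :
    ∃ Y : LaurentSeries A, coeffMap A.subtype Y = normL ℓ (coeffMap A.subtype y) ∧
      coeffMap (IsLocalRing.residue A) Y
        = coeffMap (frobenius (kk A) ℓ) (coeffMap (IsLocalRing.residue A) y) := by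
  letI : Fintype (rootsOfUnity ℓ Qb) := Fintype.ofFinite _
  refine ⟨contract ℓ (∏ z : rootsOfUnity ℓ Qb, twist (rootA A ℓ z) y), ?_, ?_⟩
  · rw [coeffMap_contract, map_prod, normL_def, prodTwist]
    congr 1
    refine Finset.prod_congr rfl fun z _ => ?_
    rw [coeffMap_twist]
    congr 1
  · rw [coeffMap_contract, map_prod]
    have h1 : ∀ z : rootsOfUnity ℓ Qb,
        coeffMap (IsLocalRing.residue A) (twist (rootA A ℓ z) y)
          = coeffMap (IsLocalRing.residue A) y := by
      intro z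
      rw [coeffMap_twist]
      have := map_residue_rootA (A := A) ℓ z
      rw [show Units.map ((IsLocalRing.residue A : A →+* kk A) : A →* kk A) (rootA A ℓ z) = 1
        from this, twist_one]
    simp only [h1, Finset.prod_const, Finset.card_univ]
    obtain ⟨ζ, hζ⟩ := exists_primitiveRoot_Qb ℓ
    rw [← Nat.card_eq_fintype_card, hζ.card_rootsOfUnity, pow_char_eq ℓ, contract_qExpand]

end NormInt

end

end Fermat.Agent.ESLib
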