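import Fermat.Agent.ES.KLPow
import Fermat.Agent.ES.Integral
import Fermat.Agent.ES.Galois
import Fermat.Agent.S18.Transfer

/-!
# ES library, Block E (3): unramifiedness and the Eichler-Shimura relation on Kummer generators,
from the Kummer lemma `KLHyp` and the normal form (`RedData` + `IsQRed`)
-/

set_option autoImplicit false
set_option synthInstance.maxHeartbeats 400000

open AlgebraicCurve ModularCurve

namespace Fermat.Agent.ESLib

open Fermat.Agent.S18Lib Fermat.Agent.S24Lib Fermat.Agent.FFLib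

/-- the normal form: every nonzero function is a constant times a fraction of integral
`q`-expansions with nonzero reductions -/
def NFHyp (N : ℕ) (A : ValuationSubring Qb) : Prop :=
  ∀ f : FB N, f ≠ 0 → ∃ c : Qb, c ≠ 0 ∧ ∃ y₁ y₂ : LaurentSeries A,
    coeffMap A.subtype y₁ ∈ FB N ∧ coeffMap A.subtype y₂ ∈ FB N ∧
    coeffMap (IsLocalRing.residue A) y₁ ≠ 0 ∧ coeffMap (IsLocalRing.residue A) y₂ ≠ 0 ∧
    (f : LaurentSeries Qb) * coeffMap A.subtype y₂
      = algebraMap Qb (LaurentSeries Qb) c * coeffMap A.subtype y₁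

theorem nfHyp_of_redData {N : ℕ} {A : ValuationSubring Qb}
    (h : ∃ R : RedData A (IsLocalRing.residue A) (FB N) (FT A N), IsQRed A N R) : NFHyp N A := by
  obtain ⟨R, hR⟩ := h
  intro f hf
  obtain ⟨c, hc, y, hy⟩ := R.exists_scale f hf
  obtain ⟨y₁, y₂, h₁, h₂, hne, hred, hx⟩ := exists_frac hR (y : R.O)
  refine ⟨c, hc, y₁, y₂, h₁, h₂, ?_, hne, ?_⟩
  · rw [← hred]
    refine mul_ne_zero ?_ hne
    have h1 : R.red (y : R.O) ≠ 0 := (y.isUnit.map R.red).ne_zero
    intro h0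
    exact h1 (Subtype.ext h0)
  · have h1 := congrArg (fun z : FB N => (z : LaurentSeries Qb)) hx
    have h2 := congrArg (fun z : FB N => (z : LaurentSeries Qb)) hy
    simp only at h1 h2
    rw [h2]
    have h3 : (((algebraMap Qb (FB N) c * (((y : R.O)) : FB N) : FB N)) : LaurentSeries Qb)
        = algebraMap Qb (LaurentSeries Qb) c * ((((y : R.O)) : FB N) : LaurentSeries Qb) := rfl
    rw [h3, mul_assoc]
    congr 1

theorem IsKum.mul' {N m : ℕ} {f g : FB N} (hf : IsKum N m f) (hg : IsKum N m g) :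
    IsKum N m (f * g) :=
  ⟨mul_ne_zero hf.1 hg.1, fun P => by
    rw [P.ord_mul hf.1 hg.1]; exact dvd_add (hf.2 P) (hg.2 P)⟩

theorem IsKum.inv' {N m : ℕ} {f : FB N} (hf : IsKum N m f) : IsKum N m f⁻¹ :=
  ⟨inv_ne_zero hf.1, fun P => by rw [P.ord_inv]; exact (dvd_neg).mpr (hf.2 P)⟩

theorem IsKum.pow' {N m : ℕ} {f : FB N} (hf : IsKum N m f) (n : ℕ) : IsKum N m (f ^ n) :=
  ⟨pow_ne_zero _ hf.1, fun P => by
    rw [← zpow_natCast, P.ord_zpow]; exact Dvd.dvd.mul_left (hf.2 P) _⟩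

theorem E_coeffMap_algebraMap (σ : GQ) (c : Qb) :
    coeffMap (σ : Qb →+* Qb) (algebraMap Qb (LaurentSeries Qb) c)
      = algebraMap Qb (LaurentSeries Qb) (σ c) :=
  coeffMap_algebraMap (σ : Qb →+* Qb) c

theorem inertia_kummer_core {N : ℕ} [NeZero N] {A : ValuationSubring Qb} {m : ℕ} (hm : m ≠ 0)
    (hKL : KLHyp N A m) (hNF : NFHyp N A) (τ : GQ) (hτ : τ ∈ A.inertiaSubgroupIn ℚ)
    (f : FB N) (hf : IsKum N m f) :
    ∃ w : FB N, gal N τ f = w ^ m * f := by
  obtain ⟨c, hc, y₁, y₂, h₁, h₂, hn₁, hn₂, hrel⟩ := hNF f hf.1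
  have hd := mem_decomp_of_inertia A hτ
  set t := actA A τ hd with ht
  have hτc : τ c ≠ 0 := by rw [Ne, map_eq_zero]; exact hc
  have hrelτ : ((gal N τ f : FB N) : LaurentSeries Qb) * coeffMap A.subtype (coeffMap t y₂)
      = algebraMap Qb (LaurentSeries Qb) (τ c) * coeffMap A.subtype (coeffMap t y₁) := by
    rw [coe_gal, coeffMap_subtype_actA, coeffMap_subtype_actA, ← map_mul, hrel, map_mul,
      E_coeffMap_algebraMap]
  have hmemτ : ∀ y : LaurentSeries A, coeffMap A.subtype y ∈ FB N →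
      coeffMap A.subtype (coeffMap t y) ∈ FB N := by
    intro y hy
    rw [coeffMap_subtype_actA]
    exact (gal N τ ⟨_, hy⟩).2
  obtain ⟨w, hw⟩ := kl_pow hm hKL (gal N τ f * f⁻¹) ((hf.gal τ).mul' hf.inv') (τ c * c⁻¹)
    (mul_ne_zero hτc (inv_ne_zero hc)) (coeffMap t y₁ * y₂) (coeffMap t y₂ * y₁)
    (by rw [map_mul]; exact mul_mem (hmemτ _ h₁) h₂)
    (by rw [map_mul]; exact mul_mem (hmemτ _ h₂) h₁)
    (by
      rw [map_mul, coeffMap_residue_actA_inertia A hτ]
      exact mul_ne_zero hn₂ hn₁)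
    (by
      rw [map_mul, map_mul, coeffMap_residue_actA_inertia A hτ,
        coeffMap_residue_actA_inertia A hτ, mul_comm])
    (by
      have hf0 : (f : LaurentSeries Qb) ≠ 0 := fun h => hf.1 (Subtype.ext h)
      have hc0 : algebraMap Qb (LaurentSeries Qb) c ≠ 0 := by
        rw [Ne, map_eq_zero]; exact hc
      have e1 : ((gal N τ f * f⁻¹ : FB N) : LaurentSeries Qb)
          = ((gal N τ f : FB N) : LaurentSeries Qb) * (f : LaurentSeries Qb)⁻¹ := rfl
      rw [e1, map_mul, map_mul, map_mul, map_inv₀]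
      field_simp
      calc ((gal N τ f : FB N) : LaurentSeries Qb) * coeffMap A.subtype (coeffMap t y₂)
            * coeffMap A.subtype y₁ * algebraMap Qb (LaurentSeries Qb) c
          = (((gal N τ f : FB N) : LaurentSeries Qb) * coeffMap A.subtype (coeffMap t y₂))
            * (algebraMap Qb (LaurentSeries Qb) c * coeffMap A.subtype y₁) := by ring
        _ = _ := by rw [hrelτ, ← hrel]; ring)
  refine ⟨w, ?_⟩
  rw [← hw, mul_assoc, inv_mul_cancel₀ hf.1, mul_one]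

theorem exists_heckeMul_int {A : ValuationSubring Qb} (ℓ : ℕ) [Fact ℓ.Prime] [NeZero ℓ]
    [CharP (kk A) ℓ] (y : LaurentSeries A) :
    ∃ Y : LaurentSeries A, coeffMap A.subtype Y = heckeMul ℓ (coeffMap A.subtype y) ∧
      coeffMap (IsLocalRing.residue A) Y
        = qExpand (kk A) ℓ (coeffMap (IsLocalRing.residue A) y) *
          coeffMap (frobenius (kk A) ℓ) (coeffMap (IsLocalRing.residue A) y) := by
  obtain ⟨Y, h1, h2⟩ := exists_normL_int ℓ y
  refine ⟨qExpand A ℓ y * Y, ?_, ?_⟩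
  · rw [map_mul, h1, coeffMap_qExpand'']
    rfl
  · rw [map_mul, h2, coeffMap_qExpand'']

theorem es_kummer_core {N : ℕ} [NeZero N] {ℓ : ℕ} [Fact ℓ.Prime] [NeZero ℓ]
    {A : ValuationSubring Qb} [CharP (kk A) ℓ] {m : ℕ} (hm : m ≠ 0)
    (hKL : KLHyp N A m) (hNF : NFHyp N A)
    (hH : ∀ y : FB N, y ≠ 0 → heckeMul ℓ (y : LaurentSeries Qb) ∈ FB N)
    (σ : GQ) (hσ : A.IsFrobeniusAt σ ℓ)
    (f : FB N) (hf : IsKum N m f) (Tf : FB N) (hTk : IsKum N m Tf)
    (hT : (Tf : LaurentSeries Qb) = heckeMul ℓ ((gal N σ f : FB N) : LaurentSeries Qb)) :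
    ∃ w : FB N, gal N σ (gal N σ f) * f ^ ℓ = w ^ m * Tf := by
  obtain ⟨c, hc, y₁, y₂, h₁, h₂, hn₁, hn₂, hrel⟩ := hNF f hf.1
  have hζ := exists_primitiveRoot_Qb ℓ
  have hd := hσ.mem_decompositionSubgroup
  set s := actA A σ hd with hs
  have hσc : σ c ≠ 0 := by rw [Ne, map_eq_zero]; exact hc
  have hσσc : σ (σ c) ≠ 0 := by rw [Ne, map_eq_zero]; exact hσc
  -- the action of `σ` on relations
  have hact : ∀ (g : FB N) (a : Qb) (z₁ z₂ : LaurentSeries A),
      (g : LaurentSeries Qb) * coeffMap A.subtype z₂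
        = algebraMap Qb (LaurentSeries Qb) a * coeffMap A.subtype z₁ →
      ((gal N σ g : FB N) : LaurentSeries Qb) * coeffMap A.subtype (coeffMap s z₂)
        = algebraMap Qb (LaurentSeries Qb) (σ a) * coeffMap A.subtype (coeffMap s z₁) := by
    intro g a z₁ z₂ h
    rw [coe_gal, coeffMap_subtype_actA, coeffMap_subtype_actA, ← map_mul, h, map_mul,
      E_coeffMap_algebraMap]
  have hmemσ : ∀ y : LaurentSeries A, coeffMap A.subtype y ∈ FB N →
      coeffMap A.subtype (coeffMap s y) ∈ FB N := by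
    intro y hy
    rw [coeffMap_subtype_actA]
    exact (gal N σ ⟨_, hy⟩).2
  have hredσ : ∀ y : LaurentSeries A, coeffMap (IsLocalRing.residue A) (coeffMap s y)
      = coeffMap (frobenius (kk A) ℓ) (coeffMap (IsLocalRing.residue A) y) :=
    fun y => coeffMap_residue_actA_frob hσ y
  have hfrob0 : ∀ z : LaurentSeries (kk A), z ≠ 0 → coeffMap (frobenius (kk A) ℓ) z ≠ 0 := by
    intro z hz h0
    apply hz
    ext n
    have := congrArg (fun w => HahnSeries.coeff w n) h0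
    simp only [coeffMap_coeff, HahnSeries.coeff_zero] at this
    rw [HahnSeries.coeff_zero]
    exact (map_eq_zero _).mp this
  have hrel1 := hact f c y₁ y₂ hrel
  have hrel2 := hact (gal N σ f) (σ c) _ _ hrel1
  obtain ⟨T₁, hT₁, hT₁r⟩ := exists_heckeMul_int ℓ (coeffMap s y₁)
  obtain ⟨T₂, hT₂, hT₂r⟩ := exists_heckeMul_int ℓ (coeffMap s y₂)
  have hsne : ∀ y : LaurentSeries A, coeffMap (IsLocalRing.residue A) y ≠ 0 →
      coeffMap A.subtype (coeffMap s y) ≠ 0 := by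
    intro y hy
    apply E_ne_zero_of_red
    rw [hredσ]
    exact hfrob0 _ hy
  have hT₁m : coeffMap A.subtype T₁ ∈ FB N := by
    rw [hT₁]
    exact hH ⟨_, hmemσ _ h₁⟩ (fun h => hsne y₁ hn₁ (congrArg Subtype.val h))
  have hT₂m : coeffMap A.subtype T₂ ∈ FB N := by
    rw [hT₂]
    exact hH ⟨_, hmemσ _ h₂⟩ (fun h => hsne y₂ hn₂ (congrArg Subtype.val h))
  set d : Qb := σ c * σ c ^ Nat.card (rootsOfUnity ℓ Qb) with hd'
  have hd0 : d ≠ 0 := mul_ne_zero hσc (pow_ne_zero _ hσc)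
  -- the Hecke relation
  have hrelT : (Tf : LaurentSeries Qb) * coeffMap A.subtype T₂
      = algebraMap Qb (LaurentSeries Qb) d * coeffMap A.subtype T₁ := by
    rw [hT, hT₂, hT₁, ← heckeMul_mul ℓ hζ, hrel1, heckeMul_mul ℓ hζ]
    congr 1
    have hC : ∀ a : Qb, algebraMap Qb (LaurentSeries Qb) a = HahnSeries.C a := fun a =>
      algebraMap_laurentSeries_eq_single Qb a
    rw [hC, hC, heckeMul_C]
  have hq0 : ∀ z : LaurentSeries (kk A), z ≠ 0 → qExpand (kk A) ℓ z ≠ 0 := by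
    intro z hz h0
    exact hz (qExpand_injective (R := kk A) ℓ (by rw [h0, map_zero]))
  obtain ⟨w, hw⟩ := kl_pow hm hKL (gal N σ (gal N σ f) * f ^ ℓ * Tf⁻¹)
    ((((hf.gal σ).gal σ).mul' (hf.pow' ℓ)).mul' hTk.inv') (σ (σ c) * c ^ ℓ * d⁻¹)
    (mul_ne_zero (mul_ne_zero hσσc (pow_ne_zero _ hc)) (inv_ne_zero hd0))
    (coeffMap s (coeffMap s y₁) * y₁ ^ ℓ * T₂) (coeffMap s (coeffMap s y₂) * y₂ ^ ℓ * T₁)
    (by
      rw [map_mul, map_mul, map_pow]
      exact mul_mem (mul_mem (hmemσ _ (hmemσ _ h₁)) (pow_mem h₁ _)) hT₂m)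
    (by
      rw [map_mul, map_mul, map_pow]
      exact mul_mem (mul_mem (hmemσ _ (hmemσ _ h₂)) (pow_mem h₂ _)) hT₁m)
    (by
      rw [map_mul, map_mul, map_pow, hT₁r]
      simp only [hredσ]
      exact mul_ne_zero (mul_ne_zero (hfrob0 _ (hfrob0 _ hn₂)) (pow_ne_zero _ hn₂))
        (mul_ne_zero (hq0 _ (hfrob0 _ hn₁)) (hfrob0 _ (hfrob0 _ hn₁))))
    (by
      rw [map_mul, map_mul, map_pow, map_mul, map_mul, map_pow, hT₁r, hT₂r, pow_char_eq ℓ,
        pow_char_eq ℓ]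
      simp only [hredσ]
      ring)
    (by
      have hTf0 : (Tf : LaurentSeries Qb) ≠ 0 := fun h => hTk.1 (Subtype.ext h)
      have hd0' : algebraMap Qb (LaurentSeries Qb) d ≠ 0 := by
        rw [Ne, map_eq_zero]; exact hd0
      have e1 : ((gal N σ (gal N σ f) * f ^ ℓ * Tf⁻¹ : FB N) : LaurentSeries Qb)
          = ((gal N σ (gal N σ f) : FB N) : LaurentSeries Qb) * (f : LaurentSeries Qb) ^ ℓ
            * (Tf : LaurentSeries Qb)⁻¹ := rfl
      rw [e1, map_mul, map_mul, map_pow, map_mul, map_mul, map_pow, map_mul, map_mul, map_pow,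
        map_inv₀]
      field_simp
      calc ((gal N σ (gal N σ f) : FB N) : LaurentSeries Qb) * (f : LaurentSeries Qb) ^ ℓ
            * coeffMap A.subtype (coeffMap s (coeffMap s y₂)) * coeffMap A.subtype y₂ ^ ℓ
            * coeffMap A.subtype T₁ * algebraMap Qb (LaurentSeries Qb) d
          = (((gal N σ (gal N σ f) : FB N) : LaurentSeries Qb)
              * coeffMap A.subtype (coeffMap s (coeffMap s y₂)))
            * ((f : LaurentSeries Qb) * coeffMap A.subtype y₂) ^ ℓ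
            * (algebraMap Qb (LaurentSeries Qb) d * coeffMap A.subtype T₁) := by ring
        _ = _ := by rw [hrel2, hrel, ← hrelT]; ring)
  refine ⟨w, ?_⟩
  rw [← hw, mul_assoc, inv_mul_cancel₀ hTk.1, mul_one]

end Fermat.Agent.ESLib
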