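import Fermat.Agent.ES.KDefs

/-!
# ES cluster, Block P: the trunk `exists_esData`, from the interfaces of the other blocks

The interfaces (blocks R, H, G, E) are bundled in the structure `TrunkHyp N`
(the multipliers are always taken in the lattice `EP N ℤ`).
-/

set_option autoImplicit false
set_option synthInstance.maxHeartbeats 400000
set_option linter.style.haveILetI false
set_option linter.unusedSectionVars false

open AlgebraicCurve ModularCurve CongruenceSubgroup UpperHalfPlane ModularForm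
open scoped MatrixGroups Manifold

namespace Fermat.Agent.ESLib

open Fermat.Agent.S18Lib Fermat.Agent.S20Lib Fermat.Agent.S24Lib
open Matrix

/-- the inputs of the trunk: the statements of the blocks R, H, G, E at level `N` -/
structure TrunkHyp (N : ℕ) [NeZero N] : Prop where
  exists_of_hom : ∀ (m : ℕ), 0 < m → ∀ φ : Additive (Gamma0 N) →+ ℤ, φ ∈ EP N ℤ →
    ∃ f : FB N, Rt N m f φ
  isKum : ∀ {m : ℕ} {f : FB N} {φ : Additive (Gamma0 N) →+ ℤ}, 0 < m → Rt N m f φ →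
    φ ∈ EP N ℤ → IsKum N m f
  exists_of_isKum : ∀ {m : ℕ} {f : FB N}, 0 < m → IsKum N m f → ∃ φ ∈ EP N ℤ, Rt N m f φ
  congr : ∀ {m : ℕ} {f : FB N} {φ φ' : Additive (Gamma0 N) →+ ℤ}, 0 < m → φ ∈ EP N ℤ →
    φ' ∈ EP N ℤ → Rt N m f φ → Rt N m f φ' → ∀ γ : Additive (Gamma0 N), (m : ℤ) ∣ φ γ - φ' γ
  of_congr : ∀ {m : ℕ} {f : FB N} {φ φ' : Additive (Gamma0 N) →+ ℤ}, Rt N m f φ →
    (∀ γ, (m : ℤ) ∣ φ γ - φ' γ) → Rt N m f φ'
  mul : ∀ {m : ℕ} {f f' : FB N} {φ φ' : Additive (Gamma0 N) →+ ℤ}, φ ∈ EP N ℤ → φ' ∈ EP N ℤ →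
    Rt N m f φ → Rt N m f' φ' → Rt N m (f * f') (φ + φ')
  inv : ∀ {m : ℕ} {f : FB N} {φ : Additive (Gamma0 N) →+ ℤ}, 0 < m → φ ∈ EP N ℤ → Rt N m f φ →
    Rt N m f⁻¹ (-φ)
  pow_self : ∀ (m : ℕ) {g : FB N}, g ≠ 0 → Rt N m (g ^ m) 0
  eq_pow : ∀ {m : ℕ} {f : FB N}, 0 < m → Rt N m f 0 → ∃ g : FB N, f = g ^ m
  of_mul : ∀ {m : ℕ} {f : FB N} {φ : Additive (Gamma0 N) →+ ℤ} {d : ℕ}, 0 < d → φ ∈ EP N ℤ →
    Rt N (d * m) f φ → Rt N m f φ
  hecke : ∀ {m : ℕ} {ℓ : ℕ} [NeZero ℓ], ℓ.Prime → ¬ ℓ ∣ N →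
    ∀ {f : FB N} {φ φ' : Additive (Gamma0 N) →+ ℤ}, φ ∈ EP N ℤ → Rt N m f φ → IsTr N ℓ φ φ' →
    ∃ f' : FB N, (f' : LaurentSeries Qb) = heckeMul ℓ (f : LaurentSeries Qb) ∧ Rt N m f' φ'
  theta : ∃ (r : ℕ) (_ : Module.Basis (Fin r) ℤ (EP N ℤ)) (Θ : TT0 N →+* Module.End ℤ (EP N ℤ)),
      Function.Injective Θ ∧
      ∀ (ℓ : ℕ) (hℓ : ℓ.Prime) (hℓN : ¬ ℓ ∣ N) (φ : EP N ℤ),
        haveI : NeZero ℓ := ⟨hℓ.ne_zero⟩
        IsTr N ℓ (φ : Additive (Gamma0 N) →+ ℤ)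
          ((Θ (CuspForm.heckeAlgebra.T hℓ hℓN hℓN) φ : EP N ℤ) : Additive (Gamma0 N) →+ ℤ)
  gal : ∀ {m : ℕ} {f : FB N}, IsKum N m f → ∀ σ : GQ, IsKum N m (gal N σ f)
  level_gal : ∀ f : FB N, ∃ L : IntermediateField ℚ Qb, FiniteDimensional ℚ L ∧
      ∀ σ : GQ, (∀ x ∈ L, σ x = x) → ESLib.gal N σ f = f
  heckeMul_gal : ∀ {ℓ : ℕ} [NeZero ℓ] (σ : GQ) (f : LaurentSeries Qb),
    heckeMul ℓ (coeffMap (σ : Qb →+* Qb) f) = coeffMap (σ : Qb →+* Qb) (heckeMul ℓ f)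
  inertia_kummer : ∀ {ℓ : ℕ} [Fact ℓ.Prime], ¬ ℓ ∣ N →
    ∀ (A : ValuationSubring Qb), A.LiesOverPrime ℓ → ∀ τ : GQ, τ ∈ A.inertiaSubgroupIn ℚ →
    ∀ (m : ℕ), ¬ ℓ ∣ m → ∀ f : FB N, IsKum N m f →
    ∃ w : FB N, ESLib.gal N τ f = w ^ m * f
  es_kummer : ∀ {ℓ : ℕ} [Fact ℓ.Prime], ¬ ℓ ∣ N →
    ∀ (A : ValuationSubring Qb), A.LiesOverPrime ℓ → ∀ σ : GQ, A.IsFrobeniusAt σ ℓ →
    ∀ (m : ℕ), ¬ ℓ ∣ m → ∀ f : FB N, IsKum N m f → ∀ Tf : FB N,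
    (haveI : NeZero ℓ := ⟨(Fact.out : ℓ.Prime).ne_zero⟩;
      (Tf : LaurentSeries Qb) = heckeMul ℓ ((ESLib.gal N σ f : FB N) : LaurentSeries Qb)) →
    ∃ w : FB N, ESLib.gal N σ (ESLib.gal N σ f) * f ^ ℓ = w ^ m * Tf

namespace P

variable {N : ℕ} [NeZero N]

/-! ### the Galois action -/

theorem gal_mul (σ τ : GQ) (f : FB N) : gal N (σ * τ) f = gal N σ (gal N τ f) := by
  apply Subtype.ext
  rw [coe_gal, coe_gal, coe_gal, coeffMap_coeffMap]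
  exact coeffMap_congr (RingHom.ext fun _ => rfl) _

theorem gal_one (f : FB N) : gal N 1 f = f := by
  apply Subtype.ext
  rw [coe_gal, show ((1 : GQ) : Qb →+* Qb) = RingHom.id Qb from RingHom.ext fun _ => rfl,
    coeffMap_id]

/-! ### the lattice -/

/-- evaluation at `γ` -/
def ev (γ : Additive (Gamma0 N)) : EP N ℤ →+ ℤ :=
  (AddMonoidHom.eval γ).comp (EP N ℤ).subtype

theorem ev_apply (γ : Additive (Gamma0 N)) (ψ : EP N ℤ) :
    ev γ ψ = (ψ : Additive (Gamma0 N) →+ ℤ) γ := rfl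

theorem exists_div {m : ℕ} (ψ : EP N ℤ)
    (h : ∀ γ, (m : ℤ) ∣ (ψ : Additive (Gamma0 N) →+ ℤ) γ) : ∃ ψ' : EP N ℤ, ψ = m • ψ' := by
  let g : Additive (Gamma0 N) →+ ℤ :=
    AddMonoidHom.mk' (fun γ => (ψ : Additive (Gamma0 N) →+ ℤ) γ / m) (by
      intro a b
      rw [map_add, Int.add_ediv_of_dvd_left (h a)])
  have hg : g ∈ EP N ℤ := by
    intro γ hγ
    show (ψ : Additive (Gamma0 N) →+ ℤ) (Additive.ofMul γ) / m = 0
    rw [ψ.2 γ hγ, Int.zero_ediv]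
  refine ⟨⟨g, hg⟩, Subtype.ext (AddMonoidHom.ext fun γ => ?_)⟩
  show (ψ : Additive (Gamma0 N) →+ ℤ) γ = ev γ (m • (⟨g, hg⟩ : EP N ℤ))
  rw [map_nsmul, nsmul_eq_mul]
  exact (Int.mul_ediv_cancel' (h γ)).symm

variable {r : ℕ} (b : Module.Basis (Fin r) ℤ (EP N ℤ))

/-- coordinates modulo `m` -/
noncomputable def crd (m : ℕ) : EP N ℤ →+ (Fin r → ZMod m) :=
  ((Int.castAddHom (ZMod m)).compLeft (Fin r)).comp b.equivFun.toLinearMap.toAddMonoidHom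

theorem crd_apply (m : ℕ) (φ : EP N ℤ) (i : Fin r) :
    crd b m φ i = ((b.repr φ i : ℤ) : ZMod m) := rfl

theorem crd_eq_comp (m : ℕ) (φ : EP N ℤ) :
    crd b m φ = (Int.castRingHom (ZMod m)) ∘ (b.repr φ : Fin r → ℤ) := rfl

theorem crd_eq_zero_iff (m : ℕ) (ψ : EP N ℤ) :
    crd b m ψ = 0 ↔ ∀ γ, (m : ℤ) ∣ (ψ : Additive (Gamma0 N) →+ ℤ) γ := by
  constructor
  · intro h γ
    have h1 : ∀ i, (m : ℤ) ∣ b.repr ψ i := by
      intro i
      rw [← ZMod.intCast_zmod_eq_zero_iff_dvd, ← crd_apply, h]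
      rfl
    rw [← ev_apply, ← b.sum_repr ψ, map_sum]
    refine Finset.dvd_sum fun i _ => ?_
    rw [map_zsmul, smul_eq_mul]
    exact Dvd.dvd.mul_right (h1 i) _
  · intro h
    obtain ⟨ψ', rfl⟩ := exists_div ψ h
    rw [map_nsmul]
    funext i
    simp

theorem crd_eq_iff (m : ℕ) (φ φ' : EP N ℤ) :
    crd b m φ = crd b m φ' ↔ ∀ γ, (m : ℤ) ∣ (φ : Additive (Gamma0 N) →+ ℤ) γ -
      (φ' : Additive (Gamma0 N) →+ ℤ) γ := by
  rw [← sub_eq_zero, ← map_sub, crd_eq_zero_iff]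
  rfl

theorem crd_surjective (m : ℕ) : Function.Surjective (crd b m) := by
  intro v
  choose a ha using fun i => ZMod.intCast_surjective (v i)
  refine ⟨b.equivFun.symm a, ?_⟩
  funext i
  rw [crd_apply, ← ha i, ← Module.Basis.equivFun_apply, LinearEquiv.apply_symm_apply]

/-! ### the Kummer map, as a relation -/

/-- `v` is the class modulo `m` of the multiplier of an analytic `m`-th root of `f` -/
def Kap (m : ℕ) (f : FB N) (v : Fin r → ZMod m) : Prop :=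
  ∃ φ : EP N ℤ, Rt N m f (φ : Additive (Gamma0 N) →+ ℤ) ∧ crd b m φ = v

variable {b} (H : TrunkHyp N) {m : ℕ} (hm : 0 < m)

include H hm

theorem Kap.exists (v : Fin r → ZMod m) : ∃ f, Kap b m f v := by
  obtain ⟨φ, rfl⟩ := crd_surjective b m v
  obtain ⟨f, hf⟩ := H.exists_of_hom m hm φ φ.2
  exact ⟨f, φ, hf, rfl⟩

theorem Kap.unique {f : FB N} {v v' : Fin r → ZMod m} (h : Kap b m f v) (h' : Kap b m f v') :
    v = v' := by
  obtain ⟨φ, hφ, rfl⟩ := h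
  obtain ⟨φ', hφ', rfl⟩ := h'
  rw [crd_eq_iff]
  exact H.congr hm φ.2 φ'.2 hφ hφ'

theorem Kap.isKum {f : FB N} {v : Fin r → ZMod m} (h : Kap b m f v) : IsKum N m f := by
  obtain ⟨φ, hφ, rfl⟩ := h
  exact H.isKum hm hφ φ.2

theorem Kap.ne_zero {f : FB N} {v : Fin r → ZMod m} (h : Kap b m f v) : f ≠ 0 :=
  (h.isKum H hm).1

theorem Kap.mul {f f' : FB N} {v v' : Fin r → ZMod m} (h : Kap b m f v) (h' : Kap b m f' v') :
    Kap b m (f * f') (v + v') := by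
  obtain ⟨φ, hφ, rfl⟩ := h
  obtain ⟨φ', hφ', rfl⟩ := h'
  exact ⟨φ + φ', H.mul φ.2 φ'.2 hφ hφ', map_add _ _ _⟩

theorem Kap.inv {f : FB N} {v : Fin r → ZMod m} (h : Kap b m f v) : Kap b m f⁻¹ (-v) := by
  obtain ⟨φ, hφ, rfl⟩ := h
  exact ⟨-φ, H.inv hm φ.2 hφ, map_neg _ _⟩

theorem Kap.pow_self {g : FB N} (hg : g ≠ 0) : Kap b m (g ^ m) 0 :=
  ⟨0, H.pow_self m hg, map_zero _⟩

theorem Kap.one : Kap b m (1 : FB N) 0 := by
  have := Kap.pow_self (b := b) H hm (one_ne_zero : (1 : FB N) ≠ 0)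
  rwa [one_pow] at this

theorem Kap.pow {f : FB N} {v : Fin r → ZMod m} (h : Kap b m f v) (k : ℕ) :
    Kap b m (f ^ k) (k • v) := by
  induction k with
  | zero =>
    rw [pow_zero, zero_smul]
    exact Kap.one H hm
  | succ k ih =>
    rw [pow_succ, succ_nsmul]
    exact ih.mul H hm h

theorem Kap.eq_pow {f : FB N} (h : Kap b m f 0) : ∃ g : FB N, g ≠ 0 ∧ f = g ^ m := by
  have hf := h.ne_zero H hm
  obtain ⟨φ, hφ, h0⟩ := h
  have h1 : Rt N m f 0 := by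
    apply H.of_congr hφ
    intro γ
    rw [AddMonoidHom.zero_apply, sub_zero]
    exact (crd_eq_zero_iff b m φ).mp h0 γ
  obtain ⟨g, rfl⟩ := H.eq_pow hm h1
  refine ⟨g, ?_, rfl⟩
  rintro rfl
  exact hf (zero_pow hm.ne')

theorem Kap.pow_mul {f g : FB N} {v : Fin r → ZMod m} (h : Kap b m f v) (hg : g ≠ 0) :
    Kap b m (g ^ m * f) v := by
  have := (Kap.pow_self (b := b) H hm hg).mul H hm h
  rwa [zero_add] at this

theorem Kap.gal_exists {f : FB N} {v : Fin r → ZMod m} (h : Kap b m f v) (σ : GQ) :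
    ∃ v', Kap b m (gal N σ f) v' := by
  obtain ⟨φ, hφ, hR⟩ := H.exists_of_isKum hm (H.gal (h.isKum H hm) σ)
  exact ⟨_, ⟨φ, hφ⟩, hR, rfl⟩

theorem exists_S (σ : GQ) (v : Fin r → ZMod m) :
    ∃ v', ∀ f, Kap b m f v → Kap b m (gal N σ f) v' := by
  obtain ⟨f₀, hf₀⟩ := Kap.exists (b := b) H hm v
  obtain ⟨v', hv'⟩ := hf₀.gal_exists H hm σ
  refine ⟨v', fun f hf => ?_⟩
  have h1 := hf.mul H hm (hf₀.inv H hm)
  rw [add_neg_cancel] at h1
  obtain ⟨g, hg, hfg⟩ := h1.eq_pow H hm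
  have h2 : f = g ^ m * f₀ := by
    rw [← hfg, inv_mul_cancel_right₀ (hf₀.ne_zero H hm)]
  rw [h2, map_mul, map_pow]
  exact hv'.pow_mul H hm ((map_ne_zero_iff _ (gal N σ).injective).mpr hg)

variable (b) in
/-- the action of `σ` on `(ℤ/m)^r` -/
noncomputable def Sfun (σ : GQ) (v : Fin r → ZMod m) : Fin r → ZMod m :=
  Classical.choose (exists_S (b := b) H hm σ v)

theorem Sfun_spec (σ : GQ) {v : Fin r → ZMod m} {f : FB N} (h : Kap b m f v) :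
    Kap b m (gal N σ f) (Sfun b H hm σ v) :=
  Classical.choose_spec (exists_S (b := b) H hm σ v) f h

theorem Sfun_add (σ : GQ) (v v' : Fin r → ZMod m) :
    Sfun b H hm σ (v + v') = Sfun b H hm σ v + Sfun b H hm σ v' := by
  obtain ⟨f, hf⟩ := Kap.exists (b := b) H hm v
  obtain ⟨f', hf'⟩ := Kap.exists (b := b) H hm v'
  have h1 := Sfun_spec H hm σ (hf.mul H hm hf')
  rw [map_mul] at h1
  exact h1.unique H hm ((Sfun_spec H hm σ hf).mul H hm (Sfun_spec H hm σ hf'))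

theorem Sfun_mul (σ τ : GQ) (v : Fin r → ZMod m) :
    Sfun b H hm (σ * τ) v = Sfun b H hm σ (Sfun b H hm τ v) := by
  obtain ⟨f, hf⟩ := Kap.exists (b := b) H hm v
  have h1 := Sfun_spec H hm (σ * τ) hf
  rw [gal_mul] at h1
  exact h1.unique H hm (Sfun_spec H hm σ (Sfun_spec H hm τ hf))

theorem Sfun_one (v : Fin r → ZMod m) : Sfun b H hm 1 v = v := by
  obtain ⟨f, hf⟩ := Kap.exists (b := b) H hm v
  have h1 := Sfun_spec H hm 1 hf
  rw [gal_one] at h1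
  exact h1.unique H hm hf

variable (b) in
/-- the action of `σ` on `(ℤ/m)^r`, as a linear map -/
noncomputable def Slin (σ : GQ) : (Fin r → ZMod m) →ₗ[ZMod m] (Fin r → ZMod m) :=
  (AddMonoidHom.mk' (Sfun b H hm σ) (Sfun_add H hm σ)).toZModLinearMap m

theorem Slin_apply (σ : GQ) (v : Fin r → ZMod m) : Slin b H hm σ v = Sfun b H hm σ v := rfl

variable (b) in
/-- the matrix representation of `G_ℚ` on `(ℤ/m)^r` -/
noncomputable def rhoM : GQ →* Matrix (Fin r) (Fin r) (ZMod m) where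
  toFun σ := LinearMap.toMatrix' (Slin b H hm σ)
  map_one' := by
    rw [← LinearMap.toMatrix'_id]
    congr 1
    apply LinearMap.ext
    intro v
    rw [Slin_apply, Sfun_one]
    rfl
  map_mul' σ τ := by
    rw [← LinearMap.toMatrix'_comp]
    congr 1
    apply LinearMap.ext
    intro v
    rw [LinearMap.comp_apply, Slin_apply, Slin_apply, Slin_apply, Sfun_mul]

theorem rhoM_mulVec (σ : GQ) (v : Fin r → ZMod m) : rhoM b H hm σ *ᵥ v = Sfun b H hm σ v :=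
  LinearMap.toMatrix'_mulVec _ _

theorem rhoM_spec (σ : GQ) {v : Fin r → ZMod m} {f : FB N} (h : Kap b m f v) :
    Kap b m (gal N σ f) (rhoM b H hm σ *ᵥ v) := by
  rw [rhoM_mulVec]
  exact Sfun_spec H hm σ h

/-! ### finite level -/

theorem rhoM_level : GaloisFactorsThroughFiniteLevel (rhoM b H hm) := by
  choose f hf using fun j : Fin r => Kap.exists (b := b) H hm (Pi.single j 1)
  choose L hL1 hL2 using fun j => H.level_gal (f j)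
  refine ⟨⨆ j, L j, IntermediateField.finiteDimensional_iSup_of_finite, fun σ hσ => ?_⟩
  apply Matrix.ext_of_mulVec_single
  intro j
  rw [one_mulVec]
  have h1 := rhoM_spec H hm σ (hf j)
  rw [hL2 j σ (fun x hx => hσ x (le_iSup L j hx))] at h1
  exact h1.unique H hm (hf j)

/-! ### inertia -/

theorem rhoM_unram {q : ℕ} (hq : q.Prime) (hqN : ¬ q ∣ N) (hqm : ¬ q ∣ m)
    (A : ValuationSubring Qb) (hA : A.LiesOverPrime q) (σ : GQ) (hσ : σ ∈ A.inertiaSubgroupIn ℚ) :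
    rhoM b H hm σ = 1 := by
  haveI : Fact q.Prime := ⟨hq⟩
  apply Matrix.mulVec_injective
  funext v
  rw [one_mulVec]
  obtain ⟨f, hf⟩ := Kap.exists (b := b) H hm v
  obtain ⟨w, hw⟩ := H.inertia_kummer hqN A hA σ hσ m hqm f (hf.isKum H hm)
  have h1 := rhoM_spec H hm σ hf
  have hw0 : w ≠ 0 := by
    rintro rfl
    apply h1.ne_zero H hm
    rw [hw, zero_pow hm.ne', zero_mul]
  rw [hw] at h1
  exact h1.unique H hm (hf.pow_mul H hm hw0)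

/-! ### the Hecke action -/

omit H hm in
variable (b) in
/-- the matrices of the Hecke action on the lattice -/
noncomputable def ThM (Θ₀ : TT0 N →+* Module.End ℤ (EP N ℤ)) :
    TT0 N →+* Matrix (Fin r) (Fin r) ℤ :=
  ((LinearMap.toMatrixAlgEquiv b : Module.End ℤ (EP N ℤ) ≃ₐ[ℤ] Matrix (Fin r) (Fin r) ℤ) :
    Module.End ℤ (EP N ℤ) →+* Matrix (Fin r) (Fin r) ℤ).comp Θ₀

omit H hm in
theorem ThM_injective (Θ₀ : TT0 N →+* Module.End ℤ (EP N ℤ)) (h : Function.Injective Θ₀) :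
    Function.Injective (ThM b Θ₀) :=
  (LinearMap.toMatrixAlgEquiv b).injective.comp h

omit H hm in
theorem crd_theta (Θ₀ : TT0 N →+* Module.End ℤ (EP N ℤ)) (T : TT0 N) (φ : EP N ℤ) :
    crd b m (Θ₀ T φ) = ((ThM b Θ₀ T).map (Int.castRingHom (ZMod m))) *ᵥ crd b m φ := by
  funext i
  have h := LinearMap.toMatrix_mulVec_repr b b (Θ₀ T) φ
  rw [crd_apply, ← h]
  exact RingHom.map_mulVec (Int.castRingHom (ZMod m)) _ _ i

/-- the hypothesis (H3) on `Θ₀` -/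
def IsThetaTr (Θ₀ : TT0 N →+* Module.End ℤ (EP N ℤ)) : Prop :=
  ∀ (ℓ : ℕ) (hℓ : ℓ.Prime) (hℓN : ¬ ℓ ∣ N) (φ : EP N ℤ),
    haveI : NeZero ℓ := ⟨hℓ.ne_zero⟩
    IsTr N ℓ (φ : Additive (Gamma0 N) →+ ℤ)
      ((Θ₀ (CuspForm.heckeAlgebra.T hℓ hℓN hℓN) φ : EP N ℤ) : Additive (Gamma0 N) →+ ℤ)

variable {Θ₀ : TT0 N →+* Module.End ℤ (EP N ℤ)} (hΘ : IsThetaTr Θ₀)

include hΘ

omit hm in
theorem Kap.hecke {ℓ : ℕ} [NeZero ℓ] (hℓ : ℓ.Prime) (hℓN : ¬ ℓ ∣ N) {f : FB N}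
    {v : Fin r → ZMod m} (h : Kap b m f v) :
    ∃ f' : FB N, (f' : LaurentSeries Qb) = heckeMul ℓ (f : LaurentSeries Qb) ∧
      Kap b m f' (((ThM b Θ₀ (CuspForm.heckeAlgebra.T hℓ hℓN hℓN)).map
        (Int.castRingHom (ZMod m))) *ᵥ v) := by
  obtain ⟨φ, hφ, rfl⟩ := h
  obtain ⟨f', h1, h2⟩ := H.hecke hℓ hℓN φ.2 hφ (hΘ ℓ hℓ hℓN φ)
  exact ⟨f', h1, _, h2, crd_theta Θ₀ _ φ⟩

theorem rhoM_comm_T {ℓ : ℕ} (hℓ : ℓ.Prime) (hℓN : ¬ ℓ ∣ N) (σ : GQ) :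
    rhoM b H hm σ * (ThM b Θ₀ (CuspForm.heckeAlgebra.T hℓ hℓN hℓN)).map
        (Int.castRingHom (ZMod m)) =
      (ThM b Θ₀ (CuspForm.heckeAlgebra.T hℓ hℓN hℓN)).map (Int.castRingHom (ZMod m)) *
        rhoM b H hm σ := by
  haveI : NeZero ℓ := ⟨hℓ.ne_zero⟩
  apply Matrix.mulVec_injective
  funext v
  rw [← mulVec_mulVec, ← mulVec_mulVec]
  obtain ⟨f, hf⟩ := Kap.exists (b := b) H hm v
  obtain ⟨f', h1, h2⟩ := hf.hecke H hΘ hℓ hℓN
  obtain ⟨f'', h3, h4⟩ := (rhoM_spec H hm σ hf).hecke H hΘ hℓ hℓN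
  have h5 : gal N σ f' = f'' := by
    apply Subtype.ext
    rw [coe_gal, h1, h3, coe_gal, H.heckeMul_gal]
  have h6 := rhoM_spec H hm σ h2
  rw [h5] at h6
  exact h6.unique H hm h4

theorem rhoM_comm (σ : GQ) (T : TT0 N) :
    rhoM b H hm σ * (ThM b Θ₀ T).map (Int.castRingHom (ZMod m)) =
      (ThM b Θ₀ T).map (Int.castRingHom (ZMod m)) * rhoM b H hm σ := by
  set Ψ : TT0 N →+* Matrix (Fin r) (Fin r) (ZMod m) :=
    (Int.castRingHom (ZMod m)).mapMatrix.comp (ThM b Θ₀) with hΨ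
  have key : ∀ (x : Module.End ℂ (CuspForm (Gamma0 N) 2))
      (hx : x ∈ Algebra.adjoin ℤ (CuspForm.heckeGenerators N 2 {q : ℕ | q ∣ N})),
      Commute (rhoM b H hm σ) (Ψ ⟨x, hx⟩) := by
    intro x hx
    induction hx using Algebra.adjoin_induction with
    | mem x hx =>
      rcases hx with ⟨ℓ, hℓ, hℓN, -, rfl⟩ | ⟨q, hqN, -, hqS, rfl⟩
      · exact rhoM_comm_T H hm hΘ hℓ hℓN σ
      · exact absurd hqN hqS
    | algebraMap k =>
      have h1 : (⟨algebraMap ℤ _ k, Subalgebra.algebraMap_mem _ k⟩ : TT0 N) = (k : TT0 N) := by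
        apply Subtype.ext
        simp
      rw [h1, map_intCast]
      exact (Int.cast_commute k _).symm
    | add x y hx hy h1 h2 =>
      have h3 : (⟨x + y, Subalgebra.add_mem _ hx hy⟩ : TT0 N) = ⟨x, hx⟩ + ⟨y, hy⟩ := rfl
      rw [h3, map_add]
      exact h1.add_right h2
    | mul x y hx hy h1 h2 =>
      have h3 : (⟨x * y, Subalgebra.mul_mem _ hx hy⟩ : TT0 N) = ⟨x, hx⟩ * ⟨y, hy⟩ := rfl
      rw [h3, map_mul]
      exact h1.mul_right h2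
  exact key T.1 T.2

/-! ### Eichler-Shimura -/

theorem rhoM_es {ℓ : ℕ} (hℓ : ℓ.Prime) (hℓN : ¬ ℓ ∣ N) (hℓm : ¬ ℓ ∣ m)
    (A : ValuationSubring Qb) (hA : A.LiesOverPrime ℓ) (σ : GQ) (hσ : A.IsFrobeniusAt σ ℓ) :
    rhoM b H hm σ * rhoM b H hm σ -
      (ThM b Θ₀ (CuspForm.heckeAlgebra.T hℓ hℓN hℓN)).map (Int.castRingHom (ZMod m)) *
        rhoM b H hm σ + (ℓ : Matrix (Fin r) (Fin r) (ZMod m)) = 0 := by
  haveI : Fact ℓ.Prime := ⟨hℓ⟩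
  haveI : NeZero ℓ := ⟨hℓ.ne_zero⟩
  apply Matrix.mulVec_injective
  funext v
  rw [add_mulVec, sub_mulVec, ← mulVec_mulVec, ← mulVec_mulVec, natCast_mulVec, zero_mulVec]
  obtain ⟨f, hf⟩ := Kap.exists (b := b) H hm v
  have h1 := rhoM_spec H hm σ hf
  have h2 := rhoM_spec H hm σ h1
  obtain ⟨Tf, h3, h4⟩ := h1.hecke H hΘ hℓ hℓN
  obtain ⟨w, hw⟩ := H.es_kummer hℓN A hA σ hσ m hℓm f (hf.isKum H hm) Tf h3
  have h5 := h2.mul H hm (hf.pow H hm ℓ)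
  have hw0 : w ≠ 0 := by
    rintro rfl
    apply h5.ne_zero H hm
    rw [hw, zero_pow hm.ne', zero_mul]
  rw [hw] at h5
  have h6 := h5.unique H hm (h4.pow_mul H hm hw0)
  rw [← h6, Nat.cast_smul_eq_nsmul]
  abel

end P

namespace P

/-! ### compatibility -/

variable {N : ℕ} [NeZero N] {r : ℕ} {b : Module.Basis (Fin r) ℤ (EP N ℤ)} (H : TrunkHyp N)

include H

theorem Kap.red {p n : ℕ} (hp : 0 < p) {f : FB N} {v : Fin r → ZMod (p ^ (n + 1))}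
    (h : Kap b (p ^ (n + 1)) f v) :
    Kap b (p ^ n) f (ZMod.castHom (pow_dvd_pow p (Nat.le_succ n)) (ZMod (p ^ n)) ∘ v) := by
  obtain ⟨φ, hφ, rfl⟩ := h
  refine ⟨φ, H.of_mul (d := p) hp φ.2 (by rwa [← pow_succ']), ?_⟩
  funext i
  rw [Function.comp_apply, crd_apply, crd_apply, map_intCast]

theorem rhoM_compat {p : ℕ} (hp : 0 < p) (n : ℕ) (σ : GQ) :
    (rhoM b H (pow_pos hp (n + 1)) σ).map
      (ZMod.castHom (pow_dvd_pow p (Nat.le_succ n)) (ZMod (p ^ n))) =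
      rhoM b H (pow_pos hp n) σ := by
  ext i j
  rw [Matrix.map_apply]
  obtain ⟨f, hf⟩ := Kap.exists (b := b) H (pow_pos hp (n + 1)) (Pi.single j 1)
  have h1 := (rhoM_spec H (pow_pos hp (n + 1)) σ hf).red H hp
  have h2 := rhoM_spec H (pow_pos hp n) σ (hf.red H hp)
  have h3 := congrFun (h1.unique H (pow_pos hp n) h2) i
  have h4 : (ZMod.castHom (pow_dvd_pow p (Nat.le_succ n)) (ZMod (p ^ n))) ∘
      (Pi.single j 1 : Fin r → ZMod (p ^ (n + 1))) = Pi.single j 1 := by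
    funext k
    rw [Function.comp_apply, Pi.single_apply, Pi.single_apply]
    split_ifs
    · exact map_one _
    · exact map_zero _
  rw [h4, mulVec_single_one, Function.comp_apply, mulVec_single_one] at h3
  exact h3

end P

/-- **The trunk**, from the interfaces of the blocks R, H, G, E. -/
theorem exists_esData_of_hyp (N p : ℕ) [NeZero N] [Fact p.Prime] (H : TrunkHyp N) :
    ∃ (r : ℕ) (Θ : TT0 N →+* Matrix (Fin r) (Fin r) ℤ)
      (ρ : (n : ℕ) → GQ →* Matrix (Fin r) (Fin r) (ZMod (p ^ n))), IsESData N p r Θ ρ := by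
  obtain ⟨r, b, Θ₀, hinj, hTr⟩ := H.theta
  have hp : p.Prime := Fact.out
  refine ⟨r, P.ThM b Θ₀, fun n => P.rhoM b H (pow_pos hp.pos n), ?_⟩
  refine ⟨P.ThM_injective Θ₀ hinj, fun n σ => P.rhoM_compat H hp.pos n σ,
    fun n => P.rhoM_level H _, fun n σ T => P.rhoM_comm H _ hTr σ T, ?_, ?_⟩
  · intro n q hq hqNp A hA σ hσ
    refine P.rhoM_unram H _ hq (fun h => hqNp (Dvd.dvd.mul_right h p)) (fun h => ?_) A hA σ hσ
    exact hqNp (Dvd.dvd.mul_left (hq.dvd_of_dvd_pow h) N)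
  · intro n ℓ hℓ hℓN hℓp A hA σ hσ
    refine P.rhoM_es H _ hTr hℓ hℓN (fun h => ?_) A hA σ hσ
    exact hℓp ((Nat.prime_dvd_prime_iff_eq hℓ hp).mp (hℓ.dvd_of_dvd_pow h))

end Fermat.Agent.ESLib
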