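import Fermat.Agent.ES.ESCore
import Fermat.Agent.ES.TrunkCore

/-!
# ES library, Block E (4): the hypotheses of the trunk, reduced to the blocks R, H and to the two
inputs from S18 (the Kummer lemma `KL` and the normal form `exists_redData`)
-/

set_option autoImplicit false
set_option synthInstance.maxHeartbeats 400000
set_option linter.style.haveILetI false

open AlgebraicCurve ModularCurve CongruenceSubgroup UpperHalfPlane ModularForm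
open scoped MatrixGroups Manifold

namespace Fermat.Agent.ESLib

open Fermat.Agent.S18Lib Fermat.Agent.S20Lib Fermat.Agent.S24Lib

/-- the inputs of the trunk which are not formal: blocks R, H and the two inputs from S18 -/
structure TrunkHyp0 (N : ℕ) [NeZero N] : Prop where
  exists_of_hom : ∀ (m : ℕ), 0 < m → ∀ φ : Additive (Gamma0 N) →+ ℤ, φ ∈ EP N ℤ →
    ∃ f : FB N, Rt N m f φ
  isKum : ∀ {m : ℕ} {f : FB N} {φ : Additive (Gamma0 N) →+ ℤ}, 0 < m → Rt N m f φ →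
    φ ∈ EP N ℤ → IsKum N m f
  exists_of_isKum : ∀ {m : ℕ} {f : FB N}, 0 < m → IsKum N m f → ∃ φ ∈ EP N ℤ, Rt N m f φ
  congr : ∀ {m : ℕ} {f : FB N} {φ φ' : Additive (Gamma0 N) →+ ℤ}, 0 < m → φ ∈ EP N ℤ →
    φ' ∈ EP N ℤ → Rt N m f φ → Rt N m f φ' → ∀ γ : Additive (Gamma0 N), (m : ℤ) ∣ φ γ - φ' γ
  of_congr : ∀ {m : ℕ} {f : FB N} {φ φ' : Additive (Gamma0 N) →+ ℤ}, Rt N m f φ →
    (∀ γ, (m : ℤ) ∣ φ γ - φ' γ) → Rt N m f φ'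
  mul : ∀ {m : ℕ} {f f' : FB N} {φ φ' : Additive (Gamma0 N) →+ ℤ}, φ ∈ EP N ℤ → φ' ∈ EP N ℤ →
    Rt N m f φ → Rt N m f' φ' → Rt N m (f * f') (φ + φ')
  inv : ∀ {m : ℕ} {f : FB N} {φ : Additive (Gamma0 N) →+ ℤ}, 0 < m → φ ∈ EP N ℤ → Rt N m f φ →
    Rt N m f⁻¹ (-φ)
  pow_self : ∀ (m : ℕ) {g : FB N}, g ≠ 0 → Rt N m (g ^ m) 0
  eq_pow : ∀ {m : ℕ} {f : FB N}, 0 < m → Rt N m f 0 → ∃ g : FB N, f = g ^ m
  of_mul : ∀ {m : ℕ} {f : FB N} {φ : Additive (Gamma0 N) →+ ℤ} {d : ℕ}, 0 < d → φ ∈ EP N ℤ →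
    Rt N (d * m) f φ → Rt N m f φ
  hecke : ∀ {m : ℕ} {ℓ : ℕ} [NeZero ℓ], ℓ.Prime → ¬ ℓ ∣ N →
    ∀ {f : FB N} {φ φ' : Additive (Gamma0 N) →+ ℤ}, φ ∈ EP N ℤ → Rt N m f φ → IsTr N ℓ φ φ' →
    ∃ f' : FB N, (f' : LaurentSeries Qb) = heckeMul ℓ (f : LaurentSeries Qb) ∧ Rt N m f' φ'
  theta : ∃ (r : ℕ) (_ : Module.Basis (Fin r) ℤ (EP N ℤ)) (Θ : TT0 N →+* Module.End ℤ (EP N ℤ)),
      Function.Injective Θ ∧
      ∀ (ℓ : ℕ) (hℓ : ℓ.Prime) (hℓN : ¬ ℓ ∣ N) (φ : EP N ℤ),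
        haveI : NeZero ℓ := ⟨hℓ.ne_zero⟩
        IsTr N ℓ (φ : Additive (Gamma0 N) →+ ℤ)
          ((Θ (CuspForm.heckeAlgebra.T hℓ hℓN hℓN) φ : EP N ℤ) : Additive (Gamma0 N) →+ ℤ)
  kl : ∀ {ℓ : ℕ} [Fact ℓ.Prime], ¬ ℓ ∣ N → ∀ (A : ValuationSubring Qb), A.LiesOverPrime ℓ →
    ∀ (m : ℕ), ¬ ℓ ∣ m → KLHyp N A m
  redData : ∀ {ℓ : ℕ} [Fact ℓ.Prime], ¬ ℓ ∣ N → ∀ (A : ValuationSubring Qb), A.LiesOverPrime ℓ →
    ∃ R : RedData A (IsLocalRing.residue A) (FB N) (FT A N), IsQRed A N R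

variable {N : ℕ} [NeZero N]

/-- the multiplicative Hecke operator preserves Kummer generators -/
theorem TrunkHyp0.heckeMul_isKum (H : TrunkHyp0 N) {ℓ : ℕ} [NeZero ℓ] (hℓ : ℓ.Prime)
    (hℓN : ¬ ℓ ∣ N) {m : ℕ} (hm : 0 < m) (f : FB N) (hf : IsKum N m f) :
    ∃ f' : FB N, (f' : LaurentSeries Qb) = heckeMul ℓ (f : LaurentSeries Qb) ∧ IsKum N m f' := by
  obtain ⟨φ, hφ, hR⟩ := H.exists_of_isKum hm hf
  obtain ⟨r, _, Θ, _, hΘ⟩ := H.theta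
  obtain ⟨f', h1, h2⟩ := H.hecke hℓ hℓN hφ hR (hΘ ℓ hℓ hℓN ⟨φ, hφ⟩)
  exact ⟨f', h1, H.isKum hm h2 (Subtype.property _)⟩

theorem TrunkHyp0.heckeMul_mem (H : TrunkHyp0 N) {ℓ : ℕ} [NeZero ℓ] (hℓ : ℓ.Prime)
    (hℓN : ¬ ℓ ∣ N) (y : FB N) (hy : y ≠ 0) : heckeMul ℓ (y : LaurentSeries Qb) ∈ FB N := by
  obtain ⟨f', h1, -⟩ := H.heckeMul_isKum hℓ hℓN one_pos y
    ⟨hy, fun P => by rw [Nat.cast_one]; exact one_dvd _⟩
  rw [← h1]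
  exact f'.2

theorem TrunkHyp0.toTrunkHyp (H : TrunkHyp0 N) : TrunkHyp N where
  exists_of_hom := H.exists_of_hom
  isKum := H.isKum
  exists_of_isKum := H.exists_of_isKum
  congr := H.congr
  of_congr := H.of_congr
  mul := H.mul
  inv := H.inv
  pow_self := H.pow_self
  eq_pow := H.eq_pow
  of_mul := H.of_mul
  hecke := H.hecke
  theta := H.theta
  gal := IsKum.gal
  level_gal := exists_level_gal N
  heckeMul_gal := heckeMul_gal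
  inertia_kummer := by
    intro ℓ _ hℓN A hA τ hτ m hm f hf
    have hm0 : m ≠ 0 := by rintro rfl; exact hm (dvd_zero _)
    exact inertia_kummer_core hm0 (H.kl hℓN A hA m hm) (nfHyp_of_redData (H.redData hℓN A hA))
      τ hτ f hf
  es_kummer := by
    intro ℓ _ hℓN A hA σ hσ m hm f hf Tf hT
    have hℓ : ℓ.Prime := Fact.out
    haveI : NeZero ℓ := ⟨hℓ.ne_zero⟩
    haveI : CharP (kk A) ℓ := charP_kk hℓ hA
    have hm0 : m ≠ 0 := by rintro rfl; exact hm (dvd_zero _)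
    obtain ⟨f', h1, h2⟩ := H.heckeMul_isKum hℓ hℓN (Nat.pos_of_ne_zero hm0) _ (hf.gal σ)
    have hTf : Tf = f' := Subtype.ext (hT.trans h1.symm)
    exact es_kummer_core hm0 (H.kl hℓN A hA m hm) (nfHyp_of_redData (H.redData hℓN A hA))
      (H.heckeMul_mem hℓ hℓN) σ hσ f hf Tf (hTf ▸ h2) hT

/-- the trunk from the non-formal inputs -/
theorem exists_esData_of_hyp0 (N p : ℕ) [NeZero N] [Fact p.Prime] (H : TrunkHyp0 N) :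
    ∃ (r : ℕ) (Θ : TT0 N →+* Matrix (Fin r) (Fin r) ℤ)
      (ρ : (n : ℕ) → GQ →* Matrix (Fin r) (Fin r) (ZMod (p ^ n))), IsESData N p r Θ ρ :=
  exists_esData_of_hyp N p H.toTrunkHyp

end Fermat.Agent.ESLib
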