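import Fermat.Agent.ES.KDefs

/-!
# ES library: API for the formal operators `twist`, `contract`, `normL`, `heckeMul`
-/

set_option autoImplicit false

open ModularCurve

namespace Fermat.Agent.ESLib

noncomputable section

section Ring

variable {R S : Type*} [CommRing R] [CommRing S]

@[simp] theorem twist_coeff (z : Rˣ) (f : LaurentSeries R) (n : ℤ) :
    (twist z f).coeff n = ((z ^ n : Rˣ) : R) * f.coeff n := rfl

@[simp] theorem contract_coeff (ℓ : ℕ) [NeZero ℓ] (f : LaurentSeries R) (n : ℤ) :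
    (contract ℓ f).coeff n = f.coeff (ℓ * n) := rfl

theorem twist_support (z : Rˣ) (f : LaurentSeries R) : (twist z f).support = f.support := by
  ext n
  simp only [HahnSeries.mem_support, twist_coeff, ne_eq]
  rw [Units.mul_right_eq_zero]

theorem twist_mul (z : Rˣ) (f g : LaurentSeries R) :
    twist z (f * g) = twist z f * twist z g := by
  ext n
  rw [twist_coeff, HahnSeries.coeff_mul, HahnSeries.coeff_mul, Finset.mul_sum]
  have hset : Finset.antidiagonal (twist z f).isPWO_support (twist z g).isPWO_support n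
      = Finset.antidiagonal f.isPWO_support g.isPWO_support n := by
    ext ij
    simp only [Finset.mem_antidiagonal, twist_support]
  rw [hset]
  refine Finset.sum_congr rfl fun ij hij => ?_
  have h := (Finset.mem_antidiagonal.mp hij).2.2
  rw [twist_coeff, twist_coeff, ← h, zpow_add, Units.val_mul]
  ring

/-- `twist z` as a ring homomorphism -/
def twistHom (z : Rˣ) : LaurentSeries R →+* LaurentSeries R where
  toFun := twist z
  map_one' := by
    ext n
    rw [twist_coeff, HahnSeries.coeff_one]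
    split_ifs with h
    · subst h; simp
    · simp
  map_mul' := twist_mul z
  map_zero' := by ext n; simp
  map_add' f g := by ext n; simp [mul_add]

@[simp] theorem twistHom_apply (z : Rˣ) (f : LaurentSeries R) : twistHom z f = twist z f := rfl

theorem twist_twist (z w : Rˣ) (f : LaurentSeries R) : twist z (twist w f) = twist (z * w) f := by
  ext n
  rw [twist_coeff, twist_coeff, twist_coeff, mul_zpow, Units.val_mul, mul_assoc]

@[simp] theorem twist_one (f : LaurentSeries R) : twist (1 : Rˣ) f = f := by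
  ext n; simp

theorem coeffMap_twist (φ : R →+* S) (z : Rˣ) (f : LaurentSeries R) :
    coeffMap φ (twist z f) = twist (Units.map (φ : R →* S) z) (coeffMap φ f) := by
  ext n
  rw [coeffMap_coeff, twist_coeff, twist_coeff, coeffMap_coeff, map_mul, ← map_zpow]
  rfl

theorem coeffMap_contract (φ : R →+* S) (ℓ : ℕ) [NeZero ℓ] (f : LaurentSeries R) :
    coeffMap φ (contract ℓ f) = contract ℓ (coeffMap φ f) := by
  ext n; simp

@[simp] theorem contract_qExpand (ℓ : ℕ) [NeZero ℓ] (f : LaurentSeries R) :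
    contract ℓ (qExpand R ℓ f) = f := by
  ext n; simp

theorem qExpand_contract (ℓ : ℕ) [NeZero ℓ] (f : LaurentSeries R)
    (h : ∀ n : ℤ, ¬ (ℓ : ℤ) ∣ n → f.coeff n = 0) : qExpand R ℓ (contract ℓ f) = f := by
  ext n
  by_cases hn : (ℓ : ℤ) ∣ n
  · obtain ⟨k, rfl⟩ := hn
    rw [qExpand_coeff_mul, contract_coeff]
  · rw [qExpand_coeff_of_not_dvd ℓ _ hn, h n hn]

theorem twist_qExpand (ℓ : ℕ) [NeZero ℓ] (z : Rˣ) (hz : z ^ ℓ = 1) (f : LaurentSeries R) :
    twist z (qExpand R ℓ f) = qExpand R ℓ f := by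
  ext n
  rw [twist_coeff]
  by_cases hn : (ℓ : ℤ) ∣ n
  · obtain ⟨k, rfl⟩ := hn
    rw [zpow_mul, zpow_natCast, hz, one_zpow, Units.val_one, one_mul]
  · rw [qExpand_coeff_of_not_dvd ℓ _ hn, mul_zero]

theorem coeffMap_qExpand'' (φ : R →+* S) (n : ℕ) [NeZero n] (x : LaurentSeries R) :
    coeffMap φ (qExpand R n x) = qExpand S n (coeffMap φ x) := by
  ext k
  by_cases hk : (n : ℤ) ∣ k
  · obtain ⟨m, rfl⟩ := hk
    rw [coeffMap_coeff, qExpand_coeff_mul, qExpand_coeff_mul, coeffMap_coeff]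
  · rw [coeffMap_coeff, qExpand_coeff_of_not_dvd n _ hk, qExpand_coeff_of_not_dvd n _ hk,
      map_zero]

end Ring

section Field

variable {K : Type*} [Field K] (ℓ : ℕ) [NeZero ℓ]

/-- the product `∏_{z^ℓ = 1} f(z q)` -/
def prodTwist (f : LaurentSeries K) : LaurentSeries K :=
  haveI : Fintype (rootsOfUnity ℓ K) := Fintype.ofFinite _
  ∏ z : rootsOfUnity ℓ K, twist (z : Kˣ) f

theorem normL_def (f : LaurentSeries K) : normL ℓ f = contract ℓ (prodTwist ℓ f) := rfl

theorem prodTwist_mul (f g : LaurentSeries K) :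
    prodTwist ℓ (f * g) = prodTwist ℓ f * prodTwist ℓ g := by
  unfold prodTwist
  rw [← Finset.prod_mul_distrib]
  exact Finset.prod_congr rfl fun z _ => twist_mul _ f g

theorem twist_prodTwist (w : rootsOfUnity ℓ K) (f : LaurentSeries K) :
    twist (w : Kˣ) (prodTwist ℓ f) = prodTwist ℓ f := by
  unfold prodTwist
  letI : Fintype (rootsOfUnity ℓ K) := Fintype.ofFinite _
  rw [← twistHom_apply, map_prod]
  simp only [twistHom_apply, twist_twist]
  exact Fintype.prod_equiv (Equiv.mulLeft w) (fun z : rootsOfUnity ℓ K => twist ((w : Kˣ) * (z : Kˣ)) f)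
    (fun z : rootsOfUnity ℓ K => twist (z : Kˣ) f) fun z => rfl

theorem prodTwist_coeff_of_not_dvd (hζ : ∃ ζ : K, IsPrimitiveRoot ζ ℓ) (f : LaurentSeries K)
    (n : ℤ) (hn : ¬ (ℓ : ℤ) ∣ n) : (prodTwist ℓ f).coeff n = 0 := by
  obtain ⟨ζ, hζ⟩ := hζ
  have hu : IsUnit ζ := hζ.isUnit (NeZero.ne ℓ)
  obtain ⟨u, rfl⟩ := hu
  have hu' : IsPrimitiveRoot u ℓ := IsPrimitiveRoot.coe_units_iff.mp hζ
  have hmem : u ∈ rootsOfUnity ℓ K := by
    rw [mem_rootsOfUnity]; exact hu'.pow_eq_one
  have h := congrArg (fun x => HahnSeries.coeff x n) (twist_prodTwist ℓ ⟨u, hmem⟩ f)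
  simp only [twist_coeff] at h
  have h1 : ((u ^ n : Kˣ) : K) ≠ 1 := by
    intro h2
    have h3 : u ^ n = 1 := Units.ext h2
    exact hn ((hu'.zpow_eq_one_iff_dvd n).mp h3)
  have h4 : (((u ^ n : Kˣ) : K) - 1) * (prodTwist ℓ f).coeff n = 0 := by
    rw [sub_mul, h, one_mul, sub_self]
  exact (mul_eq_zero.mp h4).resolve_left (sub_ne_zero.mpr h1)

theorem qExpand_normL (hζ : ∃ ζ : K, IsPrimitiveRoot ζ ℓ) (f : LaurentSeries K) :
    qExpand K ℓ (normL ℓ f) = prodTwist ℓ f :=
  qExpand_contract ℓ _ (prodTwist_coeff_of_not_dvd ℓ hζ f)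

theorem normL_mul (hζ : ∃ ζ : K, IsPrimitiveRoot ζ ℓ) (f g : LaurentSeries K) :
    normL ℓ (f * g) = normL ℓ f * normL ℓ g := by
  apply qExpand_injective (R := K) ℓ
  rw [map_mul, qExpand_normL ℓ hζ, qExpand_normL ℓ hζ, qExpand_normL ℓ hζ, prodTwist_mul]

theorem heckeMul_mul (hζ : ∃ ζ : K, IsPrimitiveRoot ζ ℓ) (f g : LaurentSeries K) :
    heckeMul ℓ (f * g) = heckeMul ℓ f * heckeMul ℓ g := by
  unfold heckeMul
  rw [map_mul, normL_mul ℓ hζ]
  ring

theorem prodTwist_C (c : K) : prodTwist ℓ (HahnSeries.C c) =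
    HahnSeries.C (c ^ Nat.card (rootsOfUnity ℓ K)) := by
  unfold prodTwist
  letI : Fintype (rootsOfUnity ℓ K) := Fintype.ofFinite _
  have : ∀ z : rootsOfUnity ℓ K, twist (z : Kˣ) (HahnSeries.C c) = HahnSeries.C c := by
    intro z
    ext n
    rw [twist_coeff, HahnSeries.C_apply, HahnSeries.coeff_single]
    split_ifs with h
    · subst h; simp
    · simp
  simp only [this, Finset.prod_const, Finset.card_univ, Nat.card_eq_fintype_card, map_pow]

theorem heckeMul_C (c : K) : heckeMul ℓ (HahnSeries.C c) =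
    HahnSeries.C (c * c ^ Nat.card (rootsOfUnity ℓ K)) := by
  unfold heckeMul
  rw [normL_def, prodTwist_C, qExpand_C, map_mul]
  congr 1
  ext n
  rw [contract_coeff, HahnSeries.C_apply, HahnSeries.coeff_single, HahnSeries.coeff_single]
  simp [NeZero.ne ℓ]

end Field

end

end Fermat.Agent.ESLib
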