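import Mathlib
import Fermat.Agent.ES.KDefs

/-!
# ES cluster, block H2: the multiplicative Hecke operator on functions on `ℍ`
-/

set_option autoImplicit false

open UpperHalfPlane ModularForm CongruenceSubgroup
open scoped MatrixGroups Manifold

namespace Fermat.Agent.ESLib

noncomputable section

open P2MW.S_ModularForm_heckeT_slash_eq_self_of_mem_Gamma0.ModularForm.HeckeSlashInvariance in
/-- `∏_x u ∣[k] δ_x` over the standard representatives `δ_x = heckeRep ℓ x` of `T_ℓ` -/
def heckeProd (k : ℤ) (ℓ : ℕ) [NeZero ℓ] (u : ℍ → ℂ) : ℍ → ℂ :=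
  ∏ x : OnePoint (ZMod ℓ), u ∣[k] heckeRep ℓ x

end

end Fermat.Agent.ESLib
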