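import Fermat.Agent.ES.KDefs
import Fermat.Agent.ES.Formal

/-!
# ES block H2, leaf (HE): `heckeMul` commutes with `iotaC`; powers
-/

set_option autoImplicit false
set_option synthInstance.maxHeartbeats 400000

open UpperHalfPlane ModularForm CongruenceSubgroup ModularCurve
open scoped MatrixGroups Manifold
open Fermat.Agent.S18Lib Fermat.Agent.S20Lib Fermat.Agent.S24Lib

namespace Fermat.Agent.ESLib

noncomputable section

theorem he_bijective (ℓ : ℕ) [NeZero ℓ] :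
    Function.Bijective (restrictRootsOfUnity (iotaC : Qb →* ℂ) ℓ) := by
  have hinj : Function.Injective (restrictRootsOfUnity (iotaC : Qb →* ℂ) ℓ) := by
    intro a b h
    have h1 := congrArg (fun z : rootsOfUnity ℓ ℂ => ((z : ℂˣ) : ℂ)) h
    simp only [restrictRootsOfUnity_coe_apply] at h1
    exact Subtype.ext (Units.ext (iotaC.injective h1))
  haveI : NeZero ((ℓ : ℕ) : ℚ) := ⟨by exact_mod_cast NeZero.ne ℓ⟩
  haveI : NeZero ((ℓ : ℕ) : ℂ) := ⟨by exact_mod_cast NeZero.ne ℓ⟩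
  have h1 : Nat.card (rootsOfUnity ℓ Qb) = ℓ := HasEnoughRootsOfUnity.natCard_rootsOfUnity Qb ℓ
  have h2 : Nat.card (rootsOfUnity ℓ ℂ) = ℓ := HasEnoughRootsOfUnity.natCard_rootsOfUnity ℂ ℓ
  exact (Nat.bijective_iff_injective_and_card _).mpr ⟨hinj, by rw [h1, h2]⟩

theorem he_prodTwist (ℓ : ℕ) [NeZero ℓ] (x : LaurentSeries Qb) :
    coeffMap iotaC (prodTwist ℓ x) = prodTwist ℓ (coeffMap iotaC x) := by
  unfold prodTwist
  letI : Fintype (rootsOfUnity ℓ Qb) := Fintype.ofFinite _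
  letI : Fintype (rootsOfUnity ℓ ℂ) := Fintype.ofFinite _
  rw [map_prod]
  refine Fintype.prod_bijective _ (he_bijective ℓ) _ _ fun z => ?_
  rw [coeffMap_twist]
  rfl

theorem coeffMap_iotaC_heckeMul (ℓ : ℕ) [NeZero ℓ] (x : LaurentSeries Qb) :
    coeffMap iotaC (heckeMul ℓ x) = heckeMul ℓ (coeffMap iotaC x) := by
  unfold heckeMul
  rw [map_mul, coeffMap_qExpand'', normL_def, normL_def, coeffMap_contract, he_prodTwist]

theorem he_prim (ℓ : ℕ) [NeZero ℓ] : ∃ ζ : ℂ, IsPrimitiveRoot ζ ℓ :=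
  ⟨_, Complex.isPrimitiveRoot_exp ℓ (NeZero.ne ℓ)⟩

theorem heckeMul_pow_C (ℓ : ℕ) [NeZero ℓ] (x : LaurentSeries ℂ) (n : ℕ) :
    heckeMul ℓ (x ^ n) = heckeMul ℓ x ^ n := by
  induction n with
  | zero =>
    rw [pow_zero, pow_zero]
    have := heckeMul_C (K := ℂ) ℓ 1
    simpa using this
  | succ n ih => rw [pow_succ, pow_succ, heckeMul_mul ℓ (he_prim ℓ), ih]

end

end Fermat.Agent.ESLib
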