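import Fermat.Agent.ES.HeckeProdInv

/-!
# ES block H2, leaf (HB): `heckeProd` is bounded at all cusps
-/

set_option autoImplicit false
set_option synthInstance.maxHeartbeats 400000

open UpperHalfPlane ModularForm Matrix.SpecialLinearGroup CongruenceSubgroup ModularCurve
open scoped MatrixGroups Manifold
open Fermat.Agent.S18Lib Fermat.Agent.S20Lib Fermat.Agent.S28Lib Fermat.Agent.S24Lib
open Fermat.Agent.LevelRaise
open P2MW.S_ModularForm_heckeT_slash_eq_self_of_mem_Gamma0.ModularForm.HeckeSlashInvariance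

namespace Fermat.Agent.ESLib

noncomputable section

theorem hb_bdd_slash_rep (k : ℤ) (ℓ : ℕ) [NeZero ℓ] (x : OnePoint (ZMod ℓ)) {w : ℍ → ℂ}
    (hw : IsBoundedAtImInfty w) : IsBoundedAtImInfty (w ∣[k] heckeRep ℓ x) := by
  obtain ⟨A, D, B, hA, hD, h⟩ := ha_rep ℓ x
  rw [h]
  have h1 : w ∣[k] triMat A D B =
      (((A : ℂ) * D) ^ (k - 1) * (D : ℂ) ^ (-k)) • (w ∘ fun τ : ℍ => triMat A D B • τ) := by
    ext τ
    rw [slash_triMat_apply k hA hD]
    rfl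
  rw [h1]
  have h2 : IsBoundedAtImInfty (w ∘ fun τ : ℍ => triMat A D B • τ) :=
    hw.comp_tendsto (tendsto_triMat_smul hA hD B)
  exact h2.const_smul_left _

theorem heckeProd_bdd (k : ℤ) {ℓ : ℕ} [NeZero ℓ] (hℓ : ℓ.Prime) {u : ℍ → ℂ}
    (hb : ∀ g : SL(2, ℤ), IsBoundedAtImInfty (u ∣[k] g)) (g : SL(2, ℤ)) :
    IsBoundedAtImInfty (heckeProd k ℓ u ∣[((ℓ : ℤ) + 1) * k] g) := by
  haveI : Fact ℓ.Prime := ⟨hℓ⟩
  rw [ha_prod_slash]
  refine EsymmAux.bdd_prod _ _ fun x _ => ?_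
  obtain ⟨g', -, hmul⟩ := heckeRep_mul (p := ℓ) (N := 1)
    (fun h => hℓ.one_lt.ne' (Nat.dvd_one.mp h)) g (by simp) x
  rw [hmul, SlashAction.slash_mul]
  exact hb_bdd_slash_rep k ℓ _ (hb g')

end

end Fermat.Agent.ESLib
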