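import Fermat.Agent.ES.HDefs
import Fermat.Agent.S28.QI
import Fermat.Agent.S28.Esymm

/-!
# ES block H2, leaf (HA): holomorphy, nonvanishing and transformation law of `heckeProd`
-/

set_option autoImplicit false
set_option synthInstance.maxHeartbeats 400000

open UpperHalfPlane ModularForm Matrix.SpecialLinearGroup CongruenceSubgroup ModularCurve
open scoped MatrixGroups Manifold
open Fermat.Agent.S18Lib Fermat.Agent.S20Lib Fermat.Agent.S28Lib Fermat.Agent.S24Lib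
open Fermat.Agent.LevelRaise
open P2MW.S_ModularForm_heckeT_slash_eq_self_of_mem_Gamma0.ModularForm.HeckeSlashInvariance

namespace Fermat.Agent.ESLib

noncomputable section

theorem ha_rep_infty {ℓ : ℕ} (hℓ : ℓ ≠ 0) : heckeRep ℓ OnePoint.infty = triMat ℓ 1 0 := by
  rw [heckeRep_infty]
  apply Units.ext
  rw [val_heckeDiagMatrix hℓ, val_triMat hℓ one_ne_zero]
  simp

theorem ha_rep_coe {ℓ : ℕ} (hℓ : ℓ ≠ 0) (j : ZMod ℓ) :
    heckeRep ℓ (j : OnePoint (ZMod ℓ)) = triMat 1 ℓ (j.val : ℤ) := by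
  rw [heckeRep_coe]
  apply Units.ext
  rw [val_heckeMatrix hℓ, val_triMat one_ne_zero hℓ]
  simp

theorem ha_rep (ℓ : ℕ) [NeZero ℓ] (x : OnePoint (ZMod ℓ)) :
    ∃ (A D : ℕ) (B : ℤ), A ≠ 0 ∧ D ≠ 0 ∧ heckeRep ℓ x = triMat A D B := by
  induction x using OnePoint.rec with
  | infty => exact ⟨ℓ, 1, 0, NeZero.ne ℓ, one_ne_zero, ha_rep_infty (NeZero.ne ℓ)⟩
  | coe j => exact ⟨1, ℓ, j.val, one_ne_zero, NeZero.ne ℓ, ha_rep_coe (NeZero.ne ℓ) j⟩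

theorem ha_smul_slash (k : ℤ) (ℓ : ℕ) [NeZero ℓ] (x : OnePoint (ZMod ℓ)) (c : ℂ) (u : ℍ → ℂ) :
    (c • u) ∣[k] heckeRep ℓ x = c • (u ∣[k] heckeRep ℓ x) := by
  obtain ⟨A, D, B, hA, hD, h⟩ := ha_rep ℓ x
  rw [h, ModularForm.smul_slash]
  have hσ : UpperHalfPlane.σ (triMat A D B) = .refl ℝ ℂ := by
    rw [UpperHalfPlane.σ, if_pos (det_triMat_pos hA hD B)]
  rw [hσ]
  rfl

theorem ha_card (ℓ : ℕ) [NeZero ℓ] :
    ((Finset.univ : Finset (OnePoint (ZMod ℓ))).card : ℤ) = (ℓ : ℤ) + 1 := by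
  rw [Finset.card_univ]
  have : Fintype.card (OnePoint (ZMod ℓ)) = Fintype.card (ZMod ℓ) + 1 :=
    Fintype.card_option
  rw [this, ZMod.card]
  push_cast
  ring

theorem heckeProd_mdiff (k : ℤ) (ℓ : ℕ) [NeZero ℓ] {u : ℍ → ℂ} (hu : MDiff u) :
    MDiff (heckeProd k ℓ u) :=
  EsymmAux.mdiff_prod _ _ fun x _ => hu.slash k _

theorem ha_slash_ne_zero (k : ℤ) {u : ℍ → ℂ} (hu0 : u ≠ 0) (g : GL (Fin 2) ℝ) :
    u ∣[k] g ≠ 0 := by
  intro h
  apply hu0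
  have := congrArg (fun f => f ∣[k] g⁻¹) h
  simpa [← SlashAction.slash_mul] using this

theorem ha_prod_ne_zero {ι : Type*} (s : Finset ι) (F : ι → ℍ → ℂ) (h : ∀ x ∈ s, MDiff (F x))
    (h0 : ∀ x ∈ s, F x ≠ 0) : ∏ x ∈ s, F x ≠ 0 := by
  classical
  induction s using Finset.induction_on with
  | empty =>
    simp only [Finset.prod_empty]
    intro h1
    have := congrFun h1 UpperHalfPlane.I
    simp at this
  | insert a s ha ih =>
    rw [Finset.prod_insert ha]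
    intro h1
    rcases (UpperHalfPlane.mul_eq_zero_iff (h a (Finset.mem_insert_self a s))
      (EsymmAux.mdiff_prod s F fun x hx => h x (Finset.mem_insert_of_mem hx))).mp h1 with h2 | h2
    · exact h0 a (Finset.mem_insert_self a s) h2
    · exact ih (fun x hx => h x (Finset.mem_insert_of_mem hx))
        (fun x hx => h0 x (Finset.mem_insert_of_mem hx)) h2

theorem heckeProd_ne_zero (k : ℤ) (ℓ : ℕ) [NeZero ℓ] {u : ℍ → ℂ} (hu : MDiff u) (hu0 : u ≠ 0) :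
    heckeProd k ℓ u ≠ 0 :=
  ha_prod_ne_zero _ _ (fun x _ => hu.slash k _) (fun x _ => ha_slash_ne_zero k hu0 _)

theorem ha_prod_slash (k : ℤ) (ℓ : ℕ) [NeZero ℓ] (u : ℍ → ℂ) (g : SL(2, ℤ)) :
    heckeProd k ℓ u ∣[((ℓ : ℤ) + 1) * k] g =
      ∏ x : OnePoint (ZMod ℓ), (u ∣[k] (heckeRep ℓ x * mapGL ℝ g)) := by
  rw [heckeProd, ← ha_card, EsymmAux.prod_slash]
  refine Finset.prod_congr rfl fun x _ => ?_
  rw [SlashAction.slash_mul]
  rfl

theorem heckeProd_slash {N : ℕ} (k : ℤ) (ℓ : ℕ) [NeZero ℓ] {c : Gamma0 N → ℂ} {u : ℍ → ℂ}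
    (hinv : ∀ γ : Gamma0 N, u ∣[k] (γ : SL(2, ℤ)) = c γ • u)
    (γ : Gamma0 N) (γ' : OnePoint (ZMod ℓ) → Gamma0 N) (h : Transfer N ℓ γ γ') :
    heckeProd k ℓ u ∣[((ℓ : ℤ) + 1) * k] (γ : SL(2, ℤ)) = (∏ x, c (γ' x)) • heckeProd k ℓ u := by
  obtain ⟨π, hπ⟩ := h
  rw [ha_prod_slash]
  have h1 : ∀ x, u ∣[k] (heckeRep ℓ x * mapGL ℝ (γ : SL(2, ℤ))) =
      c (γ' x) • (u ∣[k] heckeRep ℓ (π x)) := by
    intro x
    rw [hπ x, SlashAction.slash_mul]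
    have : u ∣[k] mapGL ℝ (γ' x : SL(2, ℤ)) = c (γ' x) • u := hinv (γ' x)
    rw [this, ha_smul_slash]
  rw [Finset.prod_congr rfl fun x _ => h1 x, Finset.prod_smul, heckeProd]
  congr 1
  exact Equiv.prod_comp π (fun x => u ∣[k] heckeRep ℓ x)

end

end Fermat.Agent.ESLib
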