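import Fermat.Agent.ES.NormQ

/-!
# ES block H2, leaf (HD): the `q`-expansion of `heckeProd`
-/

set_option autoImplicit false
set_option synthInstance.maxHeartbeats 400000

open UpperHalfPlane ModularForm Matrix.SpecialLinearGroup CongruenceSubgroup ModularCurve
open scoped MatrixGroups Manifold
open Fermat.Agent.S18Lib Fermat.Agent.S20Lib Fermat.Agent.S28Lib Fermat.Agent.S24Lib
open P2MW.S_ModularForm_heckeT_slash_eq_self_of_mem_Gamma0.ModularForm.HeckeSlashInvariance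

namespace Fermat.Agent.ESLib

noncomputable section

lemma hd_heckeMatrix_smul (ℓ : ℕ) [NeZero ℓ] (j : ℕ) (τ : ℍ) :
    heckeMatrix ℓ j • τ = utr 1 j ℓ τ := by
  apply UpperHalfPlane.ext
  rw [coe_heckeMatrix_smul (NeZero.ne ℓ), coe_utr one_pos (hc_pos ℓ)]
  simp

/-- the constant in `heckeProd` -/
def hdC (k : ℤ) (ℓ : ℕ) : ℂ := (ℓ : ℂ) ^ (k - 1) * ((ℓ : ℂ)⁻¹) ^ ℓ

lemma hdC_ne_zero (k : ℤ) (ℓ : ℕ) [NeZero ℓ] : hdC k ℓ ≠ 0 := by
  have h : (ℓ : ℂ) ≠ 0 := by exact_mod_cast NeZero.ne ℓ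
  exact mul_ne_zero (zpow_ne_zero _ h) (pow_ne_zero _ (inv_ne_zero h))

lemma heckeProd_eq (k : ℤ) (ℓ : ℕ) [NeZero ℓ] (u : ℍ → ℂ) :
    heckeProd k ℓ u = hdC k ℓ • ((fun τ => u (utr ℓ 0 1 τ)) *
      (fun τ => ∏ j : ZMod ℓ, u (utr 1 j.val ℓ τ))) := by
  funext τ
  have h1 : heckeProd k ℓ u τ = ∏ x : OnePoint (ZMod ℓ), (u ∣[k] heckeRep ℓ x) τ := by
    rw [heckeProd, Finset.prod_apply]
  have h2 := Fintype.prod_option (fun x : OnePoint (ZMod ℓ) => (u ∣[k] heckeRep ℓ x) τ)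
  have h3 : (u ∣[k] heckeRep ℓ (none : Option (ZMod ℓ))) τ =
      (ℓ : ℂ) ^ (k - 1) * u (utr ℓ 0 1 τ) := by
    rw [TranslateAux.utr_eq_heckeDiag (NeZero.ne ℓ)]
    exact slash_heckeDiagMatrix_apply k (NeZero.ne ℓ) u τ
  have h4 : ∀ j : ZMod ℓ, (u ∣[k] heckeRep ℓ (some j : Option (ZMod ℓ))) τ =
      (ℓ : ℂ)⁻¹ * u (utr 1 j.val ℓ τ) := by
    intro j
    rw [← hd_heckeMatrix_smul]
    exact slash_heckeMatrix_apply k (NeZero.ne ℓ) j.val u τ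
  rw [h1]
  refine h2.trans ?_
  rw [h3]
  simp only [h4]
  rw [Finset.prod_mul_distrib, Finset.prod_const, Finset.card_univ, ZMod.card]
  simp only [Pi.smul_apply, Pi.mul_apply, smul_eq_mul, hdC]
  ring

lemma hd_qi_dilate (ℓ : ℕ) [NeZero ℓ] {u : ℍ → ℂ} (hu : QI ⊤ 1 u) :
    QI ⊤ 1 (fun τ => u (utr ℓ 0 1 τ)) :=
  QI.comp_utr one_pos (Subring.mem_top _) hu (hc_pos ℓ) one_pos (one_dvd _)

lemma hd_qExpand (d : ℕ) [NeZero d] (p : PowerSeries ℂ) :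
    qExpand ℂ d (HahnSeries.ofPowerSeries ℤ ℂ p) =
      HahnSeries.ofPowerSeries ℤ ℂ (PowerSeries.expand d (NeZero.ne d) p) := by
  have hd := NeZero.ne d
  ext k
  by_cases hk : (d : ℤ) ∣ k
  · obtain ⟨m, rfl⟩ := hk
    rw [qExpand_coeff_mul]
    rcases le_or_gt 0 m with hm | hm
    · lift m to ℕ using hm
      rw [HahnSeries.ofPowerSeries_apply_coeff,
        show (d : ℤ) * (m : ℤ) = ((d * m : ℕ) : ℤ) by push_cast; ring,
        HahnSeries.ofPowerSeries_apply_coeff, PowerSeries.coeff_expand_mul]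
    · rw [ofPowerSeries_coeff_of_neg _ hm, ofPowerSeries_coeff_of_neg]
      have : (0 : ℤ) < d := by exact_mod_cast Nat.pos_of_ne_zero hd
      nlinarith
  · rw [qExpand_coeff_of_not_dvd d _ hk]
    rcases le_or_gt 0 k with hk0 | hk0
    · lift k to ℕ using hk0
      rw [HahnSeries.ofPowerSeries_apply_coeff, PowerSeries.coeff_expand_of_not_dvd]
      intro h
      exact hk (by exact_mod_cast h)
    · rw [ofPowerSeries_coeff_of_neg _ hk0]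

theorem qi_heckeProd (k : ℤ) (ℓ : ℕ) [NeZero ℓ] {u : ℍ → ℂ} (hu : QI ⊤ 1 u) :
    QI ⊤ 1 (heckeProd k ℓ u) := by
  rw [heckeProd_eq]
  exact (QI.const one_pos (Subring.mem_top (hdC k ℓ))).mul one_pos
    ((hd_qi_dilate ℓ hu).mul one_pos (qi_prod_utr ℓ hu))

theorem exists_qL_heckeProd (k : ℤ) (ℓ : ℕ) [NeZero ℓ] :
    ∃ c : ℂ, c ≠ 0 ∧ ∀ u : ℍ → ℂ, QI ⊤ 1 u →
      qL (heckeProd k ℓ u) = HahnSeries.C c * heckeMul ℓ (qL u) := by
  refine ⟨hdC k ℓ, hdC_ne_zero k ℓ, fun u hu => ?_⟩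
  have h1 := (hd_qi_dilate ℓ hu).analytic one_pos
  have h2 := (qi_prod_utr ℓ hu).analytic one_pos
  have h3 := ((hd_qi_dilate ℓ hu).mul one_pos (qi_prod_utr ℓ hu)).analytic one_pos
  simp only [Nat.cast_one] at h1 h2 h3
  rw [heckeProd_eq, qL, qExpansion_smul h3, qExpansion_mul h1 h2, qExpansion_dilate hu (NeZero.ne ℓ),
    heckeMul, ← qL_prod_utr ℓ hu, qL, qL, hd_qExpand, ← map_mul, PowerSeries.smul_eq_C_mul, map_mul,
    HahnSeries.ofPowerSeries_C]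

end

end Fermat.Agent.ESLib
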