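import Fermat.Agent.ES.KDefs
import Fermat.Agent.S18.PowDescent
import Fermat.Agent.S24.Fibres
import Fermat.Agent.Lib.FF.Zeros

/-!
# ES library, Block E (1): the Kummer lemma in the form "same reduction ⇒ `m`-th power"
-/

set_option autoImplicit false
set_option synthInstance.maxHeartbeats 400000

open AlgebraicCurve ModularCurve

namespace Fermat.Agent.ESLib

open Fermat.Agent.S18Lib Fermat.Agent.S24Lib Fermat.Agent.FFLib

/-- the statement of the Kummer lemma `KL` (proved in the S18 library) -/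
def KLHyp (N : ℕ) (A : ValuationSubring Qb) (m : ℕ) : Prop :=
  ∀ (y₁ y₂ : LaurentSeries A) (h₁ : coeffMap A.subtype y₁ ∈ FB N)
    (h₂ : coeffMap A.subtype y₂ ∈ FB N),
    coeffMap (IsLocalRing.residue A) y₂ ≠ 0 →
    coeffMap (IsLocalRing.residue A) y₁ = coeffMap (IsLocalRing.residue A) y₂ →
    ∀ D : Divisor Qb (FB N),
    (∀ P : Place Qb (FB N), P.ord (⟨coeffMap A.subtype y₁, h₁⟩ : FB N) -
      P.ord (⟨coeffMap A.subtype y₂, h₂⟩ : FB N) = m * D P) →
    Divisor.IsPrincipal D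

theorem E_ne_zero_of_red {A : ValuationSubring Qb} {y : LaurentSeries A}
    (h : coeffMap (IsLocalRing.residue A) y ≠ 0) : coeffMap A.subtype y ≠ 0 := by
  intro h0
  apply h
  have : y = 0 := by
    ext n
    have := congrArg (fun z => HahnSeries.coeff z n) h0
    simpa using this
  rw [this, map_zero]

theorem kl_pow {N : ℕ} [NeZero N] {A : ValuationSubring Qb} {m : ℕ} (hm : m ≠ 0)
    (hKL : KLHyp N A m) (x : FB N) (hx : IsKum N m x) (c : Qb) (hc : c ≠ 0)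
    (Z₁ Z₂ : LaurentSeries A) (h₁ : coeffMap A.subtype Z₁ ∈ FB N)
    (h₂ : coeffMap A.subtype Z₂ ∈ FB N)
    (hne : coeffMap (IsLocalRing.residue A) Z₂ ≠ 0)
    (heq : coeffMap (IsLocalRing.residue A) Z₁ = coeffMap (IsLocalRing.residue A) Z₂)
    (hrel : (x : LaurentSeries Qb) * coeffMap A.subtype Z₂
      = algebraMap Qb (LaurentSeries Qb) c * coeffMap A.subtype Z₁) :
    ∃ w : FB N, x = w ^ m := by
  have hFF : IsFF Qb (FB N) := isFF_bar N
  set z₁ : FB N := ⟨coeffMap A.subtype Z₁, h₁⟩ with hz₁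
  set z₂ : FB N := ⟨coeffMap A.subtype Z₂, h₂⟩ with hz₂
  have hz₂0 : z₂ ≠ 0 := fun h => E_ne_zero_of_red hne (congrArg Subtype.val h)
  have hz₁0 : z₁ ≠ 0 := fun h => E_ne_zero_of_red (heq ▸ hne) (congrArg Subtype.val h)
  have hrel' : x * z₂ = algebraMap Qb (FB N) c * z₁ := Subtype.ext hrel
  have hc' : algebraMap Qb (FB N) c ≠ 0 := by
    rw [Ne, map_eq_zero]; exact hc
  have hmZ : (m : ℤ) ≠ 0 := by exact_mod_cast hm
  let D : Divisor Qb (FB N) := (divOf Qb x).mapRange (fun a => a / (m : ℤ)) (by simp)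
  have hD : ∀ P : Place Qb (FB N), P.ord z₁ - P.ord z₂ = m * D P := by
    intro P
    have h1 := congrArg P.ord hrel'
    rw [P.ord_mul hx.1 hz₂0, P.ord_mul hc' hz₁0, ord_algebraMap P c, zero_add] at h1
    show _ = (m : ℤ) * ((divOf Qb x).mapRange (fun a => a / (m : ℤ)) (by simp)) P
    rw [Finsupp.mapRange_apply, divOf_apply hFF, Int.mul_ediv_cancel' (hx.2 P)]
    omega
  obtain ⟨g, hg0, hg⟩ := hKL Z₁ Z₂ h₁ h₂ hne heq D hD
  have hord : ∀ P : Place Qb (FB N), P.ord (x * (g ^ m)⁻¹) = 0 := by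
    intro P
    rw [P.ord_mul hx.1 (inv_ne_zero (pow_ne_zero _ hg0)), P.ord_inv, ← zpow_natCast, P.ord_zpow, ← hg P]
    have h1 := congrArg P.ord hrel'
    rw [P.ord_mul hx.1 hz₂0, P.ord_mul hc' hz₁0, ord_algebraMap P c, zero_add] at h1
    have := hD P
    omega
  obtain ⟨a, ha⟩ := D1_mem_range_of_ord_eq_zero hFF _ hord
  obtain ⟨b, hb⟩ := IsAlgClosed.exists_pow_nat_eq a (Nat.pos_of_ne_zero hm)
  refine ⟨algebraMap Qb (FB N) b * g, ?_⟩
  rw [mul_pow, ← map_pow, hb]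
  have ha' : algebraMap Qb (FB N) a = x * (g ^ m)⁻¹ := ha
  rw [ha', mul_assoc, inv_mul_cancel₀ (pow_ne_zero _ hg0), mul_one]

end Fermat.Agent.ESLib
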