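import Fermat.Agent.ES.Chr
import Fermat.Agent.S16.Lower.Final

/-!
# ES Block R, leaf (RL): every elliptic-parabolic character of exponent `m` is a `chrHom m φ`
-/

set_option autoImplicit false
set_option synthInstance.maxHeartbeats 400000

open AlgebraicCurve ModularCurve CongruenceSubgroup UpperHalfPlane ModularForm
open scoped MatrixGroups Manifold

namespace Fermat.Agent.ESLib

open Fermat.Agent.S16Lib ModularCurve.Period

noncomputable section

/-- `a ↦ exp(2πi φ(a)/m)` as an additive homomorphism to `Additive ℂˣ` -/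
def rl_exp {A : Type*} [AddCommGroup A] (m : ℕ) (φ : A →+ ℤ) : A →+ Additive ℂˣ where
  toFun a := Additive.ofMul (Units.mk0
    (Complex.exp (2 * Real.pi * Complex.I * (φ a : ℂ) / (m : ℂ))) (Complex.exp_ne_zero _))
  map_zero' := by
    rw [← ofMul_one]
    congr 1
    apply Units.ext
    simp
  map_add' a b := by
    rw [← ofMul_mul]
    congr 1
    apply Units.ext
    simp only [Units.val_mk0, Units.val_mul, map_add, Int.cast_add]
    rw [← Complex.exp_add]
    congr 1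
    ring

theorem rl_root (m : ℕ) (hm : 0 < m) (z : ℂˣ) (hz : z ^ m = 1) :
    ∃ n : ℤ, (z : ℂ) = Complex.exp (2 * Real.pi * Complex.I * (n : ℂ) / (m : ℂ)) := by
  have hm0 : m ≠ 0 := hm.ne'
  have hz' : (z : ℂ) ^ m = 1 := by
    rw [← Units.val_pow_eq_pow_val, hz, Units.val_one]
  have : NeZero m := ⟨hm0⟩
  obtain ⟨i, -, hi⟩ := (Complex.isPrimitiveRoot_exp m hm0).eq_pow_of_pow_eq_one hz'
  refine ⟨i, ?_⟩
  rw [← hi, ← Complex.exp_nat_mul]
  congr 1
  push_cast
  ring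

theorem rl_abs {A : Type*} [AddCommGroup A] [AddGroup.FG A] [IsAddTorsionFree A]
    (m : ℕ) (hm : 0 < m) (χ : A →+ Additive ℂˣ) (hn : ∀ a, m • χ a = 0) :
    ∃ φ : A →+ ℤ, rl_exp m φ = χ := by
  have : Module.Finite ℤ A := Module.Finite.iff_addGroup_fg.mpr inferInstance
  have : Module.Free ℤ A := Module.free_of_finite_type_torsion_free'
  let b := Module.Free.chooseBasis ℤ A
  have h1 : ∀ i, ∃ n : ℤ, ((Additive.toMul (χ (b i)) : ℂˣ) : ℂ)
      = Complex.exp (2 * Real.pi * Complex.I * (n : ℂ) / (m : ℂ)) := by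
    intro i
    apply rl_root m hm
    have := hn (b i)
    exact this
  choose n hn' using h1
  refine ⟨(b.constr ℤ n).toAddMonoidHom, ?_⟩
  have h2 : (rl_exp m (b.constr ℤ n).toAddMonoidHom).toIntLinearMap = χ.toIntLinearMap := by
    refine b.ext fun i => ?_
    have h3 : (b.constr ℤ n).toAddMonoidHom (b i) = n i := by
      show b.constr ℤ n (b i) = n i
      rw [Module.Basis.constr_basis]
    show rl_exp m _ (b i) = χ (b i)
    apply Additive.toMul.injective
    apply Units.ext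
    rw [hn' i]
    show Complex.exp _ = _
    rw [h3]
  exact AddMonoidHom.toIntLinearMap_injective h2

theorem rl_eq_zero (N : ℕ) [NeZero N] (a : Additive (tf_Q (Gamma0 N))) (n : ℕ) (hn : n ≠ 0)
    (h : n • a = 0) : a = 0 := by
  obtain ⟨γ, hγ⟩ := tf_pi_surjective (Gamma0 N) (Additive.toMul a)
  have h1 : tf_pi (Gamma0 N) γ = 1 := by
    refine eq_one_of_forall_parabolicHoms (Gamma0 N) (S21Lib.neg_one_mem_Gamma0 N) (hdim_Gamma0 N)
      (tf_pi (Gamma0 N)) (fun γ h => tf_pi_eq_one h) γ ?_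
    intro ψ hψ
    rw [← tf_ellPar_eq] at hψ
    obtain ⟨f, hf⟩ := (tf_toEllPar_bijective (Gamma0 N) ℂ).2 ⟨ψ, hψ⟩
    have h2 : ψ (Additive.ofMul γ) = f (Additive.ofMul (tf_pi (Gamma0 N) γ)) := by
      have := congrArg (fun x : ellParHoms ℂ (Gamma0 N) =>
        (x : Additive (Gamma0 N) →+ ℂ) (Additive.ofMul γ)) hf
      exact this.symm
    rw [h2, hγ]
    have h3 : n • f a = 0 := by rw [← map_nsmul, h, map_zero]
    rw [nsmul_eq_mul] at h3
    have hn' : (n : ℂ) ≠ 0 := by exact_mod_cast hn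
    exact (mul_eq_zero.mp h3).resolve_left hn'
  rw [hγ] at h1
  exact h1

theorem rl_torsionFree (N : ℕ) [NeZero N] : IsAddTorsionFree (Additive (tf_Q (Gamma0 N))) := by
  refine ⟨fun n hn a b hab => ?_⟩
  have h : n • (a - b) = 0 := by
    rw [smul_sub, sub_eq_zero]
    exact hab
  exact sub_eq_zero.mp (rl_eq_zero N _ n hn h)

theorem exists_lift_chr (N : ℕ) [NeZero N] (m : ℕ) (hm : 0 < m) (χ : Gamma0 N →* ℂˣ)
    (hχ : IsEllPar χ) (hn : ∀ γ, χ γ ^ m = 1) : ∃ φ ∈ EP N ℤ, chrHom m φ = χ := by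
  have := rl_torsionFree N
  have := tf_fg (Gamma0 N)
  have hχ' : ∀ γ ∈ tf_S (Gamma0 N), χ γ = 1 := fun γ hγ => hχ γ hγ
  obtain ⟨φ0, hφ0⟩ := rl_abs m hm (MonoidHom.toAdditive (tf_lift χ hχ')) (by
    intro a
    obtain ⟨γ, hγ⟩ := tf_pi_surjective (Gamma0 N) (Additive.toMul a)
    show Additive.ofMul ((tf_lift χ hχ' (Additive.toMul a)) ^ m) = 0
    rw [← hγ, tf_lift_pi, hn]
    rfl)
  refine ⟨φ0.comp (MonoidHom.toAdditive (tf_pi (Gamma0 N))), ?_, ?_⟩
  · intro γ hγ
    show φ0 (Additive.ofMul (tf_pi (Gamma0 N) γ)) = 0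
    rw [tf_pi_eq_one (show γ ∈ tf_S (Gamma0 N) from hγ)]
    exact map_zero φ0
  · ext γ
    have h1 := DFunLike.congr_fun hφ0 (Additive.ofMul (tf_pi (Gamma0 N) γ))
    have h2 : Additive.toMul (rl_exp m φ0 (Additive.ofMul (tf_pi (Gamma0 N) γ))) = χ γ := by
      rw [h1]
      show tf_lift χ hχ' (tf_pi (Gamma0 N) γ) = χ γ
      rw [tf_lift_pi]
    rw [← h2, coe_chrHom]
    rfl

end

end Fermat.Agent.ESLib
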