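import Fermat.Agent.ES.HDefs
import Fermat.Agent.ES.Formal
import Fermat.Agent.S28.QI
import Fermat.Prelude.Thm_UpperHalfPlane_qExpansion_prod

/-!
# ES block H2, leaf (HC): the `q`-expansion of `∏_j u((τ+j)/ℓ)`
-/

set_option autoImplicit false
set_option synthInstance.maxHeartbeats 400000

open UpperHalfPlane ModularForm Matrix.SpecialLinearGroup CongruenceSubgroup ModularCurve
open scoped MatrixGroups Manifold
open Fermat.Agent.S18Lib Fermat.Agent.S20Lib Fermat.Agent.S28Lib Fermat.Agent.S24Lib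

namespace Fermat.Agent.ESLib

noncomputable section

local notation "𝕢" => Function.Periodic.qParam

/-- `exp(2πi/ℓ)` as a unit -/
def hcZ (ℓ : ℕ) : ℂˣ :=
  Units.mk0 (Complex.exp (2 * Real.pi * Complex.I / ℓ)) (Complex.exp_ne_zero _)

lemma hc_prim (ℓ : ℕ) [NeZero ℓ] : IsPrimitiveRoot (hcZ ℓ) ℓ :=
  IsPrimitiveRoot.coe_units_iff.mp (Complex.isPrimitiveRoot_exp ℓ (NeZero.ne ℓ))

variable (ℓ : ℕ) [NeZero ℓ]

lemma hc_pos : 0 < ℓ := Nat.pos_of_ne_zero (NeZero.ne ℓ)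

lemma hc_qi {u : ℍ → ℂ} (hu : QI ⊤ 1 u) (j : ℕ) : QI ⊤ ℓ (fun τ => u (utr 1 j ℓ τ)) :=
  QI.comp_utr (hc_pos ℓ) (Subring.mem_top _) hu one_pos (hc_pos ℓ) dvd_rfl

lemma hc_coeff {u : ℍ → ℂ} (hu : QI ⊤ 1 u) (j m : ℕ) :
    (qExpansion ℓ (fun τ => u (utr 1 j ℓ τ))).coeff m =
      (((hcZ ℓ ^ j) ^ m : ℂˣ) : ℂ) * (qExpansion 1 u).coeff m := by
  have hℓ : (0 : ℝ) < ℓ := by exact_mod_cast hc_pos ℓ
  have h := fun τ => QIAux.hasSum_comp_utr (a := 1) (b := j) (a' := ℓ) (t := 1) hu one_pos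
    (hc_pos ℓ) one_pos τ
  simp only [mul_one, one_dvd, if_true, Nat.div_one] at h
  rw [← QIAux.coeff_unique hℓ ((hc_qi ℓ hu j).analytic (hc_pos ℓ)) h m, mul_comm]
  simp [hcZ]

lemma hc_twist {u : ℍ → ℂ} (hu : QI ⊤ 1 u) (j : ℕ) :
    HahnSeries.ofPowerSeries ℤ ℂ (qExpansion ℓ (fun τ => u (utr 1 j ℓ τ))) =
      twist (hcZ ℓ ^ j) (qL u) := by
  ext n
  rw [twist_coeff, qL]
  rcases lt_or_ge n 0 with hn | hn
  · rw [ofPowerSeries_coeff_of_neg _ hn, ofPowerSeries_coeff_of_neg _ hn, mul_zero]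
  · lift n to ℕ using hn
    rw [HahnSeries.ofPowerSeries_apply_coeff, HahnSeries.ofPowerSeries_apply_coeff,
      hc_coeff ℓ hu, zpow_natCast]

lemma hc_prod_twist (f : LaurentSeries ℂ) :
    ∏ j : ZMod ℓ, twist (hcZ ℓ ^ j.val) f = prodTwist ℓ f := by
  unfold prodTwist
  let _ : Fintype (rootsOfUnity ℓ ℂ) := Fintype.ofFinite _
  have hmem : ∀ j : ZMod ℓ, hcZ ℓ ^ j.val ∈ rootsOfUnity ℓ ℂ := by
    intro j
    rw [mem_rootsOfUnity, ← pow_mul, mul_comm, pow_mul, (hc_prim ℓ).pow_eq_one, one_pow]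
  refine Fintype.prod_bijective (fun j : ZMod ℓ => (⟨hcZ ℓ ^ j.val, hmem j⟩ : rootsOfUnity ℓ ℂ))
    ?_ _ _ (fun j => rfl)
  rw [Fintype.bijective_iff_injective_and_card]
  constructor
  · intro i j hij
    have h1 : hcZ ℓ ^ i.val = hcZ ℓ ^ j.val := congrArg Subtype.val hij
    exact ZMod.val_injective ℓ ((hc_prim ℓ).pow_inj (ZMod.val_lt i) (ZMod.val_lt j) h1)
  · rw [ZMod.card, ← Nat.card_eq_fintype_card, (hc_prim ℓ).card_rootsOfUnity']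

lemma hc_fun_eq (u : ℍ → ℂ) :
    (fun τ => ∏ j : ZMod ℓ, u (utr 1 j.val ℓ τ)) =
      ∏ j : ZMod ℓ, (fun τ => u (utr 1 j.val ℓ τ)) := by
  funext τ
  rw [Finset.prod_apply]

lemma hc_qiL {u : ℍ → ℂ} (hu : QI ⊤ 1 u) :
    QI ⊤ ℓ (fun τ => ∏ j : ZMod ℓ, u (utr 1 j.val ℓ τ)) := by
  rw [hc_fun_eq]
  exact QI.prod (hc_pos ℓ) _ fun j _ => hc_qi ℓ hu j.val

lemma hc_qExpL {u : ℍ → ℂ} (hu : QI ⊤ 1 u) :
    HahnSeries.ofPowerSeries ℤ ℂ (qExpansion ℓ (fun τ => ∏ j : ZMod ℓ, u (utr 1 j.val ℓ τ))) =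
      prodTwist ℓ (qL u) := by
  have h1 := UpperHalfPlane.qExpansion_prod (h := (ℓ : ℝ)) (Finset.univ : Finset (ZMod ℓ))
    (F := fun j : ZMod ℓ => fun τ => u (utr 1 j.val ℓ τ))
    (fun j _ => (hc_qi ℓ hu j.val).analytic (hc_pos ℓ))
  rw [hc_fun_eq, h1, map_prod, ← hc_prod_twist]
  exact Finset.prod_congr rfl fun j _ => hc_twist ℓ hu j.val

lemma hc_coeff_zero {u : ℍ → ℂ} (hu : QI ⊤ 1 u) (m : ℕ) (hm : ¬ ℓ ∣ m) :
    (qExpansion ℓ (fun τ => ∏ j : ZMod ℓ, u (utr 1 j.val ℓ τ))).coeff m = 0 := by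
  have h := prodTwist_coeff_of_not_dvd ℓ ⟨_, Complex.isPrimitiveRoot_exp ℓ (NeZero.ne ℓ)⟩ (qL u)
    (m : ℤ) (by exact_mod_cast hm)
  rwa [← hc_qExpL ℓ hu, HahnSeries.ofPowerSeries_apply_coeff] at h

lemma hc_qParam_pow (z : ℂ) : 𝕢 (ℓ : ℝ) z ^ ℓ = 𝕢 1 z := by
  have h : (ℓ : ℂ) ≠ 0 := by exact_mod_cast NeZero.ne ℓ
  rw [Function.Periodic.qParam, Function.Periodic.qParam, ← Complex.exp_nat_mul]
  congr 1
  push_cast
  field_simp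

lemma hc_hasSum {u : ℍ → ℂ} (hu : QI ⊤ 1 u) (τ : ℍ) :
    HasSum (fun n => (qExpansion ℓ (fun τ => ∏ j : ZMod ℓ, u (utr 1 j.val ℓ τ))).coeff (ℓ * n) •
      𝕢 1 (τ : ℂ) ^ n) (∏ j : ZMod ℓ, u (utr 1 j.val ℓ τ)) := by
  have h := (hc_qiL ℓ hu).hasSum (hc_pos ℓ) τ
  have hinj : Function.Injective (fun n : ℕ => ℓ * n) :=
    fun x y hxy => Nat.eq_of_mul_eq_mul_left (hc_pos ℓ) hxy
  rw [← hinj.hasSum_iff] at h
  · convert h using 2 with n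
    simp only [Function.comp]
    rw [pow_mul, hc_qParam_pow]
  · intro m hm
    have : ¬ ℓ ∣ m := by
      rintro ⟨n, rfl⟩
      exact hm ⟨n, rfl⟩
    rw [hc_coeff_zero ℓ hu m this, zero_smul]

/-- (HC) -/
theorem qi_prod_utr (ℓ : ℕ) [NeZero ℓ] {u : ℍ → ℂ} (hu : QI ⊤ 1 u) :
    QI ⊤ 1 (fun τ => ∏ j : ZMod ℓ, u (utr 1 j.val ℓ τ)) :=
  QI.of_hasSum one_pos (hc_qiL ℓ hu).holo (fun _ => Subring.mem_top _)
    (fun τ => by simpa using hc_hasSum ℓ hu τ)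

theorem qL_prod_utr (ℓ : ℕ) [NeZero ℓ] {u : ℍ → ℂ} (hu : QI ⊤ 1 u) :
    qL (fun τ => ∏ j : ZMod ℓ, u (utr 1 j.val ℓ τ)) = normL ℓ (qL u) := by
  have han := (qi_prod_utr ℓ hu).analytic one_pos
  simp only [Nat.cast_one] at han
  ext n
  rw [normL_def, contract_coeff, ← hc_qExpL ℓ hu, qL]
  rcases lt_or_ge n 0 with hn | hn
  · have hℓ : (0 : ℤ) < ℓ := by exact_mod_cast hc_pos ℓ
    rw [ofPowerSeries_coeff_of_neg _ hn, ofPowerSeries_coeff_of_neg _ (by nlinarith)]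
  · lift n to ℕ using hn
    rw [HahnSeries.ofPowerSeries_apply_coeff, ← Nat.cast_mul,
      HahnSeries.ofPowerSeries_apply_coeff,
      ← QIAux.coeff_unique one_pos han (hc_hasSum ℓ hu) n]

end

end Fermat.Agent.ESLib
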