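import Mathlib
import Fermat.Agent.ES.Defs
import Fermat.Agent.ES.Ratio
import Fermat.Agent.ES.Local

/-!
# ES block (4), leaf (E4): the multiplier only depends on the Kummer class, and detects it
-/

set_option autoImplicit false

open UpperHalfPlane ModularForm Matrix.SpecialLinearGroup CongruenceSubgroup ModularCurve
open AlgebraicCurve IntermediateField
open scoped MatrixGroups Manifold
open Fermat.Agent.S20Lib Fermat.Agent.S28Lib Fermat.Agent.S24Lib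

namespace Fermat.Agent.ESLib

noncomputable section

theorem E4.qL_injective {N : ℕ} [NeZero N] {k l : ℤ} {x y : ℍ → ℂ} (hx : IsMF (Gamma0 N) k x)
    (hy : IsMF (Gamma0 N) l y) (h : qL x = qL y) : x = y := by
  rw [B2.qL_eq hx, B2.qL_eq hy] at h
  have hx' := W2.isMerInf_of_isMF hx
  have hy' := W2.isMerInf_of_isMF hy
  have hc := isMerInf_const 1 (-1)
  have h1 : laurentFun 1 (x + Function.const ℍ (-1) * y) = 0 := by
    rw [laurentFun_add one_pos hx' (hc.mul hy'), laurentFun_mul one_pos hc hy',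
      laurentFun_const one_pos, h, map_neg, map_one]
    ring
  rw [laurentFun_eq_zero_iff one_pos (hx'.add (hc.mul hy'))] at h1
  ext τ
  have h2 := congrFun h1 τ
  simp only [Pi.add_apply, Pi.mul_apply, Function.const_apply, Pi.zero_apply] at h2
  linear_combination h2

theorem E4.ratio_eq_iff {N : ℕ} [NeZero N] {k l : ℤ} {a b c d : ℍ → ℂ}
    (ha : IsMF (Gamma0 N) k a) (hb : IsMF (Gamma0 N) k b) (hc : IsMF (Gamma0 N) l c)
    (hd : IsMF (Gamma0 N) l d) (hb0 : b ≠ 0) (hd0 : d ≠ 0) :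
    ratio N a b = ratio N c d ↔ a * d = c * b := by
  have h1 : qL b ≠ 0 := fun h0 => hb0 ((qL_eq_zero_iff hb).1 h0)
  have h2 : qL d ≠ 0 := fun h0 => hd0 ((qL_eq_zero_iff hd).1 h0)
  rw [Subtype.ext_iff, coe_ratio N ha hb, coe_ratio N hc hd, div_eq_div_iff h1 h2,
    ← qL_mul ha hd, ← qL_mul hc hb]
  exact ⟨fun h => E4.qL_injective (ha.mul hd) (hc.mul hb) h, fun h => by rw [h]⟩

theorem E4.ratio_mul {N : ℕ} [NeZero N] {k l : ℤ} {a b c d : ℍ → ℂ}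
    (ha : IsMF (Gamma0 N) k a) (hb : IsMF (Gamma0 N) k b) (hc : IsMF (Gamma0 N) l c)
    (hd : IsMF (Gamma0 N) l d) : ratio N a b * ratio N c d = ratio N (a * c) (b * d) := by
  apply Subtype.ext
  show ((ratio N a b : FC N) : LaurentSeries ℂ) * ((ratio N c d : FC N) : LaurentSeries ℂ) = _
  rw [coe_ratio N ha hb, coe_ratio N hc hd, coe_ratio N (ha.mul hc) (hb.mul hd), qL_mul ha hc,
    qL_mul hb hd, div_mul_div_comm]

theorem E4.ratio_one (N : ℕ) [NeZero N] : ratio N 1 1 = 1 := by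
  have h1 : IsMF (Gamma0 N) 0 (1 : ℍ → ℂ) := isMF_one
  have h2 : qL (1 : ℍ → ℂ) ≠ 0 := fun h0 => one_ne_zero ((qL_eq_zero_iff h1).1 h0)
  apply Subtype.ext
  rw [coe_ratio N h1 h1, div_self h2]
  rfl

theorem E4.ratio_pow {N : ℕ} [NeZero N] {k : ℤ} {a b : ℍ → ℂ}
    (ha : IsMF (Gamma0 N) k a) (hb : IsMF (Gamma0 N) k b) (n : ℕ) :
    ratio N a b ^ n = ratio N (a ^ n) (b ^ n) := by
  induction n with
  | zero => simp only [pow_zero]; exact (E4.ratio_one N).symm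
  | succ n ih =>
    rw [pow_succ, ih, E4.ratio_mul (SeparatingAux.isMF_pow ha n) (SeparatingAux.isMF_pow hb n) ha hb,
      pow_succ, pow_succ]

theorem E4.mul_ne_zero {f g : ℍ → ℂ} (hf : MDiff f) (hg : MDiff g) (hf0 : f ≠ 0) (hg0 : g ≠ 0) :
    f * g ≠ 0 := fun h =>
  ((UpperHalfPlane.mul_eq_zero_iff hf hg).mp h).elim hf0 hg0

theorem E4.mul_isMF {N : ℕ} {k l : ℤ} {χ : Gamma0 N →* ℂˣ} {g h : ℍ → ℂ}
    (hg : IsMFChar N k χ g) (hh : IsMF (Gamma0 N) l h) : IsMFChar N (k + l) χ (g * h) where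
  holo := hg.holo.mul hh.holo
  slash γ := by
    rw [mul_slash_SL2, hg.slash γ, hh.inv γ γ.2]
    ext z
    simp only [Pi.mul_apply, Pi.smul_apply, smul_eq_mul]
    ring
  bdd γ := by
    rw [mul_slash_SL2]
    exact (hg.bdd γ).mul (hh.bdd γ)

theorem E4.isMF_mul_pow {N : ℕ} {k l : ℤ} {χ : Gamma0 N →* ℂˣ} {Q P : ℍ → ℂ}
    (hQ : IsMFChar N k χ Q) (hP : IsMFChar N l χ P) (m : ℕ) (hn : ∀ γ, χ γ ^ (m + 1) = 1) :
    IsMF (Gamma0 N) (k + (m : ℤ) * l) (Q * P ^ m) where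
  holo := hQ.holo.mul (hP.holo.pow m)
  inv γ hγ := by
    rw [mul_slash_SL2, d1_pow_slash, hQ.slash ⟨γ, hγ⟩, hP.slash ⟨γ, hγ⟩, smul_pow]
    have h1 : (((χ ⟨γ, hγ⟩ : ℂˣ) : ℂ)) ^ (m + 1) = 1 := by
      have := congrArg (fun u : ℂˣ => (u : ℂ)) (hn ⟨γ, hγ⟩)
      simpa using this
    ext z
    simp only [Pi.mul_apply, Pi.smul_apply, smul_eq_mul]
    linear_combination (Q z * (P ^ m) z) * h1
  bdd γ := by
    rw [mul_slash_SL2, d1_pow_slash]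
    exact (hQ.bdd γ).mul (d1_bdd_pow (hP.bdd γ) m)

/-- (E4) the multiplier only depends on the Kummer class, and detects it. -/
theorem char_eq_iff (N : ℕ) [NeZero N] (n : ℕ) (hn0 : 0 < n) (k k' : ℤ) (χ χ' : Gamma0 N →* ℂˣ)
    (hn : ∀ γ, χ γ ^ n = 1) (hn' : ∀ γ, χ' γ ^ n = 1) (g₁ g₀ g₁' g₀' : ℍ → ℂ)
    (h₁ : IsMFChar N k χ g₁) (h₀ : IsMF (Gamma0 N) k g₀)
    (h₁' : IsMFChar N k' χ' g₁') (h₀' : IsMF (Gamma0 N) k' g₀')
    (h₁0 : g₁ ≠ 0) (h₀0 : g₀ ≠ 0) (h₁0' : g₁' ≠ 0) (h₀0' : g₀' ≠ 0) :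
    χ = χ' ↔ ∃ u : FC N, u ≠ 0 ∧
      ratio N (g₁ ^ n) (g₀ ^ n) = ratio N (g₁' ^ n) (g₀' ^ n) * u ^ n := by
  have ha : IsMF (Gamma0 N) (n * k) (g₁ ^ n) := h₁.pow hn
  have hb : IsMF (Gamma0 N) (n * k) (g₀ ^ n) := SeparatingAux.isMF_pow h₀ n
  have ha' : IsMF (Gamma0 N) (n * k') (g₁' ^ n) := h₁'.pow hn'
  have hb' : IsMF (Gamma0 N) (n * k') (g₀' ^ n) := SeparatingAux.isMF_pow h₀' n
  have hb0 : g₀ ^ n ≠ 0 := d1_pow_ne_zero h₀.holo h₀0 n
  have hb0' : g₀' ^ n ≠ 0 := d1_pow_ne_zero h₀'.holo h₀0' n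
  constructor
  · rintro rfl
    obtain ⟨m, rfl⟩ : ∃ m, n = m + 1 := ⟨n - 1, by omega⟩
    -- `P = g₁' g₀`, multiplier `χ`
    have hP : IsMFChar N (k' + k) χ (g₁' * g₀) := E4.mul_isMF h₁' h₀
    have hP0 : g₁' * g₀ ≠ 0 := E4.mul_ne_zero h₁'.holo h₀.holo h₁0' h₀0
    have hQ : IsMFChar N (k + k') χ (g₁ * g₀') := E4.mul_isMF h₁ h₀'
    have hQ0 : g₁ * g₀' ≠ 0 := E4.mul_ne_zero h₁.holo h₀'.holo h₁0 h₀0'
    have hden : IsMF (Gamma0 N) (((m + 1 : ℕ) : ℤ) * (k' + k)) ((g₁' * g₀) ^ (m + 1)) :=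
      hP.pow hn
    have hnum : IsMF (Gamma0 N) (((m + 1 : ℕ) : ℤ) * (k' + k))
        (g₁ * g₀' * (g₁' * g₀) ^ m) := by
      have := E4.isMF_mul_pow hQ hP m hn
      have e2 : k + k' + (m : ℤ) * (k' + k) = ((m + 1 : ℕ) : ℤ) * (k' + k) := by
        push_cast; ring
      rwa [e2] at this
    have hden0 : (g₁' * g₀) ^ (m + 1) ≠ 0 := d1_pow_ne_zero hP.holo hP0 _
    have hnum0 : g₁ * g₀' * (g₁' * g₀) ^ m ≠ 0 :=
      E4.mul_ne_zero hQ.holo (hP.holo.pow m) hQ0 (d1_pow_ne_zero hP.holo hP0 _)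
    refine ⟨ratio N (g₁ * g₀' * (g₁' * g₀) ^ m) ((g₁' * g₀) ^ (m + 1)), ?_, ?_⟩
    · intro h0
      have h1 : ratio N (g₁ * g₀' * (g₁' * g₀) ^ m) ((g₁' * g₀) ^ (m + 1)) =
          ratio N 0 ((g₁' * g₀) ^ (m + 1)) := by
        rw [h0]
        apply Subtype.ext
        rw [coe_ratio N IsMF.zero_mf hden, (qL_eq_zero_iff (IsMF.zero_mf (Γ := Gamma0 N)
          (k := ((m + 1 : ℕ) : ℤ) * (k' + k)))).2 rfl, zero_div]
        rfl
      rw [E4.ratio_eq_iff hnum hden IsMF.zero_mf hden hden0 hden0, zero_mul] at h1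
      exact E4.mul_ne_zero hnum.holo hden.holo hnum0 hden0 h1
    · rw [E4.ratio_pow hnum hden, E4.ratio_mul ha' hb' (SeparatingAux.isMF_pow hnum _)
        (SeparatingAux.isMF_pow hden _),
        E4.ratio_eq_iff ha hb (ha'.mul (SeparatingAux.isMF_pow hnum _))
          (hb'.mul (SeparatingAux.isMF_pow hden _)) hb0
          (E4.mul_ne_zero hb'.holo (hden.holo.pow _) hb0' (d1_pow_ne_zero hden.holo hden0 _))]
      ring
  · rintro ⟨u, hu0, hu⟩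
    obtain ⟨K, a, b, hA, hB, hB0, rfl⟩ := exists_ratio N u
    have hA0 : a ≠ 0 := by
      rintro rfl
      apply hu0
      apply Subtype.ext
      rw [coe_ratio N hA hB, (qL_eq_zero_iff hA).2 rfl, zero_div]
      rfl
    rw [E4.ratio_pow hA hB, E4.ratio_mul ha' hb' (SeparatingAux.isMF_pow hA _)
        (SeparatingAux.isMF_pow hB _),
      E4.ratio_eq_iff ha hb (ha'.mul (SeparatingAux.isMF_pow hA _))
        (hb'.mul (SeparatingAux.isMF_pow hB _)) hb0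
        (E4.mul_ne_zero hb'.holo (hB.holo.pow _) hb0' (d1_pow_ne_zero hB.holo hB0 _))] at hu
    have hX : IsMFChar N (k + k' + 2 * K) χ (g₁ * g₀' * b) := E4.mul_isMF (E4.mul_isMF h₁ h₀') hB
    have hY : IsMFChar N (k' + k + 2 * K) χ' (g₁' * g₀ * a) := E4.mul_isMF (E4.mul_isMF h₁' h₀) hA
    have hX0 : g₁ * g₀' * b ≠ 0 :=
      E4.mul_ne_zero (h₁.holo.mul h₀'.holo) hB.holo
        (E4.mul_ne_zero h₁.holo h₀'.holo h₁0 h₀0') hB0
    have e : (g₁ * g₀' * b) ^ n = (g₁' * g₀ * a) ^ n := by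
      rw [mul_pow, mul_pow, mul_pow, mul_pow]
      calc g₁ ^ n * g₀' ^ n * b ^ n = g₁ ^ n * (g₀' ^ n * b ^ n) := by ring
        _ = g₁' ^ n * a ^ n * g₀ ^ n := hu
        _ = g₁' ^ n * g₀ ^ n * a ^ n := by ring
    obtain ⟨c, -, hc⟩ := eq_smul_of_pow_eq hn0 hX.holo hY.holo e
    ext γ
    have s1 := hX.slash γ
    have s2 := hY.slash γ
    have ew : k' + k + 2 * (K : ℤ) = k + k' + 2 * K := by ring
    rw [ew] at s2
    rw [hc, SL_smul_slash, s2] at s1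
    -- `c • χ' γ • Y = χ γ • c • Y`
    obtain ⟨τ, hτ⟩ : ∃ τ, (g₁ * g₀' * b) τ ≠ 0 := by
      by_contra hcon
      push Not at hcon
      exact hX0 (funext hcon)
    have s3 := congrFun s1 τ
    have s4 := congrFun hc τ
    simp only [Pi.smul_apply, smul_eq_mul] at s3 s4
    rw [s4] at hτ
    have : ((χ' γ : ℂˣ) : ℂ) * (c * (g₁' * g₀ * a) τ) = ((χ γ : ℂˣ) : ℂ) * (c * (g₁' * g₀ * a) τ) := by
      linear_combination s3
    exact (mul_right_cancel₀ hτ this).symm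

end

end Fermat.Agent.ESLib
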