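import Fermat.Agent.ES.Bridge.Kum
import Fermat.Agent.ES.Bridge.Root
import Fermat.Agent.ES.Lift
import Fermat.Agent.ES.Chr
import Fermat.Agent.ES.QChar
import Fermat.Agent.ES.Kummer
import Fermat.Agent.ES.Unique
import Fermat.Agent.ES.Converse
import Fermat.Agent.ES.ConverseEllPar

/-!
# ES Block R : R2 - R7 (properties of the relation `Rt`)
-/

set_option autoImplicit false
set_option synthInstance.maxHeartbeats 400000

open AlgebraicCurve ModularCurve CongruenceSubgroup UpperHalfPlane ModularForm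
open scoped MatrixGroups Manifold

namespace Fermat.Agent.ESLib

open Fermat.Agent.S18Lib Fermat.Agent.S20Lib Fermat.Agent.S24Lib

noncomputable section

/-! ### `q`-expansions of forms with an elliptic-parabolic-trivial multiplier -/

section qlchar
variable {N : ℕ} {k l : ℤ} {χ ψ : Gamma0 N →* ℂˣ} {g h : ℍ → ℂ}

theorem IsMFChar.pow' (hg : IsMFChar N k χ g) (n : ℕ) : IsMFChar N (n * k) (χ ^ n) (g ^ n) := by
  induction n with
  | zero =>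
    simp only [pow_zero, Nat.cast_zero, zero_mul]
    exact isMFChar_one_iff.2 isMF_one
  | succ n ih =>
    have h1 := ih.mul hg
    have h2 : ((n + 1 : ℕ) : ℤ) * k = (n : ℤ) * k + k := by push_cast; ring
    have h3 : χ ^ (n + 1) = χ ^ n * χ := by
      ext γ
      simp [pow_succ]
    rw [h2, pow_succ, h3]
    exact h1

theorem qL_mul_char (hg : IsMFChar N k χ g) (hχ : IsEllPar χ) (hh : IsMFChar N l ψ h)
    (hψ : IsEllPar ψ) : qL (g * h) = qL g * qL h := by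
  rw [qL, qL, qL, qExpansion_mul_of_char hg hχ hh hψ, map_mul]

theorem qL_pow_char (hg : IsMFChar N k χ g) (hχ : IsEllPar χ) (n : ℕ) : qL (g ^ n) = qL g ^ n := by
  rw [qL, qL, qExpansion_pow_of_char hg hχ, map_pow]

theorem qL_eq_zero_iff_char (hg : IsMFChar N k χ g) (hχ : IsEllPar χ) : qL g = 0 ↔ g = 0 := by
  rw [← qExpansion_eq_zero_iff_of_char hg hχ, qL]
  exact map_eq_zero_iff _ HahnSeries.ofPowerSeries_injective

theorem isEllPar_one : IsEllPar (1 : Gamma0 N →* ℂˣ) := fun _ _ => rfl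

theorem qL_pow_mf (hg : IsMF (Gamma0 N) k g) (n : ℕ) : qL (g ^ n) = qL g ^ n :=
  qL_pow_char (isMFChar_one_iff.2 hg) isEllPar_one n

theorem chrHom_pow_self (m : ℕ) (φ : Additive (Gamma0 N) →+ ℤ) (γ : Gamma0 N) :
    chrHom m φ γ ^ m = 1 := by
  rcases Nat.eq_zero_or_pos m with rfl | hm
  · exact pow_zero _
  · exact chrHom_pow m hm φ γ

end qlchar

section R
variable {N : ℕ} [NeZero N] {m : ℕ} {f f' : FB N} {φ φ' : Additive (Gamma0 N) →+ ℤ}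

theorem ratio_inv {k : ℤ} {a b : ℍ → ℂ} (ha : IsMF (Gamma0 N) k a) (hb : IsMF (Gamma0 N) k b) :
    (ratio N a b)⁻¹ = ratio N b a := by
  apply Subtype.ext
  show ((ratio N a b : FC N) : LaurentSeries ℂ)⁻¹ = _
  rw [coe_ratio N ha hb, coe_ratio N hb ha, inv_div]

/-- (RW) -/
theorem rt_iff (hφ : φ ∈ EP N ℤ) : Rt N m f φ ↔
    ∃ (k : ℤ) (u v : ℍ → ℂ), IsMFChar N k (chrHom m φ) u ∧ IsMF (Gamma0 N) k v ∧ u ≠ 0 ∧ v ≠ 0 ∧
      iotaF N f = ratio N (u ^ m) (v ^ m) := by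
  have hχ := isEllPar_chrHom m hφ
  have key : ∀ (k : ℤ) (u v : ℍ → ℂ), IsMFChar N k (chrHom m φ) u → IsMF (Gamma0 N) k v → v ≠ 0 →
      (coeffMap iotaC (f : LaurentSeries Qb) * qL v ^ m = qL u ^ m ↔
        iotaF N f = ratio N (u ^ m) (v ^ m)) := by
    intro k u v hu hv hv0
    have h1 : qL v ^ m ≠ 0 := pow_ne_zero _ (fun h => hv0 ((qL_eq_zero_iff hv).1 h))
    rw [Subtype.ext_iff, coe_ratio N (hu.pow (chrHom_pow_self m φ)) (SeparatingAux.isMF_pow hv m),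
      qL_pow_char hu hχ, qL_pow_mf hv, eq_div_iff h1]
    rfl
  constructor
  · rintro ⟨k, u, v, hu, hv, hu0, hv0, e⟩
    have hu' := isMFc_chr_iff.1 hu
    exact ⟨k, u, v, hu', hv, hu0, hv0, (key k u v hu' hv hv0).1 e⟩
  · rintro ⟨k, u, v, hu, hv, hu0, hv0, e⟩
    exact ⟨k, u, v, isMFc_chr_iff.2 hu, hv, hu0, hv0, (key k u v hu hv hv0).2 e⟩

/-- (R2) -/
theorem Rt.isKum (hm : 0 < m) (h : Rt N m f φ) (hφ : φ ∈ EP N ℤ) : IsKum N m f := by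
  obtain ⟨k, u, v, hu, hv, hu0, hv0, e⟩ := (rt_iff hφ).1 h
  rw [isKum_iff, e]
  refine ⟨C2.ratio_ne_zero N (hu.pow (chrHom_pow_self m φ)) (SeparatingAux.isMF_pow hv m)
    (d1_pow_ne_zero hu.holo hu0 m) (d1_pow_ne_zero hv.holo hv0 m), fun w => ?_⟩
  exact kummer_of_char N m k (chrHom m φ) (isEllPar_chrHom m hφ) (chrHom_pow_self m φ) u v hu hv
    hu0 hv0 w

/-- (R3) -/
theorem Rt.exists_of_isKum (hm : 0 < m) (h : IsKum N m f) : ∃ φ ∈ EP N ℤ, Rt N m f φ := by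
  obtain ⟨hne, hdiv⟩ := (isKum_iff N m f).1 h
  obtain ⟨k, χ, g₁, g₀, hn, h₁, h₀, h₁0, h₀0, e⟩ := exists_char_of_kummer N m hm _ hne hdiv
  have hχ : IsEllPar χ := isEllPar_of_kummer N m hm k χ hn g₁ g₀ h₁ h₀ h₁0 h₀0
    (fun v => by rw [← e]; exact hdiv v)
  obtain ⟨φ, hφ, rfl⟩ := exists_lift_chr N m hm χ hχ hn
  exact ⟨φ, hφ, (rt_iff hφ).2 ⟨k, g₁, g₀, h₁, h₀, h₁0, h₀0, e⟩⟩

/-- (R4) -/
theorem Rt.congr (hm : 0 < m) (hφ : φ ∈ EP N ℤ) (hφ' : φ' ∈ EP N ℤ) (h : Rt N m f φ)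
    (h' : Rt N m f φ') (γ : Additive (Gamma0 N)) : (m : ℤ) ∣ φ γ - φ' γ := by
  obtain ⟨k, u, v, hu, hv, hu0, hv0, e⟩ := (rt_iff hφ).1 h
  obtain ⟨k', u', v', hu', hv', hu0', hv0', e'⟩ := (rt_iff hφ').1 h'
  have := (char_eq_iff N m hm k k' (chrHom m φ) (chrHom m φ') (chrHom_pow_self m φ)
    (chrHom_pow_self m φ') u v u' v' hu hv hu' hv' hu0 hv0 hu0' hv0').2
    ⟨1, one_ne_zero, by rw [one_pow, mul_one, ← e, e']⟩
  exact (chrHom_eq_iff hm).1 this γ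

theorem Rt.of_congr (h : Rt N m f φ) (h' : ∀ γ, (m : ℤ) ∣ φ γ - φ' γ) : Rt N m f φ' := by
  have hc : chr m φ = chr m φ' := by
    funext γ
    rcases Nat.eq_zero_or_pos m with rfl | hm
    · simp [chr]
    · exact (chr_eq_chr_iff hm γ).2 (h' (Additive.ofMul γ))
  unfold Rt at h ⊢
  rwa [← hc]

/-- (R5) -/
theorem Rt.mul (hφ : φ ∈ EP N ℤ) (hφ' : φ' ∈ EP N ℤ) (h : Rt N m f φ) (h' : Rt N m f' φ') :
    Rt N m (f * f') (φ + φ') := by
  obtain ⟨k, u, v, hu, hv, hu0, hv0, e⟩ := (rt_iff hφ).1 h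
  obtain ⟨k', u', v', hu', hv', hu0', hv0', e'⟩ := (rt_iff hφ').1 h'
  refine (rt_iff (add_mem hφ hφ')).2 ⟨k + k', u * u', v * v', ?_, hv.mul hv',
    E4.mul_ne_zero hu.holo hu'.holo hu0 hu0', E4.mul_ne_zero hv.holo hv'.holo hv0 hv0', ?_⟩
  · rw [chrHom_add]; exact hu.mul hu'
  · rw [map_mul, e, e', E4.ratio_mul (hu.pow (chrHom_pow_self m φ)) (SeparatingAux.isMF_pow hv m)
      (hu'.pow (chrHom_pow_self m φ')) (SeparatingAux.isMF_pow hv' m), mul_pow, mul_pow]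

theorem Rt.inv (hm : 0 < m) (hφ : φ ∈ EP N ℤ) (h : Rt N m f φ) : Rt N m f⁻¹ (-φ) := by
  obtain ⟨k, u, v, hu, hv, hu0, hv0, e⟩ := (rt_iff hφ).1 h
  obtain ⟨n, rfl⟩ : ∃ n, m = n + 1 := ⟨m - 1, by omega⟩
  set χ := chrHom (n + 1) φ with hχdef
  have hpow : ∀ γ, χ γ ^ (n + 1) = 1 := chrHom_pow_self (n + 1) φ
  have hχn : χ ^ n = chrHom (n + 1) (-φ) := by
    rw [chrHom_neg]
    ext γ
    have h1 := hpow γ
    rw [pow_succ] at h1
    rw [MonoidHom.pow_apply, MonoidHom.inv_apply, eq_inv_of_mul_eq_one_left h1]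
  have hw : ((n + 1 : ℕ) : ℤ) * k = (n : ℤ) * k + k := by push_cast; ring
  have hU : IsMFChar N (((n + 1 : ℕ) : ℤ) * k) (chrHom (n + 1) (-φ)) (u ^ n * v) := by
    rw [hw, ← hχn]
    exact E4.mul_isMF (hu.pow' n) hv
  have hV : IsMF (Gamma0 N) (((n + 1 : ℕ) : ℤ) * k) (u ^ (n + 1)) := hu.pow hpow
  have hvm : IsMF (Gamma0 N) (((n + 1 : ℕ) : ℤ) * k) (v ^ (n + 1)) := SeparatingAux.isMF_pow hv _
  have hV0 : u ^ (n + 1) ≠ 0 := d1_pow_ne_zero hu.holo hu0 _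
  refine (rt_iff (neg_mem hφ)).2 ⟨_, u ^ n * v, u ^ (n + 1), hU, hV,
    E4.mul_ne_zero (hu.holo.pow n) hv.holo (d1_pow_ne_zero hu.holo hu0 n) hv0, hV0, ?_⟩
  rw [map_inv₀, e, ratio_inv hV hvm,
    E4.ratio_eq_iff hvm hV (hU.pow (chrHom_pow_self (n + 1) (-φ))) (SeparatingAux.isMF_pow hV _) hV0
      (d1_pow_ne_zero hV.holo hV0 _)]
  ring

theorem Rt.pow_self (m : ℕ) {g : FB N} (hg : g ≠ 0) : Rt N m (g ^ m) 0 := by
  obtain ⟨k, a, b, ha, hb, hb0, e⟩ := exists_ratio N (iotaF N g)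
  have hne : iotaF N g ≠ 0 := (map_ne_zero_iff _ (iotaF N).injective).2 hg
  have ha0 : a ≠ 0 := by
    rintro rfl
    apply hne
    rw [e]
    apply Subtype.ext
    rw [coe_ratio N ha hb, (qL_eq_zero_iff ha).2 rfl, zero_div]
    rfl
  refine (rt_iff (zero_mem _)).2 ⟨_, a, b, ?_, hb, ha0, hb0, ?_⟩
  · rw [chrHom_zero]; exact isMFChar_one_iff.2 ha
  · rw [map_pow, e, E4.ratio_pow ha hb]

/-- (R6) -/
theorem Rt.eq_pow (hm : 0 < m) (h : Rt N m f 0) : ∃ g : FB N, f = g ^ m := by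
  obtain ⟨k, u, v, hu, hv, hu0, hv0, e⟩ := (rt_iff (zero_mem _)).1 h
  rw [chrHom_zero] at hu
  have hu' := isMFChar_one_iff.1 hu
  rw [← E4.ratio_pow hu' hv] at e
  obtain ⟨g, -, hg⟩ := exists_root_iotaF N m hm f _ e
  exact ⟨g, hg⟩

/-- (R7) -/
theorem Rt.of_mul {d : ℕ} (hd : 0 < d) (hφ : φ ∈ EP N ℤ) (h : Rt N (d * m) f φ) : Rt N m f φ := by
  obtain ⟨k, u, v, hu, hv, hu0, hv0, e⟩ := (rt_iff hφ).1 h
  refine (rt_iff hφ).2 ⟨_, u ^ d, v ^ d, ?_, SeparatingAux.isMF_pow hv d,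
    d1_pow_ne_zero hu.holo hu0 d, d1_pow_ne_zero hv.holo hv0 d, ?_⟩
  · rw [← chrHom_mul_pow hd m φ]; exact hu.pow' d
  · rw [e, pow_mul, pow_mul]

end R

end

end Fermat.Agent.ESLib
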