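import Fermat.Agent.ES.Canonical
import Fermat.Agent.ES.Chr
import Fermat.Agent.S18.RiemannLower

/-!
# ES block R1, leaf (K10): `Rt.exists_of_hom`
-/

set_option autoImplicit false
set_option synthInstance.maxHeartbeats 400000

open UpperHalfPlane ModularForm Matrix.SpecialLinearGroup CongruenceSubgroup ModularCurve
open AlgebraicCurve IntermediateField
open scoped MatrixGroups Manifold
open Fermat.Agent.S18Lib Fermat.Agent.S20Lib Fermat.Agent.S28Lib Fermat.Agent.S24Lib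

namespace Fermat.Agent.ESLib

noncomputable section

theorem Rt.exists_of_hom (N : ℕ) [NeZero N] (m : ℕ) (hm : 0 < m) (φ : Additive (Gamma0 N) →+ ℤ)
    (hφ : φ ∈ EP N ℤ) : ∃ f : FB N, Rt N m f φ := by
  have hχ := isEllPar_chrHom m hφ
  obtain ⟨G, s, hG, hG0, hs⟩ := exists_rational_form N m hm (chrHom m φ) hχ (chrHom_pow m hm φ)
  -- the modular form `G ^ m`
  have hΦ : IsMF (Gamma0 N) (12 * (m : ℤ)) (G ^ m) := by
    rw [mul_comm]; exact hG.pow (chrHom_pow m hm φ)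
  have hne : ∀ τ, (Dl ^ m) τ ≠ 0 := fun τ => pow_ne_zero _ (Dl_ne_zero τ)
  have hgf : (G ^ m / Dl ^ m) * Dl ^ m = G ^ m := by
    ext τ
    simp only [Pi.div_apply, Pi.mul_apply]
    rw [div_mul_cancel₀ _ (hne τ)]
  have hmf : IsMF (Gamma0 N) (12 * (m : ℤ)) ((G ^ m / Dl ^ m) * Dl ^ m) := by rw [hgf]; exact hΦ
  have hwh := bl_isWH hmf
  set x : LaurentSeries Qb := (HahnSeries.ofPowerSeries ℤ Qb s) ^ m / W7_DK ^ m with hx
  have hD0 : coeffMap iotaC (W7_DK ^ m) ≠ 0 := by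
    rw [Ne, map_eq_zero_iff _ W7_coeffMap_injective]
    exact pow_ne_zero _ bl_DK_ne_zero
  have hqG : coeffMap iotaC (HahnSeries.ofPowerSeries ℤ Qb s) = qL G := by
    rw [W7_coeffMap_ofPowerSeries, ← hs]; rfl
  have hqD : coeffMap iotaC W7_DK = qL Dl := W7_coeffMap_DK
  have hlaur : laurentFun 1 (G ^ m / Dl ^ m) = coeffMap iotaC x := by
    have hb : IsBoundedAtImInfty ((G ^ m / Dl ^ m) * Dl ^ m) := by simpa using hmf.bdd 1
    have h1 := laurentFun_mul_pow one_pos hwh.isMerInf_one hb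
    rw [hgf, Nat.cast_one, qExpansion_pow_of_char hG hχ, map_pow] at h1
    rw [hx, map_div₀, eq_div_iff hD0, map_pow, map_pow, hqG, hqD]
    exact h1
  have hrep : W7_Rep N m x := ⟨_, hwh, hlaur, hmf⟩
  refine ⟨⟨x, mem_FB_of_Rep N m x hrep⟩, 12, G, Dl, isMFc_chr_iff.mpr hG,
    isMF_Dl.mono le_top, hG0, ?_, ?_⟩
  · intro h
    exact Dl_ne_zero UpperHalfPlane.I (congrFun h _)
  · show coeffMap iotaC x * qL Dl ^ m = qL G ^ m
    rw [hx, map_div₀, map_pow, map_pow, hqG, hqD, div_mul_cancel₀]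
    rw [← hqD, ← map_pow]
    exact hD0

end

end Fermat.Agent.ESLib
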