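import Fermat.Agent.ES.KDefs
import Fermat.Agent.S16.Lower.Transfer
import Fermat.Agent.S16.Lower.TorsionOf
import Fermat.Agent.S21

/-!
# ES cluster, Block H: (H1') transfer data exist, (H3) the lattice `EP N ℤ` is a faithful module
over the Hecke algebra, `T_ℓ` acting by the transfer
-/

set_option autoImplicit false
set_option synthInstance.maxHeartbeats 400000

open AlgebraicCurve ModularCurve CongruenceSubgroup UpperHalfPlane ModularForm
open scoped MatrixGroups Manifold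

namespace Fermat.Agent.ESLib

open Fermat.Agent.S18Lib Fermat.Agent.S20Lib Fermat.Agent.S24Lib
open P2MW.S_ModularForm_heckeT_slash_eq_self_of_mem_Gamma0.ModularForm.HeckeSlashInvariance
open ModularCurve.Period Matrix.SpecialLinearGroup

/-- (H1') every `γ` has transfer data (`heckeRep_mul`) -/
theorem exists_transfer (N : ℕ) [NeZero N] {ℓ : ℕ} (hℓ : ℓ.Prime) (hℓN : ¬ ℓ ∣ N) (γ : Gamma0 N) :
    ∃ γ', Transfer N ℓ γ γ' := by
  have : Fact ℓ.Prime := ⟨hℓ⟩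
  have hcN : (N : ℤ) ∣ (γ : SL(2, ℤ)) 1 0 :=
    (ZMod.intCast_zmod_eq_zero_iff_dvd _ _).mp (Gamma0_mem.mp γ.2)
  choose g' hg' hmul using heckeRep_mul hℓN (γ : SL(2, ℤ)) hcN
  exact ⟨fun x => ⟨g' x, Gamma0_mem.mpr ((ZMod.intCast_zmod_eq_zero_iff_dvd _ _).mpr (hg' x))⟩,
    MulAction.toPerm (redMatrix ℓ (γ : SL(2, ℤ))), hmul⟩

namespace H3

noncomputable section

/-! ### the representatives and their conjugates by `J` -/

theorem det_heckeRep {ℓ : ℕ} (h0 : ℓ ≠ 0) (x : OnePoint (ZMod ℓ)) :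
    (heckeRep ℓ x).val.det = (ℓ : ℝ) := by
  induction x using OnePoint.rec with
  | infty =>
    show (ModularForm.heckeDiagMatrix ℓ).val.det = _
    rw [ModularForm.val_heckeDiagMatrix h0, Matrix.det_fin_two_of]; ring
  | coe j =>
    show (ModularForm.heckeMatrix ℓ j.val).val.det = _
    rw [ModularForm.val_heckeMatrix h0, Matrix.det_fin_two_of]; ring

theorem heckeRep_one_zero {ℓ : ℕ} (h0 : ℓ ≠ 0) (x : OnePoint (ZMod ℓ)) :
    heckeRep ℓ x 1 0 = 0 := by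
  induction x using OnePoint.rec with
  | infty =>
    show (ModularForm.heckeDiagMatrix ℓ).val 1 0 = 0
    rw [ModularForm.val_heckeDiagMatrix h0]; simp
  | coe j =>
    show (ModularForm.heckeMatrix ℓ j.val).val 1 0 = 0
    rw [ModularForm.val_heckeMatrix h0]; simp

/-- conjugated representatives -/
def repJ (ℓ : ℕ) (x : OnePoint (ZMod ℓ)) : GL (Fin 2) ℝ := J * heckeRep ℓ x * J

theorem J_mul_J : J * J = 1 := by rw [← sq, J_sq]

theorem mapGL_jConjSL (g : SL(2, ℤ)) : mapGL ℝ (jConjSL g) = J * mapGL ℝ g * J := by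
  ext i j
  fin_cases i <;> fin_cases j <;>
    simp [Matrix.mul_apply, Fin.sum_univ_two, jConjMat, Matrix.vecMul, dotProduct]

theorem repJ_mul {ℓ : ℕ} {x y : OnePoint (ZMod ℓ)} {g g' : SL(2, ℤ)}
    (h : heckeRep ℓ x * mapGL ℝ g = mapGL ℝ g' * heckeRep ℓ y) :
    repJ ℓ x * mapGL ℝ (jConjSL g) = mapGL ℝ (jConjSL g') * repJ ℓ y := by
  rw [mapGL_jConjSL, mapGL_jConjSL, repJ, repJ]
  calc J * heckeRep ℓ x * J * (J * mapGL ℝ g * J)
      = J * heckeRep ℓ x * (J * J) * mapGL ℝ g * J := by group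
    _ = J * (heckeRep ℓ x * mapGL ℝ g) * J := by rw [J_mul_J]; group
    _ = J * (mapGL ℝ g' * heckeRep ℓ y) * J := by rw [h]
    _ = J * mapGL ℝ g' * (J * J) * heckeRep ℓ y * J := by rw [J_mul_J]; group
    _ = J * mapGL ℝ g' * J * (J * heckeRep ℓ y * J) := by group

/-- `x ↦ -x` on `ℙ¹(𝔽_ℓ)` -/
def negP (ℓ : ℕ) : Equiv.Perm (OnePoint (ZMod ℓ)) := Equiv.optionCongr (Equiv.neg (ZMod ℓ))

theorem repJ_eq {ℓ : ℕ} [NeZero ℓ] (x : OnePoint (ZMod ℓ)) :
    ∃ n : ℤ, repJ ℓ x = mapGL ℝ (ModularGroup.T ^ n) * heckeRep ℓ (negP ℓ x) := by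
  have h0 : ℓ ≠ 0 := NeZero.ne ℓ
  induction x using OnePoint.rec with
  | infty =>
    refine ⟨0, ?_⟩
    have : negP ℓ (OnePoint.infty) = OnePoint.infty := rfl
    rw [this, zpow_zero, map_one, one_mul, repJ]
    ext i j
    show (J.val * (ModularForm.heckeDiagMatrix ℓ).val * J.val) i j
      = (ModularForm.heckeDiagMatrix ℓ).val i j
    rw [ModularForm.val_heckeDiagMatrix h0, val_J]
    fin_cases i <;> fin_cases j <;> simp [Matrix.mul_apply, Fin.sum_univ_two]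
  | coe j =>
    have : negP ℓ ((j : ZMod ℓ) : OnePoint (ZMod ℓ)) = ((-j : ZMod ℓ) : OnePoint (ZMod ℓ)) := rfl
    obtain ⟨e, he⟩ : (ℓ : ℤ) ∣ (j.val : ℤ) + ((-j).val : ℤ) := by
      rw [← ZMod.intCast_zmod_eq_zero_iff_dvd]
      push_cast
      rw [ZMod.natCast_zmod_val, ZMod.natCast_zmod_val, add_neg_cancel]
    refine ⟨-e, ?_⟩
    rw [this, repJ]
    have heR : (j.val : ℝ) + ((-j).val : ℝ) = (ℓ : ℝ) * (e : ℝ) := by exact_mod_cast he
    ext a b
    show (J.val * (ModularForm.heckeMatrix ℓ j.val).val * J.val) a b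
      = ((mapGL ℝ (ModularGroup.T ^ (-e))).val * (ModularForm.heckeMatrix ℓ (-j).val).val) a b
    rw [ModularForm.val_heckeMatrix h0, ModularForm.val_heckeMatrix h0, val_J]
    have hT : (mapGL ℝ (ModularGroup.T ^ (-e))).val = !![(1 : ℝ), -(e : ℝ); 0, 1] := by
      ext a b
      have h1 : (mapGL ℝ (ModularGroup.T ^ (-e))).val a b
          = (((ModularGroup.T ^ (-e) : SL(2, ℤ)) : Matrix (Fin 2) (Fin 2) ℤ) a b : ℝ) :=
        mapGL_apply _ a b
      rw [h1, ModularGroup.coe_T_zpow]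
      fin_cases a <;> fin_cases b <;> simp
    rw [hT]
    fin_cases a <;> fin_cases b <;>
      simp [Matrix.mul_apply, Fin.sum_univ_two, -ZMod.natCast_val]
    linarith

variable {N : ℕ} [NeZero N]

omit [NeZero N] in
theorem T_zpow_mem_Gamma0 (n : ℤ) : ModularGroup.T ^ n ∈ Gamma0 N := by
  rw [Gamma0_mem, ModularGroup.coe_T_zpow]
  simp

omit [NeZero N] in
theorem slash_T_zpow (f : CuspForm (Gamma0 N) 2) (n : ℤ) :
    (f : ℍ → ℂ) ∣[(2 : ℤ)] mapGL ℝ (ModularGroup.T ^ n) = f :=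
  SlashInvariantFormClass.slash_action_eq f _
    (Subgroup.mem_map_of_mem _ (T_zpow_mem_Gamma0 n))

omit [NeZero N] in
theorem sum_slash_repJ {ℓ : ℕ} [NeZero ℓ] (f : CuspForm (Gamma0 N) 2) :
    ∑ x, (f : ℍ → ℂ) ∣[(2 : ℤ)] repJ ℓ x = ∑ x, (f : ℍ → ℂ) ∣[(2 : ℤ)] heckeRep ℓ x := by
  rw [← Equiv.sum_comp (negP ℓ) (fun x => (f : ℍ → ℂ) ∣[(2 : ℤ)] heckeRep ℓ x)]
  refine Finset.sum_congr rfl fun x _ => ?_
  obtain ⟨n, hn⟩ := repJ_eq x
  rw [hn, SlashAction.slash_mul, slash_T_zpow]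

theorem det_repJ {ℓ : ℕ} (h0 : ℓ ≠ 0) (x : OnePoint (ZMod ℓ)) :
    (repJ ℓ x).val.det = (ℓ : ℝ) := by
  show (J.val * (heckeRep ℓ x).val * J.val).det = _
  rw [Matrix.det_mul, Matrix.det_mul, det_heckeRep h0, val_J, Matrix.det_fin_two_of]
  ring

theorem repJ_one_zero {ℓ : ℕ} (h0 : ℓ ≠ 0) (x : OnePoint (ZMod ℓ)) :
    repJ ℓ x 1 0 = 0 := by
  have h := heckeRep_one_zero h0 x
  show (J.val * (heckeRep ℓ x).val * J.val) 1 0 = 0
  rw [val_J]
  simp [Matrix.mul_apply, Fin.sum_univ_two, Matrix.vecMul, dotProduct]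
  exact h

/-- `T_ℓ` acts on periods by the transfer -/
theorem isTr_periodMap {ℓ : ℕ} [NeZero ℓ] (hℓ : ℓ.Prime) (hℓN : ¬ ℓ ∣ N)
    (f : CuspForm (Gamma0 N) 2) :
    IsTr N ℓ (periodMap N f) (periodMap N (CuspForm.heckeTLin 2 hℓ hℓN f)) := by
  rintro γ γ' ⟨π, h⟩
  exact Fermat.Agent.S16Lib.periodMap_hecke (heckeRep ℓ) (ℓ : ℝ) (by exact_mod_cast hℓ.pos)
    (det_heckeRep hℓ.ne_zero) (heckeRep_one_zero hℓ.ne_zero) _
    (fun f => by rw [CuspForm.coe_heckeTLin_apply, heckeT_eq_sum_onePoint]) γ π γ' h f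

theorem isTr_charInvolution {ℓ : ℕ} [NeZero ℓ] (hℓ : ℓ.Prime) (hℓN : ¬ ℓ ∣ N)
    (f : CuspForm (Gamma0 N) 2) :
    IsTr N ℓ (charInvolution N ℂ ℂ (periodMap N f))
      (charInvolution N ℂ ℂ (periodMap N (CuspForm.heckeTLin 2 hℓ hℓN f))) := by
  rintro γ γ' ⟨π, h⟩
  exact Fermat.Agent.S16Lib.periodMap_hecke (repJ ℓ) (ℓ : ℝ) (by exact_mod_cast hℓ.pos)
    (det_repJ hℓ.ne_zero) (repJ_one_zero hℓ.ne_zero) _
    (fun f => by rw [CuspForm.coe_heckeTLin_apply, heckeT_eq_sum_onePoint, sum_slash_repJ])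
    (jConjGamma0 N γ) π (fun x => jConjGamma0 N (γ' x)) (fun x => repJ_mul (h x)) f

omit [NeZero N] in
theorem isTr_add {ℓ : ℕ} [NeZero ℓ] {B : Type*} [AddCommGroup B]
    {φ φ' ψ ψ' : Additive (Gamma0 N) →+ B} (h : IsTr N ℓ φ φ') (h' : IsTr N ℓ ψ ψ') :
    IsTr N ℓ (φ + ψ) (φ' + ψ') := by
  intro γ γ' hT
  simp only [AddMonoidHom.add_apply]
  rw [h γ γ' hT, h' γ γ' hT, Finset.sum_add_distrib]

omit [NeZero N] in
theorem isTr_sub {ℓ : ℕ} [NeZero ℓ] {B : Type*} [AddCommGroup B]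
    {φ φ' ψ ψ' : Additive (Gamma0 N) →+ B} (h : IsTr N ℓ φ φ') (h' : IsTr N ℓ ψ ψ') :
    IsTr N ℓ (φ - ψ) (φ' - ψ') := by
  intro γ γ' hT
  simp only [AddMonoidHom.sub_apply]
  rw [h γ γ' hT, h' γ γ' hT, Finset.sum_sub_distrib]

theorem periodHomPair_apply (f g : CuspForm (Gamma0 N) 2) :
    periodHomPair N (f, g) = (periodMap N f + charInvolution N ℂ ℂ (periodMap N f))
      + (periodMap N g - charInvolution N ℂ ℂ (periodMap N g)) := by
  obtain ⟨pml, hpml, heq⟩ := periodHomPair_def N (Fermat.Agent.S21Lib.existsPeriodMapLinear N)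
  rw [heq]
  simp [LinearMap.coprod_apply, hpml]

theorem isTr_pair {ℓ : ℕ} [NeZero ℓ] (hℓ : ℓ.Prime) (hℓN : ¬ ℓ ∣ N)
    (v : CuspForm (Gamma0 N) 2 × CuspForm (Gamma0 N) 2) :
    IsTr N ℓ (periodHomPair N v)
      (periodHomPair N (CuspForm.heckeTLin 2 hℓ hℓN v.1, CuspForm.heckeTLin 2 hℓ hℓN v.2)) := by
  obtain ⟨f, g⟩ := v
  rw [periodHomPair_apply, periodHomPair_apply]
  exact isTr_add (isTr_add (isTr_periodMap hℓ hℓN f) (isTr_charInvolution hℓ hℓN f))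
    (isTr_sub (isTr_periodMap hℓ hℓN g) (isTr_charInvolution hℓ hℓN g))

/-! ### abstract algebra -/

theorem exists_restrict {M V R : Type*} [AddCommGroup M] [AddCommGroup V] [Module ℂ V] [Ring R]
    (j : M →+ V) (hj : Function.Injective j) (ρ : R →+* Module.End ℂ V)
    (hst : ∀ r m, ∃ m', j m' = ρ r (j m)) :
    ∃ Θ : R →+* Module.End ℤ M, ∀ r m, j (Θ r m) = ρ r (j m) := by
  choose θ hθ using hst
  have hadd : ∀ r a b, θ r (a + b) = θ r a + θ r b := by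
    intro r a b
    apply hj
    rw [map_add, hθ, hθ, hθ, map_add, map_add]
  let Θ₀ : R → Module.End ℤ M := fun r => (AddMonoidHom.mk' (θ r) (hadd r)).toIntLinearMap
  have hΘ₀ : ∀ r m, j (Θ₀ r m) = ρ r (j m) := fun r m => hθ r m
  refine ⟨{ toFun := Θ₀, map_one' := ?_, map_mul' := ?_, map_zero' := ?_, map_add' := ?_ }, hΘ₀⟩
  · ext m
    apply hj
    rw [hΘ₀, map_one]
    rfl
  · intro r s
    ext m
    apply hj
    rw [hΘ₀, map_mul, Module.End.mul_apply, Module.End.mul_apply, hΘ₀, hΘ₀]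
  · ext m
    apply hj
    rw [hΘ₀, map_zero]
    simp
  · intro r s
    ext m
    apply hj
    rw [hΘ₀, map_add, LinearMap.add_apply, LinearMap.add_apply, map_add, hΘ₀, hΘ₀]

theorem restrict_injective {M V R : Type*} [AddCommGroup M] [AddCommGroup V] [Module ℂ V] [Ring R]
    (j : M →+ V) (ρ : R →+* Module.End ℂ V) (hρ : Function.Injective ρ)
    (hspan : Submodule.span ℂ (Set.range j) = ⊤)
    (Θ : R →+* Module.End ℤ M) (hΘ : ∀ r m, j (Θ r m) = ρ r (j m)) : Function.Injective Θ := by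
  rw [injective_iff_map_eq_zero]
  intro r hr
  apply hρ
  rw [map_zero]
  refine LinearMap.ext_on hspan ?_
  rintro _ ⟨m, rfl⟩
  rw [← hΘ, hr]
  simp

/-- homomorphisms from a finitely generated abelian group to `ℂ` are spanned by the integral
ones -/
theorem hom_mem_span {A : Type*} [AddCommGroup A] [AddGroup.FG A] (ψ : A →+ ℂ) :
    ψ ∈ Submodule.span ℂ (Set.range fun φ : A →+ ℤ => (Int.castAddHom ℂ).comp φ) := by
  classical
  obtain ⟨n, ι, _, p, hp, e, ⟨E⟩⟩ := AddCommGroup.equiv_free_prod_directSum_zmod A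
  have key : ψ = ∑ i : Fin n, ψ (E.symm (Finsupp.single i 1, 0)) •
      (Int.castAddHom ℂ).comp (Fermat.Agent.S16Lib.tf_c E i) := by
    have h2 : (ψ.comp E.symm.toAddMonoidHom).comp (AddMonoidHom.inr _ _) = 0 := by
      refine DirectSum.addHom_ext fun i y => ?_
      exact Fermat.Agent.S16Lib.tf_hom_zmod_eq_zero (pow_ne_zero _ (hp i).ne_zero)
        (((ψ.comp E.symm.toAddMonoidHom).comp (AddMonoidHom.inr _ _)).comp
          (DirectSum.of (fun i => ZMod (p i ^ e i)) i)) y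
    ext a
    have h3 : a = E.symm ((E a).1, 0) + E.symm (0, (E a).2) := by
      rw [← map_add, Prod.mk_add_mk, add_zero, zero_add, Prod.mk.eta, AddEquiv.symm_apply_apply]
    have h5 : ψ (E.symm (0, (E a).2)) = 0 := DFunLike.congr_fun h2 (E a).2
    have h6 : ((E a).1, (0 : DirectSum ι fun i => ZMod (p i ^ e i)))
        = ∑ i : Fin n, (E a).1 i • ((Finsupp.single i 1 : Fin n →₀ ℤ),
            (0 : DirectSum ι fun i => ZMod (p i ^ e i))) := by
      refine Prod.ext ?_ ?_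
      · rw [Prod.fst_sum]
        simp only [Prod.smul_fst, Finsupp.smul_single, smul_eq_mul, mul_one]
        exact (Finsupp.univ_sum_single _).symm
      · rw [Prod.snd_sum]
        simp
    conv_lhs => rw [h3, map_add, h5, add_zero, h6, map_sum, map_sum]
    rw [AddMonoidHom.finsetSum_apply]
    refine Finset.sum_congr rfl fun i _ => ?_
    rw [map_zsmul, map_zsmul]
    show _ = ψ (E.symm (Finsupp.single i 1, 0)) * (((E a).1 i : ℤ) : ℂ)
    rw [zsmul_eq_mul, mul_comm]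
  rw [key]
  exact Submodule.sum_mem _ fun i _ => Submodule.smul_mem _ _ (Submodule.subset_span ⟨_, rfl⟩)

/-! ### the lattice inside the space of pairs of cusp forms -/

/-- the complexification of an integral homomorphism -/
def cst (φ : Additive (Gamma0 N) →+ ℤ) : Additive (Gamma0 N) →+ ℂ := (Int.castAddHom ℂ).comp φ

omit [NeZero N] in
theorem cst_apply (φ : Additive (Gamma0 N) →+ ℤ) (γ : Additive (Gamma0 N)) :
    cst φ γ = ((φ γ : ℤ) : ℂ) := rfl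

omit [NeZero N] in
theorem cst_injective : Function.Injective (cst (N := N)) := by
  intro φ φ' h
  refine AddMonoidHom.ext fun γ => ?_
  have := DFunLike.congr_fun h γ
  rw [cst_apply, cst_apply] at this
  exact_mod_cast this

omit [NeZero N] in
theorem cst_add (φ φ' : Additive (Gamma0 N) →+ ℤ) : cst (φ + φ') = cst φ + cst φ' := by
  refine AddMonoidHom.ext fun γ => ?_
  simp [cst_apply]

omit [NeZero N] in
theorem cst_mem_ellPar {φ : Additive (Gamma0 N) →+ ℤ} (hφ : φ ∈ EP N ℤ) :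
    cst φ ∈ Fermat.Agent.S16Lib.ellParHoms ℂ (Gamma0 N) := by
  intro γ hγ
  rw [cst_apply, hφ γ hγ, Int.cast_zero]

omit [NeZero N] in
theorem mem_EP_of_cst {φ : Additive (Gamma0 N) →+ ℤ}
    (hφ : cst φ ∈ Fermat.Agent.S16Lib.ellParHoms ℂ (Gamma0 N)) : φ ∈ EP N ℤ := by
  intro γ hγ
  have := hφ γ hγ
  rw [cst_apply] at this
  exact_mod_cast this

omit [NeZero N] in
theorem exists_cst_eq (ψ : Additive (Gamma0 N) →+ ℂ) (h : ∀ γ, ∃ n : ℤ, ψ γ = n) :
    ∃ φ : Additive (Gamma0 N) →+ ℤ, cst φ = ψ := by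
  choose n hn using h
  refine ⟨AddMonoidHom.mk' n fun a b => ?_, ?_⟩
  · have : ((n (a + b) : ℤ) : ℂ) = ((n a + n b : ℤ) : ℂ) := by
      rw [← hn, map_add, hn, hn, Int.cast_add]
    exact_mod_cast this
  · refine AddMonoidHom.ext fun γ => ?_
    exact (hn γ).symm

theorem range_pair : LinearMap.range (periodHomPair N)
    = Fermat.Agent.S16Lib.ellParHoms ℂ (Gamma0 N) := by
  rw [(Fermat.Agent.S21.result N).2, Fermat.Agent.S16Lib.tf_ellPar_eq]

theorem exists_j : ∃ j : EP N ℤ →+ CuspForm (Gamma0 N) 2 × CuspForm (Gamma0 N) 2,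
    ∀ φ : EP N ℤ, periodHomPair N (j φ) = cst (φ : Additive (Gamma0 N) →+ ℤ) := by
  have h : ∀ φ : EP N ℤ, ∃ v, periodHomPair N v = cst (φ : Additive (Gamma0 N) →+ ℤ) := by
    intro φ
    have : cst (φ : Additive (Gamma0 N) →+ ℤ) ∈ LinearMap.range (periodHomPair N) := by
      rw [range_pair]
      exact cst_mem_ellPar φ.2
    exact this
  choose j hj using h
  refine ⟨AddMonoidHom.mk' j fun a b => ?_, hj⟩
  apply (Fermat.Agent.S21.result N).1
  rw [map_add, hj, hj, hj, AddSubgroup.coe_add, cst_add]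

theorem span_range_j (j : EP N ℤ →+ CuspForm (Gamma0 N) 2 × CuspForm (Gamma0 N) 2)
    (hj : ∀ φ : EP N ℤ, periodHomPair N (j φ) = cst (φ : Additive (Gamma0 N) →+ ℤ)) :
    Submodule.span ℂ (Set.range j) = ⊤ := by
  have := Fermat.Agent.S16Lib.tf_fg (Gamma0 N)
  let L : (Additive (Fermat.Agent.S16Lib.tf_Q (Gamma0 N)) →+ ℂ) →ₗ[ℂ] (Additive (Gamma0 N) →+ ℂ) :=
    (Fermat.Agent.S16Lib.ellParHoms ℂ (Gamma0 N)).subtype ∘ₗ
      Fermat.Agent.S16Lib.tf_toEllPar (Gamma0 N) ℂ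
  have key : Submodule.span ℂ (Set.range fun φ : Additive (Fermat.Agent.S16Lib.tf_Q (Gamma0 N)) →+ ℤ
      => (Int.castAddHom ℂ).comp φ)
      ≤ ((Submodule.span ℂ (Set.range j)).map (periodHomPair N)).comap L := by
    rw [Submodule.span_le]
    rintro _ ⟨φ₀, rfl⟩
    let φ : Additive (Gamma0 N) →+ ℤ :=
      φ₀.comp (MonoidHom.toAdditive (Fermat.Agent.S16Lib.tf_pi (Gamma0 N)))
    have hφ : φ ∈ EP N ℤ := by
      intro γ hγ
      show φ₀ (Additive.ofMul (Fermat.Agent.S16Lib.tf_pi (Gamma0 N) γ)) = 0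
      rw [Fermat.Agent.S16Lib.tf_pi_eq_one (show γ ∈ Fermat.Agent.S16Lib.tf_S (Gamma0 N) from hγ)]
      exact map_zero φ₀
    refine ⟨j ⟨φ, hφ⟩, Submodule.subset_span ⟨_, rfl⟩, ?_⟩
    rw [hj]
    rfl
  rw [eq_top_iff]
  intro v _
  have hv : periodHomPair N v ∈ Fermat.Agent.S16Lib.ellParHoms ℂ (Gamma0 N) := by
    rw [← range_pair]
    exact ⟨v, rfl⟩
  obtain ⟨ψ, hψ⟩ := (Fermat.Agent.S16Lib.tf_toEllPar_bijective (Gamma0 N) ℂ).2 ⟨_, hv⟩
  have h1 : L ψ = periodHomPair N v := congrArg Subtype.val hψ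
  obtain ⟨w, hw, hwv⟩ := key (hom_mem_span ψ)
  rw [h1] at hwv
  rw [← (Fermat.Agent.S21.result N).1 hwv]
  exact hw

omit [NeZero N] in
theorem j_injective (j : EP N ℤ →+ CuspForm (Gamma0 N) 2 × CuspForm (Gamma0 N) 2)
    (hj : ∀ φ : EP N ℤ, periodHomPair N (j φ) = cst (φ : Additive (Gamma0 N) →+ ℤ)) :
    Function.Injective j := by
  intro φ φ' h
  apply Subtype.ext
  apply cst_injective
  rw [← hj, ← hj, h]

/-- the diagonal action of the Hecke algebra on pairs of cusp forms -/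
def rho (N : ℕ) [NeZero N] :
    TT0 N →+* Module.End ℂ (CuspForm (Gamma0 N) 2 × CuspForm (Gamma0 N) 2) :=
  ((LinearMap.prodMapRingHom ℂ (CuspForm (Gamma0 N) 2) (CuspForm (Gamma0 N) 2)).comp
    ((RingHom.id _).prod (RingHom.id _))).comp
    (CuspForm.heckeAlgebra N 2 {q : ℕ | q ∣ N}).val.toRingHom

theorem rho_apply (T : TT0 N) (v : CuspForm (Gamma0 N) 2 × CuspForm (Gamma0 N) 2) :
    rho N T v = ((T : Module.End ℂ (CuspForm (Gamma0 N) 2)) v.1,
      (T : Module.End ℂ (CuspForm (Gamma0 N) 2)) v.2) := rfl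

theorem rho_injective : Function.Injective (rho N) := by
  intro T T' h
  apply Subtype.ext
  ext1 f
  have := congrArg Prod.fst (LinearMap.congr_fun h (f, 0))
  rwa [rho_apply, rho_apply] at this

theorem stable_T (j : EP N ℤ →+ CuspForm (Gamma0 N) 2 × CuspForm (Gamma0 N) 2)
    (hj : ∀ φ : EP N ℤ, periodHomPair N (j φ) = cst (φ : Additive (Gamma0 N) →+ ℤ))
    {ℓ : ℕ} (hℓ : ℓ.Prime) (hℓN : ¬ ℓ ∣ N) (φ : EP N ℤ) :
    ∃ φ' : EP N ℤ, j φ' = (CuspForm.heckeTLin 2 hℓ hℓN (j φ).1,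
      CuspForm.heckeTLin 2 hℓ hℓN (j φ).2) := by
  haveI : NeZero ℓ := ⟨hℓ.ne_zero⟩
  have h1 := isTr_pair hℓ hℓN (j φ)
  rw [hj] at h1
  set ψ' := periodHomPair N (CuspForm.heckeTLin 2 hℓ hℓN (j φ).1,
      CuspForm.heckeTLin 2 hℓ hℓN (j φ).2) with hψ'
  obtain ⟨φ', hφ'⟩ := exists_cst_eq ψ' (by
    intro γ
    obtain ⟨γ', hγ'⟩ := exists_transfer N hℓ hℓN (Additive.toMul γ)
    refine ⟨∑ x, (φ : Additive (Gamma0 N) →+ ℤ) (Additive.ofMul (γ' x)), ?_⟩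
    have := h1 _ γ' hγ'
    rw [Int.cast_sum]
    exact this)
  have hmem : φ' ∈ EP N ℤ := by
    apply mem_EP_of_cst
    rw [hφ', ← range_pair]
    exact ⟨_, rfl⟩
  refine ⟨⟨φ', hmem⟩, ?_⟩
  apply (Fermat.Agent.S21.result N).1
  rw [hj, hφ']

theorem stable (j : EP N ℤ →+ CuspForm (Gamma0 N) 2 × CuspForm (Gamma0 N) 2)
    (hj : ∀ φ : EP N ℤ, periodHomPair N (j φ) = cst (φ : Additive (Gamma0 N) →+ ℤ))
    (T : TT0 N) (φ : EP N ℤ) : ∃ φ' : EP N ℤ, j φ' = rho N T (j φ) := by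
  obtain ⟨t, ht⟩ := T
  simp only [rho_apply]
  induction ht using Algebra.adjoin_induction generalizing φ with
  | mem x hx =>
    rcases hx with ⟨ℓ, hℓ, hℓN, -, rfl⟩ | ⟨q, hqN, -, hqS, rfl⟩
    · exact stable_T j hj hℓ hℓN φ
    · exact absurd hqN hqS
  | algebraMap n =>
    refine ⟨n • φ, ?_⟩
    rw [map_zsmul, Module.algebraMap_end_apply, Module.algebraMap_end_apply]
    rfl
  | add x y _ _ hx hy =>
    obtain ⟨a, ha⟩ := hx φ
    obtain ⟨b, hb⟩ := hy φ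
    refine ⟨a + b, ?_⟩
    rw [map_add, ha, hb]
    rfl
  | mul x y _ _ hx hy =>
    obtain ⟨b, hb⟩ := hy φ
    obtain ⟨a, ha⟩ := hx b
    refine ⟨a, ?_⟩
    rw [ha, hb]
    rfl

theorem exists_basis (N : ℕ) [NeZero N] : ∃ r : ℕ, Nonempty (Module.Basis (Fin r) ℤ (EP N ℤ)) := by
  have : Group.FG SL(2, ℤ) :=
    ⟨⟨{ModularGroup.S, ModularGroup.T}, by
      simpa using SpecialLinearGroup.SL2Z_generators⟩⟩
  have : Group.FG (Gamma0 N) := Subgroup.fg_of_index_ne_zero _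
  obtain ⟨S, hS, hfin⟩ := (AddGroup.fg_iff (G := Additive (Gamma0 N))).mp inferInstance
  have : Finite S := hfin
  let ev : EP N ℤ →ₗ[ℤ] (S → ℤ) :=
    { toFun := fun φ s => (φ : Additive (Gamma0 N) →+ ℤ) s
      map_add' := fun _ _ => rfl
      map_smul' := fun _ _ => rfl }
  have hinj : Function.Injective ev := by
    intro φ φ' h
    apply Subtype.ext
    refine AddMonoidHom.eq_of_eqOn_dense hS fun s hs => ?_
    exact congrFun h ⟨s, hs⟩
  obtain ⟨n, b⟩ := Submodule.basisOfPid (Pi.basisFun ℤ S) (LinearMap.range ev)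
  exact ⟨n, ⟨b.map (LinearEquiv.ofInjective ev hinj).symm⟩⟩

end

end H3

/-- (H3) the lattice `EP N ℤ` is free of finite rank and a faithful module over the Hecke algebra,
`T_ℓ` acting by the transfer [S21 + TF + `periodMap_hecke`] -/
theorem exists_theta (N : ℕ) [NeZero N] :
    ∃ (r : ℕ) (_ : Module.Basis (Fin r) ℤ (EP N ℤ)) (Θ : TT0 N →+* Module.End ℤ (EP N ℤ)),
      Function.Injective Θ ∧
      ∀ (ℓ : ℕ) (hℓ : ℓ.Prime) (hℓN : ¬ ℓ ∣ N) (φ : EP N ℤ),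
        haveI : NeZero ℓ := ⟨hℓ.ne_zero⟩
        IsTr N ℓ (φ : Additive (Gamma0 N) →+ ℤ)
          ((Θ (CuspForm.heckeAlgebra.T hℓ hℓN hℓN) φ : EP N ℤ) : Additive (Gamma0 N) →+ ℤ) := by
  obtain ⟨r, ⟨b⟩⟩ := H3.exists_basis N
  obtain ⟨j, hj⟩ := H3.exists_j (N := N)
  obtain ⟨Θ, hΘ⟩ := H3.exists_restrict j (H3.j_injective j hj) (H3.rho N) (H3.stable j hj)
  refine ⟨r, b, Θ, H3.restrict_injective j (H3.rho N) H3.rho_injective (H3.span_range_j j hj) Θ hΘ,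
    ?_⟩
  intro ℓ hℓ hℓN φ
  haveI : NeZero ℓ := ⟨hℓ.ne_zero⟩
  have h1 := H3.isTr_pair hℓ hℓN (j φ)
  have h2 : (CuspForm.heckeTLin 2 hℓ hℓN (j φ).1, CuspForm.heckeTLin 2 hℓ hℓN (j φ).2)
      = j (Θ (CuspForm.heckeAlgebra.T hℓ hℓN hℓN) φ) := by
    rw [hΘ]
    rfl
  rw [h2, hj, hj] at h1
  intro γ γ' hT
  have h3 := h1 γ γ' hT
  simp only [H3.cst_apply] at h3
  exact_mod_cast h3

end Fermat.Agent.ESLib
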