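import Fermat.Agent.ES.HeckeProdInv
import Fermat.Agent.ES.HeckeProdBdd
import Fermat.Agent.ES.HeckeProdQ
import Fermat.Agent.ES.HeckeMulIota
import Fermat.Agent.ES.Bridge.Descent
import Fermat.Agent.ES.Chr
import Fermat.Agent.ES.QChar
import Fermat.Agent.ES.Ratio
import Fermat.Agent.ES.Theta

/-!
# ES block H2, leaf (HG): `Rt.hecke` (assembly)
-/

set_option autoImplicit false
set_option synthInstance.maxHeartbeats 400000

open UpperHalfPlane ModularForm Matrix.SpecialLinearGroup CongruenceSubgroup ModularCurve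
open AlgebraicCurve IntermediateField
open scoped MatrixGroups Manifold
open Fermat.Agent.S18Lib Fermat.Agent.S20Lib Fermat.Agent.S28Lib Fermat.Agent.S24Lib

namespace Fermat.Agent.ESLib

noncomputable section

theorem IsMFc.qi {N : ℕ} {k : ℤ} {m : ℕ} {φ : Additive (Gamma0 N) →+ ℤ} {u : ℍ → ℂ}
    (hu : IsMFc N k (chr m φ) u) (hφ : φ ∈ EP N ℤ) : QI ⊤ 1 u where
  per := (isMFc_chr_iff.1 hu).periodic (isEllPar_chrHom m hφ)
  holo := hu.holo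
  bdd := (isMFc_chr_iff.1 hu).bddInf
  int _ := Subring.mem_top _

theorem hg_prod_chr {N : ℕ} {m ℓ : ℕ} [NeZero ℓ] {φ φ' : Additive (Gamma0 N) →+ ℤ}
    (hT : IsTr N ℓ φ φ') (γ : Gamma0 N) (γ' : OnePoint (ZMod ℓ) → Gamma0 N)
    (h : Transfer N ℓ γ γ') : ∏ x, chr m φ (γ' x) = chr m φ' γ := by
  simp only [chr]
  rw [← Complex.exp_sum, hT γ γ' h]
  congr 1
  push_cast
  rw [Finset.mul_sum, Finset.sum_div]

theorem IsMFc.heckeProd {N : ℕ} [NeZero N] {k : ℤ} {m ℓ : ℕ} [NeZero ℓ] (hℓ : ℓ.Prime)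
    (hℓN : ¬ ℓ ∣ N) {φ φ' : Additive (Gamma0 N) →+ ℤ} {u : ℍ → ℂ}
    (hu : IsMFc N k (chr m φ) u) (hT : IsTr N ℓ φ φ') :
    IsMFc N (((ℓ : ℤ) + 1) * k) (chr m φ') (heckeProd k ℓ u) where
  holo := heckeProd_mdiff k ℓ hu.holo
  inv γ := by
    obtain ⟨γ', h⟩ := exists_transfer N hℓ hℓN γ
    rw [heckeProd_slash k ℓ hu.inv γ γ' h, hg_prod_chr hT γ γ' h]
  bdd := heckeProd_bdd k hℓ hu.bdd

theorem hg_isTr_zero (N ℓ : ℕ) [NeZero ℓ] :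
    IsTr N ℓ (0 : Additive (Gamma0 N) →+ ℤ) (0 : Additive (Gamma0 N) →+ ℤ) := by
  intro γ γ' _
  simp

theorem hg_isMFc_zero_iff {N : ℕ} {k : ℤ} {m : ℕ} {v : ℍ → ℂ} :
    IsMFc N k (chr m (0 : Additive (Gamma0 N) →+ ℤ)) v ↔ IsMF (Gamma0 N) k v := by
  rw [isMFc_chr_iff, chrHom_zero, isMFChar_one_iff]

theorem hg_chrHom_pow_self {N : ℕ} (m : ℕ) (φ : Additive (Gamma0 N) →+ ℤ) (γ : Gamma0 N) :
    chrHom m φ γ ^ m = 1 := by
  rcases Nat.eq_zero_or_pos m with rfl | hm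
  · exact pow_zero _
  · exact chrHom_pow m hm φ γ

theorem hg_qL_pow {u : ℍ → ℂ} (hu : QI ⊤ 1 u) (n : ℕ) : qL (u ^ n) = qL u ^ n := by
  have h1 := hu.analytic one_pos
  simp only [Nat.cast_one] at h1
  have := UpperHalfPlane.qExpansion_prod (h := (1 : ℝ)) (Finset.range n) (F := fun _ => u)
    (fun _ _ => h1)
  rw [qL, qL, ← map_pow]
  congr 1
  simpa using this

theorem hg_qL_ne_zero {u : ℍ → ℂ} (hu : QI ⊤ 1 u) (hu0 : u ≠ 0) : qL u ≠ 0 := by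
  intro h
  apply hu0
  have hper := hu.per
  rw [Nat.cast_one] at hper
  rw [← UpperHalfPlane.qExpansion_eq_zero_iff one_pos hper hu.holo hu.bdd]
  exact (map_eq_zero_iff _ HahnSeries.ofPowerSeries_injective).1 h

theorem Rt.hecke {N : ℕ} [NeZero N] {m : ℕ} {ℓ : ℕ} [NeZero ℓ] (hℓ : ℓ.Prime) (hℓN : ¬ ℓ ∣ N)
    {f : FB N} {φ φ' : Additive (Gamma0 N) →+ ℤ} (hφ : φ ∈ EP N ℤ) (h : Rt N m f φ)
    (hT : IsTr N ℓ φ φ') :
    ∃ f' : FB N, (f' : LaurentSeries Qb) = heckeMul ℓ (f : LaurentSeries Qb) ∧ Rt N m f' φ' := by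
  obtain ⟨k, u, v, hu, hv, hu0, hv0, e⟩ := h
  have hv' : IsMFc N k (chr m (0 : Additive (Gamma0 N) →+ ℤ)) v := hg_isMFc_zero_iff.2 hv
  have hU := hu.heckeProd hℓ hℓN hT
  have hV : IsMF (Gamma0 N) (((ℓ : ℤ) + 1) * k) (heckeProd k ℓ v) :=
    hg_isMFc_zero_iff.1 (hv'.heckeProd (m := m) hℓ hℓN (hg_isTr_zero N ℓ))
  have qu : QI ⊤ 1 u := hu.qi hφ
  have qv : QI ⊤ 1 v := hv'.qi (zero_mem _)
  have qU := qi_heckeProd k ℓ qu
  have qV := qi_heckeProd k ℓ qv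
  have hU0 := heckeProd_ne_zero k ℓ hu.holo hu0
  have hV0 := heckeProd_ne_zero k ℓ hv.holo hv0
  obtain ⟨c, hc, hq⟩ := exists_qL_heckeProd k ℓ
  -- the key identity
  have key : coeffMap iotaC (heckeMul ℓ (f : LaurentSeries Qb)) * qL (heckeProd k ℓ v) ^ m =
      qL (heckeProd k ℓ u) ^ m := by
    have e' := congrArg (heckeMul ℓ) e
    rw [heckeMul_mul ℓ (he_prim ℓ), heckeMul_pow_C, heckeMul_pow_C, ← coeffMap_iotaC_heckeMul] at e'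
    rw [hq u qu, hq v qv, mul_pow, mul_pow, ← e']
    ring
  have hVm : qL (heckeProd k ℓ v) ^ m ≠ 0 := pow_ne_zero _ (hg_qL_ne_zero qV hV0)
  have hUm : IsMF (Gamma0 N) (m * (((ℓ : ℤ) + 1) * k)) (heckeProd k ℓ u ^ m) :=
    (isMFc_chr_iff.1 hU).pow (hg_chrHom_pow_self m φ')
  have hVm' : IsMF (Gamma0 N) (m * (((ℓ : ℤ) + 1) * k)) (heckeProd k ℓ v ^ m) :=
    SeparatingAux.isMF_pow hV m
  have hr : ((ratio N (heckeProd k ℓ u ^ m) (heckeProd k ℓ v ^ m) : FC N) : LaurentSeries ℂ) =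
      coeffMap iotaC (heckeMul ℓ (f : LaurentSeries Qb)) := by
    rw [coe_ratio N hUm hVm', hg_qL_pow qU, hg_qL_pow qV, div_eq_iff hVm, key]
  obtain ⟨f', hf'⟩ := exists_iotaF_eq N (ratio N (heckeProd k ℓ u ^ m) (heckeProd k ℓ v ^ m)) (by
    intro n
    rw [hr, coeffMap_coeff]
    exact ⟨_, rfl⟩)
  have hf'' : (f' : LaurentSeries Qb) = heckeMul ℓ (f : LaurentSeries Qb) := by
    apply W7_coeffMap_injective
    rw [← hr, ← hf', coe_iotaF]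
  exact ⟨f', hf'', _, _, _, hU, hV, hU0, hV0, by rw [hf'']; exact key⟩

end

end Fermat.Agent.ESLib
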