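import Fermat.Agent.ES.TrunkOfKL
import Fermat.Agent.S18.KL

/-!
# ES library: the trunk theorem `exists_esData`
-/

set_option autoImplicit false
set_option synthInstance.maxHeartbeats 400000

open AlgebraicCurve ModularCurve CongruenceSubgroup UpperHalfPlane ModularForm
open scoped MatrixGroups Manifold

namespace Fermat.Agent.ESLib

open Fermat.Agent.S18Lib Fermat.Agent.S20Lib Fermat.Agent.S24Lib

theorem trunkHyp0 (N : ℕ) [NeZero N] : TrunkHyp0 N :=
  trunkHyp0_of_kl N (fun hN A hA m hm y₁ y₂ h₁ h₂ hne heq D hD =>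
    S18Lib.kummer_lemma N hN A hA m hm y₁ y₂ h₁ h₂ hne heq D hD)

/-- the trunk of the Eichler-Shimura cluster -/
theorem exists_esData (N p : ℕ) [NeZero N] [Fact p.Prime] :
    ∃ (r : ℕ) (Θ : TT0 N →+* Matrix (Fin r) (Fin r) ℤ)
      (ρ : (n : ℕ) → GQ →* Matrix (Fin r) (Fin r) (ZMod (p ^ n))), IsESData N p r Θ ρ :=
  exists_esData_of_hyp0 N p (trunkHyp0 N)

end Fermat.Agent.ESLib
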