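import Fermat.Agent.ES.ESFinal
import Fermat.Agent.ES.Rt
import Fermat.Agent.ES.RtExists
import Fermat.Agent.ES.RtHecke
import Fermat.Agent.ES.Theta
import Fermat.Agent.S18.RedDataC

/-!
# ES library: the trunk, with the Kummer lemma `KL` of the S18 library as only hypothesis
-/

set_option autoImplicit false
set_option synthInstance.maxHeartbeats 400000

open AlgebraicCurve ModularCurve CongruenceSubgroup UpperHalfPlane ModularForm
open scoped MatrixGroups Manifold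

namespace Fermat.Agent.ESLib

open Fermat.Agent.S18Lib Fermat.Agent.S20Lib Fermat.Agent.S24Lib

theorem trunkHyp0_of_kl (N : ℕ) [NeZero N]
    (kl : ∀ {ℓ : ℕ} [Fact ℓ.Prime], ¬ ℓ ∣ N → ∀ (A : ValuationSubring Qb), A.LiesOverPrime ℓ →
      ∀ (m : ℕ), ¬ ℓ ∣ m → KLHyp N A m) : TrunkHyp0 N where
  exists_of_hom := Rt.exists_of_hom N
  isKum := Rt.isKum
  exists_of_isKum := Rt.exists_of_isKum
  congr := Rt.congr
  of_congr := Rt.of_congr
  mul := Rt.mul
  inv := Rt.inv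
  pow_self := Rt.pow_self
  eq_pow := Rt.eq_pow
  of_mul := Rt.of_mul
  hecke := Rt.hecke
  theta := exists_theta N
  kl := kl
  redData := fun hN A hA => exists_redData N hN A hA

theorem exists_esData_of_kl (N p : ℕ) [NeZero N] [Fact p.Prime]
    (kl : ∀ {ℓ : ℕ} [Fact ℓ.Prime], ¬ ℓ ∣ N → ∀ (A : ValuationSubring Qb), A.LiesOverPrime ℓ →
      ∀ (m : ℕ), ¬ ℓ ∣ m → KLHyp N A m) :
    ∃ (r : ℕ) (Θ : TT0 N →+* Matrix (Fin r) (Fin r) ℤ)
      (ρ : (n : ℕ) → GQ →* Matrix (Fin r) (Fin r) (ZMod (p ^ n))), IsESData N p r Θ ρ :=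
  exists_esData_of_hyp0 N p (trunkHyp0_of_kl N kl)

end Fermat.Agent.ESLib
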