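import Fermat.Agent.ES.Trunk
import Fermat.Agent.S31.Unipotent

/-!
# ES library: the explicit trunk and additional clauses

* `P.isESData` : the explicit data `(P.ThM b Θ₀, P.rhoM b H _)` form an `IsESData`
* `P.rhoM_unip` : `(ρ(τ) - 1)(ρ(σ) - 1) = 0` from the Kummer statement
  `τσf · f = w ^ m · σf · τf`
* `exists_esData_unip` : the trunk with the clause `unip`
* `isUnipotentOnInertiaAt_of_kummer` : S34 from the Kummer statement
-/

set_option autoImplicit false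
set_option synthInstance.maxHeartbeats 400000
set_option linter.style.haveILetI false
set_option linter.unusedSectionVars false

open AlgebraicCurve ModularCurve CongruenceSubgroup UpperHalfPlane ModularForm
open scoped MatrixGroups Manifold

namespace Fermat.Agent.ESLib

open Fermat.Agent.S18Lib Fermat.Agent.S20Lib Fermat.Agent.S24Lib
open Matrix

namespace P

variable {N : ℕ} [NeZero N] {r : ℕ} {b : Module.Basis (Fin r) ℤ (EP N ℤ)}

/-- the explicit trunk -/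
theorem isESData (p : ℕ) [Fact p.Prime] (H : TrunkHyp N)
    {Θ₀ : TT0 N →+* Module.End ℤ (EP N ℤ)} (hinj : Function.Injective Θ₀)
    (hTr : IsThetaTr Θ₀) :
    IsESData N p r (ThM b Θ₀) (fun n => rhoM b H (pow_pos (Fact.out : p.Prime).pos n)) := by
  have hp : p.Prime := Fact.out
  refine ⟨ThM_injective Θ₀ hinj, fun n σ => rhoM_compat H hp.pos n σ,
    fun n => rhoM_level H _, fun n σ T => rhoM_comm H _ hTr σ T, ?_, ?_⟩
  · intro n q hq hqNp A hA σ hσ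
    refine rhoM_unram H _ hq (fun h => hqNp (Dvd.dvd.mul_right h p)) (fun h => ?_) A hA σ hσ
    exact hqNp (Dvd.dvd.mul_left (hq.dvd_of_dvd_pow h) N)
  · intro n ℓ hℓ hℓN hℓp A hA σ hσ
    refine rhoM_es H _ hTr hℓ hℓN (fun h => ?_) A hA σ hσ
    exact hℓp ((Nat.prime_dvd_prime_iff_eq hℓ hp).mp (hℓ.dvd_of_dvd_pow h))

theorem rhoM_unip (H : TrunkHyp N) {m : ℕ} (hm : 0 < m) (σ τ : GQ)
    (hK : ∀ f : FB N, IsKum N m f →
      ∃ w : FB N, gal N τ (gal N σ f) * f = w ^ m * (gal N σ f * gal N τ f)) :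
    (rhoM b H hm τ - 1) * (rhoM b H hm σ - 1) = 0 := by
  apply Matrix.mulVec_injective
  funext v
  rw [zero_mulVec, ← mulVec_mulVec, sub_mulVec, one_mulVec, sub_mulVec, one_mulVec, mulVec_sub]
  obtain ⟨f, hf⟩ := Kap.exists (b := b) H hm v
  obtain ⟨w, hw⟩ := hK f (hf.isKum H hm)
  have h1 := rhoM_spec H hm σ hf
  have h2 := rhoM_spec H hm τ hf
  have h3 := rhoM_spec H hm τ h1
  have h4 := h3.mul H hm hf
  have h5 := h1.mul H hm h2
  have hw0 : w ≠ 0 := by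
    rintro rfl
    apply h4.ne_zero H hm
    rw [hw, zero_pow hm.ne', zero_mul]
  rw [hw] at h4
  have h6 := h4.unique H hm (h5.pow_mul H hm hw0)
  have h7 : rhoM b H hm τ *ᵥ (rhoM b H hm σ *ᵥ v) =
      rhoM b H hm σ *ᵥ v + rhoM b H hm τ *ᵥ v - v := eq_sub_of_add_eq h6
  rw [h7]
  abel

end P

/-- the Kummer statement behind unipotent inertia at the primes `q ‖ N`, `q ≠ p` -/
def UnipKummer (N p : ℕ) : Prop :=
  ∀ (q : ℕ), q.Prime → p ≠ q → q ∣ N → ¬ q ^ 2 ∣ N → ∀ (A : ValuationSubring Qb),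
    A.LiesOverPrime q → ∀ σ τ : GQ, σ ∈ A.inertiaSubgroupIn ℚ → τ ∈ A.inertiaSubgroupIn ℚ →
    ∀ (n : ℕ) (f : FB N), IsKum N (p ^ n) f →
      ∃ w : FB N, gal N τ (gal N σ f) * f = w ^ (p ^ n) * (gal N σ f * gal N τ f)

/-- the trunk with the clause `unip` -/
theorem exists_esData_unip (N p : ℕ) [NeZero N] [Fact p.Prime] (hK : UnipKummer N p) :
    ∃ (r : ℕ) (Θ : TT0 N →+* Matrix (Fin r) (Fin r) ℤ)
      (ρ : (n : ℕ) → GQ →* Matrix (Fin r) (Fin r) (ZMod (p ^ n))), IsESData N p r Θ ρ ∧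
      ∀ (n q : ℕ), q.Prime → q ≠ p → q ∣ N → ¬ q ^ 2 ∣ N → ∀ A : ValuationSubring Qb,
        A.LiesOverPrime q → ∀ σ ∈ A.inertiaSubgroupIn ℚ, ∀ τ ∈ A.inertiaSubgroupIn ℚ,
          (ρ n τ - 1) * (ρ n σ - 1) = 0 := by
  have H : TrunkHyp N := (trunkHyp0 N).toTrunkHyp
  obtain ⟨r, b, Θ₀, hinj, hTr⟩ := H.theta
  refine ⟨r, P.ThM b Θ₀, fun n => P.rhoM b H (pow_pos (Fact.out : p.Prime).pos n),
    P.isESData p H hinj hTr, ?_⟩
  intro n q hq hqp hqN hq2 A hA σ hσ τ hτ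
  exact P.rhoM_unip H _ σ τ (fun f hf => hK q hq hqp.symm hqN hq2 A hA σ τ hσ hτ n f hf)

section S34

open IsLocalRing CuspForm CuspForm.HeckeGaloisRepDatum

/-- S34 from the Kummer statement -/
theorem isUnipotentOnInertiaAt_of_kummer
    {𝒪 : Type} [CommRing 𝒪] [IsDomain 𝒪] [IsDiscreteValuationRing 𝒪]
    [IsAdicComplete (maximalIdeal 𝒪) 𝒪] [Finite (ResidueField 𝒪)] [CharZero 𝒪]
    {p : ℕ} (hp : p.Prime) (hp𝒪 : (p : 𝒪) ∈ maximalIdeal 𝒪)
    {N : ℕ} [NeZero N] (hK : UnipKummer N p)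
    {S : Finset ℕ} (hpS : p ∈ S) (hNS : ∀ q : ℕ, q.Prime → q ∣ N → q ∈ S)
    {θ : CuspForm.heckeAlgebra N 2 (↑S : Set ℕ) →+* ResidueField 𝒪}
    {T : Type} [CommRing T] [IsLocalRing T] [IsNoetherianRing T]
    [IsAdicComplete (maximalIdeal T) T] [Algebra 𝒪 T] [IsLocalHom (algebraMap 𝒪 T)]
    [Module.Finite 𝒪 T] [Module.Free 𝒪 T]
    (H : CuspForm.HeckeGaloisRepDatum N (↑S : Set ℕ) 𝒪 θ T)
    (q : ℕ) (hq : q.Prime) (hqp : q ≠ p) (hqN : q ∣ N) (hq2 : ¬ q ^ 2 ∣ N) :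
    H.ρ.IsUnipotentOnInertiaAt q := by
  haveI : Fact p.Prime := ⟨hp⟩
  obtain ⟨r, Θ, ρ, hES, hu⟩ := exists_esData_unip N p hK
  exact Fermat.Agent.S31Lib.isUnipotentOnInertiaAt_of_trunk hp hp𝒪 hpS hNS hES H q hq hqp
    (fun m P hP σ hσ => hu m q hq hqp hqN hq2 P hP σ hσ σ hσ)

end S34

end Fermat.Agent.ESLib
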